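/-
MW / HT-Q (sub-architect: helper89) — the GLOBAL height vocabulary on top of the local theory
of HT-M (helper1: `pval`, the local distance `δ` with its estimates; helper33: `AbsFamily`,
`Tame`).

`K` is the constant field (`Qb` in the instance), `F/K` the function field, `pinf` the base place,
`t` a function with poles only at `pinf` (of order `m`).  `Ab : AbsFamily K V` is a family of
absolute values of `K` (ONE fixed extension of every place of `ℚ`).

A `Setting` bundles the local distance `δ` (with its elementary properties only) and the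
arithmetic: a group `Γ` of semilinear automorphisms fixing `pinf` and `t` (the image of `G_ℚ`), a
subgroup `U ≤ Γ` (the image of `G_k`, `k` a number field) and a finite set `Sg ⊆ Γ` (coset
representatives of `Γ / U`), with the product formula in the form
`∑ s ∈ Sg, ∑ᶠ v, log |s a|_v = 0` for `U`-fixed `a ≠ 0` (product formula of `ℚ` for `N_{k/ℚ} a`).

The three LOCAL ESTIMATES are separate hypotheses (`Prop`s), literally the fields of
`HtM.LocalHt` (with the guard `R ≠ pinf` in `mle`) plus the diagonal fibre bound: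
* `Setting.MLe`  : (M≤), the uniform interpolation bound;
* `Setting.Lip`  : the fibre Lipschitz bound for `t`;
* `Setting.RamLe`: the diagonal fibre bound (ramification).

Global objects: `lam`, `eta` (local pair / point functions), `gU`, `etaU` (their global sums),
`hU a` (global height of a coefficient vector), `RatU` (the `U`-stable effective divisors off
`pinf`), `far` (`t`-general position), `IsZDiv pinf φ Z` (`Z` is the divisor of zeros of `φ` off
`pinf`).
-/
import Mathlib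
import Fermat.Prelude.Def_AlgebraicCurve_BaseChangeGalois
import Fermat.Agent.MW.HtM.Local
import Fermat.Agent.MW.HtM.Tame
import Fermat.Agent.MW.HQ.DefsS

set_option autoImplicit false

noncomputable section

namespace Fermat.Agent.MW.HG

open AlgebraicCurve Fermat.Agent.MW.HtM Fermat.Agent.MW.HQ

variable {K F V : Type*} [Field K] [Field F] [Algebra K F]

/-- `Z` is the divisor of zeros of `φ` off `pinf` (an effective divisor with `Z pinf = 0`). -/
def IsZDiv (pinf : Place K F) (φ : F) (Z : Place K F →₀ ℕ) : Prop :=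
  Z pinf = 0 ∧ ∀ P : Place K F, P ≠ pinf → (Z P : ℤ) = P.ord φ

/-- `f` is regular off `pinf`. -/
def RegOff (pinf : Place K F) (f : F) : Prop := ∀ P : Place K F, P ≠ pinf → 0 ≤ P.ord f

/-- The divisor `∑ j, P j` of a tuple of places. -/
def tdiv {n : ℕ} (P : Fin n → Place K F) : Place K F →₀ ℕ := ∑ j, Finsupp.single (P j) 1

/-- **The global setting.** -/
structure Setting (Ab : AbsFamily K V) (pinf : Place K F) (t : F) (m : ℕ) where
  /-- the local distance at the place `v` -/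
  δ : V → Place K F → Place K F → ℝ
  δ_symm : ∀ v R S, δ v R S = δ v S R
  δ_nonneg : ∀ v R S, 0 ≤ δ v R S
  δ_le_one : ∀ v R S, δ v R S ≤ 1
  δ_self : ∀ v R, R ≠ pinf → δ v R R = 0
  δ_pos : ∀ v R S, R ≠ pinf → S ≠ pinf → R ≠ S → 0 < δ v R S
  δ_eq_one : ∀ R S, R ≠ pinf → S ≠ pinf → R ≠ S → {v | δ v R S ≠ 1}.Finite
  /-- the image of `G_ℚ` -/
  Γ : Subgroup (SemilinearAut K F)
  /-- the image of `G_k` -/
  U : Subgroup (SemilinearAut K F)
  /-- coset representatives of `Γ / U` -/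
  Sg : Finset (SemilinearAut K F)
  U_le : U ≤ Γ
  Sg_mem : ∀ s ∈ Sg, s ∈ Γ
  inf_fixed : ∀ g ∈ Γ, g • pinf = pinf
  t_fixed : ∀ g ∈ Γ, g • t = t
  m_pos : 0 < m
  t_reg : RegOff pinf t
  t_pole : pinf.ord t = -(m : ℤ)
  /-- all residue fields are `K` -/
  resK : ∀ (P : Place K F) (f : F), 0 ≤ P.ord f →
    ∃ c : K, P.adicValuation (f - algebraMap K F c) < 1
  /-- the fibres of `t`: the divisor of zeros of `t - τ` exists and has degree `m` -/
  fib : ∀ τ : K, ∃ Z : Place K F →₀ ℕ, IsZDiv pinf (t - algebraMap K F τ) Z ∧ deg Z = m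
  /-- product formula for `U`-fixed constants -/
  pf : ∀ a : K, a ≠ 0 → (∀ u ∈ U, SemilinearAut.baseAut u a = a) →
    ∑ s ∈ Sg, ∑ᶠ v, Real.log (Ab.abv v (SemilinearAut.baseAut s a)) = 0

namespace Setting

variable {Ab : AbsFamily K V} {pinf : Place K F} {t : F} {m : ℕ} (𝒮 : Setting Ab pinf t m)

/-- **(M≤)**: the uniform interpolation bound (the field `mle` of `HtM.LocalHt`, with the guard
`R ≠ pinf`).  `φ = ∑ a i • f i` with `f i` regular off `pinf` of pole order `≤ M` there; `D` an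
effective divisor `≤ div φ` off `pinf`, of degree `≤ k`. -/
def MLe : Prop :=
  ∀ {ι : Type} [Fintype ι] (f : ι → F) (M : ℕ),
    (∀ i, RegOff pinf (f i)) → (∀ i, -(M : ℤ) ≤ pinf.ord (f i)) →
    ∀ k : ℕ, ∃ C : V → ℝ, Tame C ∧ ∀ (v : V) (a : ι → K) (A : ℝ), 0 ≤ A →
      (∀ i, Ab.abv v (a i) ≤ A) → ∀ S : Place K F, S ≠ pinf → ∀ D : Place K F →₀ ℕ,
      deg D ≤ k → D pinf = 0 → (∀ R, R ≠ pinf → (D R : ℤ) ≤ R.ord (∑ i, a i • f i)) →
      Ab.abv v (pval S (∑ i, a i • f i)) ^ m ≤
        C v * A ^ m * max 1 (Ab.abv v (pval S t)) ^ M * (D.prod fun R n => 𝒮.δ v R S ^ n) ^ m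

/-- **(Lip)**: the fibre Lipschitz bound (the field `lip` of `HtM.LocalHt`).  `Z` is the divisor
of zeros of `t - τ`. -/
def Lip : Prop :=
  ∃ C : V → ℝ, Tame C ∧ ∀ (v : V) (R : Place K F), R ≠ pinf →
    ∀ (τ : K) (Z : Place K F →₀ ℕ), IsZDiv pinf (t - algebraMap K F τ) Z →
      (Z.prod fun S n => 𝒮.δ v R S ^ n) * (max 1 (Ab.abv v (pval R t)) * max 1 (Ab.abv v τ)) ≤
        C v * Ab.abv v (pval R t - τ)

/-- **(Ram)**: the diagonal version of `Lip`.  For a place `R` at which `t` is unramified, `Z`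
the divisor of zeros of `t - t(R)` and `𝔯` the affine ramification divisor of `t`: the product of
the distances from `R` to the other points of its fibre is bounded by the product of the
distances to the ramification points, with the correct weight at `pinf`. -/
def RamLe : Prop :=
  ∃ C : V → ℝ, Tame C ∧ ∀ (v : V) (R : Place K F), R ≠ pinf →
    R.ord (t - algebraMap K F (pval R t)) = 1 →
    ∀ Z 𝔯 : Place K F →₀ ℕ, IsZDiv pinf (t - algebraMap K F (pval R t)) Z →
      𝔯 pinf = 0 →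
      (∀ P : Place K F, P ≠ pinf → (𝔯 P : ℤ) = P.ord (t - algebraMap K F (pval P t)) - 1) →
      ((Z.erase R).prod fun S n => 𝒮.δ v R S ^ n) ^ m *
          max 1 (Ab.abv v (pval R t)) ^ (m - 1) ≤
        C v * (𝔯.prod fun r n => 𝒮.δ v R r ^ n) ^ m

/-- **(Det)**: the local determinant bound for a family `κ` of functions regular off `pinf`, of
pole order `≤ M`, all vanishing on the effective divisor `B` (a consequence of `MLe`). -/
def DetLe {n : ℕ} (κ : Fin n → F) (M : ℕ) (B : Place K F →₀ ℕ) : Prop :=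
  ∃ C : V → ℝ, Tame C ∧ ∀ (v : V) (P : Fin n → Place K F), (∀ j, P j ≠ pinf) →
    Ab.abv v (Matrix.det (Matrix.of fun i j => pval (P j) (κ i))) ^ m ≤
      C v * (∏ j, max 1 (Ab.abv v (pval (P j) t))) ^ M *
        (∏ i, ∏ j ∈ Finset.Ioi i, 𝒮.δ v (P i) (P j)) ^ m *
        (∏ j, B.prod fun b k => 𝒮.δ v b (P j) ^ k) ^ m

/-- Local pair function `λ_v(p, q) = −log δ_v(p, q)` (`0` on the diagonal). -/
def lam (v : V) (p q : Place K F) : ℝ := -Real.log (𝒮.δ v p q)

/-- Local point height `η_v(p) = log⁺ |t(p)|_v / m` (height relative to `pinf`, degree `1`). -/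
def eta (_𝒮 : Setting Ab pinf t m) (v : V) (p : Place K F) : ℝ :=
  Real.log (max 1 (Ab.abv v (pval p t))) / m

/-- Global pair function. -/
def gU (p q : Place K F) : ℝ := ∑ s ∈ 𝒮.Sg, ∑ᶠ v, 𝒮.lam v (s • p) (s • q)

/-- Global point height. -/
def etaU (p : Place K F) : ℝ := ∑ s ∈ 𝒮.Sg, ∑ᶠ v, 𝒮.eta v (s • p)

/-- Global height of a coefficient vector. -/
def hU {ι : Type*} (a : ι → K) : ℝ :=
  ∑ s ∈ 𝒮.Sg, ∑ᶠ v, Real.log (⨆ i, Ab.abv v (SemilinearAut.baseAut s (a i)))

/-- The `U`-stable effective divisors off `pinf`. -/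
def RatU : AddSubmonoid (Place K F →₀ ℕ) where
  carrier := {D | D pinf = 0 ∧ ∀ u ∈ 𝒮.U, D.mapDomain (fun P => u • P) = D}
  zero_mem' := ⟨rfl, fun _ _ => Finsupp.mapDomain_zero⟩
  add_mem' := by
    rintro D E ⟨hD0, hD⟩ ⟨hE0, hE⟩
    refine ⟨by simp [hD0, hE0], fun u hu => ?_⟩
    rw [Finsupp.mapDomain_add, hD u hu, hE u hu]

theorem mem_RatU {D : Place K F →₀ ℕ} :
    D ∈ 𝒮.RatU ↔ D pinf = 0 ∧ ∀ u ∈ 𝒮.U, D.mapDomain (fun P => u • P) = D := Iff.rfl

/-- `t`-general position of two points. -/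
def far (_𝒮 : Setting Ab pinf t m) (p q : Place K F) : Prop := pval p t ≠ pval q t

theorem far_irrefl (p : Place K F) : ¬ 𝒮.far p p := fun h => h rfl

theorem far_symm (p q : Place K F) (h : 𝒮.far p q) : 𝒮.far q p := fun e => h e.symm

theorem near_trans (p q r : Place K F) (h1 : ¬ 𝒮.far p q) (h2 : ¬ 𝒮.far q r) : ¬ 𝒮.far p r := by
  unfold far at *
  rw [not_not] at *
  exact h1.trans h2

/-- A coefficient vector is `U`-fixed. -/
def UFix {ι : Type*} (a : ι → K) : Prop := ∀ u ∈ 𝒮.U, ∀ i, SemilinearAut.baseAut u (a i) = a i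

/-- A family of functions is regular off `pinf`, with pole orders `≤ M` at `pinf`, and fixed by
`Γ`. -/
structure Fam {ι : Type*} (f : ι → F) (M : ℕ) : Prop where
  reg : ∀ i, RegOff pinf (f i)
  pole : ∀ i, -(M : ℤ) ≤ pinf.ord (f i)
  fixed : ∀ g ∈ 𝒮.Γ, ∀ i, g • f i = f i

/-- **The norm form** of the family `f` down to `K[t]`: forms `N k` of degree `m` in the
coefficient vector, with `Γ`-fixed coefficients, such that
`∑ k, N k (a) X ^ k = c · ∏ R ∈ Z, (X - t(R)) ^ (Z R)` for the divisor of zeros `Z` of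
`φ = ∑ a i • f i` (the norm of `φ` from `F` to `K(t)` is a polynomial in `t` with roots the
`t`-values of the zeros of `φ`). -/
structure NormData {ι : Type} [Fintype ι] (f : ι → F) (M : ℕ) where
  N : Fin (M + 1) → MvPolynomial ι K
  hom : ∀ k, (N k).IsHomogeneous m
  fixed : ∀ g ∈ 𝒮.Γ, ∀ k,
    MvPolynomial.map ((SemilinearAut.baseAut g : K ≃+* K) : K →+* K) (N k) = N k
  root : ∀ a : ι → K, (∑ i, a i • f i) ≠ 0 → ∀ Z : Place K F →₀ ℕ,
    IsZDiv pinf (∑ i, a i • f i) Z →
    ∃ c : K, c ≠ 0 ∧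
      (∑ k : Fin (M + 1), Polynomial.C (MvPolynomial.eval a (N k)) * Polynomial.X ^ (k : ℕ)) =
        Polynomial.C c * ∏ R ∈ Z.support, (Polynomial.X - Polynomial.C (pval R t)) ^ (Z R)

/-- **(B≤)**, global Mahler, upper half, for the family `f`: the height of the coefficient
vector is bounded by the height of the zeros. -/
def MahlerLe {ι : Type} [Fintype ι] (f : ι → F) : Prop :=
  ∃ C : ℝ, ∀ a : ι → K, 𝒮.UFix a → (∑ i, a i • f i) ≠ 0 →
    ∀ Z : Place K F →₀ ℕ, IsZDiv pinf (∑ i, a i • f i) Z → 𝒮.hU a ≤ ht 𝒮.etaU Z + C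

/-- **(B≥)**, global Mahler, lower half, for the family `f`. -/
def MahlerGe {ι : Type} [Fintype ι] (f : ι → F) : Prop :=
  ∃ C : ℝ, ∀ a : ι → K, 𝒮.UFix a → (∑ i, a i • f i) ≠ 0 →
    ∀ Z : Place K F →₀ ℕ, IsZDiv pinf (∑ i, a i • f i) Z → ht 𝒮.etaU Z ≤ 𝒮.hU a + C

end Setting

end Fermat.Agent.MW.HG
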