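/-
MW / HT-Q — the class map into the GROUP OF RATIONAL CLASSES, as a homomorphism on ALL effective
divisors (Mathlib only).

The abstract height layer (`HQ.PairingDatumS`, `HG.CurveData₀`) asks for a homomorphism
`cl : (P →₀ ℕ) →+ J` defined on all effective divisors, together with `rep : ∀ x : J, ∃ D ∈ Rat,
cl D = x`.  In the instance `J` is the subgroup of `U`-fixed classes, while the natural class map
`c₀ : (P →₀ ℕ) →+ J₀` lands in `J` only for `U`-stable divisors.  `exists_cl` produces a
homomorphism `cl : (P →₀ ℕ) →+ J` which AGREES with `c₀` on the `U`-stable divisors (its values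
on the other divisors are irrelevant: the abstract layer evaluates `cl` on rational divisors only).

Construction: choose one representative in every `U`-orbit of `P`; send it to the class of its
orbit divisor and the other points of the orbit to `0`.
-/
import Mathlib

set_option autoImplicit false

noncomputable section

namespace Fermat.Agent.MW.HG.ClOrbit

open scoped Classical

variable {G P J₀ : Type*} [Group G] [MulAction G P] [AddCommGroup J₀]

/-- `D` is stable under the group `G`. -/
def Stable (G : Type*) {P : Type*} [Group G] [MulAction G P] (D : P →₀ ℕ) : Prop :=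
  ∀ g : G, D.mapDomain (fun p => g • p) = D

theorem Stable.apply_smul {D : P →₀ ℕ} (h : Stable G D) (g : G) (p : P) : D (g • p) = D p := by
  have h1 := Finsupp.mapDomain_apply (MulAction.injective g) D p
  rw [h g] at h1
  exact h1

theorem Stable.apply_of_mem_orbit {D : P →₀ ℕ} (h : Stable G D) {p q : P}
    (hq : q ∈ MulAction.orbit G p) : D q = D p := by
  obtain ⟨g, rfl⟩ := hq
  exact h.apply_smul g p

/-- The chosen representative of the orbit of `p`. -/
def rep (G : Type*) {P : Type*} [Group G] [MulAction G P] (p : P) : P :=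
  (Quotient.mk (MulAction.orbitRel G P) p).out

theorem rep_mem_orbit (p : P) : rep G p ∈ MulAction.orbit G p := by
  have h : (MulAction.orbitRel G P) (rep G p) p :=
    Quotient.exact (Quotient.out_eq (Quotient.mk (MulAction.orbitRel G P) p))
  exact (MulAction.orbitRel_apply).1 h

theorem rep_eq_of_mem_orbit {p q : P} (hq : q ∈ MulAction.orbit G p) : rep G q = rep G p := by
  unfold rep
  congr 1
  exact Quotient.sound ((MulAction.orbitRel_apply).2 hq)

theorem mem_orbit_rep (p : P) : p ∈ MulAction.orbit G (rep G p) := by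
  have h := rep_mem_orbit (G := G) p
  exact (MulAction.orbitRel G P).symm h

theorem rep_rep (p : P) : rep G (rep G p) = rep G p :=
  rep_eq_of_mem_orbit (rep_mem_orbit p)

/-- The orbit divisor of `p` (zero if the orbit is infinite). -/
def orb (G : Type*) {P : Type*} [Group G] [MulAction G P] (p : P) : P →₀ ℕ :=
  if h : (MulAction.orbit G p).Finite then ∑ q ∈ h.toFinset, Finsupp.single q 1 else 0

theorem orb_apply {p : P} (h : (MulAction.orbit G p).Finite) (q : P) :
    orb G p q = if q ∈ MulAction.orbit G p then 1 else 0 := by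
  unfold orb
  rw [dif_pos h, Finsupp.finsetSum_apply]
  simp only [Finsupp.single_apply]
  rw [Finset.sum_ite_eq' h.toFinset q (fun _ => (1 : ℕ))]
  simp only [Set.Finite.mem_toFinset]

theorem stable_orb (p : P) : Stable G (orb G p) := by
  intro g
  by_cases h : (MulAction.orbit G p).Finite
  · ext q
    have hq : q = g • (g⁻¹ • q) := by rw [smul_inv_smul]
    rw [hq, Finsupp.mapDomain_apply (MulAction.injective g), orb_apply h, orb_apply h]
    have hiff : g⁻¹ • q ∈ MulAction.orbit G p ↔ g • g⁻¹ • q ∈ MulAction.orbit G p := by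
      rw [← MulAction.orbit_eq_iff, ← MulAction.orbit_eq_iff, smul_inv_smul, MulAction.orbit_smul]
    rw [if_congr hiff rfl rfl]
  · unfold orb
    rw [dif_neg h, Finsupp.mapDomain_zero]

theorem finite_orbit_of_mem_support {D : P →₀ ℕ} (h : Stable G D) {p : P}
    (hp : p ∈ D.support) : (MulAction.orbit G p).Finite := by
  refine D.support.finite_toSet.subset fun q hq => ?_
  rw [Finset.mem_coe, Finsupp.mem_support_iff, h.apply_of_mem_orbit hq]
  exact Finsupp.mem_support_iff.1 hp

/-- **Orbit decomposition** of a stable divisor. -/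
theorem stable_eq_sum {D : P →₀ ℕ} (h : Stable G D) :
    D = ∑ p ∈ D.support, if rep G p = p then D p • orb G p else 0 := by
  ext q
  rw [Finsupp.finsetSum_apply]
  have hterm : ∀ p ∈ D.support, (if rep G p = p then D p • orb G p else 0) q
      = if rep G p = p ∧ q ∈ MulAction.orbit G p then D p else 0 := by
    intro p hp
    by_cases h1 : rep G p = p
    · rw [if_pos h1, Finsupp.smul_apply, orb_apply (finite_orbit_of_mem_support h hp)]
      by_cases h2 : q ∈ MulAction.orbit G p
      · rw [if_pos h2, if_pos ⟨h1, h2⟩, smul_eq_mul, mul_one]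
      · rw [if_neg h2, if_neg (fun hh => h2 hh.2), smul_zero]
    · rw [if_neg h1, if_neg (fun hh => h1 hh.1)]
      rfl
  rw [Finset.sum_congr rfl hterm]
  by_cases hq : q ∈ D.support
  · -- the only contributing point is `rep q`
    have hrq : rep G q ∈ D.support := by
      rw [Finsupp.mem_support_iff, h.apply_of_mem_orbit (rep_mem_orbit q)]
      exact Finsupp.mem_support_iff.1 hq
    rw [Finset.sum_eq_single (rep G q)]
    · rw [if_pos ⟨rep_rep q, mem_orbit_rep q⟩, h.apply_of_mem_orbit (rep_mem_orbit q)]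
    · intro p _ hne
      rw [if_neg]
      rintro ⟨h1, h2⟩
      exact hne (by rw [← h1, rep_eq_of_mem_orbit h2])
    · intro hn
      exact absurd hrq hn
  · rw [Finsupp.notMem_support_iff.1 hq]
    symm
    refine Finset.sum_eq_zero fun p hp => ?_
    rw [if_neg]
    rintro ⟨-, h2⟩
    have := h.apply_of_mem_orbit h2
    rw [Finsupp.notMem_support_iff.1 hq] at this
    exact Finsupp.mem_support_iff.1 hp this.symm

variable (c₀ : (P →₀ ℕ) →+ J₀) (J : AddSubgroup J₀)

/-- The value of the class map at a point: the class of the orbit divisor at the chosen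
representative of a finite orbit, `0` elsewhere. -/
def cpt (G : Type*) {P : Type*} [Group G] [MulAction G P] (c₀ : (P →₀ ℕ) →+ J₀)
    (J : AddSubgroup J₀) (hJ : ∀ D : P →₀ ℕ, Stable G D → c₀ D ∈ J) (p : P) : J :=
  if rep G p = p then ⟨c₀ (orb G p), hJ _ (stable_orb p)⟩ else 0

/-- The class map on all effective divisors. -/
def clOf (G : Type*) {P : Type*} [Group G] [MulAction G P] (c₀ : (P →₀ ℕ) →+ J₀)
    (J : AddSubgroup J₀) (hJ : ∀ D : P →₀ ℕ, Stable G D → c₀ D ∈ J) : (P →₀ ℕ) →+ J :=
  Finsupp.liftAddHom fun p => multiplesHom J (cpt G c₀ J hJ p)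

theorem clOf_apply (hJ : ∀ D : P →₀ ℕ, Stable G D → c₀ D ∈ J) (D : P →₀ ℕ) :
    clOf G c₀ J hJ D = ∑ p ∈ D.support, D p • cpt G c₀ J hJ p := by
  unfold clOf
  rw [Finsupp.liftAddHom_apply, Finsupp.sum]
  rfl

/-- **`clOf` agrees with the class map on the stable divisors.** -/
theorem coe_clOf_of_stable (hJ : ∀ D : P →₀ ℕ, Stable G D → c₀ D ∈ J) {D : P →₀ ℕ}
    (h : Stable G D) : (clOf G c₀ J hJ D : J₀) = c₀ D := by
  rw [clOf_apply, AddSubgroup.val_finsetSum]
  conv_rhs => rw [stable_eq_sum h, map_sum]
  refine Finset.sum_congr rfl fun p _ => ?_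
  unfold cpt
  by_cases h1 : rep G p = p
  · rw [if_pos h1, if_pos h1, map_nsmul]
    rfl
  · rw [if_neg h1, if_neg h1, map_zero, smul_zero]
    rfl

/-- **The class map into the rational classes.**  If the class `c₀ D` of every `G`-stable
effective divisor lies in the subgroup `J`, there is a homomorphism `cl : (P →₀ ℕ) →+ J` on all
effective divisors which agrees with `c₀` on the stable ones. -/
theorem exists_cl (hJ : ∀ D : P →₀ ℕ, Stable G D → c₀ D ∈ J) :
    ∃ cl : (P →₀ ℕ) →+ J, ∀ D : P →₀ ℕ, Stable G D → (cl D : J₀) = c₀ D :=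
  ⟨clOf G c₀ J hJ, fun _ h => coe_clOf_of_stable c₀ J hJ h⟩

/-- The subgroup form (the shape of `HG.Setting.RatU`): stability under a subgroup `U` of a
group `Γ` acting on `P`. -/
theorem exists_cl_subgroup {Γ : Type*} [Group Γ] [MulAction Γ P] (U : Subgroup Γ)
    (hJ : ∀ D : P →₀ ℕ, (∀ u ∈ U, D.mapDomain (fun p => u • p) = D) → c₀ D ∈ J) :
    ∃ cl : (P →₀ ℕ) →+ J,
      ∀ D : P →₀ ℕ, (∀ u ∈ U, D.mapDomain (fun p => u • p) = D) → (cl D : J₀) = c₀ D := by
  have hiff : ∀ D : P →₀ ℕ, Stable (↥U) D ↔ ∀ u ∈ U, D.mapDomain (fun p => u • p) = D :=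
    fun D => ⟨fun h u hu => h ⟨u, hu⟩, fun h u => h u.1 u.2⟩
  obtain ⟨cl, hcl⟩ := exists_cl (G := ↥U) c₀ J (fun D hD => hJ D ((hiff D).1 hD))
  exact ⟨cl, fun D hD => hcl D ((hiff D).2 hD)⟩

end Fermat.Agent.MW.HG.ClOrbit
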