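/-
MW / HT-Q, row G1 (helper26): ONE-SIDED RECIPROCITY from the uniform interpolation bound (M≤)
and the product formula.

For a `Γ`-fixed family `f` of functions regular off `pinf` with pole orders `≤ M`, a `U`-fixed
coefficient vector `a`, `φ = ∑ a i • f i` with divisor of zeros `Z`, and a `U`-stable effective
divisor `E` disjoint from `Z`:

  `G(Z, E) ≤ deg E · h(a) + M · h(E) + C`        (`Setting.recLow_raw`).

Proof: (M≤) at the place `v` for the conjugate `s • φ` at the point `s • q` (`q ∈ E`), with the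
divisor `s • Z`; take logarithms, sum over `q`, `s`, `v`; the left-hand side is
`∑ₛ ∑ᵥ log |s(∏_q φ(q)^{E q})|_v = 0` by the product formula (the product is `U`-fixed).

All auxiliary lemmas are in the namespace `Fermat.Agent.MW.HG.RecLow` (fresh names; nothing of
`HG/Basic.lean` is used).
-/
import Mathlib
import Fermat.Prelude.Def_AlgebraicCurve_Repartitions
import Fermat.Agent.MW.HG.Defs

set_option autoImplicit false

noncomputable section

namespace Fermat.Agent.MW.HG

open AlgebraicCurve Fermat.Agent.MW.HtM Fermat.Agent.MW.HQ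

variable {K F V : Type*} [Field K] [Field F] [Algebra K F]

namespace RecLow

/-! ### Semilinear automorphisms and values -/

theorem adicValuation_smul_smul (g : SemilinearAut K F) (P : Place K F) (x : F) :
    (g • P).adicValuation (g • x) = P.adicValuation x := by
  rcases eq_or_ne x 0 with rfl | hx
  · simp
  · have hgx : g • x ≠ 0 := by
      intro h
      apply hx
      have := congrArg (fun y => g⁻¹ • y) h
      simpa using this
    rw [Place.adicValuation_eq_exp_neg_ord _ hgx, Place.adicValuation_eq_exp_neg_ord _ hx,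
      SemilinearAut.ord_smul]

/-- The value map is equivariant for semilinear automorphisms. -/
theorem pval_smul_smul (g : SemilinearAut K F) (P : Place K F) (f : F) :
    pval (g • P) (g • f) = SemilinearAut.baseAut g (pval P f) := by
  classical
  by_cases h : ∃ c : K, P.adicValuation (f - algebraMap K F c) < 1
  · obtain ⟨c, hc⟩ := h
    rw [pval_eq P hc]
    refine pval_eq (g • P) ?_
    have e : g • f - algebraMap K F (SemilinearAut.baseAut g c)
        = g • (f - algebraMap K F c) := by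
      rw [smul_sub, SemilinearAut.smul_algebraMap]
    rw [e, adicValuation_smul_smul]
    exact hc
  · have h' : ¬ ∃ c : K, (g • P).adicValuation (g • f - algebraMap K F c) < 1 := by
      rintro ⟨c, hc⟩
      apply h
      refine ⟨(SemilinearAut.baseAut g).symm c, ?_⟩
      have e : g • f - algebraMap K F c
          = g • (f - algebraMap K F ((SemilinearAut.baseAut g).symm c)) := by
        rw [smul_sub, SemilinearAut.smul_algebraMap, RingEquiv.apply_symm_apply]
      rw [e, adicValuation_smul_smul] at hc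
      exact hc
    unfold pval
    rw [dif_neg h, dif_neg h', map_zero]

/-- The value of a function of order `0` at a place with residue field `K` is non-zero. -/
theorem pval_ne_zero_of_ord_eq_zero' {P : Place K F} {φ : F}
    (hres : ∃ c : K, P.adicValuation (φ - algebraMap K F c) < 1) (hφ : φ ≠ 0)
    (hord : P.ord φ = 0) : pval P φ ≠ 0 := by
  obtain ⟨c, hc⟩ := hres
  rw [pval_eq P hc]
  rintro rfl
  rw [map_zero, sub_zero, Place.adicValuation_eq_exp_neg_ord _ hφ, hord, neg_zero,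
    WithZero.exp_zero] at hc
  exact lt_irrefl _ hc

/-! ### Finite supports -/

theorem finite_abv_ne_one (Ab : AbsFamily K V) {c : K} (hc : c ≠ 0) :
    {v | Ab.abv v c ≠ 1}.Finite := by
  refine ((Ab.finite_gt_one c).union (Ab.finite_gt_one c⁻¹)).subset fun v hv => ?_
  rcases lt_or_gt_of_ne hv with h | h
  · right
    show 1 < Ab.abv v c⁻¹
    rw [map_inv₀]
    exact (one_lt_inv₀ ((Ab.abv v).pos hc)).2 h
  · left
    exact h

theorem finite_support_log_abv (Ab : AbsFamily K V) {c : K} (hc : c ≠ 0) :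
    (Function.support fun v => Real.log (Ab.abv v c)).Finite := by
  refine (finite_abv_ne_one Ab hc).subset fun v hv h1 => hv ?_
  show Real.log (Ab.abv v c) = 0
  rw [h1, Real.log_one]

theorem finite_support_log_tame {C : V → ℝ} (hC : Tame C) :
    (Function.support fun v => Real.log (C v)).Finite := by
  refine hC.2.subset fun v hv h1 => hv ?_
  show Real.log (C v) = 0
  rw [h1, Real.log_one]

theorem finite_support_log_iSup (Ab : AbsFamily K V) {ι : Type*} [Fintype ι] (a : ι → K)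
    (ha : ∃ i, a i ≠ 0) :
    (Function.support fun v => Real.log (⨆ i, Ab.abv v (a i))).Finite := by
  classical
  obtain ⟨i0, hi0⟩ := ha
  have : Nonempty ι := ⟨i0⟩
  have hfin : (⋃ i : ι, {v | a i ≠ 0 ∧ Ab.abv v (a i) ≠ 1}).Finite := by
    refine Set.finite_iUnion fun i => ?_
    by_cases hi : a i = 0
    · simp [hi]
    · exact (finite_abv_ne_one Ab hi).subset fun v hv => hv.2
  refine hfin.subset fun v hv => ?_
  by_contra hcon
  apply hv
  have hall : ∀ i, a i = 0 ∨ Ab.abv v (a i) = 1 := by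
    intro i
    by_contra h
    rw [not_or] at h
    exact hcon (Set.mem_iUnion.2 ⟨i, h.1, h.2⟩)
  have hsup : (⨆ i, Ab.abv v (a i)) = 1 := by
    refine le_antisymm (ciSup_le fun i => ?_) ?_
    · rcases hall i with h | h
      · rw [h, map_zero]; exact zero_le_one
      · exact h.le
    · refine le_ciSup_of_le (Set.finite_range _).bddAbove i0 ?_
      rcases hall i0 with h | h
      · exact absurd h hi0
      · exact h.ge
  show Real.log (⨆ i, Ab.abv v (a i)) = 0
  rw [hsup, Real.log_one]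

/-- A common finite set carrying the supports of finitely many finitely supported functions. -/
theorem exists_finset_support {α : Type*} (I : Finset α) (g : α → V → ℝ)
    (h : ∀ i ∈ I, (Function.support (g i)).Finite) :
    ∃ T : Finset V, ∀ i ∈ I, ∀ v, v ∉ T → g i v = 0 := by
  classical
  refine ⟨(Set.Finite.biUnion I.finite_toSet h).toFinset, fun i hi v hv => ?_⟩
  by_contra hne
  apply hv
  rw [Set.Finite.mem_toFinset]
  exact Set.mem_biUnion (Finset.mem_coe.2 hi) hne

/-! ### Bookkeeping of finite sums -/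

theorem sum3_rotate {σ β γ : Type*} (A : Finset σ) (B : Finset β) (C : Finset γ)
    (f : σ → β → γ → ℝ) :
    ∑ s ∈ A, ∑ v ∈ B, ∑ q ∈ C, f s v q = ∑ q ∈ C, ∑ s ∈ A, ∑ v ∈ B, f s v q := by
  calc ∑ s ∈ A, ∑ v ∈ B, ∑ q ∈ C, f s v q
      = ∑ s ∈ A, ∑ q ∈ C, ∑ v ∈ B, f s v q := Finset.sum_congr rfl fun s _ => Finset.sum_comm
    _ = ∑ q ∈ C, ∑ s ∈ A, ∑ v ∈ B, f s v q := Finset.sum_comm

/-- The summation step of the reciprocity law, for abstract finite index sets. -/
theorem bookkeeping {σ β P : Type*} (Sg : Finset σ) (T : Finset β) (Zs Es : Finset P)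
    (z ε : P → ℝ) (hε : ∀ q ∈ Es, 0 ≤ ε q) (ℓ : σ → β → P → ℝ) (c : β → ℝ) (A : σ → β → ℝ)
    (M : ℝ) (η : σ → β → P → ℝ) (lm : σ → β → P → P → ℝ)
    (h : ∀ s ∈ Sg, ∀ v ∈ T, ∀ q ∈ Es,
      ℓ s v q ≤ c v + A s v + M * η s v q - ∑ R ∈ Zs, z R * lm s v R q)
    (h0 : ∑ s ∈ Sg, ∑ v ∈ T, ∑ q ∈ Es, ε q * ℓ s v q = 0) :
    ∑ R ∈ Zs, ∑ q ∈ Es, z R * ε q * ∑ s ∈ Sg, ∑ v ∈ T, lm s v R q ≤
      (∑ q ∈ Es, ε q) * ∑ s ∈ Sg, ∑ v ∈ T, A s v
        + M * ∑ q ∈ Es, ε q * ∑ s ∈ Sg, ∑ v ∈ T, η s v q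
        + (∑ q ∈ Es, ε q) * (Sg.card * ∑ v ∈ T, c v) := by
  have h1 : ∑ s ∈ Sg, ∑ v ∈ T, ∑ q ∈ Es, ε q * ℓ s v q ≤
      ∑ s ∈ Sg, ∑ v ∈ T, ∑ q ∈ Es,
        ε q * (c v + A s v + M * η s v q - ∑ R ∈ Zs, z R * lm s v R q) :=
    Finset.sum_le_sum fun s hs => Finset.sum_le_sum fun v hv => Finset.sum_le_sum fun q hq =>
      mul_le_mul_of_nonneg_left (h s hs v hv q hq) (hε q hq)
  have e1 : ∑ s ∈ Sg, ∑ v ∈ T, ∑ q ∈ Es, ε q * c v
      = (∑ q ∈ Es, ε q) * (Sg.card * ∑ v ∈ T, c v) := by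
    simp only [← Finset.sum_mul, ← Finset.mul_sum, Finset.sum_const, nsmul_eq_mul]
    ring
  have e2 : ∑ s ∈ Sg, ∑ v ∈ T, ∑ q ∈ Es, ε q * A s v
      = (∑ q ∈ Es, ε q) * ∑ s ∈ Sg, ∑ v ∈ T, A s v := by
    simp only [← Finset.sum_mul, ← Finset.mul_sum]
  have e3 : ∑ s ∈ Sg, ∑ v ∈ T, ∑ q ∈ Es, ε q * (M * η s v q)
      = M * ∑ q ∈ Es, ε q * ∑ s ∈ Sg, ∑ v ∈ T, η s v q := by
    rw [sum3_rotate]
    simp only [Finset.mul_sum]
    refine Finset.sum_congr rfl fun q _ => Finset.sum_congr rfl fun s _ =>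
      Finset.sum_congr rfl fun v _ => ?_
    ring
  have e4 : ∑ s ∈ Sg, ∑ v ∈ T, ∑ q ∈ Es, ε q * ∑ R ∈ Zs, z R * lm s v R q
      = ∑ R ∈ Zs, ∑ q ∈ Es, z R * ε q * ∑ s ∈ Sg, ∑ v ∈ T, lm s v R q := by
    rw [sum3_rotate, Finset.sum_comm (s := Zs) (t := Es)]
    refine Finset.sum_congr rfl fun q _ => ?_
    simp only [Finset.mul_sum]
    rw [sum3_rotate]
    refine Finset.sum_congr rfl fun R _ => Finset.sum_congr rfl fun s _ =>
      Finset.sum_congr rfl fun v _ => ?_
    ring
  have e5 : ∑ s ∈ Sg, ∑ v ∈ T, ∑ q ∈ Es,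
        ε q * (c v + A s v + M * η s v q - ∑ R ∈ Zs, z R * lm s v R q)
      = (∑ q ∈ Es, ε q) * (Sg.card * ∑ v ∈ T, c v)
        + (∑ q ∈ Es, ε q) * ∑ s ∈ Sg, ∑ v ∈ T, A s v
        + M * ∑ q ∈ Es, ε q * ∑ s ∈ Sg, ∑ v ∈ T, η s v q
        - ∑ R ∈ Zs, ∑ q ∈ Es, z R * ε q * ∑ s ∈ Sg, ∑ v ∈ T, lm s v R q := by
    rw [← e1, ← e2, ← e3, ← e4]
    simp only [mul_add, mul_sub, Finset.sum_add_distrib, Finset.sum_sub_distrib]
  rw [h0, e5] at h1
  linarith

end RecLow

namespace Setting

variable {Ab : AbsFamily K V} {pinf : Place K F} {t : F} {m : ℕ} (𝒮 : Setting Ab pinf t m)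

/-- **G1 (RecLow).**  One-sided reciprocity from (M≤) and the product formula. -/
theorem recLow_raw (hM : 𝒮.MLe) {ι : Type} [Fintype ι] (f : ι → F) (M : ℕ) (hf : 𝒮.Fam f M)
    (e : ℕ) :
    ∃ C : ℝ, ∀ a : ι → K, 𝒮.UFix a → (∑ i, a i • f i) ≠ 0 →
      ∀ Z : Place K F →₀ ℕ, IsZDiv pinf (∑ i, a i • f i) Z → deg Z ≤ M →
      ∀ E ∈ 𝒮.RatU, deg E ≤ e → Disjoint Z.support E.support →
        pairG 𝒮.gU Z E ≤ (deg E : ℝ) * 𝒮.hU a + (M : ℝ) * ht 𝒮.etaU E + C := by
  classical
  obtain ⟨C, hCt, hC⟩ := hM f M hf.reg hf.pole M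
  have hm' : (0 : ℝ) < m := by exact_mod_cast 𝒮.m_pos
  refine ⟨(e : ℝ) * (𝒮.Sg.card * ((∑ᶠ v, Real.log (C v)) / m)), ?_⟩
  intro a ha hφ Z hZ hZM E hE hEe hdis
  -- the conjugates of `φ`
  have hconj : ∀ g ∈ 𝒮.Γ, ∀ b : ι → K,
      g • (∑ i, b i • f i) = ∑ i, SemilinearAut.baseAut g (b i) • f i := by
    intro g hg b
    rw [Finset.smul_sum]
    refine Finset.sum_congr rfl fun i _ => ?_
    rw [Algebra.smul_def, smul_mul', SemilinearAut.smul_algebraMap, hf.fixed g hg i,
      ← Algebra.smul_def]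
  set φ : F := ∑ i, a i • f i with hφdef
  -- a non-zero coefficient
  obtain ⟨i0, hi0⟩ : ∃ i, a i ≠ 0 := by
    by_contra hcon
    rw [not_exists] at hcon
    apply hφ
    rw [hφdef]
    refine Finset.sum_eq_zero fun i _ => ?_
    have : a i = 0 := not_not.1 (hcon i)
    rw [this, zero_smul]
  -- points of `E` and of `Z`
  have hEne : ∀ q ∈ E.support, q ≠ pinf := by
    rintro q hq rfl
    exact (Finsupp.mem_support_iff.1 hq) hE.1
  have hZne : ∀ R ∈ Z.support, R ≠ pinf := by
    rintro R hR rfl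
    exact (Finsupp.mem_support_iff.1 hR) hZ.1
  have hsne : ∀ (g : SemilinearAut K F), g ∈ 𝒮.Γ → ∀ q : Place K F, q ≠ pinf → g • q ≠ pinf := by
    intro g hg q hq h
    apply hq
    have h2 : g • q = g • pinf := by rw [h, 𝒮.inf_fixed g hg]
    exact MulAction.injective g h2
  have hx : ∀ q ∈ E.support, pval q φ ≠ 0 := by
    intro q hq
    have hqZ : Z q = 0 := by
      by_contra h
      exact Finset.disjoint_left.1 hdis (Finsupp.mem_support_iff.2 h) hq
    have hord : q.ord φ = 0 := by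
      rw [← hZ.2 q (hEne q hq), hqZ]; rfl
    exact RecLow.pval_ne_zero_of_ord_eq_zero' (𝒮.resK q φ hord.ge) hφ hord
  -- the local inequality
  have hstar : ∀ s ∈ 𝒮.Sg, ∀ v : V, ∀ q ∈ E.support,
      Real.log (Ab.abv v (SemilinearAut.baseAut s (pval q φ))) ≤
        Real.log (C v) / m + Real.log (⨆ i, Ab.abv v (SemilinearAut.baseAut s (a i)))
          + (M : ℝ) * 𝒮.eta v (s • q)
          - ∑ R ∈ Z.support, (Z R : ℝ) * 𝒮.lam v (s • R) (s • q) := by
    intro s hs v q hq
    have hsΓ := 𝒮.Sg_mem s hs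
    set A : ℝ := ⨆ i, Ab.abv v (SemilinearAut.baseAut s (a i)) with hA
    have hAle : ∀ i, Ab.abv v (SemilinearAut.baseAut s (a i)) ≤ A := fun i =>
      le_ciSup (f := fun i => Ab.abv v (SemilinearAut.baseAut s (a i)))
        (Set.finite_range _).bddAbove i
    have hApos : 0 < A :=
      lt_of_lt_of_le ((Ab.abv v).pos (by simpa using hi0)) (hAle i0)
    have hsq : s • q ≠ pinf := hsne s hsΓ q (hEne q hq)
    have hdeg : deg (Z.mapDomain fun P => s • P) ≤ M := by
      have : deg (Z.mapDomain fun P => s • P) = deg Z := by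
        unfold deg
        exact Finsupp.sum_mapDomain_index (fun _ => rfl) (fun _ _ _ => rfl)
      rw [this]; exact hZM
    have hzero : (Z.mapDomain fun P => s • P) pinf = 0 := by
      have h1 := Finsupp.mapDomain_apply (MulAction.injective s) Z pinf
      rw [𝒮.inf_fixed s hsΓ] at h1
      rw [h1]; exact hZ.1
    have hord : ∀ R : Place K F, R ≠ pinf →
        ((Z.mapDomain fun P => s • P) R : ℤ)
          ≤ R.ord (∑ i, SemilinearAut.baseAut s (a i) • f i) := by
      intro R hR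
      have hR' : s⁻¹ • R ≠ pinf := by
        intro h
        apply hR
        have h2 : s • (s⁻¹ • R) = s • pinf := by rw [h]
        rw [smul_inv_smul, 𝒮.inf_fixed s hsΓ] at h2
        exact h2
      have h1 := Finsupp.mapDomain_apply (MulAction.injective s) Z (s⁻¹ • R)
      rw [smul_inv_smul] at h1
      rw [h1, hZ.2 _ hR', ← hconj s hsΓ a]
      have h3 := SemilinearAut.ord_smul s (s⁻¹ • R) φ
      rw [smul_inv_smul] at h3
      exact h3.ge
    have key := hC v (fun i => SemilinearAut.baseAut s (a i)) A hApos.le hAle (s • q) hsq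
      (Z.mapDomain fun P => s • P) hdeg hzero hord
    rw [← hconj s hsΓ a, RecLow.pval_smul_smul,
      Finsupp.prod_mapDomain_index_inj (MulAction.injective s)] at key
    have hxq : 0 < Ab.abv v (SemilinearAut.baseAut s (pval q φ)) :=
      (Ab.abv v).pos (by simpa using hx q hq)
    have hδpos : ∀ R ∈ Z.support, 0 < 𝒮.δ v (s • R) (s • q) := by
      intro R hR
      refine 𝒮.δ_pos v _ _ (hsne s hsΓ R (hZne R hR)) hsq ?_
      intro h
      have hRq : R = q := MulAction.injective s h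
      rw [hRq] at hR
      exact Finset.disjoint_left.1 hdis hR hq
    have hprodpos : 0 < Z.prod fun R n => 𝒮.δ v (s • R) (s • q) ^ n :=
      Finset.prod_pos fun R hR => pow_pos (hδpos R hR) _
    have hmaxpos : 0 < max 1 (Ab.abv v (pval (s • q) t)) :=
      lt_of_lt_of_le one_pos (le_max_left _ _)
    have hCpos : 0 < C v := hCt.pos v
    have hlogprod : Real.log (Z.prod fun R n => 𝒮.δ v (s • R) (s • q) ^ n)
        = ∑ R ∈ Z.support, (Z R : ℝ) * Real.log (𝒮.δ v (s • R) (s • q)) := by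
      unfold Finsupp.prod
      rw [Real.log_prod]
      · exact Finset.sum_congr rfl fun R _ => Real.log_pow _ _
      · intro R hR
        exact (pow_pos (hδpos R hR) _).ne'
    have hlog := Real.log_le_log (pow_pos hxq m) key
    rw [Real.log_pow, Real.log_mul (by positivity) (by positivity),
      Real.log_mul (by positivity) (by positivity), Real.log_mul (by positivity) (by positivity),
      Real.log_pow, Real.log_pow, Real.log_pow, hlogprod] at hlog
    have hlam : ∑ R ∈ Z.support, (Z R : ℝ) * 𝒮.lam v (s • R) (s • q)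
        = -∑ R ∈ Z.support, (Z R : ℝ) * Real.log (𝒮.δ v (s • R) (s • q)) := by
      rw [← Finset.sum_neg_distrib]
      refine Finset.sum_congr rfl fun R _ => ?_
      unfold Setting.lam
      ring
    rw [hlam]
    unfold Setting.eta
    have hgoal : Real.log (C v) / m + Real.log A
          + (M : ℝ) * (Real.log (max 1 (Ab.abv v (pval (s • q) t))) / m)
          - -∑ R ∈ Z.support, (Z R : ℝ) * Real.log (𝒮.δ v (s • R) (s • q))
        = (Real.log (C v) + m * Real.log A
            + M * Real.log (max 1 (Ab.abv v (pval (s • q) t)))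
            + m * ∑ R ∈ Z.support, (Z R : ℝ) * Real.log (𝒮.δ v (s • R) (s • q))) / m := by
      field_simp
      ring
    rw [hgoal, le_div_iff₀ hm']
    linarith
  -- finite supports
  have hF1 : ∀ i ∈ ({()} : Finset Unit),
      (Function.support ((fun _ v => Real.log (C v)) i : V → ℝ)).Finite :=
    fun _ _ => RecLow.finite_support_log_tame hCt
  have hF2 : ∀ s ∈ 𝒮.Sg, (Function.support
      ((fun s v => Real.log (⨆ i, Ab.abv v (SemilinearAut.baseAut s (a i)))) s : V → ℝ)).Finite :=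
    fun s _ => RecLow.finite_support_log_iSup Ab (fun i => SemilinearAut.baseAut s (a i))
      ⟨i0, by simpa using hi0⟩
  have hF3 : ∀ x ∈ 𝒮.Sg ×ˢ E.support, (Function.support
      ((fun (x : SemilinearAut K F × Place K F) v => 𝒮.eta v (x.1 • x.2)) x : V → ℝ)).Finite := by
    intro x _
    refine (Ab.finite_gt_one (pval (x.1 • x.2) t)).subset fun v hv => ?_
    by_contra hcon
    apply hv
    have hle : Ab.abv v (pval (x.1 • x.2) t) ≤ 1 := not_lt.1 hcon
    show 𝒮.eta v (x.1 • x.2) = 0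
    unfold Setting.eta
    rw [max_eq_left hle, Real.log_one, zero_div]
  have hF4 : ∀ x ∈ 𝒮.Sg ×ˢ (Z.support ×ˢ E.support), (Function.support
      ((fun (x : SemilinearAut K F × Place K F × Place K F) v =>
        𝒮.lam v (x.1 • x.2.1) (x.1 • x.2.2)) x : V → ℝ)).Finite := by
    intro x hx'
    obtain ⟨hs, hRq⟩ := Finset.mem_product.1 hx'
    obtain ⟨hR, hq⟩ := Finset.mem_product.1 hRq
    have hsΓ := 𝒮.Sg_mem _ hs
    have hne : x.1 • x.2.1 ≠ x.1 • x.2.2 := by
      intro h
      have hRq' : x.2.1 = x.2.2 := MulAction.injective x.1 h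
      rw [hRq'] at hR
      exact Finset.disjoint_left.1 hdis hR hq
    refine (𝒮.δ_eq_one _ _ (hsne _ hsΓ _ (hZne _ hR)) (hsne _ hsΓ _ (hEne _ hq)) hne).subset
      fun v hv h1 => hv ?_
    show 𝒮.lam v (x.1 • x.2.1) (x.1 • x.2.2) = 0
    unfold Setting.lam
    rw [h1, Real.log_one, neg_zero]
  have hF5 : ∀ x ∈ 𝒮.Sg ×ˢ E.support, (Function.support
      ((fun (x : SemilinearAut K F × Place K F) v =>
        Real.log (Ab.abv v (SemilinearAut.baseAut x.1 (pval x.2 φ)))) x : V → ℝ)).Finite := by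
    intro x hx'
    obtain ⟨_, hq⟩ := Finset.mem_product.1 hx'
    exact RecLow.finite_support_log_abv Ab (by simpa using hx _ hq)
  obtain ⟨T₁, hT₁⟩ := RecLow.exists_finset_support _ _ hF1
  obtain ⟨T₂, hT₂⟩ := RecLow.exists_finset_support _ _ hF2
  obtain ⟨T₃, hT₃⟩ := RecLow.exists_finset_support _ _ hF3
  obtain ⟨T₄, hT₄⟩ := RecLow.exists_finset_support _ _ hF4
  obtain ⟨T₅, hT₅⟩ := RecLow.exists_finset_support _ _ hF5
  set T : Finset V := T₁ ∪ T₂ ∪ T₃ ∪ T₄ ∪ T₅ with hT
  have hS1 : Function.support (fun v => Real.log (C v)) ⊆ ↑T := by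
    refine Function.support_subset_iff'.2 fun v hv => hT₁ () (by simp) v fun h => hv ?_
    simp [hT, h]
  have hS2 : ∀ s ∈ 𝒮.Sg, Function.support
      (fun v => Real.log (⨆ i, Ab.abv v (SemilinearAut.baseAut s (a i)))) ⊆ ↑T := by
    intro s hs
    refine Function.support_subset_iff'.2 fun v hv => hT₂ s hs v fun h => hv ?_
    simp [hT, h]
  have hS3 : ∀ s ∈ 𝒮.Sg, ∀ q ∈ E.support,
      Function.support (fun v => 𝒮.eta v (s • q)) ⊆ ↑T := by
    intro s hs q hq
    refine Function.support_subset_iff'.2 fun v hv =>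
      hT₃ (s, q) (Finset.mem_product.2 ⟨hs, hq⟩) v fun h => hv ?_
    simp [hT, h]
  have hS4 : ∀ s ∈ 𝒮.Sg, ∀ R ∈ Z.support, ∀ q ∈ E.support,
      Function.support (fun v => 𝒮.lam v (s • R) (s • q)) ⊆ ↑T := by
    intro s hs R hR q hq
    refine Function.support_subset_iff'.2 fun v hv =>
      hT₄ (s, R, q) (Finset.mem_product.2 ⟨hs, Finset.mem_product.2 ⟨hR, hq⟩⟩) v fun h => hv ?_
    simp [hT, h]
  have hS5 : ∀ s ∈ 𝒮.Sg, ∀ q ∈ E.support, ∀ v, v ∉ T →
      Real.log (Ab.abv v (SemilinearAut.baseAut s (pval q φ))) = 0 := by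
    intro s hs q hq v hv
    refine hT₅ (s, q) (Finset.mem_product.2 ⟨hs, hq⟩) v fun h => hv ?_
    simp [hT, h]
  -- the product formula
  set c : K := E.prod fun q n => pval q φ ^ n with hc
  have hc0 : c ≠ 0 := Finset.prod_ne_zero_iff.2 fun q hq => pow_ne_zero _ (hx q hq)
  have hcfix : ∀ u ∈ 𝒮.U, SemilinearAut.baseAut u c = c := by
    intro u hu
    have huΓ := 𝒮.U_le hu
    have huφ : u • φ = φ := by
      rw [hφdef, hconj u huΓ a]
      exact Finset.sum_congr rfl fun i _ => by rw [ha u hu i]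
    have hEu : E.mapDomain (fun P => u • P) = E := hE.2 u hu
    calc SemilinearAut.baseAut u c
        = E.prod fun q n => SemilinearAut.baseAut u (pval q φ) ^ n := by
          rw [hc]; unfold Finsupp.prod; rw [map_prod]
          exact Finset.prod_congr rfl fun q _ => map_pow _ _ _
      _ = E.prod fun q n => pval (u • q) φ ^ n := by
          refine Finsupp.prod_congr fun q _ => ?_
          rw [← RecLow.pval_smul_smul, huφ]
      _ = (E.mapDomain fun P => u • P).prod fun q n => pval q φ ^ n :=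
          (Finsupp.prod_mapDomain_index_inj (h := fun q n => pval q φ ^ n) (s := E)
            (MulAction.injective u)).symm
      _ = c := by rw [hEu]
  have hpf := 𝒮.pf c hc0 hcfix
  have hpt : ∀ (s : SemilinearAut K F) (v : V), Real.log (Ab.abv v (SemilinearAut.baseAut s c))
      = ∑ q ∈ E.support, (E q : ℝ) * Real.log (Ab.abv v (SemilinearAut.baseAut s (pval q φ))) := by
    intro s v
    rw [hc]; unfold Finsupp.prod
    rw [map_prod, map_prod, Real.log_prod]
    · refine Finset.sum_congr rfl fun q _ => ?_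
      rw [map_pow, map_pow, Real.log_pow]
    · intro q hq
      rw [map_pow, map_pow]
      exact pow_ne_zero _ ((Ab.abv v).ne_zero (by simpa using hx q hq))
  have hh0 : ∑ s ∈ 𝒮.Sg, ∑ v ∈ T, ∑ q ∈ E.support,
      (E q : ℝ) * Real.log (Ab.abv v (SemilinearAut.baseAut s (pval q φ))) = 0 := by
    rw [← hpf]
    refine Finset.sum_congr rfl fun s hs => ?_
    have hsub : Function.support (fun v => Real.log (Ab.abv v (SemilinearAut.baseAut s c)))
        ⊆ ↑T := by
      refine Function.support_subset_iff'.2 fun v hv => ?_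
      rw [hpt s v]
      refine Finset.sum_eq_zero fun q hq => ?_
      rw [hS5 s hs q hq v (by simpa using hv), mul_zero]
    rw [finsum_eq_sum_of_support_subset _ hsub]
    exact Finset.sum_congr rfl fun v _ => (hpt s v).symm
  -- summation
  have hbook := RecLow.bookkeeping 𝒮.Sg T Z.support E.support (fun R => (Z R : ℝ))
    (fun q => (E q : ℝ)) (fun q _ => Nat.cast_nonneg _)
    (fun s v q => Real.log (Ab.abv v (SemilinearAut.baseAut s (pval q φ))))
    (fun v => Real.log (C v) / m)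
    (fun s v => Real.log (⨆ i, Ab.abv v (SemilinearAut.baseAut s (a i)))) (M : ℝ)
    (fun s v q => 𝒮.eta v (s • q)) (fun s v R q => 𝒮.lam v (s • R) (s • q))
    (fun s hs v _ q hq => hstar s hs v q hq) hh0
  -- identification of the global quantities
  have hpair : pairG 𝒮.gU Z E = ∑ R ∈ Z.support, ∑ q ∈ E.support,
      (Z R : ℝ) * (E q : ℝ) * ∑ s ∈ 𝒮.Sg, ∑ v ∈ T, 𝒮.lam v (s • R) (s • q) := by
    unfold pairG Finsupp.sum
    refine Finset.sum_congr rfl fun R hR => Finset.sum_congr rfl fun q hq => ?_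
    unfold Setting.gU
    beta_reduce
    congr 1
    exact Finset.sum_congr rfl fun s hs => finsum_eq_sum_of_support_subset _ (hS4 s hs R hR q hq)
  have hdegE : (deg E : ℝ) = ∑ q ∈ E.support, (E q : ℝ) := by
    unfold deg Finsupp.sum
    push_cast
    rfl
  have hhU : 𝒮.hU a
      = ∑ s ∈ 𝒮.Sg, ∑ v ∈ T, Real.log (⨆ i, Ab.abv v (SemilinearAut.baseAut s (a i))) := by
    unfold Setting.hU
    exact Finset.sum_congr rfl fun s hs => finsum_eq_sum_of_support_subset _ (hS2 s hs)
  have hht : ht 𝒮.etaU E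
      = ∑ q ∈ E.support, (E q : ℝ) * ∑ s ∈ 𝒮.Sg, ∑ v ∈ T, 𝒮.eta v (s • q) := by
    unfold ht Finsupp.sum
    refine Finset.sum_congr rfl fun q hq => ?_
    unfold Setting.etaU
    beta_reduce
    congr 1
    exact Finset.sum_congr rfl fun s hs => finsum_eq_sum_of_support_subset _ (hS3 s hs q hq)
  have hCsum : ∑ v ∈ T, Real.log (C v) / m = (∑ᶠ v, Real.log (C v)) / m := by
    rw [finsum_eq_sum_of_support_subset _ hS1, Finset.sum_div]
  have hCnn : 0 ≤ (∑ᶠ v, Real.log (C v)) / m :=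
    div_nonneg (finsum_nonneg fun v => Real.log_nonneg (hCt.1 v)) hm'.le
  rw [hpair, hhU, hht, hdegE]
  rw [hCsum] at hbook
  have hle : (∑ q ∈ E.support, (E q : ℝ)) * ((𝒮.Sg.card : ℝ) * ((∑ᶠ v, Real.log (C v)) / m))
      ≤ (e : ℝ) * ((𝒮.Sg.card : ℝ) * ((∑ᶠ v, Real.log (C v)) / m)) := by
    refine mul_le_mul_of_nonneg_right ?_ (mul_nonneg (Nat.cast_nonneg _) hCnn)
    rw [← hdegE]
    exact_mod_cast hEe
  linarith

end Setting

end Fermat.Agent.MW.HG
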