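import Mathlib
import Fermat.Agent.MW.HG.Defs
import Fermat.Agent.MW.HG.RecLow
import Fermat.Prelude.Def_AlgebraicCurve_Repartitions

/-!
# MW / HT-Q (G3): the fibre trick — two-sided reciprocity in `t`-general position

`recUp_of` : from the one-sided reciprocity (G1, `recLow_raw`) and the fibre Lipschitz bound
`𝒮.Lip`, the reverse inequality

`m · (deg E · h(Z) + deg Z · h(E)) ≤ G(Z, E) + (m − 1) · (deg E · h(a) + M · h(E)) + C`

for `Z` the divisor of zeros of `φ = ∑ a i • f i` (`a` a `U`-fixed coefficient vector) and `E` a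
`U`-stable effective divisor in `t`-general position with respect to `Z`.

Proof (the fibre trick): `E♯ := ∑_q E q · Fib q` (`Fib q` the `t`-fibre through `q`),
`E' := E♯ − E`.  The Lipschitz bound and the product formula give
`G(Z, E♯) ≥ m · (deg E · h(Z) + deg Z · h(E)) − C`, and G1 bounds `G(Z, E')` from above.

`recip_of_aux` : with global Mahler (B≤) this gives `|β(Z, E)| ≤ C`.
-/

set_option autoImplicit false

noncomputable section

namespace Fermat.Agent.MW.HG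

open AlgebraicCurve Fermat.Agent.MW.HtM Fermat.Agent.MW.HQ

variable {K F V : Type*} [Field K] [Field F] [Algebra K F] {Ab : AbsFamily K V}
  {pinf : Place K F} {t : F} {m : ℕ} (𝒮 : Setting Ab pinf t m)

namespace RecUp

/-! ### Values under semilinear automorphisms -/

theorem adicValuation_lt_one_iff_ord (P : Place K F) (x : F) :
    P.adicValuation x < 1 ↔ x = 0 ∨ 0 < P.ord x := by
  rcases eq_or_ne x 0 with rfl | hx
  · simp
  · rw [P.adicValuation_eq_exp_neg_ord hx, ← WithZero.exp_zero, WithZero.exp_lt_exp]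
    constructor
    · intro h
      right
      omega
    · rintro (h | h)
      · exact absurd h hx
      · omega

theorem adicValuation_smul_lt_one (g : SemilinearAut K F) (P : Place K F) (x : F) :
    (g • P).adicValuation (g • x) < 1 ↔ P.adicValuation x < 1 := by
  rw [adicValuation_lt_one_iff_ord, adicValuation_lt_one_iff_ord, SemilinearAut.ord_smul,
    smul_eq_zero_iff_eq]

/-- The value map is equivariant. -/
theorem pval_smul_eq (g : SemilinearAut K F) (P : Place K F) (f : F) :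
    pval (g • P) (g • f) = SemilinearAut.baseAut g (pval P f) := by
  classical
  by_cases h : ∃ c : K, P.adicValuation (f - algebraMap K F c) < 1
  · have h1 := pval_spec P h
    apply pval_eq
    have h2 : g • f - algebraMap K F (SemilinearAut.baseAut g (pval P f))
        = g • (f - algebraMap K F (pval P f)) := by
      rw [smul_sub, SemilinearAut.smul_algebraMap]
    rw [h2, adicValuation_smul_lt_one]
    exact h1
  · have h' : ¬ ∃ c : K, (g • P).adicValuation (g • f - algebraMap K F c) < 1 := by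
      rintro ⟨c, hc⟩
      apply h
      refine ⟨(SemilinearAut.baseAut g).symm c, ?_⟩
      rw [← adicValuation_smul_lt_one g, smul_sub, SemilinearAut.smul_algebraMap,
        RingEquiv.apply_symm_apply]
      exact hc
    have e1 : pval P f = 0 := by
      unfold pval
      rw [dif_neg h]
    have e2 : pval (g • P) (g • f) = 0 := by
      unfold pval
      rw [dif_neg h']
    rw [e1, e2, map_zero]

theorem smul_ne_pinf {g : SemilinearAut K F} (hg : g ∈ 𝒮.Γ) {P : Place K F} (hP : P ≠ pinf) :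
    g • P ≠ pinf := by
  intro h
  apply hP
  exact MulAction.injective g (h.trans (𝒮.inf_fixed g hg).symm)

theorem pval_smul_t {g : SemilinearAut K F} (hg : g ∈ 𝒮.Γ) (P : Place K F) :
    pval (g • P) t = SemilinearAut.baseAut g (pval P t) := by
  have h := pval_smul_eq g P t
  rwa [𝒮.t_fixed g hg] at h

include 𝒮 in
/-- `t` is not constant. -/
theorem t_sub_ne_zero (τ : K) : t - algebraMap K F τ ≠ 0 := by
  intro h
  have ht : t = algebraMap K F τ := sub_eq_zero.mp h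
  have h1 := 𝒮.t_pole
  have hm := 𝒮.m_pos
  rcases eq_or_ne τ 0 with rfl | hτ
  · rw [ht, map_zero, Place.ord_zero] at h1
    omega
  · have h2 : pinf.adicValuation (algebraMap K F τ) = 1 := adicValuation_algebraMap pinf hτ
    have h3 : algebraMap K F τ ≠ 0 := by
      intro h0
      rw [h0, map_zero] at h2
      exact zero_ne_one h2
    rw [pinf.adicValuation_eq_exp_neg_ord h3, ← WithZero.exp_zero] at h2
    have h4 := WithZero.exp_le_exp.mp h2.le
    have h5 := WithZero.exp_le_exp.mp h2.ge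
    rw [ht] at h1
    omega

/-! ### Divisors of zeros -/

theorem isZDiv_unique {φ : F} {Z Z' : Place K F →₀ ℕ} (h : IsZDiv pinf φ Z)
    (h' : IsZDiv pinf φ Z') : Z = Z' := by
  ext P
  by_cases hP : P = pinf
  · rw [hP, h.1, h'.1]
  · have h1 := h.2 P hP
    rw [← h'.2 P hP] at h1
    exact_mod_cast h1

theorem isZDiv_smul {g : SemilinearAut K F} (hg : g ∈ 𝒮.Γ) {φ : F} {Z : Place K F →₀ ℕ}
    (h : IsZDiv pinf φ Z) : IsZDiv pinf (g • φ) (Z.mapDomain fun P => g • P) := by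
  have hinj : Function.Injective fun P : Place K F => g • P := MulAction.injective g
  refine ⟨?_, fun P hP => ?_⟩
  · have h1 := Finsupp.mapDomain_apply hinj Z pinf
    rw [𝒮.inf_fixed g hg] at h1
    rw [h1, h.1]
  · have hP' : g⁻¹ • P ≠ pinf := smul_ne_pinf 𝒮 (𝒮.Γ.inv_mem hg) hP
    have h1 := Finsupp.mapDomain_apply hinj Z (g⁻¹ • P)
    rw [smul_inv_smul] at h1
    rw [h1, h.2 _ hP']
    have h2 := SemilinearAut.ord_smul g (g⁻¹ • P) φ
    rw [smul_inv_smul] at h2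
    exact h2.symm

include 𝒮 in
/-- The fibre of `t` through a point. -/
theorem mem_fib_iff {τ : K} {Z : Place K F →₀ ℕ} (hZ : IsZDiv pinf (t - algebraMap K F τ) Z)
    (S : Place K F) : S ∈ Z.support ↔ S ≠ pinf ∧ pval S t = τ := by
  rw [Finsupp.mem_support_iff]
  constructor
  · intro h
    have hS : S ≠ pinf := by
      rintro rfl
      exact h hZ.1
    refine ⟨hS, pval_eq S ?_⟩
    rw [adicValuation_lt_one_iff_ord]
    right
    rw [← hZ.2 S hS]
    exact_mod_cast Nat.pos_of_ne_zero h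
  · rintro ⟨hS, hval⟩
    have h1 := pval_spec S (𝒮.resK S t (𝒮.t_reg S hS))
    rw [hval, adicValuation_lt_one_iff_ord] at h1
    rcases h1 with h1 | h1
    · exact absurd h1 (t_sub_ne_zero 𝒮 τ)
    · rw [← hZ.2 S hS] at h1
      intro h0
      rw [h0] at h1
      simp at h1

/-! ### Finite supports -/

theorem fs_const_mul {f : V → ℝ} (hf : Function.HasFiniteSupport f) (c : ℝ) :
    Function.HasFiniteSupport fun v => c * f v :=
  Set.Finite.subset hf fun v hv h0 => hv (by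
    show c * f v = 0
    rw [h0, mul_zero])

theorem fs_eta (P : Place K F) : Function.HasFiniteSupport fun v => 𝒮.eta v P := by
  refine (Ab.finite_gt_one (pval P t)).subset fun v hv => ?_
  by_contra hle
  apply hv
  show Real.log (max 1 (Ab.abv v (pval P t))) / m = 0
  rw [max_eq_left (not_lt.mp hle), Real.log_one, zero_div]

theorem fs_lam {p q : Place K F} (hp : p ≠ pinf) (hq : q ≠ pinf) :
    Function.HasFiniteSupport fun v => 𝒮.lam v p q := by
  rcases eq_or_ne p q with rfl | hne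
  · have h0 : (fun v => 𝒮.lam v p p) = fun _ => (0 : ℝ) := by
      funext v
      show -Real.log (𝒮.δ v p p) = 0
      rw [𝒮.δ_self v p hp, Real.log_zero, neg_zero]
    rw [h0]
    show (Function.support fun _ : V => (0 : ℝ)).Finite
    simp
  · refine (𝒮.δ_eq_one p q hp hq hne).subset fun v hv => ?_
    show 𝒮.δ v p q ≠ 1
    intro h1
    apply hv
    show -Real.log (𝒮.δ v p q) = 0
    rw [h1, Real.log_one, neg_zero]

theorem fs_logabs (Ab : AbsFamily K V) {y : K} (hy : y ≠ 0) :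
    Function.HasFiniteSupport fun v => Real.log (Ab.abv v y) := by
  refine ((Ab.finite_gt_one y).union (Ab.finite_gt_one y⁻¹)).subset fun v hv => ?_
  by_contra hcon
  rw [Set.mem_union, not_or] at hcon
  obtain ⟨h1, h2⟩ := hcon
  apply hv
  have h1' : Ab.abv v y ≤ 1 := not_lt.mp h1
  have h2' : Ab.abv v y⁻¹ ≤ 1 := not_lt.mp h2
  rw [map_inv₀] at h2'
  have hpos : 0 < Ab.abv v y := (Ab.abv v).pos hy
  have h3 : 1 ≤ Ab.abv v y := (inv_le_one₀ hpos).mp h2'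
  show Real.log (Ab.abv v y) = 0
  rw [le_antisymm h1' h3, Real.log_one]

theorem fs_logC {C : V → ℝ} (hC : Tame C) : Function.HasFiniteSupport fun v => Real.log (C v) := by
  refine hC.2.subset fun v hv => ?_
  show C v ≠ 1
  intro h1
  apply hv
  show Real.log (C v) = 0
  rw [h1, Real.log_one]

/-! ### Global sums -/

/-- The global sum over the coset representatives and the places. -/
def gs (w : SemilinearAut K F → V → ℝ) : ℝ := ∑ s ∈ 𝒮.Sg, ∑ᶠ v, w s v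

theorem gU_eq (p q : Place K F) : 𝒮.gU p q = gs 𝒮 fun s v => 𝒮.lam v (s • p) (s • q) := rfl

theorem etaU_eq (p : Place K F) : 𝒮.etaU p = gs 𝒮 fun s v => 𝒮.eta v (s • p) := rfl

theorem gs_add {w₁ w₂ : SemilinearAut K F → V → ℝ}
    (h₁ : ∀ s ∈ 𝒮.Sg, Function.HasFiniteSupport (w₁ s))
    (h₂ : ∀ s ∈ 𝒮.Sg, Function.HasFiniteSupport (w₂ s)) :
    gs 𝒮 (fun s v => w₁ s v + w₂ s v) = gs 𝒮 w₁ + gs 𝒮 w₂ := by
  unfold gs
  rw [← Finset.sum_add_distrib]
  exact Finset.sum_congr rfl fun s hs => finsum_add_distrib (h₁ s hs) (h₂ s hs)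

theorem gs_const_mul (c : ℝ) (w : SemilinearAut K F → V → ℝ) :
    gs 𝒮 (fun s v => c * w s v) = c * gs 𝒮 w := by
  unfold gs
  rw [Finset.mul_sum]
  exact Finset.sum_congr rfl fun s _ => (mul_finsum _ c).symm

theorem gs_le {w₁ w₂ : SemilinearAut K F → V → ℝ}
    (h₁ : ∀ s ∈ 𝒮.Sg, Function.HasFiniteSupport (w₁ s))
    (h₂ : ∀ s ∈ 𝒮.Sg, Function.HasFiniteSupport (w₂ s))
    (h : ∀ s ∈ 𝒮.Sg, ∀ v, w₁ s v ≤ w₂ s v) : gs 𝒮 w₁ ≤ gs 𝒮 w₂ :=
  Finset.sum_le_sum fun s hs => finsum_le_finsum' (h₁ s hs) (h₂ s hs) fun v => h s hs v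

theorem gs_finsupp_sum (D : Place K F →₀ ℕ) (w : Place K F → SemilinearAut K F → V → ℝ)
    (h : ∀ S ∈ D.support, ∀ s ∈ 𝒮.Sg, Function.HasFiniteSupport (w S s)) :
    gs 𝒮 (fun s v => D.sum fun S n => (n : ℝ) * w S s v)
      = D.sum fun S n => (n : ℝ) * gs 𝒮 (w S) := by
  unfold gs Finsupp.sum
  have e1 : ∀ s ∈ 𝒮.Sg, ∑ᶠ v, ∑ S ∈ D.support, (D S : ℝ) * w S s v
      = ∑ S ∈ D.support, (D S : ℝ) * ∑ᶠ v, w S s v := by
    intro s hs
    rw [finsum_sum_comm D.support (fun v S => (D S : ℝ) * w S s v)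
      (fun S hS => fs_const_mul (h S hS s hs) _)]
    exact Finset.sum_congr rfl fun S _ => (mul_finsum _ _).symm
  rw [Finset.sum_congr rfl e1, Finset.sum_comm]
  exact Finset.sum_congr rfl fun S _ => (Finset.mul_sum _ _ _).symm

theorem fs_finsupp_sum (D : Place K F →₀ ℕ) (w : Place K F → V → ℝ)
    (h : ∀ S ∈ D.support, Function.HasFiniteSupport (w S)) :
    Function.HasFiniteSupport fun v => D.sum fun S n => (n : ℝ) * w S v := by
  classical
  refine (Set.Finite.biUnion D.support.finite_toSet fun S hS => h S hS).subset fun v hv => ?_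
  by_contra hcon
  apply hv
  show (D.sum fun S n => (n : ℝ) * w S v) = 0
  refine Finset.sum_eq_zero fun S hS => ?_
  have h0 : w S v = 0 := by
    by_contra hne
    exact hcon (Set.mem_biUnion (Finset.mem_coe.mpr hS) hne)
  show (D S : ℝ) * w S v = 0
  rw [h0, mul_zero]

/-! ### The fibre inequality -/

include 𝒮 in
/-- The local fibre inequality: `-log` of the Lipschitz bound at `s • p`, for the fibre through
`s • q`. -/
theorem local_fib_ineq {C : V → ℝ} (hC : Tame C)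
    (hL : ∀ (v : V) (R : Place K F), R ≠ pinf → ∀ (τ : K) (Z : Place K F →₀ ℕ),
      IsZDiv pinf (t - algebraMap K F τ) Z →
      (Z.prod fun S n => 𝒮.δ v R S ^ n) * (max 1 (Ab.abv v (pval R t)) * max 1 (Ab.abv v τ)) ≤
        C v * Ab.abv v (pval R t - τ))
    {s : SemilinearAut K F} (hs : s ∈ 𝒮.Γ) (v : V) {p q : Place K F} (hp : p ≠ pinf)
    (hpq : pval p t ≠ pval q t) {Fq : Place K F →₀ ℕ}
    (hFq : IsZDiv pinf (t - algebraMap K F (pval q t)) Fq) :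
    (m : ℝ) * 𝒮.eta v (s • p) + (m : ℝ) * 𝒮.eta v (s • q)
      ≤ (Fq.sum fun S n => (n : ℝ) * 𝒮.lam v (s • p) (s • S))
        + Real.log (Ab.abv v (SemilinearAut.baseAut s (pval p t - pval q t)))
        + Real.log (C v) := by
  have hm : (m : ℝ) ≠ 0 := Nat.cast_ne_zero.mpr 𝒮.m_pos.ne'
  have hsp := smul_ne_pinf 𝒮 hs hp
  have hZs := isZDiv_smul 𝒮 hs hFq
  have e1 : s • (t - algebraMap K F (pval q t))
      = t - algebraMap K F (SemilinearAut.baseAut s (pval q t)) := by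
    rw [smul_sub, 𝒮.t_fixed s hs, SemilinearAut.smul_algebraMap]
  rw [e1] at hZs
  have key := hL v (s • p) hsp _ _ hZs
  rw [Finsupp.prod_mapDomain_index_inj (MulAction.injective s), pval_smul_t 𝒮 hs p,
    ← map_sub] at key
  have hδ : ∀ S ∈ Fq.support, 0 < 𝒮.δ v (s • p) (s • S) := by
    intro S hS
    obtain ⟨hS1, hS2⟩ := (mem_fib_iff 𝒮 hFq S).mp hS
    refine 𝒮.δ_pos v _ _ hsp (smul_ne_pinf 𝒮 hs hS1) ?_
    intro h
    have hpS : p = S := MulAction.injective s h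
    rw [hpS, hS2] at hpq
    exact hpq rfl
  have hXpos : 0 < Fq.prod fun S n => 𝒮.δ v (s • p) (s • S) ^ n :=
    Finset.prod_pos fun S hS => pow_pos (hδ S hS) _
  have hY : 0 < max 1 (Ab.abv v (SemilinearAut.baseAut s (pval p t))) :=
    lt_of_lt_of_le one_pos (le_max_left _ _)
  have hY' : 0 < max 1 (Ab.abv v (SemilinearAut.baseAut s (pval q t))) :=
    lt_of_lt_of_le one_pos (le_max_left _ _)
  have hCv : 0 < C v := hC.pos v
  have hlhs := mul_pos hXpos (mul_pos hY hY')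
  have hrhs := lt_of_lt_of_le hlhs key
  have habs : 0 < Ab.abv v (SemilinearAut.baseAut s (pval p t - pval q t)) :=
    (mul_pos_iff_of_pos_left hCv).mp hrhs
  have hlog := Real.log_le_log hlhs key
  rw [Real.log_mul hXpos.ne' (mul_pos hY hY').ne', Real.log_mul hY.ne' hY'.ne',
    Real.log_mul hCv.ne' habs.ne'] at hlog
  have hlogX : Real.log (Fq.prod fun S n => 𝒮.δ v (s • p) (s • S) ^ n)
      = -(Fq.sum fun S n => (n : ℝ) * 𝒮.lam v (s • p) (s • S)) := by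
    rw [Finsupp.prod, Real.log_prod (fun S hS => (pow_pos (hδ S hS) _).ne'), Finsupp.sum,
      ← Finset.sum_neg_distrib]
    refine Finset.sum_congr rfl fun S _ => ?_
    rw [Real.log_pow]
    show _ = -((Fq S : ℝ) * -Real.log (𝒮.δ v (s • p) (s • S)))
    ring
  have heta1 : (m : ℝ) * 𝒮.eta v (s • p)
      = Real.log (max 1 (Ab.abv v (SemilinearAut.baseAut s (pval p t)))) := by
    show (m : ℝ) * (Real.log (max 1 (Ab.abv v (pval (s • p) t))) / m) = _
    rw [pval_smul_t 𝒮 hs p, mul_div_cancel₀ _ hm]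
  have heta2 : (m : ℝ) * 𝒮.eta v (s • q)
      = Real.log (max 1 (Ab.abv v (SemilinearAut.baseAut s (pval q t)))) := by
    show (m : ℝ) * (Real.log (max 1 (Ab.abv v (pval (s • q) t))) / m) = _
    rw [pval_smul_t 𝒮 hs q, mul_div_cancel₀ _ hm]
  rw [heta1, heta2]
  rw [hlogX] at hlog
  linarith

/-- The global logarithmic size of a constant. -/
def Lam (c : K) : ℝ := gs 𝒮 fun s v => Real.log (Ab.abv v (SemilinearAut.baseAut s c))

theorem Lam_one : Lam 𝒮 (1 : K) = 0 := by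
  unfold Lam gs
  refine Finset.sum_eq_zero fun s _ => ?_
  have h0 : (fun v => Real.log (Ab.abv v (SemilinearAut.baseAut s (1 : K)))) = fun _ => (0 : ℝ) := by
    funext v
    rw [map_one, map_one, Real.log_one]
  rw [h0, finsum_zero]

theorem Lam_mul {x y : K} (hx : x ≠ 0) (hy : y ≠ 0) : Lam 𝒮 (x * y) = Lam 𝒮 x + Lam 𝒮 y := by
  unfold Lam
  rw [← gs_add 𝒮 (fun s _ => fs_logabs Ab ((map_ne_zero _).mpr hx))
    (fun s _ => fs_logabs Ab ((map_ne_zero _).mpr hy))]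
  congr 1
  funext s v
  rw [map_mul, map_mul, Real.log_mul]
  · exact ((Ab.abv v).pos ((map_ne_zero _).mpr hx)).ne'
  · exact ((Ab.abv v).pos ((map_ne_zero _).mpr hy)).ne'

theorem Lam_pow (x : K) (n : ℕ) : Lam 𝒮 (x ^ n) = (n : ℝ) * Lam 𝒮 x := by
  unfold Lam
  rw [← gs_const_mul]
  congr 1
  funext s v
  rw [map_pow, map_pow, Real.log_pow]

theorem Lam_prod {ι : Type*} (I : Finset ι) (x : ι → K) (hx : ∀ i ∈ I, x i ≠ 0) :
    Lam 𝒮 (∏ i ∈ I, x i) = ∑ i ∈ I, Lam 𝒮 (x i) := by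
  classical
  induction I using Finset.induction_on with
  | empty => rw [Finset.prod_empty, Finset.sum_empty, Lam_one]
  | insert i I hi ih =>
    rw [Finset.prod_insert hi, Finset.sum_insert hi,
      Lam_mul 𝒮 (hx i (Finset.mem_insert_self i I))
        (Finset.prod_ne_zero_iff.mpr fun j hj => hx j (Finset.mem_insert_of_mem hj)),
      ih fun j hj => hx j (Finset.mem_insert_of_mem hj)]

/-- The global fibre inequality. -/
theorem global_fib_ineq {C : V → ℝ} (hC : Tame C)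
    (hL : ∀ (v : V) (R : Place K F), R ≠ pinf → ∀ (τ : K) (Z : Place K F →₀ ℕ),
      IsZDiv pinf (t - algebraMap K F τ) Z →
      (Z.prod fun S n => 𝒮.δ v R S ^ n) * (max 1 (Ab.abv v (pval R t)) * max 1 (Ab.abv v τ)) ≤
        C v * Ab.abv v (pval R t - τ))
    {p q : Place K F} (hp : p ≠ pinf) (hpq : pval p t ≠ pval q t) {Fq : Place K F →₀ ℕ}
    (hFq : IsZDiv pinf (t - algebraMap K F (pval q t)) Fq) :
    (m : ℝ) * 𝒮.etaU p + (m : ℝ) * 𝒮.etaU q
      ≤ (Fq.sum fun S n => (n : ℝ) * 𝒮.gU p S) + Lam 𝒮 (pval p t - pval q t)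
        + (𝒮.Sg.card : ℝ) * ∑ᶠ v, Real.log (C v) := by
  have hne : pval p t - pval q t ≠ 0 := sub_ne_zero.mpr hpq
  -- the four families
  have hf1 : ∀ s ∈ 𝒮.Sg, Function.HasFiniteSupport fun v => (m : ℝ) * 𝒮.eta v (s • p) :=
    fun s _ => fs_const_mul (fs_eta 𝒮 (s • p)) _
  have hf2 : ∀ s ∈ 𝒮.Sg, Function.HasFiniteSupport fun v => (m : ℝ) * 𝒮.eta v (s • q) :=
    fun s _ => fs_const_mul (fs_eta 𝒮 (s • q)) _
  have hlamfs : ∀ S ∈ Fq.support, ∀ s ∈ 𝒮.Sg,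
      Function.HasFiniteSupport fun v => 𝒮.lam v (s • p) (s • S) := by
    intro S hS s hs
    exact fs_lam 𝒮 (smul_ne_pinf 𝒮 (𝒮.Sg_mem s hs) hp)
      (smul_ne_pinf 𝒮 (𝒮.Sg_mem s hs) ((mem_fib_iff 𝒮 hFq S).mp hS).1)
  have hf3 : ∀ s ∈ 𝒮.Sg, Function.HasFiniteSupport fun v =>
      Fq.sum fun S n => (n : ℝ) * 𝒮.lam v (s • p) (s • S) :=
    fun s hs => fs_finsupp_sum Fq (fun S v => 𝒮.lam v (s • p) (s • S))
      fun S hS => hlamfs S hS s hs
  have hf4 : ∀ s ∈ 𝒮.Sg, Function.HasFiniteSupport fun v =>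
      Real.log (Ab.abv v (SemilinearAut.baseAut s (pval p t - pval q t))) :=
    fun s _ => fs_logabs Ab ((map_ne_zero _).mpr hne)
  have hf5 : ∀ s ∈ 𝒮.Sg, Function.HasFiniteSupport fun v => Real.log (C v) :=
    fun s _ => fs_logC hC
  have hf34 : ∀ s ∈ 𝒮.Sg, Function.HasFiniteSupport fun v =>
      (Fq.sum fun S n => (n : ℝ) * 𝒮.lam v (s • p) (s • S))
        + Real.log (Ab.abv v (SemilinearAut.baseAut s (pval p t - pval q t))) :=
    fun s hs => (hf3 s hs).add (hf4 s hs)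
  have hf12 : ∀ s ∈ 𝒮.Sg, Function.HasFiniteSupport fun v =>
      (m : ℝ) * 𝒮.eta v (s • p) + (m : ℝ) * 𝒮.eta v (s • q) :=
    fun s hs => (hf1 s hs).add (hf2 s hs)
  have hf345 : ∀ s ∈ 𝒮.Sg, Function.HasFiniteSupport fun v =>
      (Fq.sum fun S n => (n : ℝ) * 𝒮.lam v (s • p) (s • S))
        + Real.log (Ab.abv v (SemilinearAut.baseAut s (pval p t - pval q t)))
        + Real.log (C v) :=
    fun s hs => (hf34 s hs).add (hf5 s hs)
  have main := gs_le 𝒮 hf12 hf345 fun s hs v =>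
    local_fib_ineq 𝒮 hC hL (𝒮.Sg_mem s hs) v hp hpq hFq
  have eL : gs 𝒮 (fun s v => (m : ℝ) * 𝒮.eta v (s • p) + (m : ℝ) * 𝒮.eta v (s • q))
      = (m : ℝ) * 𝒮.etaU p + (m : ℝ) * 𝒮.etaU q := by
    rw [gs_add 𝒮 hf1 hf2, gs_const_mul, gs_const_mul]
    rfl
  have eR : gs 𝒮 (fun s v => (Fq.sum fun S n => (n : ℝ) * 𝒮.lam v (s • p) (s • S))
        + Real.log (Ab.abv v (SemilinearAut.baseAut s (pval p t - pval q t)))
        + Real.log (C v))
      = (Fq.sum fun S n => (n : ℝ) * 𝒮.gU p S) + Lam 𝒮 (pval p t - pval q t)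
        + (𝒮.Sg.card : ℝ) * ∑ᶠ v, Real.log (C v) := by
    rw [gs_add 𝒮 hf34 hf5, gs_add 𝒮 hf3 hf4,
      gs_finsupp_sum 𝒮 Fq (fun S s v => 𝒮.lam v (s • p) (s • S)) hlamfs]
    have e5 : gs 𝒮 (fun _ v => Real.log (C v)) = (𝒮.Sg.card : ℝ) * ∑ᶠ v, Real.log (C v) := by
      unfold gs
      rw [Finset.sum_const, nsmul_eq_mul]
    rw [e5]
    rfl
  rw [eL, eR] at main
  exact main

/-! ### Weighted sums -/

section Generic

variable {P : Type*}

theorem pairG_eq_sum (X : P → P → ℝ) (Z E : P →₀ ℕ) :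
    pairG X Z E = ∑ p ∈ Z.support, ∑ q ∈ E.support, (Z p : ℝ) * (E q : ℝ) * X p q := rfl

theorem deg_eq_sum (D : P →₀ ℕ) : deg D = ∑ p ∈ D.support, D p := rfl

theorem ht_eq_sum (η : P → ℝ) (D : P →₀ ℕ) : ht η D = ∑ p ∈ D.support, (D p : ℝ) * η p := rfl

theorem pairG_le_of_le {X Y : P → P → ℝ} {Z E : P →₀ ℕ}
    (h : ∀ p ∈ Z.support, ∀ q ∈ E.support, X p q ≤ Y p q) : pairG X Z E ≤ pairG Y Z E := by
  rw [pairG_eq_sum, pairG_eq_sum]
  exact Finset.sum_le_sum fun p hp => Finset.sum_le_sum fun q hq =>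
    mul_le_mul_of_nonneg_left (h p hp q hq) (mul_nonneg (Nat.cast_nonneg _) (Nat.cast_nonneg _))

theorem pairG_fun_add (X Y : P → P → ℝ) (Z E : P →₀ ℕ) :
    pairG (fun p q => X p q + Y p q) Z E = pairG X Z E + pairG Y Z E := by
  rw [pairG_eq_sum, pairG_eq_sum, pairG_eq_sum, ← Finset.sum_add_distrib]
  refine Finset.sum_congr rfl fun p _ => ?_
  rw [← Finset.sum_add_distrib]
  refine Finset.sum_congr rfl fun q _ => ?_
  ring

theorem pairG_fun_const (c : ℝ) (Z E : P →₀ ℕ) :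
    pairG (fun _ _ => c) Z E = (deg Z : ℝ) * (deg E : ℝ) * c := by
  rw [pairG_eq_sum, deg_eq_sum, deg_eq_sum, Nat.cast_sum, Nat.cast_sum, Finset.sum_mul_sum,
    Finset.sum_mul]
  refine Finset.sum_congr rfl fun p _ => ?_
  rw [Finset.sum_mul]

theorem pairG_fun_left (c : ℝ) (η : P → ℝ) (Z E : P →₀ ℕ) :
    pairG (fun p _ => c * η p) Z E = c * ((deg E : ℝ) * ht η Z) := by
  rw [pairG_eq_sum, deg_eq_sum, ht_eq_sum, Nat.cast_sum, Finset.sum_mul_sum, Finset.mul_sum,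
    Finset.sum_comm]
  refine Finset.sum_congr rfl fun q _ => ?_
  rw [Finset.mul_sum]
  refine Finset.sum_congr rfl fun p _ => ?_
  ring

theorem pairG_fun_right (c : ℝ) (η : P → ℝ) (Z E : P →₀ ℕ) :
    pairG (fun _ q => c * η q) Z E = c * ((deg Z : ℝ) * ht η E) := by
  rw [pairG_eq_sum, deg_eq_sum, ht_eq_sum, Nat.cast_sum, Finset.sum_mul_sum, Finset.mul_sum]
  refine Finset.sum_congr rfl fun p _ => ?_
  rw [Finset.mul_sum]
  refine Finset.sum_congr rfl fun q _ => ?_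
  ring

/-- Additivity of the mutual energy in the second variable, bundled. -/
def pairGHom (X : P → P → ℝ) (Z : P →₀ ℕ) : (P →₀ ℕ) →+ ℝ where
  toFun := pairG X Z
  map_zero' := pairG_zero_right X Z
  map_add' := pairG_add_right X Z

/-- The degree, bundled. -/
def degHom : (P →₀ ℕ) →+ ℕ where
  toFun := deg
  map_zero' := deg_zero
  map_add' := deg_add

/-- The height, bundled. -/
def htHom (η : P → ℝ) : (P →₀ ℕ) →+ ℝ where
  toFun := ht η
  map_zero' := ht_zero η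
  map_add' := ht_add η

/-- The divisor `∑_q E q · Φ q`. -/
def sharp (Φ : P → (P →₀ ℕ)) (E : P →₀ ℕ) : P →₀ ℕ := E.sum fun q b => b • Φ q

theorem sharp_apply (Φ : P → (P →₀ ℕ)) (E : P →₀ ℕ) (S : P) :
    sharp Φ E S = ∑ q ∈ E.support, E q * Φ q S := by
  unfold sharp
  rw [Finsupp.sum_apply]
  rfl

theorem pairG_sharp (X : P → P → ℝ) (Φ : P → (P →₀ ℕ)) (Z E : P →₀ ℕ) :
    pairG X Z (sharp Φ E) = pairG (fun p q => (Φ q).sum fun S n => (n : ℝ) * X p S) Z E := by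
  have h1 : pairG X Z (sharp Φ E) = ∑ q ∈ E.support, (E q : ℝ) * pairG X Z (Φ q) := by
    show pairGHom X Z (E.sum fun q b => b • Φ q) = _
    rw [map_finsuppSum]
    refine Finset.sum_congr rfl fun q _ => ?_
    show pairGHom X Z (E q • Φ q) = _
    rw [map_nsmul, nsmul_eq_mul]
    rfl
  have h2 : pairG (fun p q => (Φ q).sum fun S n => (n : ℝ) * X p S) Z E
      = ∑ q ∈ E.support, ∑ p ∈ Z.support,
          (Z p : ℝ) * (E q : ℝ) * ∑ S ∈ (Φ q).support, ((Φ q) S : ℝ) * X p S := by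
    rw [pairG_eq_sum, Finset.sum_comm]
    rfl
  rw [h1, h2]
  refine Finset.sum_congr rfl fun q _ => ?_
  rw [pairG_eq_sum, Finset.mul_sum]
  refine Finset.sum_congr rfl fun p _ => ?_
  rw [Finset.mul_sum, Finset.mul_sum]
  refine Finset.sum_congr rfl fun S _ => ?_
  ring

theorem deg_sharp (Φ : P → (P →₀ ℕ)) (E : P →₀ ℕ) (d : ℕ)
    (hΦ : ∀ q ∈ E.support, deg (Φ q) = d) : deg (sharp Φ E) = d * deg E := by
  have h1 : deg (sharp Φ E) = ∑ q ∈ E.support, E q * deg (Φ q) := by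
    show degHom (E.sum fun q b => b • Φ q) = _
    rw [map_finsuppSum]
    refine Finset.sum_congr rfl fun q _ => ?_
    show degHom (E q • Φ q) = _
    rw [map_nsmul, smul_eq_mul]
    rfl
  rw [h1, deg_eq_sum, Finset.mul_sum]
  refine Finset.sum_congr rfl fun q hq => ?_
  rw [hΦ q hq, mul_comm]

theorem ht_sharp (η : P → ℝ) (Φ : P → (P →₀ ℕ)) (E : P →₀ ℕ) (d : ℝ)
    (hΦ : ∀ q ∈ E.support, ht η (Φ q) = d * η q) : ht η (sharp Φ E) = d * ht η E := by
  have h1 : ht η (sharp Φ E) = ∑ q ∈ E.support, (E q : ℝ) * ht η (Φ q) := by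
    show htHom η (E.sum fun q b => b • Φ q) = _
    rw [map_finsuppSum]
    refine Finset.sum_congr rfl fun q _ => ?_
    show htHom η (E q • Φ q) = _
    rw [map_nsmul, nsmul_eq_mul]
    rfl
  rw [h1, ht_eq_sum, Finset.mul_sum]
  refine Finset.sum_congr rfl fun q hq => ?_
  rw [hΦ q hq]
  ring

end Generic

/-! ### Fibres -/

/-- The fibre of `t` through `q`. -/
def Fib (q : Place K F) : Place K F →₀ ℕ := Classical.choose (𝒮.fib (pval q t))

theorem Fib_spec (q : Place K F) : IsZDiv pinf (t - algebraMap K F (pval q t)) (Fib 𝒮 q) :=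
  (Classical.choose_spec (𝒮.fib (pval q t))).1

theorem Fib_deg (q : Place K F) : deg (Fib 𝒮 q) = m :=
  (Classical.choose_spec (𝒮.fib (pval q t))).2

theorem mem_Fib_iff (q S : Place K F) :
    S ∈ (Fib 𝒮 q).support ↔ S ≠ pinf ∧ pval S t = pval q t :=
  mem_fib_iff 𝒮 (Fib_spec 𝒮 q) S

theorem etaU_congr {S q : Place K F} (h : pval S t = pval q t) : 𝒮.etaU S = 𝒮.etaU q := by
  unfold Setting.etaU
  refine Finset.sum_congr rfl fun s hs => ?_
  congr 1
  funext v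
  show Real.log (max 1 (Ab.abv v (pval (s • S) t))) / m
    = Real.log (max 1 (Ab.abv v (pval (s • q) t))) / m
  rw [pval_smul_t 𝒮 (𝒮.Sg_mem s hs), pval_smul_t 𝒮 (𝒮.Sg_mem s hs), h]

theorem ht_Fib (q : Place K F) : ht 𝒮.etaU (Fib 𝒮 q) = (m : ℝ) * 𝒮.etaU q := by
  have h1 : ht 𝒮.etaU (Fib 𝒮 q) = ∑ S ∈ (Fib 𝒮 q).support, ((Fib 𝒮 q) S : ℝ) * 𝒮.etaU q := by
    rw [ht_eq_sum]
    refine Finset.sum_congr rfl fun S hS => ?_
    rw [etaU_congr 𝒮 ((mem_Fib_iff 𝒮 q S).mp hS).2]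
  rw [h1, ← Finset.sum_mul, ← Nat.cast_sum, ← deg_eq_sum, Fib_deg]

theorem Fib_smul {u : SemilinearAut K F} (hu : u ∈ 𝒮.Γ) (q : Place K F) :
    (Fib 𝒮 q).mapDomain (fun P => u • P) = Fib 𝒮 (u • q) := by
  have h1 := isZDiv_smul 𝒮 hu (Fib_spec 𝒮 q)
  have e1 : u • (t - algebraMap K F (pval q t)) = t - algebraMap K F (pval (u • q) t) := by
    rw [smul_sub, 𝒮.t_fixed u hu, SemilinearAut.smul_algebraMap, pval_smul_t 𝒮 hu]
  rw [e1] at h1
  exact isZDiv_unique h1 (Fib_spec 𝒮 (u • q))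

theorem sharp_Fib_pinf (E : Place K F →₀ ℕ) : sharp (Fib 𝒮) E pinf = 0 := by
  rw [sharp_apply]
  refine Finset.sum_eq_zero fun q _ => ?_
  rw [(Fib_spec 𝒮 q).1, mul_zero]

theorem sharp_Fib_smul {u : SemilinearAut K F} (hu : u ∈ 𝒮.Γ) {E : Place K F →₀ ℕ}
    (hE : E.mapDomain (fun P => u • P) = E) :
    (sharp (Fib 𝒮) E).mapDomain (fun P => u • P) = sharp (Fib 𝒮) E := by
  have h1 : (sharp (Fib 𝒮) E).mapDomain (fun P => u • P)
      = E.sum fun q b => b • Fib 𝒮 (u • q) := by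
    show Finsupp.mapDomain.addMonoidHom (fun P : Place K F => u • P)
      (E.sum fun q b => b • Fib 𝒮 q) = _
    rw [map_finsuppSum]
    refine Finset.sum_congr rfl fun q _ => ?_
    show Finsupp.mapDomain.addMonoidHom (fun P : Place K F => u • P) (E q • Fib 𝒮 q)
      = E q • Fib 𝒮 (u • q)
    rw [map_nsmul]
    show E q • Finsupp.mapDomain (fun P => u • P) (Fib 𝒮 q) = _
    rw [Fib_smul 𝒮 hu]
  have h2 : sharp (Fib 𝒮) (E.mapDomain fun P => u • P)
      = E.sum fun q b => b • Fib 𝒮 (u • q) := by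
    unfold sharp
    exact Finsupp.sum_mapDomain_index (fun _ => zero_smul _ _) (fun _ _ _ => add_smul _ _ _)
  rw [h1, ← h2, hE]

theorem le_sharp_Fib {E : Place K F →₀ ℕ} (hE : E pinf = 0) : E ≤ sharp (Fib 𝒮) E := by
  rw [Finsupp.le_def]
  intro q
  by_cases hq : q ∈ E.support
  · have hqne : q ≠ pinf := by
      rintro rfl
      exact (Finsupp.mem_support_iff.mp hq) hE
    have h1 : 1 ≤ Fib 𝒮 q q := by
      have h := (mem_Fib_iff 𝒮 q q).mpr ⟨hqne, rfl⟩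
      exact Nat.one_le_iff_ne_zero.mpr (Finsupp.mem_support_iff.mp h)
    rw [sharp_apply]
    calc E q ≤ E q * Fib 𝒮 q q := Nat.le_mul_of_pos_right _ h1
      _ ≤ ∑ q' ∈ E.support, E q' * Fib 𝒮 q' q :=
        Finset.single_le_sum (f := fun q' => E q' * Fib 𝒮 q' q) (fun _ _ => Nat.zero_le _) hq
  · rw [Finsupp.notMem_support_iff.mp hq]
    exact Nat.zero_le _

theorem exists_of_sharp_ne_zero {E : Place K F →₀ ℕ} {S : Place K F}
    (hS : sharp (Fib 𝒮) E S ≠ 0) : ∃ q ∈ E.support, pval S t = pval q t := by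
  by_contra hcon
  apply hS
  rw [sharp_apply]
  refine Finset.sum_eq_zero fun q hq => ?_
  have h0 : Fib 𝒮 q S = 0 := by
    by_contra h
    exact hcon ⟨q, hq, ((mem_Fib_iff 𝒮 q S).mp (Finsupp.mem_support_iff.mpr h)).2⟩
  rw [h0, mul_zero]

/-- The divisor of zeros of a `U`-fixed combination of a `Γ`-fixed family is `U`-stable. -/
theorem zdiv_stable {ι : Type} [Fintype ι] {f : ι → F} {M : ℕ} (hf : 𝒮.Fam f M) {a : ι → K}
    (ha : 𝒮.UFix a) {Z : Place K F →₀ ℕ} (hZ : IsZDiv pinf (∑ i, a i • f i) Z)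
    {u : SemilinearAut K F} (hu : u ∈ 𝒮.U) : Z.mapDomain (fun P => u • P) = Z := by
  have huΓ := 𝒮.U_le hu
  have h1 := isZDiv_smul 𝒮 huΓ hZ
  have e1 : u • (∑ i, a i • f i) = ∑ i, a i • f i := by
    rw [Finset.smul_sum]
    refine Finset.sum_congr rfl fun i _ => ?_
    rw [Algebra.smul_def, smul_mul', SemilinearAut.smul_algebraMap, hf.fixed u huΓ i, ha u hu i,
      ← Algebra.smul_def]
  rw [e1] at h1
  exact isZDiv_unique h1 hZ

/-! ### The product formula for the resultant -/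

/-- The resultant-type product `∏_{p ∈ Z, q ∈ E} (t(p) − t(q))`. -/
def Pi (_𝒮 : Setting Ab pinf t m) (Z E : Place K F →₀ ℕ) : K :=
  Z.prod fun p a => E.prod fun q b => (pval p t - pval q t) ^ (a * b)

theorem Pi_smul {u : SemilinearAut K F} (hu : u ∈ 𝒮.Γ) (Z E : Place K F →₀ ℕ) :
    SemilinearAut.baseAut u (Pi 𝒮 Z E)
      = Pi 𝒮 (Z.mapDomain fun P => u • P) (E.mapDomain fun P => u • P) := by
  unfold Pi
  rw [Finsupp.prod_mapDomain_index_inj (MulAction.injective u), Finsupp.prod, Finsupp.prod,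
    map_prod]
  refine Finset.prod_congr rfl fun p _ => ?_
  rw [Finsupp.prod_mapDomain_index_inj (MulAction.injective u), Finsupp.prod, Finsupp.prod,
    map_prod]
  refine Finset.prod_congr rfl fun q _ => ?_
  rw [map_pow, map_sub, pval_smul_t 𝒮 hu, pval_smul_t 𝒮 hu]

theorem Pi_ne_zero {Z E : Place K F →₀ ℕ}
    (hfar : ∀ p ∈ Z.support, ∀ q ∈ E.support, pval p t ≠ pval q t) : Pi 𝒮 Z E ≠ 0 :=
  Finset.prod_ne_zero_iff.mpr fun p hp => Finset.prod_ne_zero_iff.mpr fun q hq =>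
    pow_ne_zero _ (sub_ne_zero.mpr (hfar p hp q hq))

theorem Lam_Pi {Z E : Place K F →₀ ℕ}
    (hfar : ∀ p ∈ Z.support, ∀ q ∈ E.support, pval p t ≠ pval q t) :
    Lam 𝒮 (Pi 𝒮 Z E) = pairG (fun p q => Lam 𝒮 (pval p t - pval q t)) Z E := by
  have hne : ∀ p ∈ Z.support, ∀ q ∈ E.support, (pval p t - pval q t) ^ (Z p * E q) ≠ 0 :=
    fun p hp q hq => pow_ne_zero _ (sub_ne_zero.mpr (hfar p hp q hq))
  have e1 : Pi 𝒮 Z E
      = ∏ p ∈ Z.support, ∏ q ∈ E.support, (pval p t - pval q t) ^ (Z p * E q) := rfl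
  rw [e1, Lam_prod 𝒮 _ _
    (fun p hp => Finset.prod_ne_zero_iff.mpr fun q hq => hne p hp q hq), pairG_eq_sum]
  refine Finset.sum_congr rfl fun p hp => ?_
  rw [Lam_prod 𝒮 _ _ (fun q hq => hne p hp q hq)]
  refine Finset.sum_congr rfl fun q _ => ?_
  rw [Lam_pow, Nat.cast_mul]

theorem pairG_Lam_eq_zero {Z E : Place K F →₀ ℕ}
    (hZ : ∀ u ∈ 𝒮.U, Z.mapDomain (fun P => u • P) = Z)
    (hE : ∀ u ∈ 𝒮.U, E.mapDomain (fun P => u • P) = E)
    (hfar : ∀ p ∈ Z.support, ∀ q ∈ E.support, pval p t ≠ pval q t) :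
    pairG (fun p q => Lam 𝒮 (pval p t - pval q t)) Z E = 0 := by
  rw [← Lam_Pi 𝒮 hfar]
  exact 𝒮.pf _ (Pi_ne_zero 𝒮 hfar) fun u hu => by
    rw [Pi_smul 𝒮 (𝒮.U_le hu), hZ u hu, hE u hu]

end RecUp

namespace Setting

/-- **G3 (RecUp).**  The fibre trick: the reverse reciprocity inequality in `t`-general
position, from (M≤) (through G1) and the fibre Lipschitz bound. -/
theorem recUp_raw (hM : 𝒮.MLe) (hL : 𝒮.Lip) {ι : Type} [Fintype ι] (f : ι → F) (M : ℕ)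
    (hf : 𝒮.Fam f M) (e : ℕ) :
    ∃ C : ℝ, ∀ a : ι → K, 𝒮.UFix a → (∑ i, a i • f i) ≠ 0 →
      ∀ Z : Place K F →₀ ℕ, IsZDiv pinf (∑ i, a i • f i) Z → deg Z ≤ M →
      ∀ E ∈ 𝒮.RatU, deg E ≤ e → Far 𝒮.far Z E →
        (m : ℝ) * ((deg E : ℝ) * ht 𝒮.etaU Z + (deg Z : ℝ) * ht 𝒮.etaU E) ≤
          pairG 𝒮.gU Z E
            + ((m : ℝ) - 1) * ((deg E : ℝ) * 𝒮.hU a + (M : ℝ) * ht 𝒮.etaU E) + C := by
  obtain ⟨C₁, hC₁⟩ := 𝒮.recLow_raw hM f M hf ((m - 1) * e)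
  obtain ⟨C, hCt, hC⟩ := hL
  refine ⟨C₁ + (M : ℝ) * (e : ℝ) * |(𝒮.Sg.card : ℝ) * ∑ᶠ v, Real.log (C v)|, ?_⟩
  intro a ha hφ Z hZ hZM E hE hEe hfar
  have hm1 : 1 ≤ m := 𝒮.m_pos
  have hfar' : ∀ p ∈ Z.support, ∀ q ∈ E.support, pval p t ≠ pval q t :=
    fun p hp q hq => hfar p hp q hq
  have hZne : ∀ p ∈ Z.support, p ≠ pinf := by
    rintro p hp rfl
    exact (Finsupp.mem_support_iff.mp hp) hZ.1
  -- the pointwise fibre inequality, summed over `Z × E`
  have h1 : pairG (fun p q => (m : ℝ) * 𝒮.etaU p + (m : ℝ) * 𝒮.etaU q) Z E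
      ≤ pairG (fun p q => ((RecUp.Fib 𝒮 q).sum fun S n => (n : ℝ) * 𝒮.gU p S)
          + RecUp.Lam 𝒮 (pval p t - pval q t)
          + (𝒮.Sg.card : ℝ) * ∑ᶠ v, Real.log (C v)) Z E :=
    RecUp.pairG_le_of_le fun p hp q hq =>
      RecUp.global_fib_ineq 𝒮 hCt hC (hZne p hp) (hfar' p hp q hq) (RecUp.Fib_spec 𝒮 q)
  have e1 : pairG (fun p q => (m : ℝ) * 𝒮.etaU p + (m : ℝ) * 𝒮.etaU q) Z E
      = (m : ℝ) * ((deg E : ℝ) * ht 𝒮.etaU Z) + (m : ℝ) * ((deg Z : ℝ) * ht 𝒮.etaU E) := by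
    rw [RecUp.pairG_fun_add (fun p _ => (m : ℝ) * 𝒮.etaU p) (fun _ q => (m : ℝ) * 𝒮.etaU q),
      RecUp.pairG_fun_left, RecUp.pairG_fun_right]
  have e2 : pairG (fun p q => ((RecUp.Fib 𝒮 q).sum fun S n => (n : ℝ) * 𝒮.gU p S)
          + RecUp.Lam 𝒮 (pval p t - pval q t)
          + (𝒮.Sg.card : ℝ) * ∑ᶠ v, Real.log (C v)) Z E
      = pairG 𝒮.gU Z (RecUp.sharp (RecUp.Fib 𝒮) E)
        + (deg Z : ℝ) * (deg E : ℝ) * ((𝒮.Sg.card : ℝ) * ∑ᶠ v, Real.log (C v)) := by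
    rw [RecUp.pairG_fun_add
        (fun p q => ((RecUp.Fib 𝒮 q).sum fun S n => (n : ℝ) * 𝒮.gU p S)
          + RecUp.Lam 𝒮 (pval p t - pval q t))
        (fun _ _ => (𝒮.Sg.card : ℝ) * ∑ᶠ v, Real.log (C v)),
      RecUp.pairG_fun_add (fun p q => ((RecUp.Fib 𝒮 q).sum fun S n => (n : ℝ) * 𝒮.gU p S))
        (fun p q => RecUp.Lam 𝒮 (pval p t - pval q t)),
      RecUp.pairG_Lam_eq_zero 𝒮 (fun u hu => RecUp.zdiv_stable 𝒮 hf ha hZ hu) hE.2 hfar',
      RecUp.pairG_fun_const, ← RecUp.pairG_sharp, add_zero]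
  -- the residual divisor `E' = E♯ − E`
  obtain ⟨E', hEs⟩ : ∃ E', RecUp.sharp (RecUp.Fib 𝒮) E = E + E' :=
    le_iff_exists_add.mp (RecUp.le_sharp_Fib 𝒮 hE.1)
  have hdegs : deg (RecUp.sharp (RecUp.Fib 𝒮) E) = m * deg E :=
    RecUp.deg_sharp _ E m fun q _ => RecUp.Fib_deg 𝒮 q
  have hhts : ht 𝒮.etaU (RecUp.sharp (RecUp.Fib 𝒮) E) = (m : ℝ) * ht 𝒮.etaU E :=
    RecUp.ht_sharp _ _ E m fun q _ => RecUp.ht_Fib 𝒮 q
  have hdeg' : deg E' = (m - 1) * deg E := by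
    have h := hdegs
    rw [hEs, deg_add] at h
    rw [Nat.sub_one_mul]
    omega
  have hht' : ht 𝒮.etaU E' = ((m : ℝ) - 1) * ht 𝒮.etaU E := by
    have h := hhts
    rw [hEs, ht_add] at h
    linarith
  have hE'mem : E' ∈ 𝒮.RatU := by
    refine ⟨?_, fun u hu => ?_⟩
    · have h := RecUp.sharp_Fib_pinf 𝒮 E
      rw [hEs, Finsupp.add_apply] at h
      omega
    · have h := RecUp.sharp_Fib_smul 𝒮 (𝒮.U_le hu) (hE.2 u hu)
      rw [hEs, Finsupp.mapDomain_add, hE.2 u hu] at h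
      exact add_left_cancel h
  have hdis : Disjoint Z.support E'.support := by
    refine Finset.disjoint_left.mpr fun S hSZ hSE' => ?_
    have hS : RecUp.sharp (RecUp.Fib 𝒮) E S ≠ 0 := by
      rw [hEs, Finsupp.add_apply]
      have h := Finsupp.mem_support_iff.mp hSE'
      omega
    obtain ⟨q, hq, hSq⟩ := RecUp.exists_of_sharp_ne_zero 𝒮 hS
    exact hfar' S hSZ q hq hSq
  have h2 := hC₁ a ha hφ Z hZ hZM E' hE'mem
    (by rw [hdeg']; exact Nat.mul_le_mul_left _ hEe) hdis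
  have hG : pairG 𝒮.gU Z (RecUp.sharp (RecUp.Fib 𝒮) E)
      = pairG 𝒮.gU Z E + pairG 𝒮.gU Z E' := by
    rw [hEs, pairG_add_right]
  have hdeg'R : (deg E' : ℝ) = ((m : ℝ) - 1) * (deg E : ℝ) := by
    rw [hdeg', Nat.cast_mul, Nat.cast_sub hm1, Nat.cast_one]
  have hκ : (deg Z : ℝ) * (deg E : ℝ) * ((𝒮.Sg.card : ℝ) * ∑ᶠ v, Real.log (C v))
      ≤ (M : ℝ) * (e : ℝ) * |(𝒮.Sg.card : ℝ) * ∑ᶠ v, Real.log (C v)| := by
    have k1 : (deg Z : ℝ) * (deg E : ℝ) * ((𝒮.Sg.card : ℝ) * ∑ᶠ v, Real.log (C v))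
        ≤ (deg Z : ℝ) * (deg E : ℝ) * |(𝒮.Sg.card : ℝ) * ∑ᶠ v, Real.log (C v)| :=
      mul_le_mul_of_nonneg_left (le_abs_self _) (by positivity)
    have k2 : (deg Z : ℝ) * (deg E : ℝ) ≤ (M : ℝ) * (e : ℝ) :=
      mul_le_mul (by exact_mod_cast hZM) (by exact_mod_cast hEe) (by positivity) (by positivity)
    exact k1.trans (mul_le_mul_of_nonneg_right k2 (abs_nonneg _))
  rw [e1, e2, hG] at h1
  rw [hdeg'R, hht'] at h2
  linarith

/-- **G3 (reciprocity).**  With global Mahler (B≤): `β(Z, E)` is bounded for `Z` the divisor of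
zeros of a `U`-fixed member of the family, of full degree, and `E` rational in `t`-general
position. -/
theorem recip_of (hM : 𝒮.MLe) (hL : 𝒮.Lip) {ι : Type} [Fintype ι] (f : ι → F) (M : ℕ)
    (hf : 𝒮.Fam f M) (hB : 𝒮.MahlerLe f) (e : ℕ) :
    ∃ C : ℝ, ∀ a : ι → K, 𝒮.UFix a → (∑ i, a i • f i) ≠ 0 →
      ∀ Z : Place K F →₀ ℕ, IsZDiv pinf (∑ i, a i • f i) Z → deg Z = M →
      ∀ E ∈ 𝒮.RatU, deg E ≤ e → Far 𝒮.far Z E → |beta 𝒮.gU 𝒮.etaU Z E| ≤ C := by
  obtain ⟨C₁, hC₁⟩ := 𝒮.recLow_raw hM f M hf e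
  obtain ⟨C₂, hC₂⟩ := 𝒮.recUp_raw hM hL f M hf e
  obtain ⟨CB, hCB⟩ := hB
  have hm1 : (0 : ℝ) ≤ (m : ℝ) - 1 := by
    have h : (1 : ℝ) ≤ m := by exact_mod_cast 𝒮.m_pos
    linarith
  refine ⟨(e : ℝ) * |CB| + |C₁| + ((m : ℝ) - 1) * ((e : ℝ) * |CB|) + |C₂|, ?_⟩
  intro a ha hφ Z hZ hZM E hE hEe hfar
  have h1 := hC₁ a ha hφ Z hZ hZM.le E hE hEe (hfar.disjoint 𝒮.far_irrefl)
  have h2 := hC₂ a ha hφ Z hZ hZM.le E hE hEe hfar
  have h3 := hCB a ha hφ Z hZ
  rw [hZM] at h2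
  have hdE : (0 : ℝ) ≤ (deg E : ℝ) := Nat.cast_nonneg _
  have k1 : (deg E : ℝ) * 𝒮.hU a ≤ (deg E : ℝ) * ht 𝒮.etaU Z + (e : ℝ) * |CB| := by
    have k := mul_le_mul_of_nonneg_left h3 hdE
    have k' : (deg E : ℝ) * CB ≤ (e : ℝ) * |CB| :=
      (mul_le_mul_of_nonneg_left (le_abs_self CB) hdE).trans
        (mul_le_mul_of_nonneg_right (by exact_mod_cast hEe) (abs_nonneg CB))
    linarith
  have k2 : ((m : ℝ) - 1) * ((deg E : ℝ) * 𝒮.hU a)
      ≤ ((m : ℝ) - 1) * ((deg E : ℝ) * ht 𝒮.etaU Z + (e : ℝ) * |CB|) :=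
    mul_le_mul_of_nonneg_left k1 hm1
  have k3 : (0 : ℝ) ≤ ((m : ℝ) - 1) * ((e : ℝ) * |CB|) :=
    mul_nonneg hm1 (mul_nonneg (Nat.cast_nonneg _) (abs_nonneg _))
  have k4 : (0 : ℝ) ≤ (e : ℝ) * |CB| := mul_nonneg (Nat.cast_nonneg _) (abs_nonneg _)
  have k5 := le_abs_self C₁
  have k6 := le_abs_self C₂
  have k7 := abs_nonneg C₁
  have k8 := abs_nonneg C₂
  unfold beta
  rw [hZM, abs_le]
  constructor
  · linarith
  · nlinarith

end Setting

end Fermat.Agent.MW.HG
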