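/-
MW / HT-Q, row G0 (helper37) — **the API of the global height vocabulary** of `MW/HG/Defs.lean`.

* `pval_smul'` : the value map is equivariant for semilinear automorphisms;
* local terms: `lam_nonneg`, `eta_nonneg`, `finite_lam`, `finite_eta`, `lam_symm`, `lam_self`;
* global terms: `gU_symm`, `gU_nonneg`, `etaU_nonneg`, `gU_self`;
* `isZDiv_smul` : the divisor of zeros off `pinf` is equivariant under `Γ`;
* `pf_sq` : the product formula for constants whose SQUARE is `U`-fixed.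
-/
import Mathlib
import Fermat.Prelude.Def_AlgebraicCurve_Repartitions
import Fermat.Agent.MW.HG.Defs

set_option autoImplicit false

noncomputable section

namespace Fermat.Agent.MW.HG

open AlgebraicCurve Fermat.Agent.MW.HtM Fermat.Agent.MW.HQ

variable {K F V : Type*} [Field K] [Field F] [Algebra K F]

/-! ### Semilinear automorphisms and values -/

theorem adicValuation_smul_smul' (g : SemilinearAut K F) (P : Place K F) (f : F) :
    (g • P).adicValuation (g • f) = P.adicValuation f := by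
  rcases eq_or_ne f 0 with rfl | hf
  · simp
  · have hgf : g • f ≠ 0 := (smul_ne_zero_iff_ne _).mpr hf
    rw [Place.adicValuation_eq_exp_neg_ord _ hgf, Place.adicValuation_eq_exp_neg_ord _ hf,
      SemilinearAut.ord_smul]

/-- The value map is equivariant for semilinear automorphisms. -/
theorem pval_smul' (g : SemilinearAut K F) (P : Place K F) (f : F) :
    pval (g • P) (g • f) = SemilinearAut.baseAut g (pval P f) := by
  classical
  by_cases h : ∃ c : K, P.adicValuation (f - algebraMap K F c) < 1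
  · obtain ⟨c, hc⟩ := h
    rw [pval_eq P hc]
    refine pval_eq (g • P) ?_
    have e : g • f - algebraMap K F (SemilinearAut.baseAut g c) = g • (f - algebraMap K F c) := by
      rw [smul_sub, SemilinearAut.smul_algebraMap]
    rw [e, adicValuation_smul_smul']
    exact hc
  · have h' : ¬ ∃ c : K, (g • P).adicValuation (g • f - algebraMap K F c) < 1 := by
      rintro ⟨c, hc⟩
      apply h
      refine ⟨(SemilinearAut.baseAut g).symm c, ?_⟩
      have e : g • (f - algebraMap K F ((SemilinearAut.baseAut g).symm c))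
          = g • f - algebraMap K F c := by
        rw [smul_sub, SemilinearAut.smul_algebraMap, RingEquiv.apply_symm_apply]
      rw [← adicValuation_smul_smul' g, e]
      exact hc
    have e1 : pval P f = 0 := by unfold pval; rw [dif_neg h]
    have e2 : pval (g • P) (g • f) = 0 := by unfold pval; rw [dif_neg h']
    rw [e1, e2, map_zero]

/-- The action of a semilinear automorphism on the places is injective. -/
theorem smul_place_injective (g : SemilinearAut K F) :
    Function.Injective fun P : Place K F => g • P :=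
  MulAction.injective g

variable {Ab : AbsFamily K V} {pinf : Place K F} {t : F} {m : ℕ} (𝒮 : Setting Ab pinf t m)

/-- In an `AbsFamily`, a nonzero element has absolute value `1` at almost all places. -/
theorem finite_abv_ne_one' (Ab : AbsFamily K V) {a : K} (ha : a ≠ 0) :
    {v | Ab.abv v a ≠ 1}.Finite := by
  refine ((Ab.finite_gt_one a).union (Ab.finite_gt_one a⁻¹)).subset fun v hv => ?_
  rcases lt_or_gt_of_ne (show Ab.abv v a ≠ 1 from hv) with h | h
  · right
    show 1 < Ab.abv v a⁻¹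
    rw [map_inv₀]
    exact (one_lt_inv₀ ((Ab.abv v).pos ha)).2 h
  · left
    exact h

/-- `v ↦ log |a|_v` has finite support. -/
theorem finite_log_abv (Ab : AbsFamily K V) (a : K) :
    (Function.support fun v => Real.log (Ab.abv v a)).Finite := by
  rcases eq_or_ne a 0 with rfl | ha
  · simp [Function.support]
  · refine (finite_abv_ne_one' Ab ha).subset fun v hv => ?_
    intro h1
    apply hv
    show Real.log (Ab.abv v a) = 0
    rw [h1, Real.log_one]

namespace Setting

/-! ### The local terms -/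

theorem lam_nonneg (v : V) (p q : Place K F) : 0 ≤ 𝒮.lam v p q :=
  neg_nonneg.mpr (Real.log_nonpos (𝒮.δ_nonneg v p q) (𝒮.δ_le_one v p q))

theorem eta_nonneg (v : V) (p : Place K F) : 0 ≤ 𝒮.eta v p :=
  div_nonneg (Real.log_nonneg (le_max_left _ _)) (Nat.cast_nonneg _)

theorem lam_symm (v : V) (p q : Place K F) : 𝒮.lam v p q = 𝒮.lam v q p := by
  unfold lam
  rw [𝒮.δ_symm]

theorem lam_self (v : V) {p : Place K F} (hp : p ≠ pinf) : 𝒮.lam v p p = 0 := by
  unfold lam
  rw [𝒮.δ_self v p hp, Real.log_zero, neg_zero]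

theorem finite_lam {p q : Place K F} (hp : p ≠ pinf) (hq : q ≠ pinf) :
    {v | 𝒮.lam v p q ≠ 0}.Finite := by
  by_cases hpq : p = q
  · subst hpq
    have : {v | 𝒮.lam v p p ≠ 0} = ∅ := by
      ext v
      simp [𝒮.lam_self v hp]
    rw [this]
    exact Set.finite_empty
  · refine (𝒮.δ_eq_one p q hp hq hpq).subset fun v hv => ?_
    intro h1
    apply hv
    show 𝒮.lam v p q = 0
    unfold lam
    rw [h1, Real.log_one, neg_zero]

theorem finite_eta (p : Place K F) : {v | 𝒮.eta v p ≠ 0}.Finite := by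
  refine (Ab.finite_gt_one (pval p t)).subset fun v hv => ?_
  by_contra hcon
  apply hv
  show 𝒮.eta v p = 0
  unfold eta
  rw [max_eq_left (not_lt.mp hcon), Real.log_one, zero_div]

/-! ### The global terms -/

theorem gU_symm (p q : Place K F) : 𝒮.gU p q = 𝒮.gU q p := by
  unfold gU
  exact Finset.sum_congr rfl fun s _ => finsum_congr fun v => 𝒮.lam_symm v _ _

theorem gU_nonneg (p q : Place K F) : 0 ≤ 𝒮.gU p q :=
  Finset.sum_nonneg fun _ _ => finsum_nonneg fun v => 𝒮.lam_nonneg v _ _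

theorem etaU_nonneg (p : Place K F) : 0 ≤ 𝒮.etaU p :=
  Finset.sum_nonneg fun _ _ => finsum_nonneg fun v => 𝒮.eta_nonneg v _

/-! ### The group `Γ` -/

theorem smul_ne_pinf_iff {g : SemilinearAut K F} (hg : g ∈ 𝒮.Γ) {P : Place K F} :
    g • P ≠ pinf ↔ P ≠ pinf := by
  have h := 𝒮.inf_fixed g hg
  constructor
  · intro h1 h2
    exact h1 (by rw [h2, h])
  · intro h1 h2
    apply h1
    rw [← h] at h2
    exact MulAction.injective g h2

theorem smul_ne_pinf {g : SemilinearAut K F} (hg : g ∈ 𝒮.Γ) {P : Place K F} (hP : P ≠ pinf) :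
    g • P ≠ pinf := (𝒮.smul_ne_pinf_iff hg).2 hP

/-- The value of `t` is `Γ`-equivariant. -/
theorem pval_smul_t {g : SemilinearAut K F} (hg : g ∈ 𝒮.Γ) (P : Place K F) :
    pval (g • P) t = SemilinearAut.baseAut g (pval P t) := by
  have h := pval_smul' g P t
  rwa [𝒮.t_fixed g hg] at h

theorem gU_self {p : Place K F} (hp : p ≠ pinf) : 𝒮.gU p p = 0 := by
  unfold gU
  refine Finset.sum_eq_zero fun s hs => ?_
  have : ∀ v, 𝒮.lam v (s • p) (s • p) = 0 := fun v =>
    𝒮.lam_self v (𝒮.smul_ne_pinf (𝒮.Sg_mem s hs) hp)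
  simp [this]

/-- The divisor of zeros off `pinf` is `Γ`-equivariant. -/
theorem isZDiv_smul {g : SemilinearAut K F} (hg : g ∈ 𝒮.Γ) {φ : F} {Z : Place K F →₀ ℕ}
    (h : IsZDiv pinf φ Z) : IsZDiv pinf (g • φ) (Z.mapDomain fun P => g • P) := by
  have hinj : Function.Injective fun P : Place K F => g • P := MulAction.injective g
  refine ⟨?_, fun P hP => ?_⟩
  · have h1 := Finsupp.mapDomain_apply hinj Z pinf
    simp only [𝒮.inf_fixed g hg] at h1
    rw [h1]
    exact h.1
  · have hP' : g⁻¹ • P ≠ pinf := fun h2 => hP (by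
      have := congrArg (fun Q => g • Q) h2
      simpa [𝒮.inf_fixed g hg] using this)
    have h1 := Finsupp.mapDomain_apply hinj Z (g⁻¹ • P)
    simp only [smul_inv_smul] at h1
    rw [h1, h.2 _ hP']
    have h2 := SemilinearAut.ord_smul g (g⁻¹ • P) φ
    rw [smul_inv_smul] at h2
    exact h2.symm

/-! ### The product formula -/

/-- The product formula for constants whose square is `U`-fixed. -/
theorem pf_sq (a : K) (ha : a ≠ 0)
    (h : ∀ u ∈ 𝒮.U, SemilinearAut.baseAut u (a ^ 2) = a ^ 2) :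
    ∑ s ∈ 𝒮.Sg, ∑ᶠ v, Real.log (Ab.abv v (SemilinearAut.baseAut s a)) = 0 := by
  have h1 := 𝒮.pf (a ^ 2) (pow_ne_zero 2 ha) h
  have h2 : ∀ s : SemilinearAut K F,
      ∑ᶠ v, Real.log (Ab.abv v (SemilinearAut.baseAut s (a ^ 2)))
        = 2 * ∑ᶠ v, Real.log (Ab.abv v (SemilinearAut.baseAut s a)) := by
    intro s
    rw [mul_finsum]
    refine finsum_congr fun v => ?_
    rw [map_pow, map_pow, Real.log_pow]
    push_cast
    ring
  simp only [h2, ← Finset.mul_sum] at h1
  linarith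

end Setting

/-!
# PIECE 2 (append-only): the calculus used by the G rows

* finite supports in `Function.HasFiniteSupport` form (`hfs_*`), `tame_log_nonneg`, `tame_hfs_log`;
* `∑ s ∈ Sg, ∑ᶠ v` calculus (`sum_finsum_add/sub/neg/mul_left/div/le/const`, `finsum_finsupp_sum`,
  `sum_finsum_finsupp_sum`);
* `ord` forms of regularity (`ord_add_nonneg`, …) and the value map as a ring homomorphism on
  regular functions from `𝒮.resK` (`Setting.pval_add/mul/sub/neg/pow/sum/prod/sum_smul`,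
  `pval_eq_zero_iff`, `pval_ne_zero_of_isZDiv`); the fibres of `t` (`fib_apply_ne_zero_iff`);
* divisors and automorphisms (`prod_mapDomain_smul`, `deg_mapDomain_smul`, …), `IsZDiv.unique`,
  `U`-stable divisors (`RatU_prod_smul`, `isZDiv_mem_RatU`);
* products of distances as sums of `lam` (`neg_log_prod_delta`), the unfoldings `ht_etaU`,
  `pairG_gU`;
* `Γ`-fixed families (`smul_sum_smul`, `smul_eq_of_UFix`, `isZDiv_smul_sum_smul`);
* product formula for products over divisors (`pf_finsupp_prod`, `pf_RatU`);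
* `hU_const_mul` / `hU_smul` (`c ^ 2` fixed by `U`), `hU_nonneg`.
-/

/-! ## Piece 2 — finite supports (`Function.HasFiniteSupport` forms) -/

/-- `v ↦ log |a|_v` has finite support (`HasFiniteSupport` form, for the `∑ᶠ` API). -/
theorem hfs_log_abv (Ab : AbsFamily K V) (a : K) :
    Function.HasFiniteSupport fun v => Real.log (Ab.abv v a) := finite_log_abv Ab a

/-- `v ↦ log max 1 |a|_v` has finite support. -/
theorem hfs_log_max_one_abv (Ab : AbsFamily K V) (a : K) :
    Function.HasFiniteSupport fun v => Real.log (max 1 (Ab.abv v a)) := by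
  refine (Ab.finite_gt_one a).subset fun v hv => ?_
  by_contra hcon
  apply hv
  show Real.log (max 1 (Ab.abv v a)) = 0
  rw [max_eq_left (not_lt.mp hcon), Real.log_one]

theorem log_max_one_abv_nonneg (Ab : AbsFamily K V) (v : V) (a : K) :
    0 ≤ Real.log (max 1 (Ab.abv v a)) := Real.log_nonneg (le_max_left _ _)

theorem iSup_abv_nonneg (Ab : AbsFamily K V) (v : V) {ι : Type*} (a : ι → K) :
    0 ≤ ⨆ i, Ab.abv v (a i) := Real.iSup_nonneg fun _ => (Ab.abv v).nonneg _

theorem abv_le_iSup (Ab : AbsFamily K V) (v : V) {ι : Type*} [Finite ι] (a : ι → K) (i : ι) :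
    Ab.abv v (a i) ≤ ⨆ i, Ab.abv v (a i) :=
  Finite.le_ciSup (fun i => Ab.abv v (a i)) i

theorem iSup_abv_pos (Ab : AbsFamily K V) (v : V) {ι : Type*} [Finite ι] {a : ι → K} {i : ι}
    (hi : a i ≠ 0) : 0 < ⨆ i, Ab.abv v (a i) :=
  lt_of_lt_of_le ((Ab.abv v).pos hi) (abv_le_iSup Ab v a i)

theorem iSup_abv_le (Ab : AbsFamily K V) (v : V) {ι : Type*} {a : ι → K} {A : ℝ} (hA : 0 ≤ A)
    (h : ∀ i, Ab.abv v (a i) ≤ A) : ⨆ i, Ab.abv v (a i) ≤ A :=
  Real.iSup_le h hA

/-- `v ↦ log ⨆ i, |a i|_v` has finite support (no hypothesis: `log 0 = 0`). -/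
theorem hfs_log_iSup_abv (Ab : AbsFamily K V) {ι : Type*} [Finite ι] (a : ι → K) :
    Function.HasFiniteSupport fun v => Real.log (⨆ i, Ab.abv v (a i)) := by
  classical
  by_cases h0 : ∀ i, a i = 0
  · have : (fun v => Real.log (⨆ i, Ab.abv v (a i))) = fun _ => 0 := by
      funext v
      have h1 : (⨆ i, Ab.abv v (a i)) = 0 := by
        refine le_antisymm (Real.iSup_le (fun i => ?_) le_rfl) (iSup_abv_nonneg Ab v a)
        rw [h0 i, map_zero]
      rw [h1, Real.log_zero]
    rw [this]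
    exact Function.hasFiniteSupport_zero
  · push Not at h0
    obtain ⟨i₀, hi₀⟩ := h0
    have hfin : (⋃ i, {v | 1 < Ab.abv v (a i)}).Finite :=
      Set.finite_iUnion fun i => Ab.finite_gt_one (a i)
    refine ((finite_abv_ne_one' Ab hi₀).union hfin).subset fun v hv => ?_
    by_contra hcon
    simp only [Set.mem_union, Set.mem_ofPred_eq, Set.mem_iUnion, not_or, not_not, not_exists,
      not_lt] at hcon
    apply hv
    show Real.log (⨆ i, Ab.abv v (a i)) = 0
    have h1 : (⨆ i, Ab.abv v (a i)) = 1 := by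
      refine le_antisymm (Real.iSup_le hcon.2 zero_le_one) ?_
      rw [← hcon.1]
      exact abv_le_iSup Ab v a i₀
    rw [h1, Real.log_one]

/-- Tame constants have nonnegative logarithms … -/
theorem tame_log_nonneg {C : V → ℝ} (hC : Tame C) (v : V) : 0 ≤ Real.log (C v) :=
  Real.log_nonneg (hC.1 v)

/-- … with finite support. -/
theorem tame_hfs_log {C : V → ℝ} (hC : Tame C) :
    Function.HasFiniteSupport fun v => Real.log (C v) := by
  refine hC.2.subset fun v hv => ?_
  intro h1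
  apply hv
  show Real.log (C v) = 0
  rw [h1, Real.log_one]

theorem tame_finsum_log_nonneg {C : V → ℝ} (hC : Tame C) : 0 ≤ ∑ᶠ v, Real.log (C v) :=
  finsum_nonneg fun v => tame_log_nonneg hC v

/-! ## Piece 2 — `∑ s ∈ Sg, ∑ᶠ v` calculus -/

section Calculus

variable {α P : Type*}

theorem sum_finsum_add (s : Finset α) (f g : α → V → ℝ)
    (hf : ∀ a ∈ s, Function.HasFiniteSupport (f a))
    (hg : ∀ a ∈ s, Function.HasFiniteSupport (g a)) :
    ∑ a ∈ s, ∑ᶠ v, (f a v + g a v) = ∑ a ∈ s, ∑ᶠ v, f a v + ∑ a ∈ s, ∑ᶠ v, g a v := by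
  rw [← Finset.sum_add_distrib]
  exact Finset.sum_congr rfl fun a ha => finsum_add_distrib (hf a ha) (hg a ha)

theorem sum_finsum_sub (s : Finset α) (f g : α → V → ℝ)
    (hf : ∀ a ∈ s, Function.HasFiniteSupport (f a))
    (hg : ∀ a ∈ s, Function.HasFiniteSupport (g a)) :
    ∑ a ∈ s, ∑ᶠ v, (f a v - g a v) = ∑ a ∈ s, ∑ᶠ v, f a v - ∑ a ∈ s, ∑ᶠ v, g a v := by
  rw [← Finset.sum_sub_distrib]
  exact Finset.sum_congr rfl fun a ha => finsum_sub_distrib (hf a ha) (hg a ha)

theorem sum_finsum_neg (s : Finset α) (f : α → V → ℝ) :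
    ∑ a ∈ s, ∑ᶠ v, -f a v = -∑ a ∈ s, ∑ᶠ v, f a v := by
  rw [← Finset.sum_neg_distrib]
  exact Finset.sum_congr rfl fun a _ => finsum_neg_distrib _

theorem sum_finsum_mul_left (s : Finset α) (c : ℝ) (f : α → V → ℝ) :
    ∑ a ∈ s, ∑ᶠ v, c * f a v = c * ∑ a ∈ s, ∑ᶠ v, f a v := by
  rw [Finset.mul_sum]
  exact Finset.sum_congr rfl fun a _ => (mul_finsum _ _).symm

theorem sum_finsum_div (s : Finset α) (c : ℝ) (f : α → V → ℝ) :
    ∑ a ∈ s, ∑ᶠ v, f a v / c = (∑ a ∈ s, ∑ᶠ v, f a v) / c := by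
  simp only [div_eq_mul_inv, ← finsum_mul, ← Finset.sum_mul]

/-- Monotonicity: a pointwise (local) inequality sums to a global one. -/
theorem sum_finsum_le (s : Finset α) {f g : α → V → ℝ}
    (hf : ∀ a ∈ s, Function.HasFiniteSupport (f a))
    (hg : ∀ a ∈ s, Function.HasFiniteSupport (g a))
    (h : ∀ a ∈ s, ∀ v, f a v ≤ g a v) :
    ∑ a ∈ s, ∑ᶠ v, f a v ≤ ∑ a ∈ s, ∑ᶠ v, g a v :=
  Finset.sum_le_sum fun a ha => finsum_le_finsum' (hf a ha) (hg a ha) fun v => h a ha v

theorem sum_finsum_nonneg (s : Finset α) {f : α → V → ℝ} (h : ∀ a ∈ s, ∀ v, 0 ≤ f a v) :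
    0 ≤ ∑ a ∈ s, ∑ᶠ v, f a v :=
  Finset.sum_nonneg fun a ha => finsum_nonneg fun v => h a ha v

/-- A constant (in `a`) local term: `∑ a ∈ s, ∑ᶠ v, c v = |s| * ∑ᶠ v, c v`. -/
theorem sum_finsum_const (s : Finset α) (c : V → ℝ) :
    ∑ _a ∈ s, ∑ᶠ v, c v = (s.card : ℝ) * ∑ᶠ v, c v := by
  rw [Finset.sum_const, nsmul_eq_mul]

/-- `∑ᶠ v` commutes with the finite sum over a divisor. -/
theorem finsum_finsupp_sum (D : P →₀ ℕ) (f : V → P → ℕ → ℝ)
    (h : ∀ p ∈ D.support, Function.HasFiniteSupport fun v => f v p (D p)) :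
    ∑ᶠ v, D.sum (f v) = D.sum fun p n => ∑ᶠ v, f v p n := by
  unfold Finsupp.sum
  exact finsum_sum_comm D.support (fun v p => f v p (D p)) h

/-- `∑ s, ∑ᶠ v` commutes with the finite sum over a divisor. -/
theorem sum_finsum_finsupp_sum (s : Finset α) (D : P →₀ ℕ) (f : α → V → P → ℕ → ℝ)
    (h : ∀ a ∈ s, ∀ p ∈ D.support, Function.HasFiniteSupport fun v => f a v p (D p)) :
    ∑ a ∈ s, ∑ᶠ v, D.sum (f a v) = D.sum fun p n => ∑ a ∈ s, ∑ᶠ v, f a v p n := by
  rw [Finsupp.sum, Finset.sum_comm]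
  exact Finset.sum_congr rfl fun a ha => finsum_finsupp_sum D (f a) (h a ha)

/-- Finite support of a finite sum over a divisor. -/
theorem hfs_finsupp_sum (D : P →₀ ℕ) (f : V → P → ℕ → ℝ)
    (h : ∀ p ∈ D.support, Function.HasFiniteSupport fun v => f v p (D p)) :
    Function.HasFiniteSupport fun v => D.sum (f v) := by
  classical
  unfold Finsupp.sum
  refine (D.support.finite_toSet.biUnion fun p hp => h p hp).subset fun v hv => ?_
  simp only [Set.mem_iUnion, Finset.mem_coe, exists_prop]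
  by_contra hcon
  push Not at hcon
  apply hv
  refine Finset.sum_eq_zero fun p hp => ?_
  by_contra h1
  exact hcon p hp h1

/-- Finite support of a finite sum. -/
theorem hfs_finset_sum {ι : Type*} (s : Finset ι) (f : ι → V → ℝ)
    (h : ∀ i ∈ s, Function.HasFiniteSupport (f i)) :
    Function.HasFiniteSupport fun v => ∑ i ∈ s, f i v := by
  classical
  refine (s.finite_toSet.biUnion fun i hi => h i hi).subset fun v hv => ?_
  simp only [Set.mem_iUnion, Finset.mem_coe, exists_prop]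
  by_contra hcon
  push Not at hcon
  apply hv
  refine Finset.sum_eq_zero fun i hi => ?_
  by_contra h1
  exact hcon i hi h1

theorem hfs_const_mul (c : ℝ) {f : V → ℝ} (hf : Function.HasFiniteSupport f) :
    Function.HasFiniteSupport fun v => c * f v :=
  hf.subset fun v hv h0 => hv (by show c * f v = 0; rw [h0, mul_zero])

theorem hfs_mul_const {f : V → ℝ} (hf : Function.HasFiniteSupport f) (c : ℝ) :
    Function.HasFiniteSupport fun v => f v * c :=
  hf.subset fun v hv h0 => hv (by show f v * c = 0; rw [h0, zero_mul])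

theorem hfs_div_const {f : V → ℝ} (hf : Function.HasFiniteSupport f) (c : ℝ) :
    Function.HasFiniteSupport fun v => f v / c :=
  hf.subset fun v hv h0 => hv (by show f v / c = 0; rw [h0, zero_div])

theorem hfs_neg {f : V → ℝ} (hf : Function.HasFiniteSupport f) :
    Function.HasFiniteSupport fun v => -f v :=
  hf.subset fun v hv h0 => hv (by show -f v = 0; rw [h0, neg_zero])

theorem hfs_add {f g : V → ℝ} (hf : Function.HasFiniteSupport f)
    (hg : Function.HasFiniteSupport g) : Function.HasFiniteSupport fun v => f v + g v :=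
  (hf.union hg).subset fun v hv => by
    by_contra hcon
    simp only [Set.mem_union, Function.mem_support, not_or, not_not] at hcon
    exact hv (by show f v + g v = 0; rw [hcon.1, hcon.2, add_zero])

theorem hfs_sub {f g : V → ℝ} (hf : Function.HasFiniteSupport f)
    (hg : Function.HasFiniteSupport g) : Function.HasFiniteSupport fun v => f v - g v :=
  (hf.union hg).subset fun v hv => by
    by_contra hcon
    simp only [Set.mem_union, Function.mem_support, not_or, not_not] at hcon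
    exact hv (by show f v - g v = 0; rw [hcon.1, hcon.2, sub_zero])

end Calculus

/-! ## Piece 2 — regular functions at a place (`ord` forms) -/

theorem ord_algebraMap' (P : Place K F) (c : K) : P.ord (algebraMap K F c) = 0 := by
  rcases eq_or_ne c 0 with rfl | hc
  · simp
  · unfold Place.ord
    rw [adicValuation_algebraMap P hc]
    simp

theorem ord_nonneg_iff (P : Place K F) {f : F} : 0 ≤ P.ord f ↔ P.adicValuation f ≤ 1 := by
  rw [P.adicValuation_le_one_iff]
  constructor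
  · exact fun h => Or.inr h
  · rintro (rfl | h)
    · simp
    · exact h

theorem ord_add_nonneg (P : Place K F) {f g : F} (hf : 0 ≤ P.ord f) (hg : 0 ≤ P.ord g) :
    0 ≤ P.ord (f + g) := by
  rw [ord_nonneg_iff] at *
  exact (Valuation.map_add _ _ _).trans (max_le hf hg)

theorem ord_mul_nonneg (P : Place K F) {f g : F} (hf : 0 ≤ P.ord f) (hg : 0 ≤ P.ord g) :
    0 ≤ P.ord (f * g) := by
  rw [ord_nonneg_iff] at *
  rw [map_mul]
  exact mul_le_one' hf hg

theorem ord_neg' (P : Place K F) (f : F) : P.ord (-f) = P.ord f := by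
  unfold Place.ord
  rw [Valuation.map_neg]

theorem ord_sub_nonneg (P : Place K F) {f g : F} (hf : 0 ≤ P.ord f) (hg : 0 ≤ P.ord g) :
    0 ≤ P.ord (f - g) := by
  rw [sub_eq_add_neg]
  exact ord_add_nonneg P hf (by rwa [ord_neg'])

theorem ord_const_smul_nonneg (P : Place K F) (c : K) {f : F} (hf : 0 ≤ P.ord f) :
    0 ≤ P.ord (c • f) := by
  rw [Algebra.smul_def]
  exact ord_mul_nonneg P (ord_algebraMap' P c).ge hf

theorem ord_sum_nonneg (P : Place K F) {ι : Type*} (s : Finset ι) (f : ι → F)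
    (hf : ∀ i ∈ s, 0 ≤ P.ord (f i)) : 0 ≤ P.ord (∑ i ∈ s, f i) := by
  classical
  induction s using Finset.induction_on with
  | empty => simp
  | insert a s ha ih =>
    rw [Finset.sum_insert ha]
    exact ord_add_nonneg P (hf a (Finset.mem_insert_self a s))
      (ih fun i hi => hf i (Finset.mem_insert_of_mem hi))

theorem ord_prod_nonneg (P : Place K F) {ι : Type*} (s : Finset ι) (f : ι → F)
    (hf : ∀ i ∈ s, 0 ≤ P.ord (f i)) : 0 ≤ P.ord (∏ i ∈ s, f i) := by
  classical
  induction s using Finset.induction_on with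
  | empty => simp
  | insert a s ha ih =>
    rw [Finset.prod_insert ha]
    exact ord_mul_nonneg P (hf a (Finset.mem_insert_self a s))
      (ih fun i hi => hf i (Finset.mem_insert_of_mem hi))

theorem ord_pow_nonneg (P : Place K F) {f : F} (hf : 0 ≤ P.ord f) (n : ℕ) :
    0 ≤ P.ord (f ^ n) := by
  induction n with
  | zero => simp
  | succ n ih => rw [pow_succ]; exact ord_mul_nonneg P ih hf

theorem ord_sum_smul_nonneg' (P : Place K F) {ι : Type*} (s : Finset ι) (a : ι → K)
    (f : ι → F) (hf : ∀ i ∈ s, 0 ≤ P.ord (f i)) : 0 ≤ P.ord (∑ i ∈ s, a i • f i) :=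
  ord_sum_nonneg P s _ fun i hi => ord_const_smul_nonneg P (a i) (hf i hi)

/-- `ord_P f > 0` iff `|f|_P < 1` (for `f ≠ 0`). -/
theorem ord_pos_iff (P : Place K F) {f : F} (hf : f ≠ 0) :
    0 < P.ord f ↔ P.adicValuation f < 1 := by
  rw [P.adicValuation_eq_exp_neg_ord hf, ← WithZero.exp_zero, WithZero.exp_lt_exp]
  omega

section PieceB

/-- A function with a divisor of zeros off `pinf` is regular off `pinf`. -/
theorem IsZDiv.regOff {φ : F} {Z : Place K F →₀ ℕ} (hZ : IsZDiv pinf φ Z) : RegOff pinf φ :=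
  fun P hP => by rw [← hZ.2 P hP]; exact Nat.cast_nonneg _

/-- Every point of the support of a divisor of zeros is off `pinf`. -/
theorem IsZDiv.ne_pinf {φ : F} {Z : Place K F →₀ ℕ} (hZ : IsZDiv pinf φ Z) {P : Place K F}
    (hP : P ∈ Z.support) : P ≠ pinf := by
  rintro rfl
  exact (Finsupp.mem_support_iff.mp hP) hZ.1

/-- The divisor of zeros off `pinf` is unique. -/
theorem IsZDiv.unique {φ : F} {Z Z' : Place K F →₀ ℕ} (hZ : IsZDiv pinf φ Z)
    (hZ' : IsZDiv pinf φ Z') : Z = Z' := by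
  ext P
  by_cases hP : P = pinf
  · rw [hP, hZ.1, hZ'.1]
  · have h1 := hZ.2 P hP
    have h2 := hZ'.2 P hP
    exact_mod_cast h1.trans h2.symm

namespace Setting

/-! ## Piece 2 — the value map is a ring homomorphism on regular functions (`𝒮.resK`) -/

section ResK

include 𝒮

/-- `f - f(P) ∈ 𝔪_P` for `f` regular at `P`. -/
theorem pval_spec' {P : Place K F} {f : F} (hf : 0 ≤ P.ord f) :
    P.adicValuation (f - algebraMap K F (pval P f)) < 1 :=
  pval_spec P (𝒮.resK P f hf)

theorem pval_add {P : Place K F} {f g : F} (hf : 0 ≤ P.ord f) (hg : 0 ≤ P.ord g) :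
    pval P (f + g) = pval P f + pval P g := by
  refine pval_eq P ?_
  have h : f + g - algebraMap K F (pval P f + pval P g)
      = (f - algebraMap K F (pval P f)) + (g - algebraMap K F (pval P g)) := by
    rw [map_add]; ring
  rw [h]
  exact lt_of_le_of_lt (Valuation.map_add _ _ _) (max_lt (𝒮.pval_spec' hf) (𝒮.pval_spec' hg))

theorem pval_mul {P : Place K F} {f g : F} (hf : 0 ≤ P.ord f) (hg : 0 ≤ P.ord g) :
    pval P (f * g) = pval P f * pval P g := by
  refine pval_eq P ?_
  have h : f * g - algebraMap K F (pval P f * pval P g)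
      = (f - algebraMap K F (pval P f)) * g
        + algebraMap K F (pval P f) * (g - algebraMap K F (pval P g)) := by
    rw [map_mul]; ring
  rw [h]
  refine lt_of_le_of_lt (Valuation.map_add _ _ _) (max_lt ?_ ?_)
  · rw [map_mul]
    exact mul_lt_one_of_lt_of_le (𝒮.pval_spec' hf) ((ord_nonneg_iff P).mp hg)
  · rw [map_mul]
    calc P.adicValuation (algebraMap K F (pval P f)) *
          P.adicValuation (g - algebraMap K F (pval P g))
        ≤ 1 * P.adicValuation (g - algebraMap K F (pval P g)) :=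
          mul_le_mul_left (P.adicValuation_algebraMap_le_one _) _
      _ < 1 := by rw [one_mul]; exact 𝒮.pval_spec' hg

/-- Constants come out (no regularity needed if … `f` is regular). -/
theorem pval_const_smul {P : Place K F} (c : K) {f : F} (hf : 0 ≤ P.ord f) :
    pval P (c • f) = c * pval P f := by
  rw [Algebra.smul_def, 𝒮.pval_mul (ord_algebraMap' P c).ge hf, pval_algebraMap]

theorem pval_neg {P : Place K F} {f : F} (hf : 0 ≤ P.ord f) : pval P (-f) = -pval P f := by
  have h := 𝒮.pval_const_smul (-1 : K) hf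
  simpa using h

theorem pval_sub {P : Place K F} {f g : F} (hf : 0 ≤ P.ord f) (hg : 0 ≤ P.ord g) :
    pval P (f - g) = pval P f - pval P g := by
  rw [sub_eq_add_neg, 𝒮.pval_add hf (by rwa [ord_neg']), 𝒮.pval_neg hg, sub_eq_add_neg]

theorem pval_sub_const {P : Place K F} {f : F} (hf : 0 ≤ P.ord f) (c : K) :
    pval P (f - algebraMap K F c) = pval P f - c := by
  rw [𝒮.pval_sub hf (ord_algebraMap' P c).ge, pval_algebraMap]

theorem pval_sum {P : Place K F} {ι : Type*} (s : Finset ι) (f : ι → F)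
    (hf : ∀ i ∈ s, 0 ≤ P.ord (f i)) : pval P (∑ i ∈ s, f i) = ∑ i ∈ s, pval P (f i) := by
  classical
  induction s using Finset.induction_on with
  | empty => simp
  | insert a s ha ih =>
    rw [Finset.sum_insert ha, Finset.sum_insert ha,
      𝒮.pval_add (hf a (Finset.mem_insert_self a s))
        (ord_sum_nonneg P s f fun i hi => hf i (Finset.mem_insert_of_mem hi)),
      ih fun i hi => hf i (Finset.mem_insert_of_mem hi)]

theorem pval_prod {P : Place K F} {ι : Type*} (s : Finset ι) (f : ι → F)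
    (hf : ∀ i ∈ s, 0 ≤ P.ord (f i)) : pval P (∏ i ∈ s, f i) = ∏ i ∈ s, pval P (f i) := by
  classical
  induction s using Finset.induction_on with
  | empty => simp
  | insert a s ha ih =>
    rw [Finset.prod_insert ha, Finset.prod_insert ha,
      𝒮.pval_mul (hf a (Finset.mem_insert_self a s))
        (ord_prod_nonneg P s f fun i hi => hf i (Finset.mem_insert_of_mem hi)),
      ih fun i hi => hf i (Finset.mem_insert_of_mem hi)]

theorem pval_pow {P : Place K F} {f : F} (hf : 0 ≤ P.ord f) (n : ℕ) :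
    pval P (f ^ n) = pval P f ^ n := by
  induction n with
  | zero => simp
  | succ n ih => rw [pow_succ, pow_succ, 𝒮.pval_mul (ord_pow_nonneg P hf n) hf, ih]

/-- The value of a linear combination of regular functions. -/
theorem pval_sum_smul {P : Place K F} {ι : Type*} (s : Finset ι) (a : ι → K) (f : ι → F)
    (hf : ∀ i ∈ s, 0 ≤ P.ord (f i)) :
    pval P (∑ i ∈ s, a i • f i) = ∑ i ∈ s, a i * pval P (f i) := by
  rw [𝒮.pval_sum s _ fun i hi => ord_const_smul_nonneg P (a i) (hf i hi)]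
  exact Finset.sum_congr rfl fun i hi => 𝒮.pval_const_smul (a i) (hf i hi)

/-- The value vanishes exactly at the zeros. -/
theorem pval_eq_zero_iff {P : Place K F} {f : F} (hf0 : f ≠ 0) (hf : 0 ≤ P.ord f) :
    pval P f = 0 ↔ 0 < P.ord f := by
  rw [ord_pos_iff P hf0]
  constructor
  · intro h
    have := 𝒮.pval_spec' hf
    rwa [h, map_zero, sub_zero] at this
  · intro h
    exact pval_eq P (by simpa using h)

theorem pval_ne_zero_of_ord_eq_zero {P : Place K F} {f : F} (hf0 : f ≠ 0) (hf : P.ord f = 0) :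
    pval P f ≠ 0 := by
  intro h
  have := (𝒮.pval_eq_zero_iff hf0 hf.ge).mp h
  omega

theorem pval_eq_zero_of_ord_pos {P : Place K F} {f : F} (hf : 0 < P.ord f) : pval P f = 0 := by
  have hf0 : f ≠ 0 := by rintro rfl; simp at hf
  exact (𝒮.pval_eq_zero_iff hf0 hf.le).mpr hf

/-- Off the divisor of zeros the value is nonzero. -/
theorem pval_ne_zero_of_isZDiv {φ : F} {Z : Place K F →₀ ℕ} (hZ : IsZDiv pinf φ Z)
    (hφ : φ ≠ 0) {q : Place K F} (hq : q ≠ pinf) (hZq : Z q = 0) : pval q φ ≠ 0 := by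
  refine 𝒮.pval_ne_zero_of_ord_eq_zero hφ ?_
  rw [← hZ.2 q hq, hZq, Nat.cast_zero]

/-- On the divisor of zeros the value is zero. -/
theorem pval_eq_zero_of_isZDiv {φ : F} {Z : Place K F →₀ ℕ} (hZ : IsZDiv pinf φ Z)
    {q : Place K F} (hq : q ≠ pinf) (hZq : Z q ≠ 0) : pval q φ = 0 := by
  refine 𝒮.pval_eq_zero_of_ord_pos ?_
  rw [← hZ.2 q hq]
  exact_mod_cast Nat.pos_of_ne_zero hZq

theorem isZDiv_iff_pval {φ : F} {Z : Place K F →₀ ℕ} (hZ : IsZDiv pinf φ Z) (hφ : φ ≠ 0)
    {q : Place K F} (hq : q ≠ pinf) : Z q ≠ 0 ↔ pval q φ = 0 := by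
  constructor
  · exact fun h => 𝒮.pval_eq_zero_of_isZDiv hZ hq h
  · intro h hZq
    exact 𝒮.pval_ne_zero_of_isZDiv hZ hφ hq hZq h

/-! ## Piece 2 — the function `t` and its fibres -/

/-- `t` is regular off `pinf`. -/
theorem t_ord_nonneg {P : Place K F} (hP : P ≠ pinf) : 0 ≤ P.ord t := 𝒮.t_reg P hP

/-- `t` is not a constant. -/
theorem t_sub_const_ne_zero (τ : K) : t - algebraMap K F τ ≠ 0 := by
  intro h
  have h1 : t = algebraMap K F τ := sub_eq_zero.mp h
  have h2 := 𝒮.t_pole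
  rw [h1, ord_algebraMap'] at h2
  have := 𝒮.m_pos
  omega

theorem t_ne_zero : t ≠ 0 := by
  have := 𝒮.t_sub_const_ne_zero 0
  simpa using this

theorem t_sub_const_regOff (τ : K) : RegOff pinf (t - algebraMap K F τ) :=
  fun P hP => ord_sub_nonneg P (𝒮.t_reg P hP) (ord_algebraMap' P τ).ge

/-- The value of `t - τ`. -/
theorem pval_t_sub {P : Place K F} (hP : P ≠ pinf) (τ : K) :
    pval P (t - algebraMap K F τ) = pval P t - τ :=
  𝒮.pval_sub_const (𝒮.t_reg P hP) τ

/-- The points of the fibre of `t` over `τ`: `Z P ≠ 0 ↔ t(P) = τ`. -/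
theorem fib_apply_ne_zero_iff {τ : K} {Z : Place K F →₀ ℕ}
    (hZ : IsZDiv pinf (t - algebraMap K F τ) Z) {P : Place K F} (hP : P ≠ pinf) :
    Z P ≠ 0 ↔ pval P t = τ := by
  rw [𝒮.isZDiv_iff_pval hZ (𝒮.t_sub_const_ne_zero τ) hP, 𝒮.pval_t_sub hP, sub_eq_zero]

theorem fib_mem_support_iff {τ : K} {Z : Place K F →₀ ℕ}
    (hZ : IsZDiv pinf (t - algebraMap K F τ) Z) {P : Place K F} (hP : P ≠ pinf) :
    P ∈ Z.support ↔ pval P t = τ := by
  rw [Finsupp.mem_support_iff, 𝒮.fib_apply_ne_zero_iff hZ hP]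

end ResK

end Setting

end PieceB

/-! ## Piece 2 — divisors and semilinear automorphisms -/

theorem prod_mapDomain_smul (g : SemilinearAut K F) (Z : Place K F →₀ ℕ) {M : Type*}
    [CommMonoid M] (h : Place K F → ℕ → M) :
    (Z.mapDomain fun P => g • P).prod h = Z.prod fun P n => h (g • P) n :=
  Finsupp.prod_mapDomain_index_inj (MulAction.injective g)

theorem sum_mapDomain_smul (g : SemilinearAut K F) (Z : Place K F →₀ ℕ) {M : Type*}
    [AddCommMonoid M] (h : Place K F → ℕ → M) :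
    (Z.mapDomain fun P => g • P).sum h = Z.sum fun P n => h (g • P) n :=
  Finsupp.sum_mapDomain_index_inj (MulAction.injective g)

theorem mapDomain_smul_apply (g : SemilinearAut K F) (Z : Place K F →₀ ℕ) (P : Place K F) :
    (Z.mapDomain fun P => g • P) (g • P) = Z P :=
  Finsupp.mapDomain_apply (MulAction.injective g) Z P

theorem mapDomain_smul_apply' (g : SemilinearAut K F) (Z : Place K F →₀ ℕ) (P : Place K F) :
    (Z.mapDomain fun P => g • P) P = Z (g⁻¹ • P) := by
  have h := mapDomain_smul_apply g Z (g⁻¹ • P)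
  rwa [smul_inv_smul] at h

theorem deg_mapDomain_smul (g : SemilinearAut K F) (Z : Place K F →₀ ℕ) :
    deg (Z.mapDomain fun P => g • P) = deg Z := by
  unfold deg
  exact sum_mapDomain_smul g Z fun _ n => n

theorem ht_mapDomain_smul (g : SemilinearAut K F) (η : Place K F → ℝ) (Z : Place K F →₀ ℕ) :
    ht η (Z.mapDomain fun P => g • P) = ht (fun P => η (g • P)) Z := by
  unfold ht
  exact sum_mapDomain_smul g Z fun p n => (n : ℝ) * η p

theorem mem_support_mapDomain_smul (g : SemilinearAut K F) (Z : Place K F →₀ ℕ)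
    (P : Place K F) : g • P ∈ (Z.mapDomain fun P => g • P).support ↔ P ∈ Z.support := by
  rw [Finsupp.mem_support_iff, Finsupp.mem_support_iff, mapDomain_smul_apply]

/-- `log |∏ c q ^ (E q)|_v = ∑ E q * log |c q|_v` for nonzero factors. -/
theorem log_abv_finsupp_prod (w : AbsoluteValue K ℝ) {P : Type*} (E : P →₀ ℕ) (c : P → K)
    (hc0 : ∀ q ∈ E.support, c q ≠ 0) :
    Real.log (w (E.prod fun q n => c q ^ n)) = E.sum fun q n => (n : ℝ) * Real.log (w (c q)) := by
  unfold Finsupp.prod Finsupp.sum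
  rw [map_prod, Real.log_prod]
  · refine Finset.sum_congr rfl fun q _ => ?_
    rw [map_pow, Real.log_pow]
  · intro q hq
    rw [map_pow]
    exact pow_ne_zero _ (w.ne_zero (hc0 q hq))

theorem finsupp_prod_pow_ne_zero {P : Type*} (E : P →₀ ℕ) (c : P → K)
    (hc0 : ∀ q ∈ E.support, c q ≠ 0) : (E.prod fun q n => c q ^ n) ≠ 0 := by
  unfold Finsupp.prod
  exact Finset.prod_ne_zero_iff.mpr fun q hq => pow_ne_zero _ (hc0 q hq)

/-- The local terms of `hU` have finite support. -/
theorem hfs_hU_term (Ab : AbsFamily K V) {ι : Type*} [Finite ι] (a : ι → K)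
    (s : SemilinearAut K F) :
    Function.HasFiniteSupport fun v =>
      Real.log (⨆ i, Ab.abv v (SemilinearAut.baseAut s (a i))) :=
  hfs_log_iSup_abv Ab fun i => SemilinearAut.baseAut s (a i)

section PieceC

namespace Setting

/-! ## Piece 2 — `HasFiniteSupport` forms of the local terms -/

theorem hfs_lam {p q : Place K F} (hp : p ≠ pinf) (hq : q ≠ pinf) :
    Function.HasFiniteSupport fun v => 𝒮.lam v p q := 𝒮.finite_lam hp hq

theorem hfs_eta (p : Place K F) : Function.HasFiniteSupport fun v => 𝒮.eta v p := 𝒮.finite_eta p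

theorem hfs_lam_smul {s : SemilinearAut K F} (hs : s ∈ 𝒮.Γ) {p q : Place K F} (hp : p ≠ pinf)
    (hq : q ≠ pinf) : Function.HasFiniteSupport fun v => 𝒮.lam v (s • p) (s • q) :=
  𝒮.hfs_lam (𝒮.smul_ne_pinf hs hp) (𝒮.smul_ne_pinf hs hq)

/-- `log max 1 |t(p)|_v = m * η_v(p)`. -/
theorem log_max_one_pval_t (v : V) (p : Place K F) :
    Real.log (max 1 (Ab.abv v (pval p t))) = (m : ℝ) * 𝒮.eta v p := by
  have hm : (m : ℝ) ≠ 0 := Nat.cast_ne_zero.mpr 𝒮.m_pos.ne'
  unfold eta
  field_simp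

theorem eta_smul {s : SemilinearAut K F} (hs : s ∈ 𝒮.Γ) (v : V) (p : Place K F) :
    𝒮.eta v (s • p)
      = Real.log (max 1 (Ab.abv v (SemilinearAut.baseAut s (pval p t)))) / m := by
  unfold eta
  rw [𝒮.pval_smul_t hs]

/-! ## Piece 2 — local products of distances as sums of `lam` -/

/-- Positivity of a product of distances to a point off the divisor. -/
theorem prod_delta_pos (v : V) {D : Place K F →₀ ℕ} (hD : D pinf = 0) {S : Place K F}
    (hS : S ≠ pinf) (hDS : D S = 0) : 0 < D.prod fun R n => 𝒮.δ v R S ^ n := by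
  unfold Finsupp.prod
  refine Finset.prod_pos fun R hR => pow_pos (𝒮.δ_pos v R S ?_ hS ?_) _
  · rintro rfl
    exact (Finsupp.mem_support_iff.mp hR) hD
  · rintro rfl
    exact (Finsupp.mem_support_iff.mp hR) hDS

/-- `−log ∏_{R ∈ D} δ_v(R, S)^{D R} = ∑_{R ∈ D} D R · λ_v(R, S)` for `S` off `D` (the shape of
`MLe`: the variable point is the FIRST argument of `δ`). -/
theorem neg_log_prod_delta (v : V) {D : Place K F →₀ ℕ} (hD : D pinf = 0) {S : Place K F}
    (hS : S ≠ pinf) (hDS : D S = 0) :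
    -Real.log (D.prod fun R n => 𝒮.δ v R S ^ n) = D.sum fun R n => (n : ℝ) * 𝒮.lam v R S := by
  unfold Finsupp.prod Finsupp.sum
  rw [Real.log_prod, ← Finset.sum_neg_distrib]
  · refine Finset.sum_congr rfl fun R _ => ?_
    rw [Real.log_pow]
    unfold lam
    ring
  · intro R hR
    refine pow_ne_zero _ (𝒮.δ_pos v R S ?_ hS ?_).ne'
    · rintro rfl
      exact (Finsupp.mem_support_iff.mp hR) hD
    · rintro rfl
      exact (Finsupp.mem_support_iff.mp hR) hDS

/-- The same with the variable point as the SECOND argument of `δ` (the shape of `Lip`). -/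
theorem neg_log_prod_delta' (v : V) {D : Place K F →₀ ℕ} (hD : D pinf = 0) {R : Place K F}
    (hR : R ≠ pinf) (hDR : D R = 0) :
    -Real.log (D.prod fun S n => 𝒮.δ v R S ^ n) = D.sum fun S n => (n : ℝ) * 𝒮.lam v R S := by
  have h := 𝒮.neg_log_prod_delta v hD hR hDR
  simp only [𝒮.δ_symm v _ R, 𝒮.lam_symm v _ R] at h
  exact h

theorem prod_delta_pos' (v : V) {D : Place K F →₀ ℕ} (hD : D pinf = 0) {R : Place K F}
    (hR : R ≠ pinf) (hDR : D R = 0) : 0 < D.prod fun S n => 𝒮.δ v R S ^ n := by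
  have h := 𝒮.prod_delta_pos v hD hR hDR
  simp only [𝒮.δ_symm v _ R] at h
  exact h

theorem prod_delta_nonneg (v : V) (D : Place K F →₀ ℕ) (S : Place K F) :
    0 ≤ D.prod fun R n => 𝒮.δ v R S ^ n :=
  Finset.prod_nonneg fun R _ => pow_nonneg (𝒮.δ_nonneg v R S) _

theorem prod_delta_le_one (v : V) (D : Place K F →₀ ℕ) (S : Place K F) :
    (D.prod fun R n => 𝒮.δ v R S ^ n) ≤ 1 :=
  Finset.prod_le_one (fun R _ => pow_nonneg (𝒮.δ_nonneg v R S) _)
    fun R _ => pow_le_one₀ (𝒮.δ_nonneg v R S) (𝒮.δ_le_one v R S)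

/-! ## Piece 2 — unfolding the global objects on divisors -/

/-- `ht etaU D` as ONE sum over `s ∈ Sg` and `v`. -/
theorem ht_etaU (D : Place K F →₀ ℕ) :
    ht 𝒮.etaU D = ∑ s ∈ 𝒮.Sg, ∑ᶠ v, D.sum fun p n => (n : ℝ) * 𝒮.eta v (s • p) := by
  rw [sum_finsum_finsupp_sum 𝒮.Sg D (fun s v p n => (n : ℝ) * 𝒮.eta v (s • p))
    (fun s _ p _ => hfs_const_mul _ (𝒮.hfs_eta (s • p)))]
  unfold ht etaU
  refine Finsupp.sum_congr fun p _ => ?_
  rw [sum_finsum_mul_left]

/-- `pairG gU D E` as ONE sum over `s ∈ Sg` and `v` (divisors off `pinf`). -/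
theorem pairG_gU {D E : Place K F →₀ ℕ} (hD : D pinf = 0) (hE : E pinf = 0) :
    pairG 𝒮.gU D E = ∑ s ∈ 𝒮.Sg, ∑ᶠ v,
      D.sum fun p a => E.sum fun q b => (a : ℝ) * (b : ℝ) * 𝒮.lam v (s • p) (s • q) := by
  have hsupp : ∀ {Z : Place K F →₀ ℕ}, Z pinf = 0 → ∀ p ∈ Z.support, p ≠ pinf := by
    intro Z hZ p hp
    rintro rfl
    exact (Finsupp.mem_support_iff.mp hp) hZ
  have hfs : ∀ s ∈ 𝒮.Sg, ∀ p ∈ D.support, ∀ q ∈ E.support,
      Function.HasFiniteSupport fun v => ((D p : ℕ) : ℝ) * ((E q : ℕ) : ℝ) *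
        𝒮.lam v (s • p) (s • q) := fun s hs p hp q hq =>
    hfs_const_mul _ (𝒮.hfs_lam_smul (𝒮.Sg_mem s hs) (hsupp hD p hp) (hsupp hE q hq))
  rw [sum_finsum_finsupp_sum 𝒮.Sg D
    (fun s v p a => E.sum fun q b => (a : ℝ) * (b : ℝ) * 𝒮.lam v (s • p) (s • q))
    (fun s hs p hp => hfs_finsupp_sum E _ fun q hq => hfs s hs p hp q hq)]
  unfold pairG
  refine Finsupp.sum_congr fun p hp => ?_
  rw [sum_finsum_finsupp_sum 𝒮.Sg E
    (fun s v q b => ((D p : ℕ) : ℝ) * (b : ℝ) * 𝒮.lam v (s • p) (s • q))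
    (fun s hs q hq => hfs s hs p hp q hq)]
  refine Finsupp.sum_congr fun q _ => ?_
  unfold gU
  rw [sum_finsum_mul_left]

/-! ## Piece 2 — `Γ`-fixed families -/

/-- `g • (∑ a i • f i) = ∑ g(a i) • f i` for a `Γ`-fixed family. -/
theorem smul_sum_smul {ι : Type*} {f : ι → F} {M : ℕ} (hf : 𝒮.Fam f M)
    {g : SemilinearAut K F} (hg : g ∈ 𝒮.Γ) (s : Finset ι) (a : ι → K) :
    g • (∑ i ∈ s, a i • f i) = ∑ i ∈ s, SemilinearAut.baseAut g (a i) • f i := by
  rw [Finset.smul_sum]
  refine Finset.sum_congr rfl fun i _ => ?_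
  rw [Algebra.smul_def, smul_mul', SemilinearAut.smul_algebraMap, hf.fixed g hg i,
    ← Algebra.smul_def]

/-- A combination with `U`-fixed coefficients of a `Γ`-fixed family is `U`-fixed. -/
theorem smul_eq_of_UFix {ι : Type*} {f : ι → F} {M : ℕ} (hf : 𝒮.Fam f M) {a : ι → K}
    (ha : 𝒮.UFix a) {u : SemilinearAut K F} (hu : u ∈ 𝒮.U) (s : Finset ι) :
    u • (∑ i ∈ s, a i • f i) = ∑ i ∈ s, a i • f i := by
  rw [𝒮.smul_sum_smul hf (𝒮.U_le hu)]
  exact Finset.sum_congr rfl fun i _ => by rw [ha u hu i]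

theorem regOff_sum_smul {ι : Type*} {f : ι → F} {M : ℕ} (hf : 𝒮.Fam f M) (s : Finset ι)
    (a : ι → K) : RegOff pinf (∑ i ∈ s, a i • f i) :=
  fun P hP => ord_sum_smul_nonneg' P s a f fun i _ => hf.reg i P hP

/-- The conjugate coefficient vector is again `U`-fixed … only for `U` normal; in general use
`isZDiv_smul_sum_smul`.  The divisor of zeros of the conjugate combination. -/
theorem isZDiv_smul_sum_smul {ι : Type*} {f : ι → F} {M : ℕ} (hf : 𝒮.Fam f M)
    {g : SemilinearAut K F} (hg : g ∈ 𝒮.Γ) (s : Finset ι) (a : ι → K) {Z : Place K F →₀ ℕ}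
    (hZ : IsZDiv pinf (∑ i ∈ s, a i • f i) Z) :
    IsZDiv pinf (∑ i ∈ s, SemilinearAut.baseAut g (a i) • f i)
      (Z.mapDomain fun P => g • P) := by
  rw [← 𝒮.smul_sum_smul hf hg]
  exact 𝒮.isZDiv_smul hg hZ

/-- The value of the conjugate combination at the conjugate point. -/
theorem pval_smul_sum_smul {ι : Type*} {f : ι → F} {M : ℕ} (hf : 𝒮.Fam f M)
    {g : SemilinearAut K F} (hg : g ∈ 𝒮.Γ) (s : Finset ι) (a : ι → K) (q : Place K F) :
    pval (g • q) (∑ i ∈ s, SemilinearAut.baseAut g (a i) • f i)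
      = SemilinearAut.baseAut g (pval q (∑ i ∈ s, a i • f i)) := by
  rw [← 𝒮.smul_sum_smul hf hg, pval_smul']

/-! ## Piece 2 — `U`-stable divisors -/

theorem RatU_pinf {E : Place K F →₀ ℕ} (hE : E ∈ 𝒮.RatU) : E pinf = 0 := hE.1

theorem RatU_ne_pinf {E : Place K F →₀ ℕ} (hE : E ∈ 𝒮.RatU) {q : Place K F}
    (hq : q ∈ E.support) : q ≠ pinf := by
  rintro rfl
  exact (Finsupp.mem_support_iff.mp hq) hE.1

theorem RatU_apply_smul {E : Place K F →₀ ℕ} (hE : E ∈ 𝒮.RatU) {u : SemilinearAut K F}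
    (hu : u ∈ 𝒮.U) (q : Place K F) : E (u • q) = E q := by
  have h := mapDomain_smul_apply u E q
  rwa [hE.2 u hu] at h

theorem RatU_smul_mem_support {E : Place K F →₀ ℕ} (hE : E ∈ 𝒮.RatU) {u : SemilinearAut K F}
    (hu : u ∈ 𝒮.U) {q : Place K F} : u • q ∈ E.support ↔ q ∈ E.support := by
  rw [Finsupp.mem_support_iff, Finsupp.mem_support_iff, 𝒮.RatU_apply_smul hE hu]

/-- Reindexing a product over a `U`-stable divisor. -/
theorem RatU_prod_smul {E : Place K F →₀ ℕ} (hE : E ∈ 𝒮.RatU) {u : SemilinearAut K F}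
    (hu : u ∈ 𝒮.U) {M : Type*} [CommMonoid M] (h : Place K F → ℕ → M) :
    (E.prod fun q n => h (u • q) n) = E.prod h := by
  rw [← prod_mapDomain_smul u E h, hE.2 u hu]

/-- Reindexing a sum over a `U`-stable divisor. -/
theorem RatU_sum_smul {E : Place K F →₀ ℕ} (hE : E ∈ 𝒮.RatU) {u : SemilinearAut K F}
    (hu : u ∈ 𝒮.U) {M : Type*} [AddCommMonoid M] (h : Place K F → ℕ → M) :
    (E.sum fun q n => h (u • q) n) = E.sum h := by
  rw [← sum_mapDomain_smul u E h, hE.2 u hu]

/-- The divisor of zeros of a `U`-fixed function is `U`-stable. -/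
theorem isZDiv_mem_RatU {φ : F} {Z : Place K F →₀ ℕ} (hZ : IsZDiv pinf φ Z)
    (hφ : ∀ u ∈ 𝒮.U, u • φ = φ) : Z ∈ 𝒮.RatU := by
  refine ⟨hZ.1, fun u hu => ?_⟩
  have h := 𝒮.isZDiv_smul (𝒮.U_le hu) hZ
  rw [hφ u hu] at h
  exact h.unique hZ

theorem isZDiv_sum_smul_mem_RatU {ι : Type*} {f : ι → F} {M : ℕ} (hf : 𝒮.Fam f M)
    {a : ι → K} (ha : 𝒮.UFix a) (s : Finset ι) {Z : Place K F →₀ ℕ}
    (hZ : IsZDiv pinf (∑ i ∈ s, a i • f i) Z) : Z ∈ 𝒮.RatU :=
  𝒮.isZDiv_mem_RatU hZ fun _ hu => 𝒮.smul_eq_of_UFix hf ha hu s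

/-- A product over a `U`-stable divisor of an equivariant family of constants is `U`-fixed. -/
theorem baseAut_prod_of_equivariant {E : Place K F →₀ ℕ} (hE : E ∈ 𝒮.RatU)
    (c : Place K F → K) {u : SemilinearAut K F} (hu : u ∈ 𝒮.U)
    (hc : ∀ q ∈ E.support, c (u • q) = SemilinearAut.baseAut u (c q)) :
    SemilinearAut.baseAut u (E.prod fun q n => c q ^ n) = E.prod fun q n => c q ^ n := by
  have h1 : SemilinearAut.baseAut u (E.prod fun q n => c q ^ n)
      = E.prod fun q n => c (u • q) ^ n := by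
    unfold Finsupp.prod
    rw [map_prod]
    refine Finset.prod_congr rfl fun q hq => ?_
    show SemilinearAut.baseAut u (c q ^ E q) = c (u • q) ^ E q
    rw [map_pow, hc q hq]
  rw [h1]
  exact 𝒮.RatU_prod_smul hE hu fun q n => c q ^ n

/-! ## Piece 2 — product formula for products over divisors -/

/-- The product formula for a `U`-fixed product `∏ c q ^ (E q)` of nonzero constants, in SUM
form. -/
theorem pf_finsupp_prod (E : Place K F →₀ ℕ) (c : Place K F → K)
    (hc0 : ∀ q ∈ E.support, c q ≠ 0)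
    (hfix : ∀ u ∈ 𝒮.U, SemilinearAut.baseAut u (E.prod fun q n => c q ^ n)
      = E.prod fun q n => c q ^ n) :
    ∑ s ∈ 𝒮.Sg, ∑ᶠ v,
      E.sum (fun q n => (n : ℝ) * Real.log (Ab.abv v (SemilinearAut.baseAut s (c q)))) = 0 := by
  have h := 𝒮.pf _ (finsupp_prod_pow_ne_zero E c hc0) hfix
  rw [← h]
  refine Finset.sum_congr rfl fun s _ => finsum_congr fun v => ?_
  have h1 : SemilinearAut.baseAut s (E.prod fun q n => c q ^ n)
      = E.prod fun q n => (SemilinearAut.baseAut s (c q)) ^ n := by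
    unfold Finsupp.prod
    rw [map_prod]
    exact Finset.prod_congr rfl fun q _ => map_pow _ _ _
  rw [h1, log_abv_finsupp_prod (Ab.abv v) E (fun q => SemilinearAut.baseAut s (c q))
    (fun q hq => (map_ne_zero _).mpr (hc0 q hq))]

/-- The product formula for an equivariant family of nonzero constants over a `U`-stable
divisor, in SUM form. -/
theorem pf_RatU {E : Place K F →₀ ℕ} (hE : E ∈ 𝒮.RatU) (c : Place K F → K)
    (hc0 : ∀ q ∈ E.support, c q ≠ 0)
    (hc : ∀ u ∈ 𝒮.U, ∀ q ∈ E.support, c (u • q) = SemilinearAut.baseAut u (c q)) :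
    ∑ s ∈ 𝒮.Sg, ∑ᶠ v,
      E.sum (fun q n => (n : ℝ) * Real.log (Ab.abv v (SemilinearAut.baseAut s (c q)))) = 0 :=
  𝒮.pf_finsupp_prod E c hc0 fun _ hu => 𝒮.baseAut_prod_of_equivariant hE c hu (hc _ hu)

/-! ## Piece 2 — the height of a coefficient vector -/


/-- `hU (c • a) = hU a` for `c ≠ 0` with `c ^ 2` fixed by `U`. -/
theorem hU_const_mul {ι : Type*} [Finite ι] (c : K) (hc : c ≠ 0)
    (hfix : ∀ u ∈ 𝒮.U, SemilinearAut.baseAut u (c ^ 2) = c ^ 2) (a : ι → K) :
    𝒮.hU (fun i => c * a i) = 𝒮.hU a := by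
  classical
  by_cases h0 : ∀ i, a i = 0
  · have : (fun i => c * a i) = a := by
      funext i
      rw [h0 i, mul_zero]
    rw [this]
  · push Not at h0
    obtain ⟨i₀, hi₀⟩ := h0
    have key : ∀ s : SemilinearAut K F, ∀ v : V,
        Real.log (⨆ i, Ab.abv v (SemilinearAut.baseAut s (c * a i)))
          = Real.log (Ab.abv v (SemilinearAut.baseAut s c))
            + Real.log (⨆ i, Ab.abv v (SemilinearAut.baseAut s (a i))) := by
      intro s v
      have h1 : (⨆ i, Ab.abv v (SemilinearAut.baseAut s (c * a i)))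
          = Ab.abv v (SemilinearAut.baseAut s c)
            * ⨆ i, Ab.abv v (SemilinearAut.baseAut s (a i)) := by
        rw [Real.mul_iSup_of_nonneg ((Ab.abv v).nonneg _)]
        congr 1
        funext i
        rw [map_mul, map_mul]
      rw [h1, Real.log_mul]
      · exact (Ab.abv v).ne_zero ((map_ne_zero _).mpr hc)
      · exact (iSup_abv_pos Ab v (a := fun i => SemilinearAut.baseAut s (a i)) (i := i₀)
          ((map_ne_zero _).mpr hi₀)).ne'
    unfold hU
    simp only [key]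
    rw [sum_finsum_add 𝒮.Sg _ _ (fun s _ => hfs_log_abv Ab _) (fun s _ => hfs_hU_term Ab a s),
      𝒮.pf_sq c hc hfix, zero_add]

theorem hU_smul {ι : Type*} [Finite ι] (c : K) (hc : c ≠ 0)
    (hfix : ∀ u ∈ 𝒮.U, SemilinearAut.baseAut u (c ^ 2) = c ^ 2) (a : ι → K) :
    𝒮.hU (c • a) = 𝒮.hU a := 𝒮.hU_const_mul c hc hfix a

/-- The height of a `U`-fixed nonzero coefficient vector is nonnegative. -/
theorem hU_nonneg {ι : Type*} [Finite ι] {a : ι → K} (ha : 𝒮.UFix a) {i₀ : ι}
    (hi₀ : a i₀ ≠ 0) : 0 ≤ 𝒮.hU a := by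
  have h := 𝒮.pf (a i₀) hi₀ fun u hu => ha u hu i₀
  rw [← h]
  unfold hU
  refine sum_finsum_le 𝒮.Sg (fun s _ => hfs_log_abv Ab _) (fun s _ => hfs_hU_term Ab a s)
    fun s _ v => ?_
  exact Real.log_le_log ((Ab.abv v).pos ((map_ne_zero _).mpr hi₀))
    (abv_le_iSup Ab v (fun i => SemilinearAut.baseAut s (a i)) i₀)

end Setting

end PieceC

end Fermat.Agent.MW.HG
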