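/-
MW / HT-Q (helper82) — THE INSTANCE OF `HG.Setting` for the modular function field
`F = modularFunctionFieldBar N` over `Qb`, and the dictionary between the generic vocabulary of
`HG/Defs.lean` (`Γ`, `U`, `Sg ⊆ SemilinearAut Qb F`) and the Galois group `GQ`.

* `ofLocalHt` : a `Setting` from a local datum `L : HtM.LocalHt Ab pinf t m` and arithmetic data;
  `mle_ofLocalHt`, `lip_ofLocalHt` : its `MLe`, `Lip` (the fields `mle`, `lip` of `CurveData₀`);
* `modSetting N L hm htfix htreg htpole U₀ Sg₀ hS` : the modular instance, with `Γ` the image of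
  `GQ`, `U` the image of `U₀ ≤ GQ`, `Sg` the image of a left transversal `Sg₀` of `U₀`;
* dictionary: `mem_Γ`, `mem_U`, `mem_Sg`, `sum_Sg`, `mem_RatU_iff`, `uFix_iff`, `fam_of_fixed`,
  `gU_eq`, `etaU_eq`, `etaU_eq_hplus`, `hU_eq`;
* `harch_absFamily` : the field `harch` of `CurveData₀` for `AbsQb.absFamily`;
* `modSettingQ` : the case `U₀ = ⊤`, `Sg₀ = {1}` (heights over `ℚ`).
-/
import Mathlib
import Fermat.Agent.MW.HG.Defs
import Fermat.Agent.MW.HG.Basic
import Fermat.Agent.MW.HtM.Interface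
import Fermat.Agent.MW.HtM.PVal
import Fermat.Agent.MW.Ht.NorthcottQb
import Fermat.Agent.MW.Ht.AbsFamilyQb
import Fermat.Agent.MW.Ht.RamDiv
import Fermat.Agent.Lib.FF.PlaceInf
import Fermat.Agent.Lib.FF.CanonicalFF1
import Fermat.Prelude.Def_ModularCurve_ArithmeticGalois

set_option autoImplicit false
set_option linter.unusedSectionVars false

noncomputable section

namespace Fermat.Agent.MW.HG.SettingInst

open AlgebraicCurve ModularCurve
open Fermat.Agent.MW.HtM Fermat.Agent.MW.HQ Fermat.Agent.MW.HG Fermat.Agent.Lib.FF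
open Fermat.Agent.Lib.FF.PlaceInf Fermat.Agent.MW.Ht.AbsQb

/-! ### A `Setting` from a local datum -/

section Generic

variable {K F V : Type*} [Field K] [Field F] [Algebra K F]
variable {Ab : AbsFamily K V} {pinf : Place K F} {t : F} {m : ℕ}

/-- The `Setting` with local distance `L.δ` and the given arithmetic data. -/
def ofLocalHt (L : LocalHt Ab pinf t m) (Γ U : Subgroup (SemilinearAut K F))
    (Sg : Finset (SemilinearAut K F)) (U_le : U ≤ Γ) (Sg_mem : ∀ s ∈ Sg, s ∈ Γ)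
    (inf_fixed : ∀ g ∈ Γ, g • pinf = pinf) (t_fixed : ∀ g ∈ Γ, g • t = t) (m_pos : 0 < m)
    (t_reg : RegOff pinf t) (t_pole : pinf.ord t = -(m : ℤ))
    (resK : ∀ (P : Place K F) (f : F), 0 ≤ P.ord f →
      ∃ c : K, P.adicValuation (f - algebraMap K F c) < 1)
    (fib : ∀ τ : K, ∃ Z : Place K F →₀ ℕ, IsZDiv pinf (t - algebraMap K F τ) Z ∧ deg Z = m)
    (pf : ∀ a : K, a ≠ 0 → (∀ u ∈ U, SemilinearAut.baseAut u a = a) →
      ∑ s ∈ Sg, ∑ᶠ v, Real.log (Ab.abv v (SemilinearAut.baseAut s a)) = 0) :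
    Setting Ab pinf t m where
  δ := L.δ
  δ_symm := L.δ_symm
  δ_nonneg := L.δ_nonneg
  δ_le_one := L.δ_le_one
  δ_self := L.δ_self
  δ_pos := L.δ_pos
  δ_eq_one := L.δ_eq_one
  Γ := Γ
  U := U
  Sg := Sg
  U_le := U_le
  Sg_mem := Sg_mem
  inf_fixed := inf_fixed
  t_fixed := t_fixed
  m_pos := m_pos
  t_reg := t_reg
  t_pole := t_pole
  resK := resK
  fib := fib
  pf := pf

/-- **(M≤)** for a setting whose distance is the distance of a `LocalHt`. -/
theorem mle_of_δ_eq (𝒮 : Setting Ab pinf t m) (L : LocalHt Ab pinf t m) (h : 𝒮.δ = L.δ) :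
    𝒮.MLe := by
  intro ι _ f M hreg hpole k
  obtain ⟨C, hC, hb⟩ := L.mle f M hreg hpole k
  refine ⟨C, hC, fun v a A hA ha S hS D hD hD0 hDord => ?_⟩
  rw [h]
  exact hb v a A hA ha S hS D hD hD0 hDord

/-- **(Lip)** for a setting whose distance is the distance of a `LocalHt`. -/
theorem lip_of_δ_eq (𝒮 : Setting Ab pinf t m) (L : LocalHt Ab pinf t m) (h : 𝒮.δ = L.δ) :
    𝒮.Lip := by
  obtain ⟨C, hC, hb⟩ := L.lip
  refine ⟨C, hC, fun v R hR τ Z hZ => ?_⟩
  rw [h]
  exact hb v R hR τ Z hZ.1 hZ.2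

end Generic

/-! ### The modular instance -/

section Modular

local notation "Qb" => AlgebraicClosure ℚ
local notation "GQ" => (AlgebraicClosure ℚ ≃ₐ[ℚ] AlgebraicClosure ℚ)

variable (N : ℕ) [NeZero N]

/-- The arithmetic Galois action on the modular function field. -/
abbrev gal : GQ →* SemilinearAut Qb ↥(modularFunctionFieldBar N) :=
  arithmeticGalois (modularFunctionFieldFull N)

theorem baseAut_gal (σ : GQ) (c : Qb) : SemilinearAut.baseAut (gal N σ) c = σ c := rfl

theorem gal_injective : Function.Injective (gal N) := by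
  intro σ τ h
  refine AlgEquiv.ext fun c => ?_
  have h1 : SemilinearAut.baseAut (gal N σ) c = SemilinearAut.baseAut (gal N τ) c := by rw [h]
  exact h1

/-- The embedding `GQ ↪ SemilinearAut`. -/
def galEmb : GQ ↪ SemilinearAut Qb ↥(modularFunctionFieldBar N) := ⟨gal N, gal_injective N⟩

@[simp] theorem galEmb_apply (σ : GQ) : galEmb N σ = gal N σ := rfl

variable {N}
variable {t : ↥(modularFunctionFieldBar N)} {m : ℕ}

/-- **The modular `Setting`**: `Γ` is the image of `GQ`, `U` the image of `U₀`, `Sg` the image of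
a left transversal `Sg₀` of `U₀` in `GQ`. -/
def modSetting (L : LocalHt absFamily (placeInfL Qb N) t m) (hm : 0 < m)
    (htfix : ∀ σ : GQ, gal N σ • t = t)
    (htreg : ∀ P : Place Qb ↥(modularFunctionFieldBar N), P ≠ placeInfL Qb N → 0 ≤ P.ord t)
    (htpole : (placeInfL Qb N).ord t = -(m : ℤ))
    (U₀ : Subgroup GQ) (Sg₀ : Finset GQ)
    (hS : Subgroup.IsComplement (Sg₀ : Set GQ) (U₀ : Set GQ)) :
    Setting absFamily (placeInfL Qb N) t m :=
  ofLocalHt L (gal N).range (U₀.map (gal N)) (Sg₀.map (galEmb N))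
    (Subgroup.map_le_range _ _)
    (fun s hs => by
      obtain ⟨σ, -, rfl⟩ := Finset.mem_map.mp hs
      exact ⟨σ, rfl⟩)
    (fun g hg => by
      obtain ⟨σ, rfl⟩ := hg
      exact arithmeticGalois_smul_placeInfL Qb N σ)
    (fun g hg => by
      obtain ⟨σ, rfl⟩ := hg
      exact htfix σ)
    hm htreg htpole
    (fun P f hf => ⟨pval P f, pval_spec_of_mem P ((Res.isFF1_modular N).resK P)
      (Fermat.Agent.S24.mem_of_ord_nonneg P hf)⟩)
    (fun τ => by
      obtain ⟨Z, h0, hZ, hdeg⟩ :=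
        Fermat.Agent.MW.Ht.RamDiv.exists_fibDiv (Res.isFF1_modular N) htreg htpole hm τ
      exact ⟨Z, ⟨h0, hZ⟩, hdeg⟩)
    (fun a ha hU => by
      rw [Finset.sum_map]
      exact prod_formula_isComplement U₀ Sg₀ hS ha
        (fun u hu => hU (gal N u) (Subgroup.mem_map_of_mem _ hu)))

/-- The value of a `GQ`-fixed function at a Galois translate of a place. -/
theorem pval_gal_fixed {f : ↥(modularFunctionFieldBar N)} (hf : ∀ σ : GQ, gal N σ • f = f)
    (σ : GQ) (P : Place Qb ↥(modularFunctionFieldBar N)) :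
    pval (gal N σ • P) f = σ (pval P f) := by
  have h := pval_smul' (gal N σ) P f
  rwa [hf σ] at h

section Dict

variable (L : LocalHt absFamily (placeInfL Qb N) t m) (hm : 0 < m)
    (htfix : ∀ σ : GQ, gal N σ • t = t)
    (htreg : ∀ P : Place Qb ↥(modularFunctionFieldBar N), P ≠ placeInfL Qb N → 0 ≤ P.ord t)
    (htpole : (placeInfL Qb N).ord t = -(m : ℤ))
    (U₀ : Subgroup GQ) (Sg₀ : Finset GQ)
    (hS : Subgroup.IsComplement (Sg₀ : Set GQ) (U₀ : Set GQ))

local notation "𝒮₀" => modSetting L hm htfix htreg htpole U₀ Sg₀ hS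

@[simp] theorem modSetting_δ : (𝒮₀).δ = L.δ := rfl

theorem modSetting_Γ : (𝒮₀).Γ = (gal N).range := rfl

theorem modSetting_U : (𝒮₀).U = U₀.map (gal N) := rfl

theorem modSetting_Sg : (𝒮₀).Sg = Sg₀.map (galEmb N) := rfl

theorem mem_Γ {g : SemilinearAut Qb ↥(modularFunctionFieldBar N)} :
    g ∈ (𝒮₀).Γ ↔ ∃ σ : GQ, gal N σ = g := MonoidHom.mem_range

theorem gal_mem_Γ (σ : GQ) : gal N σ ∈ (𝒮₀).Γ := ⟨σ, rfl⟩

theorem mem_U {g : SemilinearAut Qb ↥(modularFunctionFieldBar N)} :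
    g ∈ (𝒮₀).U ↔ ∃ σ ∈ U₀, gal N σ = g := Subgroup.mem_map

theorem gal_mem_U {σ : GQ} (hσ : σ ∈ U₀) : gal N σ ∈ (𝒮₀).U :=
  Subgroup.mem_map_of_mem _ hσ

theorem mem_Sg {g : SemilinearAut Qb ↥(modularFunctionFieldBar N)} :
    g ∈ (𝒮₀).Sg ↔ ∃ σ ∈ Sg₀, gal N σ = g := Finset.mem_map

/-- Sums over `Sg` are sums over the transversal `Sg₀`. -/
theorem sum_Sg {M : Type*} [AddCommMonoid M]
    (f : SemilinearAut Qb ↥(modularFunctionFieldBar N) → M) :
    ∑ s ∈ (𝒮₀).Sg, f s = ∑ σ ∈ Sg₀, f (gal N σ) :=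
  Finset.sum_map _ _ _

/-- **(M≤)** and **(Lip)** of the modular setting are the fields of `L`. -/
theorem modSetting_mle : (𝒮₀).MLe := mle_of_δ_eq _ L rfl

theorem modSetting_lip : (𝒮₀).Lip := lip_of_δ_eq _ L rfl

/-- The rational divisors: off `∞` and stable under `U₀`. -/
theorem mem_RatU_iff {D : Place Qb ↥(modularFunctionFieldBar N) →₀ ℕ} :
    D ∈ (𝒮₀).RatU ↔ D (placeInfL Qb N) = 0 ∧
      ∀ σ ∈ U₀, D.mapDomain (fun P => gal N σ • P) = D := by
  rw [Setting.mem_RatU]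
  refine and_congr_right fun _ => ⟨fun h σ hσ => h _ (gal_mem_U L hm htfix htreg htpole U₀ Sg₀ hS hσ),
    fun h u hu => ?_⟩
  obtain ⟨σ, hσ, rfl⟩ := (mem_U L hm htfix htreg htpole U₀ Sg₀ hS).mp hu
  exact h σ hσ

/-- `U`-fixed coefficient vectors: fixed by `U₀`. -/
theorem uFix_iff {ι : Type*} {a : ι → Qb} :
    (𝒮₀).UFix a ↔ ∀ σ ∈ U₀, ∀ i, σ (a i) = a i := by
  refine ⟨fun h σ hσ i => h _ (gal_mem_U L hm htfix htreg htpole U₀ Sg₀ hS hσ) i,
    fun h u hu i => ?_⟩
  obtain ⟨σ, hσ, rfl⟩ := (mem_U L hm htfix htreg htpole U₀ Sg₀ hS).mp hu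
  exact h σ hσ i

/-- A `GQ`-fixed family of functions regular off `∞`, with pole orders `≤ M` at `∞`, is a `Fam`
(e.g. the rational bases of `L(M·∞)` of `Ht/GalBridge.lean`). -/
theorem fam_of_fixed {ι : Type*} {f : ι → ↥(modularFunctionFieldBar N)} {M : ℕ}
    (hfix : ∀ i, ∀ σ : GQ, gal N σ • f i = f i)
    (hreg : ∀ i, ∀ P : Place Qb ↥(modularFunctionFieldBar N), P ≠ placeInfL Qb N →
      0 ≤ P.ord (f i))
    (hpole : ∀ i, -(M : ℤ) ≤ (placeInfL Qb N).ord (f i)) :
    (𝒮₀).Fam f M where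
  reg := hreg
  pole := hpole
  fixed := fun g hg i => by
    obtain ⟨σ, rfl⟩ := hg
    exact hfix i σ

/-- The global pair function as a sum over the transversal. -/
theorem gU_eq (p q : Place Qb ↥(modularFunctionFieldBar N)) :
    (𝒮₀).gU p q = ∑ σ ∈ Sg₀, ∑ᶠ v, -Real.log (L.δ v (gal N σ • p) (gal N σ • q)) := by
  unfold Setting.gU
  rw [sum_Sg]
  rfl

/-- The global point height as a sum over the transversal. -/
theorem etaU_eq (p : Place Qb ↥(modularFunctionFieldBar N)) :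
    (𝒮₀).etaU p = ∑ σ ∈ Sg₀, ∑ᶠ v, Real.log (max 1 (abv v (σ (pval p t)))) / m := by
  unfold Setting.etaU
  rw [sum_Sg]
  refine Finset.sum_congr rfl fun σ _ => ?_
  refine finsum_congr fun v => ?_
  unfold Setting.eta
  rw [pval_gal_fixed htfix σ p]
  rfl

/-- The global point height through `AbsQb.hplus`. -/
theorem etaU_eq_hplus (p : Place Qb ↥(modularFunctionFieldBar N)) :
    (𝒮₀).etaU p = (∑ σ ∈ Sg₀, hplus (σ (pval p t))) / m := by
  rw [etaU_eq, Finset.sum_div]
  refine Finset.sum_congr rfl fun σ _ => ?_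
  unfold hplus
  simp only [div_eq_mul_inv]
  exact (finsum_mul' _ _ (hasFiniteSupport_logPlus _)).symm

/-- The global height of a coefficient vector as a sum over the transversal. -/
theorem hU_eq {ι : Type*} (a : ι → Qb) :
    (𝒮₀).hU a = ∑ σ ∈ Sg₀, ∑ᶠ v, Real.log (⨆ i, abv v (σ (a i))) := by
  unfold Setting.hU
  rw [sum_Sg]
  rfl

end Dict

/-! ### The archimedean place comes from a complex embedding -/

/-- The field `harch` of `CurveData₀` for the family `AbsQb.absFamily`. -/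
theorem harch_absFamily (v : Pla) :
    IsNonarchimedean (absFamily.abv v) ∨
      ∃ j : Qb →+* ℂ, ∀ a, absFamily.abv v a = ‖j a‖ := by
  cases v with
  | none => exact Or.inr ⟨(complexEmbedding : Qb →+* ℂ), fun a => rfl⟩
  | some p => exact Or.inl (isNonarchimedean_abv_some p)

/-! ### Heights over `ℚ` -/

theorem isComplement_one_top :
    Subgroup.IsComplement ((({1} : Finset GQ)) : Set GQ) ((⊤ : Subgroup GQ) : Set GQ) := by
  rw [Finset.coe_singleton, Subgroup.coe_top]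
  exact Subgroup.isComplement_singleton_univ

/-- The modular setting over `ℚ`: `U = Γ`, `Sg = {1}`. -/
def modSettingQ (L : LocalHt absFamily (placeInfL Qb N) t m) (hm : 0 < m)
    (htfix : ∀ σ : GQ, gal N σ • t = t)
    (htreg : ∀ P : Place Qb ↥(modularFunctionFieldBar N), P ≠ placeInfL Qb N → 0 ≤ P.ord t)
    (htpole : (placeInfL Qb N).ord t = -(m : ℤ)) :
    Setting absFamily (placeInfL Qb N) t m :=
  modSetting L hm htfix htreg htpole ⊤ {1} isComplement_one_top

end Modular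

end Fermat.Agent.MW.HG.SettingInst
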