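/-
MW / HT-Q (sub-architect: helper89) — `CurveD`: THE FINAL LIST OF FACTS about the curve consumed
by the height side of Mordell–Weil (revision of `CurveData` of `HG/Curve.lean`, HT-Q ruling #3).

Changes with respect to `CurveData`:
* the canonical-type space is replaced by `κ`, a `Γ`-fixed basis of `L(MK · pinf)` with
  `MK + 1 ≤ 2γ` (`MK = 2γ − 1`): NO canonical divisor, NO auxiliary divisor `B`, NO (Small);
  the non-vanishing `det (κ i (P j)) ≠ 0` of `Good` is the non-speciality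
  `L((2γ − 1) · pinf − E) = 0` of the good divisor;
* the local determinant bounds are no longer fields: they follow from (M≤)
  (`Setting.detLe_zero_of_mle`, from `HtM/DetBoundB.lean`);
* Riemann–Hurwitz is used as the inequality `2γ + m ≤ deg 𝔯 + 1`;
* `Good` carries "`t` is injective on the support of `E + R`".
-/
import Mathlib
import Fermat.Agent.MW.HG.Defs
import Fermat.Agent.MW.HtM.DetBoundB

set_option autoImplicit false

noncomputable section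

namespace Fermat.Agent.MW.HG

open AlgebraicCurve Fermat.Agent.MW.HtM Fermat.Agent.MW.HQ

variable {K F V : Type*} [Field K] [Field F] [Algebra K F]
variable {Ab : AbsFamily K V} {pinf : Place K F} {t : F} {m : ℕ}

/-- **The local determinant bound** (without auxiliary divisor) follows from (M≤). -/
theorem Setting.detLe_zero_of_mle (𝒮 : Setting Ab pinf t m) (hM : 𝒮.MLe) {n : ℕ}
    (f : Fin n → F) (M : ℕ) (hreg : ∀ i, RegOff pinf (f i))
    (hpole : ∀ i, -(M : ℤ) ≤ pinf.ord (f i)) : 𝒮.DetLe f M 0 := by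
  have hmle : DetBoundB.MLe Ab pinf t m 𝒮.δ := fun f M h1 h2 k => hM f M h1 h2 k
  obtain ⟨C, hC, h⟩ := DetBoundB.det_le_of_mle hmle 𝒮.δ_nonneg
    (fun P _ f hf => 𝒮.resK P f hf) 0 (by simp) M n f hreg hpole
    (fun i P hP => by simpa using hreg i P hP)
  refine ⟨C, hC, fun v P hP => ?_⟩
  have := h v P hP (fun j => by simp)
  simpa only [𝒮.δ_symm v (P _) (P _), Finsupp.prod_zero_index, Finset.prod_const_one, one_pow,
    mul_one] using this

/-- The facts about the curve, except Northcott and the good translates. -/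
structure CurveD₀ (𝒮 : Setting Ab pinf t m) (J : Type*) [AddCommGroup J] where
  /-- the three local estimates -/
  mle : 𝒮.MLe
  lip : 𝒮.Lip
  ram : 𝒮.RamLe
  /-- the archimedean absolute values come from complex embeddings -/
  harch : ∀ v, IsNonarchimedean (Ab.abv v) ∨ ∃ j : K →+* ℂ, ∀ a, Ab.abv v a = ‖j a‖
  /-- the genus -/
  γ : ℕ
  /-- `cl D = [D − deg D · pinf]` for `D ∈ RatU` -/
  cl : (Place K F →₀ ℕ) →+ J
  /-- `l M = dim L(M · pinf)` and a `Γ`-fixed basis `w M` of it -/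
  l : ℕ → ℕ
  w : ∀ M : ℕ, Fin (l M) → F
  w_fam : ∀ M, 𝒮.Fam (w M) M
  w_li : ∀ M, LinearIndependent K (w M)
  w_norm : ∀ M, 𝒮.NormData (w M) M
  /-- every nonzero element of `L(M · pinf)` has a divisor of zeros, of degree `≤ M` -/
  w_zdiv : ∀ (M : ℕ) (a : Fin (l M) → K), (∑ i, a i • w M i) ≠ 0 →
    ∃ Z : Place K F →₀ ℕ, IsZDiv pinf (∑ i, a i • w M i) Z ∧ deg Z ≤ M
  /-- the divisor of zeros of a `U`-fixed function has class `0` -/
  cl_zdiv : ∀ (M : ℕ) (a : Fin (l M) → K), 𝒮.UFix a → (∑ i, a i • w M i) ≠ 0 →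
    ∀ Z : Place K F →₀ ℕ, IsZDiv pinf (∑ i, a i • w M i) Z → cl Z = 0
  /-- a rational divisor of class `0` is the divisor of zeros of a `U`-fixed function of
  `L(deg Z · pinf)` -/
  exists_fun : ∀ Z ∈ 𝒮.RatU, cl Z = 0 → ∃ a : Fin (l (deg Z)) → K, 𝒮.UFix a ∧
    (∑ i, a i • w (deg Z) i) ≠ 0 ∧ IsZDiv pinf (∑ i, a i • w (deg Z) i) Z
  /-- the moving lemma -/
  d₀ : ℕ
  rep : ∀ (x : J) (S : Finset (Place K F)), ∃ D ∈ 𝒮.RatU, cl D = x ∧ deg D ≤ d₀ ∧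
    ∀ p ∈ D.support, ∀ q ∈ S, 𝒮.far p q
  /-- `γ` functions of pole order `≤ MK ≤ 2γ − 1` (a basis of `L((2γ − 1) · pinf)`) -/
  MK : ℕ
  hMK : MK + 1 ≤ 2 * γ
  κ : Fin γ → F
  κ_fam : 𝒮.Fam κ MK
  /-- the affine ramification divisor of `t` and Riemann–Hurwitz -/
  𝔯 : Place K F →₀ ℕ
  𝔯_inf : 𝔯 pinf = 0
  𝔯_spec : ∀ P : Place K F, P ≠ pinf →
    (𝔯 P : ℤ) = P.ord (t - algebraMap K F (pval P t)) - 1
  hRH : 2 * γ + m ≤ deg 𝔯 + 1
  /-- the space `L(M₁ · pinf)` used for positivity: `n + 1` functions, `n + γ = M₁` -/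
  n : ℕ
  M₁ : ℕ
  hM₁ : n + γ = M₁
  w₁ : Fin (n + 1) → F
  w₁_fam : 𝒮.Fam w₁ M₁
  w₁_li : LinearIndependent K w₁
  w₁_norm : 𝒮.NormData w₁ M₁
  w₁_zdiv : ∀ a : Fin (n + 1) → K, (∑ i, a i • w₁ i) ≠ 0 →
    ∃ Z : Place K F →₀ ℕ, IsZDiv pinf (∑ i, a i • w₁ i) Z
  w₁_cl : ∀ a : Fin (n + 1) → K, 𝒮.UFix a → (∑ i, a i • w₁ i) ≠ 0 →
    ∀ Z : Place K F →₀ ℕ, IsZDiv pinf (∑ i, a i • w₁ i) Z → cl Z = 0

namespace CurveD₀

variable {𝒮 : Setting Ab pinf t m} {J : Type*} [AddCommGroup J] (𝒟 : CurveD₀ 𝒮 J)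

/-- **Good divisors.**  `E = ∑ P j` reduced of degree `γ`, rational, with
`det (κ i (P j)) ≠ 0` (i.e. `L(MK · pinf − E) = 0`); and there is a `U`-fixed
`ψ = ∑ a i • w₁ i ∈ L(M₁ · pinf)` whose divisor of zeros is `E + R` with `R = ∑ R j` rational,
`E + R` reduced, `t` injective on its support, in general position with respect to the
ramification divisor, `E` and `R` in general position, and `R` imposing independent conditions on
`L(M₁ · pinf)`. -/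
def Good (E : Place K F →₀ ℕ) : Prop :=
  ∃ (P : Fin 𝒟.γ → Place K F) (R : Fin 𝒟.n → Place K F) (a : Fin (𝒟.n + 1) → K),
    E = tdiv P ∧ Function.Injective P ∧ (∀ j, P j ≠ pinf) ∧ tdiv P ∈ 𝒮.RatU ∧
    Matrix.det (Matrix.of fun i j => pval (P j) (𝒟.κ i)) ≠ 0 ∧
    𝒮.UFix a ∧ (∑ i, a i • 𝒟.w₁ i) ≠ 0 ∧
    IsZDiv pinf (∑ i, a i • 𝒟.w₁ i) (tdiv P + tdiv R) ∧
    Function.Injective R ∧ (∀ j, R j ≠ pinf) ∧ tdiv R ∈ 𝒮.RatU ∧
    (∀ Q, (tdiv P + tdiv R) Q ≤ 1) ∧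
    Set.InjOn (fun Q : Place K F => pval Q t) ((tdiv P + tdiv R).support : Set (Place K F)) ∧
    Far 𝒮.far (tdiv P + tdiv R) 𝒟.𝔯 ∧
    Far 𝒮.far (tdiv P) (tdiv R) ∧
    (∃ i : Fin (𝒟.n + 1),
      Matrix.det (Matrix.of fun k j => pval (R j) (𝒟.w₁ (i.succAbove k))) ≠ 0)

/-- The local determinant bound for `κ`. -/
theorem κ_det : 𝒮.DetLe 𝒟.κ 𝒟.MK 0 :=
  𝒮.detLe_zero_of_mle 𝒟.mle 𝒟.κ 𝒟.MK 𝒟.κ_fam.reg 𝒟.κ_fam.pole

/-- The local determinant bounds for the maximal minors of `w₁`. -/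
theorem w₁_det (i : Fin (𝒟.n + 1)) :
    𝒮.DetLe (fun k : Fin 𝒟.n => 𝒟.w₁ (i.succAbove k)) 𝒟.M₁ 0 :=
  𝒮.detLe_zero_of_mle 𝒟.mle _ 𝒟.M₁ (fun _ => 𝒟.w₁_fam.reg _) (fun _ => 𝒟.w₁_fam.pole _)

end CurveD₀

/-- **All the facts about the curve.** -/
structure CurveD (𝒮 : Setting Ab pinf t m) (J : Type*) [AddCommGroup J]
    extends CurveD₀ 𝒮 J where
  /-- Northcott for rational divisors of bounded degree -/
  north : ∀ (d : ℕ) (T : ℝ), {E | E ∈ 𝒮.RatU ∧ deg E ≤ d ∧ ht 𝒮.etaU E ≤ T}.Finite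
  /-- a FINITE set of translations moves every class to the class of a good divisor -/
  translates : ∃ 𝒞 : Finset J, ∀ x : J, ∃ c ∈ 𝒞, ∃ E, toCurveD₀.Good E ∧ cl E = x + c

end Fermat.Agent.MW.HG
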