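/-
MW / HT-Q, row G4 (helper86) — the discriminant bound, core.

`Disc.disc_ge_of` : the literal conclusion of row G4 (`Setting.disc_ge`) from the local estimates
`𝒮.Lip`, `𝒮.RamLe`, the global Mahler bound `𝒮.MahlerLe f` and the literal conclusions of rows
G1 (`recLow_raw`) and G3 (`recUp_raw`) taken as hypotheses.

Also of independent use (global forms of the two local fibre estimates):
* `Disc.glob_lip` : `m (η(p) + η(q)) ≤ G(p, Fib q) + PF(t p − t q) + c`;
* `Disc.glob_ram` : `(m − 1) η(p) + G(p, 𝔯) ≤ G(p, Fib p − p) + c`.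
-/
import Mathlib
import Fermat.Prelude.Def_AlgebraicCurve_Repartitions
import Fermat.Agent.MW.HG.Defs

set_option autoImplicit false

noncomputable section

namespace Fermat.Agent.MW.HG.Disc

open AlgebraicCurve Fermat.Agent.MW.HtM Fermat.Agent.MW.HQ

variable {K F V : Type*} [Field K] [Field F] [Algebra K F]

/-! ### Values and orders under semilinear automorphisms -/

/-- `adicValuation < 1` in terms of `ord`. -/
theorem adic_lt_one_iff (P : Place K F) (x : F) :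
    P.adicValuation x < 1 ↔ x = 0 ∨ 0 < P.ord x := by
  rcases eq_or_ne x 0 with rfl | hx
  · simp
  · rw [P.adicValuation_eq_exp_neg_ord hx, ← WithZero.exp_zero, WithZero.exp_lt_exp]
    constructor
    · intro h; right; omega
    · rintro (h | h)
      · exact absurd h hx
      · omega

/-- The value map is equivariant. -/
theorem pval_smul_eq (g : SemilinearAut K F) (P : Place K F) (f : F) :
    pval (g • P) (g • f) = SemilinearAut.baseAut g (pval P f) := by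
  classical
  have key : ∀ (h : SemilinearAut K F) (Q : Place K F) (x : F) (c : K),
      Q.adicValuation (x - algebraMap K F c) < 1 →
      (h • Q).adicValuation (h • x - algebraMap K F (SemilinearAut.baseAut h c)) < 1 := by
    intro h Q x c hc
    rw [← SemilinearAut.smul_algebraMap, ← smul_sub, adic_lt_one_iff]
    rw [adic_lt_one_iff] at hc
    rcases hc with hc | hc
    · left; rw [hc, smul_zero]
    · right; rwa [SemilinearAut.ord_smul]
  by_cases hex : ∃ c : K, P.adicValuation (f - algebraMap K F c) < 1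
  · obtain ⟨c, hc⟩ := hex
    rw [pval_eq P hc]
    exact pval_eq _ (key g P f c hc)
  · have hex' : ¬ ∃ c : K, (g • P).adicValuation (g • f - algebraMap K F c) < 1 := by
      rintro ⟨c, hc⟩
      apply hex
      have := key g⁻¹ (g • P) (g • f) c hc
      rw [inv_smul_smul, inv_smul_smul] at this
      exact ⟨_, this⟩
    unfold pval
    rw [dif_neg hex, dif_neg hex', map_zero]

variable {Ab : AbsFamily K V} {pinf : Place K F} {t : F} {m : ℕ} (𝒮 : Setting Ab pinf t m)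

theorem smul_ne_pinf {g : SemilinearAut K F} (hg : g ∈ 𝒮.Γ) {P : Place K F} (hP : P ≠ pinf) :
    g • P ≠ pinf := by
  intro h
  apply hP
  have h1 := 𝒮.inf_fixed g hg
  rw [← h1] at h
  exact MulAction.injective g h

theorem pval_smul_t {g : SemilinearAut K F} (hg : g ∈ 𝒮.Γ) (P : Place K F) :
    pval (g • P) t = SemilinearAut.baseAut g (pval P t) := by
  have h := pval_smul_eq g P t
  rwa [𝒮.t_fixed g hg] at h

theorem ord_smul_t_sub {g : SemilinearAut K F} (hg : g ∈ 𝒮.Γ) (P : Place K F) (τ : K) :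
    (g • P).ord (t - algebraMap K F (SemilinearAut.baseAut g τ)) =
      P.ord (t - algebraMap K F τ) := by
  have h := SemilinearAut.ord_smul g P (t - algebraMap K F τ)
  rwa [smul_sub, 𝒮.t_fixed g hg, SemilinearAut.smul_algebraMap] at h

include 𝒮 in
theorem t_sub_ne_zero (τ : K) : t - algebraMap K F τ ≠ 0 := by
  intro h
  have h1 : t = algebraMap K F τ := sub_eq_zero.mp h
  have h2 := 𝒮.t_pole
  have h3 : pinf.ord (algebraMap K F τ) = 0 := by
    rcases eq_or_ne τ 0 with rfl | hτ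
    · rw [map_zero, Place.ord_zero]
    · have h4 := adicValuation_algebraMap pinf hτ
      unfold Place.ord
      rw [h4]; simp
  have h5 := 𝒮.m_pos
  rw [h1, h3] at h2
  omega

include 𝒮 in
theorem ord_pos_iff_pval {S : Place K F} (hS : S ≠ pinf) (τ : K) :
    0 < S.ord (t - algebraMap K F τ) ↔ pval S t = τ := by
  constructor
  · intro h
    exact pval_eq S ((adic_lt_one_iff S _).mpr (Or.inr h))
  · intro h
    have h1 := pval_spec S (𝒮.resK S t (𝒮.t_reg S hS))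
    rw [h, adic_lt_one_iff] at h1
    rcases h1 with h1 | h1
    · exact absurd h1 (t_sub_ne_zero 𝒮 τ)
    · exact h1

/-- pointwise invariance gives invariance under `mapDomain`. -/
theorem mapDomain_smul_eq (g : SemilinearAut K F) (D : Place K F →₀ ℕ)
    (h : ∀ P, D (g • P) = D P) : D.mapDomain (fun P => g • P) = D := by
  have hinj : Function.Injective (fun P : Place K F => g • P) := MulAction.injective g
  ext Q
  have h1 := Finsupp.mapDomain_apply hinj D (g⁻¹ • Q)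
  simp only [smul_inv_smul] at h1
  rw [h1, ← h (g⁻¹ • Q), smul_inv_smul]

/-- the zero divisor of `t - τ` moves to the zero divisor of `t - g τ`. -/
theorem isZDiv_map {g : SemilinearAut K F} (hg : g ∈ 𝒮.Γ) {τ : K} {Z : Place K F →₀ ℕ}
    (h : IsZDiv pinf (t - algebraMap K F τ) Z) :
    IsZDiv pinf (t - algebraMap K F (SemilinearAut.baseAut g τ))
      (Z.mapDomain fun P => g • P) := by
  have hinj : Function.Injective (fun P : Place K F => g • P) := MulAction.injective g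
  constructor
  · have h1 := Finsupp.mapDomain_apply hinj Z pinf
    simp only [𝒮.inf_fixed g hg] at h1
    rw [h1]; exact h.1
  · intro P hP
    have hP' : g⁻¹ • P ≠ pinf := smul_ne_pinf 𝒮 (𝒮.Γ.inv_mem hg) hP
    have h1 := Finsupp.mapDomain_apply hinj Z (g⁻¹ • P)
    simp only [smul_inv_smul] at h1
    rw [h1, h.2 _ hP', ← ord_smul_t_sub 𝒮 hg, smul_inv_smul]

/-! ### The fibre divisors of `t` -/

/-- The fibre divisor of `τ`: the divisor of zeros of `t - τ`. -/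
def fibD (τ : K) : Place K F →₀ ℕ := (𝒮.fib τ).choose

theorem fibD_isZDiv (τ : K) : IsZDiv pinf (t - algebraMap K F τ) (fibD 𝒮 τ) :=
  (𝒮.fib τ).choose_spec.1

theorem deg_fibD (τ : K) : deg (fibD 𝒮 τ) = m := (𝒮.fib τ).choose_spec.2

theorem fibD_pinf (τ : K) : fibD 𝒮 τ pinf = 0 := (fibD_isZDiv 𝒮 τ).1

theorem fibD_apply (τ : K) {S : Place K F} (hS : S ≠ pinf) :
    (fibD 𝒮 τ S : ℤ) = S.ord (t - algebraMap K F τ) := (fibD_isZDiv 𝒮 τ).2 S hS

theorem fibD_smul {g : SemilinearAut K F} (hg : g ∈ 𝒮.Γ) (τ : K) (S : Place K F) :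
    fibD 𝒮 (SemilinearAut.baseAut g τ) (g • S) = fibD 𝒮 τ S := by
  by_cases hS : S = pinf
  · subst hS; rw [𝒮.inf_fixed g hg, fibD_pinf, fibD_pinf]
  · have h1 := fibD_apply 𝒮 (SemilinearAut.baseAut g τ) (smul_ne_pinf 𝒮 hg hS)
    rw [ord_smul_t_sub 𝒮 hg, ← fibD_apply 𝒮 τ hS] at h1
    exact_mod_cast h1

theorem mem_support_fibD {τ : K} {S : Place K F} (h : S ∈ (fibD 𝒮 τ).support) :
    S ≠ pinf ∧ pval S t = τ := by
  rw [Finsupp.mem_support_iff] at h
  have hS : S ≠ pinf := by rintro rfl; exact h (fibD_pinf 𝒮 τ)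
  refine ⟨hS, (ord_pos_iff_pval 𝒮 hS τ).mp ?_⟩
  have h1 := fibD_apply 𝒮 τ hS
  omega

/-! ### Global sums of local terms -/

/-- The global sum `∑ s ∈ Sg, ∑ᶠ v` of a local term. -/
def glob (φ : SemilinearAut K F → V → ℝ) : ℝ := ∑ s ∈ 𝒮.Sg, ∑ᶠ v, φ s v

/-- Finite support in `v` (for every `s ∈ Sg`). -/
def FS (φ : SemilinearAut K F → V → ℝ) : Prop :=
  ∀ s ∈ 𝒮.Sg, (Function.support (φ s)).Finite

variable {𝒮}

theorem FS.add {φ ψ : SemilinearAut K F → V → ℝ} (hφ : FS 𝒮 φ) (hψ : FS 𝒮 ψ) :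
    FS 𝒮 (fun s v => φ s v + ψ s v) := fun s hs =>
  ((hφ s hs).union (hψ s hs)).subset (Function.support_add _ _)

theorem FS.const_mul {φ : SemilinearAut K F → V → ℝ} (c : ℝ) (hφ : FS 𝒮 φ) :
    FS 𝒮 (fun s v => c * φ s v) := fun s hs =>
  (hφ s hs).subset fun v hv => by
    simp only [Function.mem_support, ne_eq, mul_eq_zero, not_or] at hv ⊢
    exact hv.2

theorem FS.sum {ι : Type*} (I : Finset ι) {φ : ι → SemilinearAut K F → V → ℝ}
    (h : ∀ i ∈ I, FS 𝒮 (φ i)) : FS 𝒮 (fun s v => ∑ i ∈ I, φ i s v) := fun s hs =>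
  (Set.Finite.biUnion I.finite_toSet (fun i hi => h i hi s hs)).subset fun v hv => by
    simp only [Function.mem_support, ne_eq] at hv
    obtain ⟨i, hi, hne⟩ := Finset.exists_ne_zero_of_sum_ne_zero hv
    simp only [Set.mem_iUnion, Function.mem_support, Finset.mem_coe]
    exact ⟨i, hi, hne⟩

theorem glob_add {φ ψ : SemilinearAut K F → V → ℝ} (hφ : FS 𝒮 φ) (hψ : FS 𝒮 ψ) :
    glob 𝒮 (fun s v => φ s v + ψ s v) = glob 𝒮 φ + glob 𝒮 ψ := by
  unfold glob
  rw [← Finset.sum_add_distrib]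
  exact Finset.sum_congr rfl fun s hs => finsum_add_distrib (hφ s hs) (hψ s hs)

theorem glob_const_mul (c : ℝ) (φ : SemilinearAut K F → V → ℝ) :
    glob 𝒮 (fun s v => c * φ s v) = c * glob 𝒮 φ := by
  unfold glob
  rw [Finset.mul_sum]
  exact Finset.sum_congr rfl fun s _ => (mul_finsum _ _).symm

theorem glob_sum {ι : Type*} (I : Finset ι) {φ : ι → SemilinearAut K F → V → ℝ}
    (h : ∀ i ∈ I, FS 𝒮 (φ i)) :
    glob 𝒮 (fun s v => ∑ i ∈ I, φ i s v) = ∑ i ∈ I, glob 𝒮 (φ i) := by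
  unfold glob
  rw [Finset.sum_comm]
  exact Finset.sum_congr rfl fun s hs => finsum_sum_comm I _ fun i hi => h i hi s hs

theorem glob_mono {φ ψ : SemilinearAut K F → V → ℝ} (hφ : FS 𝒮 φ) (hψ : FS 𝒮 ψ)
    (h : ∀ s ∈ 𝒮.Sg, ∀ v, φ s v ≤ ψ s v) : glob 𝒮 φ ≤ glob 𝒮 ψ :=
  Finset.sum_le_sum fun s hs => finsum_le_finsum' (hφ s hs) (hψ s hs) (h s hs)

theorem glob_nonneg {φ : SemilinearAut K F → V → ℝ} (h : ∀ s v, 0 ≤ φ s v) : 0 ≤ glob 𝒮 φ :=
  Finset.sum_nonneg fun s _ => finsum_nonneg fun v => h s v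

theorem glob_const (c : V → ℝ) :
    glob 𝒮 (fun _ v => c v) = (𝒮.Sg.card : ℝ) * ∑ᶠ v, c v := by
  unfold glob
  rw [Finset.sum_const, nsmul_eq_mul]

/-! ### Finite supports of the local terms -/

theorem fs_eta (p : Place K F) : FS 𝒮 (fun s v => 𝒮.eta v (s • p)) := fun s _ =>
  (Ab.finite_gt_one (pval (s • p) t)).subset fun v hv => by
    simp only [Function.mem_support, ne_eq] at hv
    simp only [Set.mem_ofPred_eq]
    by_contra hcon
    apply hv
    unfold Setting.eta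
    rw [max_eq_left (not_lt.mp hcon), Real.log_one, zero_div]

theorem fs_lam {p q : Place K F} (hp : p ≠ pinf) (hq : q ≠ pinf) :
    FS 𝒮 (fun s v => 𝒮.lam v (s • p) (s • q)) := fun s hs => by
  have hs' := 𝒮.Sg_mem s hs
  by_cases hpq : p = q
  · subst hpq
    have h0 : (fun v => 𝒮.lam v (s • p) (s • p)) = fun _ => 0 := by
      funext v
      unfold Setting.lam
      rw [𝒮.δ_self v _ (smul_ne_pinf 𝒮 hs' hp), Real.log_zero, neg_zero]
    show (Function.support (fun v => 𝒮.lam v (s • p) (s • p))).Finite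
    rw [h0]; simp
  · have hne : s • p ≠ s • q := fun e => hpq (MulAction.injective s e)
    refine (𝒮.δ_eq_one _ _ (smul_ne_pinf 𝒮 hs' hp) (smul_ne_pinf 𝒮 hs' hq) hne).subset
      fun v hv => ?_
    simp only [Function.mem_support, ne_eq] at hv
    simp only [Set.mem_ofPred_eq]
    intro h1
    apply hv
    unfold Setting.lam
    rw [h1, Real.log_one, neg_zero]

theorem finite_abv_ne_one {c : K} (hc : c ≠ 0) : {v | Ab.abv v c ≠ 1}.Finite := by
  refine ((Ab.finite_gt_one c).union (Ab.finite_gt_one c⁻¹)).subset fun v hv => ?_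
  simp only [Set.mem_ofPred_eq] at hv
  simp only [Set.mem_union, Set.mem_ofPred_eq]
  rcases lt_or_gt_of_ne hv with h | h
  · right
    rw [map_inv₀]
    exact (one_lt_inv₀ ((Ab.abv v).pos hc)).mpr h
  · left; exact h

theorem fs_logabv {c : K} (hc : c ≠ 0) :
    FS 𝒮 (fun s v => Real.log (Ab.abv v (SemilinearAut.baseAut s c))) := fun s _ => by
  have hc' : SemilinearAut.baseAut s c ≠ 0 := by
    rwa [Ne, EmbeddingLike.map_eq_zero_iff]
  refine (finite_abv_ne_one (Ab := Ab) hc').subset fun v hv => ?_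
  simp only [Function.mem_support, ne_eq] at hv
  simp only [Set.mem_ofPred_eq]
  intro h1
  apply hv
  rw [h1, Real.log_one]

theorem fs_logC {C : V → ℝ} (hC : Tame C) : FS 𝒮 (fun _ v => Real.log (C v)) := fun _ _ =>
  hC.2.subset fun v hv => by
    simp only [Function.mem_support, ne_eq] at hv
    simp only [Set.mem_ofPred_eq]
    intro h1
    apply hv
    rw [h1, Real.log_one]

variable (𝒮)

theorem etaU_eq_glob (p : Place K F) : 𝒮.etaU p = glob 𝒮 (fun s v => 𝒮.eta v (s • p)) := rfl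

theorem gU_eq_glob (p q : Place K F) :
    𝒮.gU p q = glob 𝒮 (fun s v => 𝒮.lam v (s • p) (s • q)) := rfl

theorem eta_nonneg' (v : V) (p : Place K F) : 0 ≤ 𝒮.eta v p := by
  unfold Setting.eta
  exact div_nonneg (Real.log_nonneg (le_max_left _ _)) (Nat.cast_nonneg _)

theorem etaU_nonneg' (p : Place K F) : 0 ≤ 𝒮.etaU p := glob_nonneg fun _ _ => eta_nonneg' 𝒮 _ _

theorem gU_self {p : Place K F} (hp : p ≠ pinf) : 𝒮.gU p p = 0 := by
  unfold Setting.gU
  refine Finset.sum_eq_zero fun s hs => ?_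
  have h0 : (fun v => 𝒮.lam v (s • p) (s • p)) = fun _ => 0 := by
    funext v
    unfold Setting.lam
    rw [𝒮.δ_self v _ (smul_ne_pinf 𝒮 (𝒮.Sg_mem s hs) hp), Real.log_zero, neg_zero]
  rw [h0]; simp

/-- `G(p, E)` for a single point `p`. -/
theorem pairG_single (g : Place K F → Place K F → ℝ) (p : Place K F) (E : Place K F →₀ ℕ) :
    pairG g (Finsupp.single p 1) E = ∑ S ∈ E.support, (E S : ℝ) * g p S := by
  unfold pairG
  rw [Finsupp.sum_single_index (by simp [Finsupp.sum])]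
  simp [Finsupp.sum]

/-- `G(p, E)` as a global sum. -/
theorem pairG_single_glob {p : Place K F} (hp : p ≠ pinf) (E : Place K F →₀ ℕ)
    (hE : ∀ S ∈ E.support, S ≠ pinf) :
    pairG 𝒮.gU (Finsupp.single p 1) E =
      glob 𝒮 (fun s v => ∑ S ∈ E.support, (E S : ℝ) * 𝒮.lam v (s • p) (s • S)) := by
  rw [pairG_single, glob_sum]
  · refine Finset.sum_congr rfl fun S _ => ?_
    rw [glob_const_mul, gU_eq_glob]
  · intro S hS
    exact (fs_lam hp (hE S hS)).const_mul _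

theorem fs_pairG_single {p : Place K F} (hp : p ≠ pinf) (E : Place K F →₀ ℕ)
    (hE : ∀ S ∈ E.support, S ≠ pinf) :
    FS 𝒮 (fun s v => ∑ S ∈ E.support, (E S : ℝ) * 𝒮.lam v (s • p) (s • S)) :=
  FS.sum _ fun S hS => (fs_lam hp (hE S hS)).const_mul _

/-! ### The fibre Lipschitz bound, local and global -/

theorem m_eta (v : V) (P : Place K F) :
    (m : ℝ) * 𝒮.eta v P = Real.log (max 1 (Ab.abv v (pval P t))) := by
  have hm : (m : ℝ) ≠ 0 := Nat.cast_ne_zero.mpr 𝒮.m_pos.ne'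
  unfold Setting.eta
  field_simp

theorem lip_loc {C : V → ℝ} (hC : Tame C)
    (hLip : ∀ (v : V) (R : Place K F), R ≠ pinf → ∀ (τ : K) (Z : Place K F →₀ ℕ),
      IsZDiv pinf (t - algebraMap K F τ) Z →
      (Z.prod fun S n => 𝒮.δ v R S ^ n) *
          (max 1 (Ab.abv v (pval R t)) * max 1 (Ab.abv v τ)) ≤
        C v * Ab.abv v (pval R t - τ))
    {s : SemilinearAut K F} (hs : s ∈ 𝒮.Γ) (v : V) {p q : Place K F} (hp : p ≠ pinf)
    (hpq : pval p t ≠ pval q t) :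
    (m : ℝ) * 𝒮.eta v (s • p) + (m : ℝ) * 𝒮.eta v (s • q) ≤
      (∑ S ∈ (fibD 𝒮 (pval q t)).support,
          ((fibD 𝒮 (pval q t)) S : ℝ) * 𝒮.lam v (s • p) (s • S)) +
        Real.log (Ab.abv v (SemilinearAut.baseAut s (pval p t - pval q t))) +
        Real.log (C v) := by
  classical
  have hinj : Function.Injective (fun P : Place K F => s • P) := MulAction.injective s
  have hZ' := isZDiv_map 𝒮 hs (fibD_isZDiv 𝒮 (pval q t))
  have h := hLip v (s • p) (smul_ne_pinf 𝒮 hs hp) _ _ hZ'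
  rw [Finsupp.prod_mapDomain_index_inj hinj, pval_smul_t 𝒮 hs, ← map_sub] at h
  have hδ : ∀ S ∈ (fibD 𝒮 (pval q t)).support, 0 < 𝒮.δ v (s • p) (s • S) := by
    intro S hS
    obtain ⟨hS1, hS2⟩ := mem_support_fibD 𝒮 hS
    refine 𝒮.δ_pos v _ _ (smul_ne_pinf 𝒮 hs hp) (smul_ne_pinf 𝒮 hs hS1) ?_
    intro e
    have e' : p = S := hinj e
    subst e'
    exact hpq hS2
  have hprod : 0 < (fibD 𝒮 (pval q t)).prod fun S n => 𝒮.δ v (s • p) (s • S) ^ n :=
    Finset.prod_pos fun S hS => pow_pos (hδ S hS) _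
  have hc : SemilinearAut.baseAut s (pval p t - pval q t) ≠ 0 := by
    rw [Ne, EmbeddingLike.map_eq_zero_iff]
    exact sub_ne_zero.mpr hpq
  have hcpos : 0 < Ab.abv v (SemilinearAut.baseAut s (pval p t - pval q t)) :=
    (Ab.abv v).pos hc
  have hCpos := hC.pos v
  have hm1 : 0 < max 1 (Ab.abv v (SemilinearAut.baseAut s (pval p t))) :=
    lt_of_lt_of_le one_pos (le_max_left _ _)
  have hm2 : 0 < max 1 (Ab.abv v (SemilinearAut.baseAut s (pval q t))) :=
    lt_of_lt_of_le one_pos (le_max_left _ _)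
  have hlog := Real.log_le_log (mul_pos hprod (mul_pos hm1 hm2)) h
  rw [Real.log_mul hprod.ne' (mul_pos hm1 hm2).ne', Real.log_mul hm1.ne' hm2.ne',
    Real.log_mul hCpos.ne' hcpos.ne'] at hlog
  have hlp : Real.log ((fibD 𝒮 (pval q t)).prod fun S n => 𝒮.δ v (s • p) (s • S) ^ n) =
      - ∑ S ∈ (fibD 𝒮 (pval q t)).support,
          ((fibD 𝒮 (pval q t)) S : ℝ) * 𝒮.lam v (s • p) (s • S) := by
    unfold Finsupp.prod
    rw [Real.log_prod (fun S hS => (pow_pos (hδ S hS) _).ne'), ← Finset.sum_neg_distrib]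
    refine Finset.sum_congr rfl fun S _ => ?_
    rw [Real.log_pow]
    unfold Setting.lam
    ring
  have he1 := m_eta 𝒮 v (s • p)
  have he2 := m_eta 𝒮 v (s • q)
  rw [pval_smul_t 𝒮 hs] at he1 he2
  rw [hlp] at hlog
  linarith

/-- **Global fibre Lipschitz bound.** -/
theorem glob_lip (hL : 𝒮.Lip) : ∃ c : ℝ, ∀ p q : Place K F, p ≠ pinf → q ≠ pinf →
    pval p t ≠ pval q t →
    (m : ℝ) * (𝒮.etaU p + 𝒮.etaU q) ≤
      pairG 𝒮.gU (Finsupp.single p 1) (fibD 𝒮 (pval q t)) +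
        glob 𝒮 (fun s v => Real.log (Ab.abv v (SemilinearAut.baseAut s (pval p t - pval q t))))
        + c := by
  obtain ⟨C, hC, hLip⟩ := hL
  refine ⟨(𝒮.Sg.card : ℝ) * ∑ᶠ v, Real.log (C v), fun p q hp hq hpq => ?_⟩
  have hE : ∀ S ∈ (fibD 𝒮 (pval q t)).support, S ≠ pinf := fun S hS =>
    (mem_support_fibD 𝒮 hS).1
  have hc : pval p t - pval q t ≠ 0 := sub_ne_zero.mpr hpq
  have hLip' : ∀ (v : V) (R : Place K F), R ≠ pinf → ∀ (τ : K) (Z : Place K F →₀ ℕ),
      IsZDiv pinf (t - algebraMap K F τ) Z →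
      (Z.prod fun S n => 𝒮.δ v R S ^ n) *
          (max 1 (Ab.abv v (pval R t)) * max 1 (Ab.abv v τ)) ≤
        C v * Ab.abv v (pval R t - τ) := fun v R hR τ Z hZ => hLip v R hR τ Z hZ
  have key := glob_mono (𝒮 := 𝒮)
    (φ := fun s v => (m : ℝ) * 𝒮.eta v (s • p) + (m : ℝ) * 𝒮.eta v (s • q))
    (ψ := fun s v => ((∑ S ∈ (fibD 𝒮 (pval q t)).support,
          ((fibD 𝒮 (pval q t)) S : ℝ) * 𝒮.lam v (s • p) (s • S)) +
        Real.log (Ab.abv v (SemilinearAut.baseAut s (pval p t - pval q t)))) +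
        Real.log (C v))
    (((fs_eta p).const_mul _).add ((fs_eta q).const_mul _))
    (((fs_pairG_single 𝒮 hp _ hE).add (fs_logabv hc)).add (fs_logC hC))
    (fun s hs v => lip_loc 𝒮 hC hLip' (𝒮.Sg_mem s hs) v hp hpq)
  rw [glob_add ((fs_eta p).const_mul _) ((fs_eta q).const_mul _),
    glob_add ((fs_pairG_single 𝒮 hp _ hE).add (fs_logabv hc)) (fs_logC hC),
    glob_add (fs_pairG_single 𝒮 hp _ hE) (fs_logabv hc),
    glob_const_mul, glob_const_mul, glob_const, ← pairG_single_glob 𝒮 hp _ hE,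
    ← etaU_eq_glob, ← etaU_eq_glob] at key
  linarith

/-! ### The diagonal fibre bound, local and global -/

/-- The affine ramification divisor is `Γ`-invariant. -/
theorem ram_smul (𝔯 : Place K F →₀ ℕ) (h𝔯 : 𝔯 pinf = 0)
    (h𝔯' : ∀ P : Place K F, P ≠ pinf →
      (𝔯 P : ℤ) = P.ord (t - algebraMap K F (pval P t)) - 1)
    {g : SemilinearAut K F} (hg : g ∈ 𝒮.Γ) (P : Place K F) : 𝔯 (g • P) = 𝔯 P := by
  by_cases hP : P = pinf
  · subst hP; rw [𝒮.inf_fixed g hg]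
  · have h1 := h𝔯' (g • P) (smul_ne_pinf 𝒮 hg hP)
    rw [pval_smul_t 𝒮 hg, ord_smul_t_sub 𝒮 hg, ← h𝔯' P hP] at h1
    exact_mod_cast h1

theorem ram_loc {C : V → ℝ} (hC : Tame C)
    (hRam : ∀ (v : V) (R : Place K F), R ≠ pinf →
      R.ord (t - algebraMap K F (pval R t)) = 1 →
      ∀ Z 𝔯 : Place K F →₀ ℕ, IsZDiv pinf (t - algebraMap K F (pval R t)) Z →
        𝔯 pinf = 0 →
        (∀ P : Place K F, P ≠ pinf →
          (𝔯 P : ℤ) = P.ord (t - algebraMap K F (pval P t)) - 1) →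
        ((Z.erase R).prod fun S n => 𝒮.δ v R S ^ n) ^ m *
            max 1 (Ab.abv v (pval R t)) ^ (m - 1) ≤
          C v * (𝔯.prod fun r n => 𝒮.δ v R r ^ n) ^ m)
    (𝔯 : Place K F →₀ ℕ) (h𝔯 : 𝔯 pinf = 0)
    (h𝔯' : ∀ P : Place K F, P ≠ pinf →
      (𝔯 P : ℤ) = P.ord (t - algebraMap K F (pval P t)) - 1)
    {s : SemilinearAut K F} (hs : s ∈ 𝒮.Γ) (v : V) {p : Place K F} (hp : p ≠ pinf)
    (hunr : p.ord (t - algebraMap K F (pval p t)) = 1)
    (hfar : ∀ r ∈ 𝔯.support, pval p t ≠ pval r t) :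
    (m : ℝ) * (((m : ℝ) - 1) * 𝒮.eta v (s • p)) +
        (m : ℝ) * (∑ r ∈ 𝔯.support, (𝔯 r : ℝ) * 𝒮.lam v (s • p) (s • r)) ≤
      (m : ℝ) * (∑ S ∈ ((fibD 𝒮 (pval p t)).erase p).support,
          (((fibD 𝒮 (pval p t)).erase p) S : ℝ) * 𝒮.lam v (s • p) (s • S)) +
        Real.log (C v) := by
  classical
  have hinj : Function.Injective (fun P : Place K F => s • P) := MulAction.injective s
  have hsp : s • p ≠ pinf := smul_ne_pinf 𝒮 hs hp
  have hunr' : (s • p).ord (t - algebraMap K F (pval (s • p) t)) = 1 := by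
    rw [pval_smul_t 𝒮 hs, ord_smul_t_sub 𝒮 hs, hunr]
  have hZ' : IsZDiv pinf (t - algebraMap K F (pval (s • p) t))
      ((fibD 𝒮 (pval p t)).mapDomain fun P => s • P) := by
    rw [pval_smul_t 𝒮 hs]
    exact isZDiv_map 𝒮 hs (fibD_isZDiv 𝒮 (pval p t))
  have h := hRam v (s • p) hsp hunr' _ 𝔯 hZ' h𝔯 h𝔯'
  -- the erased divisor
  have herase : ((fibD 𝒮 (pval p t)).mapDomain fun P => s • P).erase (s • p) =
      ((fibD 𝒮 (pval p t)).erase p).mapDomain fun P => s • P := by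
    ext Q
    obtain ⟨Q₀, rfl⟩ : ∃ Q₀, s • Q₀ = Q := ⟨s⁻¹ • Q, smul_inv_smul s Q⟩
    have e2 := Finsupp.mapDomain_apply hinj ((fibD 𝒮 (pval p t)).erase p) Q₀
    have e3 := Finsupp.mapDomain_apply hinj (fibD 𝒮 (pval p t)) Q₀
    rw [e2]
    by_cases hQ : Q₀ = p
    · subst hQ; rw [Finsupp.erase_same, Finsupp.erase_same]
    · rw [Finsupp.erase_ne (fun e => hQ (hinj e)), Finsupp.erase_ne hQ, e3]
  -- the ramification divisor is invariant
  have h𝔯map : 𝔯.mapDomain (fun P => s • P) = 𝔯 :=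
    mapDomain_smul_eq s 𝔯 (ram_smul 𝒮 𝔯 h𝔯 h𝔯' hs)
  have h𝔯prod : (𝔯.prod fun r n => 𝒮.δ v (s • p) r ^ n) =
      𝔯.prod fun r n => 𝒮.δ v (s • p) (s • r) ^ n := by
    conv_lhs => rw [← h𝔯map]
    exact Finsupp.prod_mapDomain_index_inj hinj
  rw [herase, Finsupp.prod_mapDomain_index_inj hinj, h𝔯prod, pval_smul_t 𝒮 hs] at h
  -- positivity
  have hδ1 : ∀ S ∈ ((fibD 𝒮 (pval p t)).erase p).support,
      0 < 𝒮.δ v (s • p) (s • S) := by
    intro S hS
    rw [Finsupp.support_erase, Finset.mem_erase] at hS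
    obtain ⟨hS1, -⟩ := mem_support_fibD 𝒮 hS.2
    exact 𝒮.δ_pos v _ _ hsp (smul_ne_pinf 𝒮 hs hS1) (fun e => hS.1 (hinj e).symm)
  have hδ2 : ∀ r ∈ 𝔯.support, 0 < 𝒮.δ v (s • p) (s • r) := by
    intro r hr
    have hr1 : r ≠ pinf := by
      rintro rfl; exact (Finsupp.mem_support_iff.mp hr) h𝔯
    refine 𝒮.δ_pos v _ _ hsp (smul_ne_pinf 𝒮 hs hr1) (fun e => ?_)
    have e' : p = r := hinj e
    subst e'
    exact hfar p hr rfl
  have hp1 : 0 < ((fibD 𝒮 (pval p t)).erase p).prod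
      fun S n => 𝒮.δ v (s • p) (s • S) ^ n :=
    Finset.prod_pos fun S hS => pow_pos (hδ1 S hS) _
  have hp2 : 0 < 𝔯.prod fun r n => 𝒮.δ v (s • p) (s • r) ^ n :=
    Finset.prod_pos fun r hr => pow_pos (hδ2 r hr) _
  have hm1 : 0 < max 1 (Ab.abv v (SemilinearAut.baseAut s (pval p t))) :=
    lt_of_lt_of_le one_pos (le_max_left _ _)
  have hCpos := hC.pos v
  have hlog := Real.log_le_log (mul_pos (pow_pos hp1 m) (pow_pos hm1 (m - 1))) h
  rw [Real.log_mul (pow_pos hp1 m).ne' (pow_pos hm1 (m - 1)).ne',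
    Real.log_mul hCpos.ne' (pow_pos hp2 m).ne', Real.log_pow, Real.log_pow,
    Real.log_pow] at hlog
  have hl1 : Real.log (((fibD 𝒮 (pval p t)).erase p).prod
        fun S n => 𝒮.δ v (s • p) (s • S) ^ n) =
      - ∑ S ∈ ((fibD 𝒮 (pval p t)).erase p).support,
          (((fibD 𝒮 (pval p t)).erase p) S : ℝ) * 𝒮.lam v (s • p) (s • S) := by
    unfold Finsupp.prod
    rw [Real.log_prod (fun S hS => (pow_pos (hδ1 S hS) _).ne'), ← Finset.sum_neg_distrib]
    refine Finset.sum_congr rfl fun S _ => ?_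
    rw [Real.log_pow]
    unfold Setting.lam
    ring
  have hl2 : Real.log (𝔯.prod fun r n => 𝒮.δ v (s • p) (s • r) ^ n) =
      - ∑ r ∈ 𝔯.support, (𝔯 r : ℝ) * 𝒮.lam v (s • p) (s • r) := by
    unfold Finsupp.prod
    rw [Real.log_prod (fun r hr => (pow_pos (hδ2 r hr) _).ne'), ← Finset.sum_neg_distrib]
    refine Finset.sum_congr rfl fun r _ => ?_
    rw [Real.log_pow]
    unfold Setting.lam
    ring
  have he1 := m_eta 𝒮 v (s • p)
  rw [pval_smul_t 𝒮 hs] at he1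
  have hm' : ((m - 1 : ℕ) : ℝ) = (m : ℝ) - 1 := by
    rw [Nat.cast_sub 𝒮.m_pos]; simp
  rw [hl1, hl2, ← he1, hm'] at hlog
  linarith

/-- **Global diagonal fibre bound.** -/
theorem glob_ram (hR : 𝒮.RamLe) (𝔯 : Place K F →₀ ℕ) (h𝔯 : 𝔯 pinf = 0)
    (h𝔯' : ∀ P : Place K F, P ≠ pinf →
      (𝔯 P : ℤ) = P.ord (t - algebraMap K F (pval P t)) - 1) :
    ∃ c : ℝ, ∀ p : Place K F, p ≠ pinf → p.ord (t - algebraMap K F (pval p t)) = 1 →
      (∀ r ∈ 𝔯.support, pval p t ≠ pval r t) →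
      ((m : ℝ) - 1) * 𝒮.etaU p + pairG 𝒮.gU (Finsupp.single p 1) 𝔯 ≤
        pairG 𝒮.gU (Finsupp.single p 1) ((fibD 𝒮 (pval p t)).erase p) + c := by
  classical
  obtain ⟨C, hC, hRam⟩ := hR
  refine ⟨(𝒮.Sg.card : ℝ) * (∑ᶠ v, Real.log (C v)) / m, fun p hp hunr hfar => ?_⟩
  have hm : (0 : ℝ) < m := Nat.cast_pos.mpr 𝒮.m_pos
  have hE1 : ∀ S ∈ ((fibD 𝒮 (pval p t)).erase p).support, S ≠ pinf := fun S hS => by
    rw [Finsupp.support_erase, Finset.mem_erase] at hS
    exact (mem_support_fibD 𝒮 hS.2).1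
  have hE2 : ∀ r ∈ 𝔯.support, r ≠ pinf := fun r hr => by
    rintro rfl; exact (Finsupp.mem_support_iff.mp hr) h𝔯
  have key := glob_mono (𝒮 := 𝒮)
    (φ := fun s v => (m : ℝ) * (((m : ℝ) - 1) * 𝒮.eta v (s • p)) +
        (m : ℝ) * (∑ r ∈ 𝔯.support, (𝔯 r : ℝ) * 𝒮.lam v (s • p) (s • r)))
    (ψ := fun s v => (m : ℝ) * (∑ S ∈ ((fibD 𝒮 (pval p t)).erase p).support,
          (((fibD 𝒮 (pval p t)).erase p) S : ℝ) * 𝒮.lam v (s • p) (s • S)) +
        Real.log (C v))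
    ((((fs_eta p).const_mul _).const_mul _).add ((fs_pairG_single 𝒮 hp _ hE2).const_mul _))
    (((fs_pairG_single 𝒮 hp _ hE1).const_mul _).add (fs_logC hC))
    (fun s hs v => ram_loc 𝒮 hC
      (fun v R hR hu Z 𝔯' hZ h1 h2 => hRam v R hR hu Z 𝔯' hZ h1 h2) 𝔯 h𝔯 h𝔯'
      (𝒮.Sg_mem s hs) v hp hunr hfar)
  rw [glob_add (((fs_eta p).const_mul _).const_mul _)
      ((fs_pairG_single 𝒮 hp _ hE2).const_mul _),
    glob_add ((fs_pairG_single 𝒮 hp _ hE1).const_mul _) (fs_logC hC),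
    glob_const_mul, glob_const_mul, glob_const_mul, glob_const_mul, glob_const,
    ← pairG_single_glob 𝒮 hp _ hE1, ← pairG_single_glob 𝒮 hp _ hE2, ← etaU_eq_glob] at key
  have h2 : (m : ℝ) * (((m : ℝ) - 1) * 𝒮.etaU p + pairG 𝒮.gU (Finsupp.single p 1) 𝔯) ≤
      (m : ℝ) * (pairG 𝒮.gU (Finsupp.single p 1) ((fibD 𝒮 (pval p t)).erase p) +
        (𝒮.Sg.card : ℝ) * (∑ᶠ v, Real.log (C v)) / m) := by
    have h3 : (m : ℝ) * ((𝒮.Sg.card : ℝ) * (∑ᶠ v, Real.log (C v)) / m) =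
        (𝒮.Sg.card : ℝ) * (∑ᶠ v, Real.log (C v)) := by
      field_simp
    rw [mul_add, mul_add, h3]
    exact key
  exact le_of_mul_le_mul_left h2 hm

/-! ### Finite additivity of `deg`, `ht`, `pairG` -/

theorem deg_sum {ι : Type*} (I : Finset ι) (D : ι → Place K F →₀ ℕ) :
    deg (∑ i ∈ I, D i) = ∑ i ∈ I, deg (D i) := by
  classical
  induction I using Finset.induction_on with
  | empty => simp
  | insert i I hi ih => rw [Finset.sum_insert hi, Finset.sum_insert hi, deg_add, ih]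

theorem ht_sum {ι : Type*} (η : Place K F → ℝ) (I : Finset ι) (D : ι → Place K F →₀ ℕ) :
    ht η (∑ i ∈ I, D i) = ∑ i ∈ I, ht η (D i) := by
  classical
  induction I using Finset.induction_on with
  | empty => simp
  | insert i I hi ih => rw [Finset.sum_insert hi, Finset.sum_insert hi, ht_add, ih]

theorem pairG_sum_left {ι : Type*} (g : Place K F → Place K F → ℝ) (I : Finset ι)
    (D : ι → Place K F →₀ ℕ) (E : Place K F →₀ ℕ) :
    pairG g (∑ i ∈ I, D i) E = ∑ i ∈ I, pairG g (D i) E := by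
  classical
  induction I using Finset.induction_on with
  | empty => simp
  | insert i I hi ih => rw [Finset.sum_insert hi, Finset.sum_insert hi, pairG_add_left, ih]

theorem pairG_sum_right {ι : Type*} (g : Place K F → Place K F → ℝ) (I : Finset ι)
    (D : Place K F →₀ ℕ) (E : ι → Place K F →₀ ℕ) :
    pairG g D (∑ i ∈ I, E i) = ∑ i ∈ I, pairG g D (E i) := by
  classical
  induction I using Finset.induction_on with
  | empty => simp
  | insert i I hi ih => rw [Finset.sum_insert hi, Finset.sum_insert hi, pairG_add_right, ih]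

/-- A reduced divisor is the sum of its points. -/
theorem eq_sum_single {Z : Place K F →₀ ℕ} (hred : ∀ P, Z P ≤ 1) :
    Z = ∑ p ∈ Z.support, Finsupp.single p 1 := by
  conv_lhs => rw [← Finsupp.sum_single Z]
  unfold Finsupp.sum
  refine Finset.sum_congr rfl fun p hp => ?_
  have h1 := hred p
  have h2 := Finsupp.mem_support_iff.mp hp
  have h3 : Z p = 1 := by omega
  rw [h3]

/-! ### The discriminant bound -/

/-- **Row G4, core.**  The discriminant bound from the two local fibre estimates, global Mahler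
and the literal conclusions of rows G1 (`hG1`, at `e = (m - 1) * M`) and G3 (`hG3`, at
`e = deg 𝔯`). -/
theorem disc_ge_of (hL : 𝒮.Lip) (hR : 𝒮.RamLe) {ι : Type} [Fintype ι] (f : ι → F) (M : ℕ)
    (hf : 𝒮.Fam f M) (hB : 𝒮.MahlerLe f)
    (𝔯 : Place K F →₀ ℕ) (h𝔯 : 𝔯 pinf = 0)
    (h𝔯' : ∀ P : Place K F, P ≠ pinf →
      (𝔯 P : ℤ) = P.ord (t - algebraMap K F (pval P t)) - 1)
    (hG1 : ∃ C : ℝ, ∀ a : ι → K, 𝒮.UFix a → (∑ i, a i • f i) ≠ 0 →
      ∀ Z : Place K F →₀ ℕ, IsZDiv pinf (∑ i, a i • f i) Z → deg Z ≤ M →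
      ∀ E ∈ 𝒮.RatU, deg E ≤ (m - 1) * M → Disjoint Z.support E.support →
        pairG 𝒮.gU Z E ≤ (deg E : ℝ) * 𝒮.hU a + (M : ℝ) * ht 𝒮.etaU E + C)
    (hG3 : ∃ C : ℝ, ∀ a : ι → K, 𝒮.UFix a → (∑ i, a i • f i) ≠ 0 →
      ∀ Z : Place K F →₀ ℕ, IsZDiv pinf (∑ i, a i • f i) Z → deg Z ≤ M →
      ∀ E ∈ 𝒮.RatU, deg E ≤ deg 𝔯 → Far 𝒮.far Z E →
        (m : ℝ) * ((deg E : ℝ) * ht 𝒮.etaU Z + (deg Z : ℝ) * ht 𝒮.etaU E) ≤
          pairG 𝒮.gU Z E +
            ((m : ℝ) - 1) * ((deg E : ℝ) * 𝒮.hU a + (M : ℝ) * ht 𝒮.etaU E) + C) :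
    ∃ C : ℝ, ∀ a : ι → K, 𝒮.UFix a → (∑ i, a i • f i) ≠ 0 →
      ∀ Z : Place K F →₀ ℕ, IsZDiv pinf (∑ i, a i • f i) Z → deg Z = M → (∀ P, Z P ≤ 1) →
      (∀ p ∈ Z.support, ∀ q ∈ Z.support, pval p t = pval q t → p = q) → Far 𝒮.far Z 𝔯 →
        ((2 * M + deg 𝔯 : ℝ) - m - 1) * ht 𝒮.etaU Z ≤ pairG 𝒮.gU Z Z + C := by
  classical
  obtain ⟨c₁, hc₁⟩ := glob_lip 𝒮 hL
  obtain ⟨c₂, hc₂⟩ := glob_ram 𝒮 hR 𝔯 h𝔯 h𝔯'
  obtain ⟨C₃, hC₃⟩ := hG1
  obtain ⟨C₄, hC₄⟩ := hG3
  obtain ⟨CB, hCB⟩ := hB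
  refine ⟨((m : ℝ) - 1) * M * CB + C₃ + M * c₂ + M * ((M : ℝ) - 1) * c₁ +
    ((m : ℝ) - 1) * deg 𝔯 * CB + C₄, fun a ha hφ Z hZ hdeg hred hinj hfar => ?_⟩
  have hm1 : (1 : ℝ) ≤ m := by exact_mod_cast 𝒮.m_pos
  -- basic facts on `Z`
  have hZp : ∀ p ∈ Z.support, p ≠ pinf := fun p hp => by
    rintro rfl; exact Finsupp.mem_support_iff.mp hp hZ.1
  have hZ1 : ∀ p ∈ Z.support, Z p = 1 := fun p hp => by
    have h1 := hred p
    have h2 := Finsupp.mem_support_iff.mp hp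
    omega
  have hZsum : Z = ∑ p ∈ Z.support, Finsupp.single p 1 := eq_sum_single hred
  have hcard : Z.support.card = M := by
    rw [← hdeg]
    unfold deg Finsupp.sum
    rw [Finset.card_eq_sum_ones]
    exact Finset.sum_congr rfl fun p hp => (hZ1 p hp).symm
  -- `U`-invariance of `Z`
  have hφfix : ∀ u ∈ 𝒮.U, u • (∑ i, a i • f i) = ∑ i, a i • f i := by
    intro u hu
    rw [Finset.smul_sum]
    refine Finset.sum_congr rfl fun i _ => ?_
    rw [Algebra.smul_def, smul_mul', SemilinearAut.smul_algebraMap, ha u hu i,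
      hf.fixed u (𝒮.U_le hu) i]
  have hZU : ∀ u ∈ 𝒮.U, ∀ P, Z (u • P) = Z P := by
    intro u hu P
    have hg := 𝒮.U_le hu
    by_cases hP : P = pinf
    · subst hP; rw [𝒮.inf_fixed u hg]
    · have h1 := hZ.2 (u • P) (smul_ne_pinf 𝒮 hg hP)
      have h2 := SemilinearAut.ord_smul u P (∑ i, a i • f i)
      rw [hφfix u hu] at h2
      rw [h2, ← hZ.2 P hP] at h1
      exact_mod_cast h1
  have hZimg : ∀ u ∈ 𝒮.U, Z.support.image (fun P => u • P) = Z.support := by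
    intro u hu
    ext P
    rw [Finset.mem_image]
    constructor
    · rintro ⟨Q, hQ, rfl⟩
      rw [Finsupp.mem_support_iff, hZU u hu]
      exact Finsupp.mem_support_iff.mp hQ
    · intro hP
      refine ⟨u⁻¹ • P, ?_, smul_inv_smul u P⟩
      rw [Finsupp.mem_support_iff, ← hZU u hu, smul_inv_smul]
      exact Finsupp.mem_support_iff.mp hP
  -- `t` is unramified on `Z`
  have hunr : ∀ p ∈ Z.support, p.ord (t - algebraMap K F (pval p t)) = 1 := by
    intro p hp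
    have hp0 := hZp p hp
    have h1 : 0 < p.ord (t - algebraMap K F (pval p t)) :=
      (ord_pos_iff_pval 𝒮 hp0 _).mpr rfl
    by_contra hne
    have h2 := h𝔯' p hp0
    have h3 : 𝔯 p ≠ 0 := by omega
    exact hfar p hp p (Finsupp.mem_support_iff.mpr h3) rfl
  -- the fibres
  have hFb1 : ∀ p ∈ Z.support, fibD 𝒮 (pval p t) p = 1 := by
    intro p hp
    have h1 := fibD_apply 𝒮 (pval p t) (hZp p hp)
    rw [hunr p hp] at h1
    exact_mod_cast h1
  have hFbsplit : ∀ p ∈ Z.support,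
      fibD 𝒮 (pval p t) = Finsupp.single p 1 + (fibD 𝒮 (pval p t)).erase p := by
    intro p hp
    have h1 := Finsupp.single_add_erase p (fibD 𝒮 (pval p t))
    rw [hFb1 p hp] at h1
    exact h1.symm
  have hF'mem : ∀ p S, S ∈ ((fibD 𝒮 (pval p t)).erase p).support →
      S ≠ pinf ∧ S ≠ p ∧ pval S t = pval p t := by
    intro p S hS
    rw [Finsupp.support_erase, Finset.mem_erase] at hS
    obtain ⟨h1, h2⟩ := mem_support_fibD 𝒮 hS.2
    exact ⟨h1, hS.1, h2⟩
  have hdegF' : ∀ p ∈ Z.support, deg ((fibD 𝒮 (pval p t)).erase p) = m - 1 := by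
    intro p hp
    have h1 := deg_fibD 𝒮 (pval p t)
    rw [hFbsplit p hp, deg_add] at h1
    have h2 : deg (Finsupp.single p 1 : Place K F →₀ ℕ) = 1 := by
      unfold deg
      rw [Finsupp.sum_single_index rfl]
    omega
  -- `etaU` is constant on the fibres
  have hetaFib : ∀ p S : Place K F, pval S t = pval p t → 𝒮.etaU S = 𝒮.etaU p := by
    intro p S h
    unfold Setting.etaU
    refine Finset.sum_congr rfl fun s hs => ?_
    congr 1
    funext v
    unfold Setting.eta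
    rw [pval_smul_t 𝒮 (𝒮.Sg_mem s hs), pval_smul_t 𝒮 (𝒮.Sg_mem s hs), h]
  have hhtF' : ∀ p ∈ Z.support,
      ht 𝒮.etaU ((fibD 𝒮 (pval p t)).erase p) = ((m : ℝ) - 1) * 𝒮.etaU p := by
    intro p hp
    have hd := hdegF' p hp
    unfold deg Finsupp.sum at hd
    unfold ht Finsupp.sum
    have h1 : ∀ S ∈ ((fibD 𝒮 (pval p t)).erase p).support,
        (((fibD 𝒮 (pval p t)).erase p) S : ℝ) * 𝒮.etaU S =
          (((fibD 𝒮 (pval p t)).erase p) S : ℝ) * 𝒮.etaU p := by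
      intro S hS
      rw [hetaFib p S (hF'mem p S hS).2.2]
    rw [Finset.sum_congr rfl h1, ← Finset.sum_mul, ← Nat.cast_sum, hd,
      Nat.cast_sub 𝒮.m_pos, Nat.cast_one]
  -- the divisor `Z''` of the other points of the fibres
  have hhtZ : ht 𝒮.etaU Z = ∑ p ∈ Z.support, 𝒮.etaU p := by
    unfold ht Finsupp.sum
    refine Finset.sum_congr rfl fun p hp => ?_
    simp only [hZ1 p hp, Nat.cast_one, one_mul]
  have hhtZ'' : ht 𝒮.etaU (∑ q ∈ Z.support, (fibD 𝒮 (pval q t)).erase q) =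
      ((m : ℝ) - 1) * ht 𝒮.etaU Z := by
    rw [ht_sum, hhtZ, Finset.mul_sum]
    exact Finset.sum_congr rfl fun p hp => hhtF' p hp
  have hdegZ'' : deg (∑ q ∈ Z.support, (fibD 𝒮 (pval q t)).erase q) = (m - 1) * M := by
    rw [deg_sum, Finset.sum_congr rfl hdegF', Finset.sum_const, hcard, smul_eq_mul, mul_comm]
  have hF'U : ∀ u ∈ 𝒮.U, ∀ q S : Place K F,
      (fibD 𝒮 (pval (u • q) t)).erase (u • q) (u • S) = (fibD 𝒮 (pval q t)).erase q S := by
    intro u hu q S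
    have hg := 𝒮.U_le hu
    by_cases hS : S = q
    · subst hS; rw [Finsupp.erase_same, Finsupp.erase_same]
    · rw [Finsupp.erase_ne (fun e => hS (MulAction.injective u e)), Finsupp.erase_ne hS,
        pval_smul_t 𝒮 hg, fibD_smul 𝒮 hg]
  have hZ''U : (∑ q ∈ Z.support, (fibD 𝒮 (pval q t)).erase q) ∈ 𝒮.RatU := by
    refine ⟨?_, fun u hu => mapDomain_smul_eq u _ fun S => ?_⟩
    · rw [Finsupp.finsetSum_apply]
      refine Finset.sum_eq_zero fun q _ => ?_
      by_cases h : pinf = q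
      · subst h; rw [Finsupp.erase_same]
      · rw [Finsupp.erase_ne h, fibD_pinf]
    · rw [Finsupp.finsetSum_apply, Finsupp.finsetSum_apply]
      conv_lhs => rw [← hZimg u hu]
      rw [Finset.sum_image (fun x _ y _ e => MulAction.injective u e)]
      exact Finset.sum_congr rfl fun q _ => hF'U u hu q S
  have hdisj : Disjoint Z.support (∑ q ∈ Z.support, (fibD 𝒮 (pval q t)).erase q).support := by
    rw [Finset.disjoint_left]
    intro S hS hS''
    rw [Finsupp.mem_support_iff, Finsupp.finsetSum_apply] at hS''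
    obtain ⟨q, hq, hne⟩ := Finset.exists_ne_zero_of_sum_ne_zero hS''
    obtain ⟨-, h2, h3⟩ := hF'mem q S (Finsupp.mem_support_iff.mpr hne)
    exact h2 (hinj S hS q hq h3)
  have h𝔯U : 𝔯 ∈ 𝒮.RatU :=
    ⟨h𝔯, fun u hu => mapDomain_smul_eq u 𝔯 (ram_smul 𝒮 𝔯 h𝔯 h𝔯' (𝒮.U_le hu))⟩
  -- the global inputs
  have hB' := hCB a ha hφ Z hZ
  have hG1' := hC₃ a ha hφ Z hZ hdeg.le _ hZ''U hdegZ''.le hdisj
  have hG3' := hC₄ a ha hφ Z hZ hdeg.le 𝔯 h𝔯U le_rfl hfar
  have hht𝔯 : 0 ≤ ht 𝒮.etaU 𝔯 := ht_nonneg (etaU_nonneg' 𝒮) 𝔯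
  rw [hhtZ'', hdegZ''] at hG1'
  rw [hdeg] at hG3'
  -- expansions of the pairings
  have hpZZ : pairG 𝒮.gU Z Z = ∑ p ∈ Z.support, ∑ q ∈ Z.support, 𝒮.gU p q := by
    unfold pairG Finsupp.sum
    refine Finset.sum_congr rfl fun p hp => Finset.sum_congr rfl fun q hq => ?_
    simp only [hZ1 p hp, hZ1 q hq, Nat.cast_one, one_mul]
  have hpZE : ∀ E : Place K F →₀ ℕ,
      pairG 𝒮.gU Z E = ∑ p ∈ Z.support, pairG 𝒮.gU (Finsupp.single p 1) E := by
    intro E
    conv_lhs => rw [hZsum]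
    exact pairG_sum_left _ _ _ _
  have hpZZ'' : pairG 𝒮.gU Z (∑ q ∈ Z.support, (fibD 𝒮 (pval q t)).erase q) =
      ∑ p ∈ Z.support, ∑ q ∈ Z.support,
        pairG 𝒮.gU (Finsupp.single p 1) ((fibD 𝒮 (pval q t)).erase q) := by
    rw [hpZE]
    refine Finset.sum_congr rfl fun p _ => ?_
    rw [pairG_sum_right]
  -- the fibre Lipschitz bound for all pairs of distinct points of `Z`
  have hne : ∀ p ∈ Z.support, ∀ q ∈ Z.support.erase p, pval p t - pval q t ≠ 0 := by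
    intro p hp q hq
    rw [Finset.mem_erase] at hq
    exact sub_ne_zero.mpr fun e => hq.1 (hinj p hp q hq.2 e).symm
  have hA : ∀ p ∈ Z.support, ∀ q ∈ Z.support.erase p,
      (m : ℝ) * (𝒮.etaU p + 𝒮.etaU q) ≤
        𝒮.gU p q + pairG 𝒮.gU (Finsupp.single p 1) ((fibD 𝒮 (pval q t)).erase q) +
          glob 𝒮 (fun s v =>
            Real.log (Ab.abv v (SemilinearAut.baseAut s (pval p t - pval q t)))) + c₁ := by
    intro p hp q hq
    have hq' := (Finset.mem_erase.mp hq).2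
    have h1 := hc₁ p q (hZp p hp) (hZp q hq') (sub_ne_zero.mp (hne p hp q hq))
    rw [hFbsplit q hq', pairG_add_right] at h1
    have h2 : pairG 𝒮.gU (Finsupp.single p 1) (Finsupp.single q 1) = 𝒮.gU p q := by
      unfold pairG
      rw [Finsupp.sum_single_index (by simp [Finsupp.sum]),
        Finsupp.sum_single_index (by simp)]
      simp
    rw [h2] at h1
    exact h1
  have hAsum := Finset.sum_le_sum fun p hp => Finset.sum_le_sum fun q hq => hA p hp q hq
  -- the left side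
  have hL1 : ∑ p ∈ Z.support, ∑ q ∈ Z.support.erase p, (m : ℝ) * (𝒮.etaU p + 𝒮.etaU q) =
      2 * m * ((M : ℝ) - 1) * ht 𝒮.etaU Z := by
    have h1 : ∀ p ∈ Z.support, ∑ q ∈ Z.support.erase p, (m : ℝ) * (𝒮.etaU p + 𝒮.etaU q) =
        (m : ℝ) * (((M : ℝ) - 1) * 𝒮.etaU p + (ht 𝒮.etaU Z - 𝒮.etaU p)) := by
      intro p hp
      have hM1 : 1 ≤ M := by rw [← hcard]; exact Finset.card_pos.mpr ⟨p, hp⟩
      rw [← Finset.mul_sum, Finset.sum_add_distrib, Finset.sum_const,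
        Finset.card_erase_of_mem hp, hcard, Finset.sum_erase_eq_sub hp, ← hhtZ, nsmul_eq_mul,
        Nat.cast_sub hM1, Nat.cast_one]
    rw [Finset.sum_congr rfl h1, ← Finset.mul_sum, Finset.sum_add_distrib, ← Finset.mul_sum,
      Finset.sum_sub_distrib, Finset.sum_const, hcard, ← hhtZ, nsmul_eq_mul]
    ring
  -- the right side
  have hR1 : ∑ p ∈ Z.support, ∑ q ∈ Z.support.erase p, 𝒮.gU p q = pairG 𝒮.gU Z Z := by
    rw [hpZZ]
    refine Finset.sum_congr rfl fun p hp => ?_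
    rw [Finset.sum_erase_eq_sub hp, gU_self 𝒮 (hZp p hp), sub_zero]
  have hR2 : ∑ p ∈ Z.support, ∑ q ∈ Z.support.erase p,
        pairG 𝒮.gU (Finsupp.single p 1) ((fibD 𝒮 (pval q t)).erase q) =
      pairG 𝒮.gU Z (∑ q ∈ Z.support, (fibD 𝒮 (pval q t)).erase q) -
        ∑ p ∈ Z.support, pairG 𝒮.gU (Finsupp.single p 1) ((fibD 𝒮 (pval p t)).erase p) := by
    rw [hpZZ'', ← Finset.sum_sub_distrib]
    exact Finset.sum_congr rfl fun p hp => Finset.sum_erase_eq_sub hp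
  have hR3 : ∑ p ∈ Z.support, ∑ q ∈ Z.support.erase p,
      glob 𝒮 (fun s v =>
        Real.log (Ab.abv v (SemilinearAut.baseAut s (pval p t - pval q t)))) = 0 := by
    have hD0 : (∏ p ∈ Z.support, ∏ q ∈ Z.support.erase p, (pval p t - pval q t)) ≠ 0 :=
      Finset.prod_ne_zero_iff.mpr fun p hp =>
        Finset.prod_ne_zero_iff.mpr fun q hq => hne p hp q hq
    have hDfix : ∀ u ∈ 𝒮.U, SemilinearAut.baseAut u
        (∏ p ∈ Z.support, ∏ q ∈ Z.support.erase p, (pval p t - pval q t)) =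
        ∏ p ∈ Z.support, ∏ q ∈ Z.support.erase p, (pval p t - pval q t) := by
      intro u hu
      have hg := 𝒮.U_le hu
      rw [map_prod]
      conv_rhs => rw [← hZimg u hu]
      rw [Finset.prod_image (fun x _ y _ e => MulAction.injective u e)]
      refine Finset.prod_congr rfl fun p _ => ?_
      rw [map_prod]
      have h2 : (Z.support.image fun P => u • P).erase (u • p) =
          (Z.support.erase p).image (fun P => u • P) :=
        (Finset.image_erase (MulAction.injective u) _ _).symm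
      rw [h2, Finset.prod_image (fun x _ y _ e => MulAction.injective u e)]
      refine Finset.prod_congr rfl fun q _ => ?_
      rw [map_sub, pval_smul_t 𝒮 hg, pval_smul_t 𝒮 hg]
    have hpf := 𝒮.pf _ hD0 hDfix
    have hexp : ∀ (s : SemilinearAut K F) (v : V),
        Real.log (Ab.abv v (SemilinearAut.baseAut s
          (∏ p ∈ Z.support, ∏ q ∈ Z.support.erase p, (pval p t - pval q t)))) =
        ∑ p ∈ Z.support, ∑ q ∈ Z.support.erase p,
          Real.log (Ab.abv v (SemilinearAut.baseAut s (pval p t - pval q t))) := by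
      intro s v
      have hnz : ∀ p ∈ Z.support, ∀ q ∈ Z.support.erase p,
          Ab.abv v (SemilinearAut.baseAut s (pval p t - pval q t)) ≠ 0 := by
        intro p hp q hq
        refine (Ab.abv v).ne_zero ?_
        rw [Ne, EmbeddingLike.map_eq_zero_iff]
        exact hne p hp q hq
      rw [map_prod, map_prod, Real.log_prod]
      · refine Finset.sum_congr rfl fun p hp => ?_
        rw [map_prod, map_prod, Real.log_prod (hnz p hp)]
      · intro p hp
        rw [map_prod, map_prod]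
        exact Finset.prod_ne_zero_iff.mpr (hnz p hp)
    have h3 : glob 𝒮 (fun s v => Real.log (Ab.abv v (SemilinearAut.baseAut s
          (∏ p ∈ Z.support, ∏ q ∈ Z.support.erase p, (pval p t - pval q t))))) =
        ∑ p ∈ Z.support, ∑ q ∈ Z.support.erase p, glob 𝒮 (fun s v =>
          Real.log (Ab.abv v (SemilinearAut.baseAut s (pval p t - pval q t)))) := by
      have h4 : (fun (s : SemilinearAut K F) (v : V) =>
          Real.log (Ab.abv v (SemilinearAut.baseAut s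
            (∏ p ∈ Z.support, ∏ q ∈ Z.support.erase p, (pval p t - pval q t))))) =
          fun s v => ∑ p ∈ Z.support, ∑ q ∈ Z.support.erase p,
            Real.log (Ab.abv v (SemilinearAut.baseAut s (pval p t - pval q t))) := by
        funext s v; exact hexp s v
      rw [h4, glob_sum]
      · refine Finset.sum_congr rfl fun p hp => ?_
        rw [glob_sum]
        intro q hq
        exact fs_logabv (hne p hp q hq)
      · intro p hp
        exact FS.sum _ fun q hq => fs_logabv (hne p hp q hq)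
    rw [← h3]
    exact hpf
  have hR4 : ∑ p ∈ Z.support, ∑ _q ∈ Z.support.erase p, c₁ = M * ((M : ℝ) - 1) * c₁ := by
    have h1 : ∀ p ∈ Z.support, ∑ _q ∈ Z.support.erase p, c₁ = ((M : ℝ) - 1) * c₁ := by
      intro p hp
      have hM1 : 1 ≤ M := by rw [← hcard]; exact Finset.card_pos.mpr ⟨p, hp⟩
      rw [Finset.sum_const, Finset.card_erase_of_mem hp, hcard, nsmul_eq_mul,
        Nat.cast_sub hM1, Nat.cast_one]
    rw [Finset.sum_congr rfl h1, Finset.sum_const, hcard, nsmul_eq_mul]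
    ring
  simp only [Finset.sum_add_distrib] at hAsum
  rw [hL1, hR1, hR2, hR3, hR4] at hAsum
  -- the diagonal bound for all points of `Z`
  have hBsum : ((m : ℝ) - 1) * ht 𝒮.etaU Z + pairG 𝒮.gU Z 𝔯 ≤
      ∑ p ∈ Z.support, pairG 𝒮.gU (Finsupp.single p 1) ((fibD 𝒮 (pval p t)).erase p) +
        M * c₂ := by
    have h1 : ∑ p ∈ Z.support,
          (((m : ℝ) - 1) * 𝒮.etaU p + pairG 𝒮.gU (Finsupp.single p 1) 𝔯) ≤
        ∑ p ∈ Z.support,
          (pairG 𝒮.gU (Finsupp.single p 1) ((fibD 𝒮 (pval p t)).erase p) + c₂) :=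
      Finset.sum_le_sum fun p hp =>
        hc₂ p (hZp p hp) (hunr p hp) (fun r hr => hfar p hp r hr)
    rw [Finset.sum_add_distrib, Finset.sum_add_distrib, ← Finset.mul_sum, ← hhtZ, ← hpZE,
      Finset.sum_const, hcard, nsmul_eq_mul] at h1
    exact h1
  -- arithmetic
  have hM0 : (0 : ℝ) ≤ M := Nat.cast_nonneg M
  have hd0 : (0 : ℝ) ≤ (deg 𝔯 : ℝ) := Nat.cast_nonneg _
  have hcast : (((m - 1) * M : ℕ) : ℝ) = ((m : ℝ) - 1) * M := by
    rw [Nat.cast_mul, Nat.cast_sub 𝒮.m_pos, Nat.cast_one]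
  rw [hcast] at hG1'
  have ha1 : ((m : ℝ) - 1) * M * 𝒮.hU a ≤ ((m : ℝ) - 1) * M * (ht 𝒮.etaU Z + CB) :=
    mul_le_mul_of_nonneg_left hB' (mul_nonneg (by linarith) hM0)
  have ha2 : ((m : ℝ) - 1) * deg 𝔯 * 𝒮.hU a ≤ ((m : ℝ) - 1) * deg 𝔯 * (ht 𝒮.etaU Z + CB) :=
    mul_le_mul_of_nonneg_left hB' (mul_nonneg (by linarith) hd0)
  have ha3 : 0 ≤ (M : ℝ) * ht 𝒮.etaU 𝔯 := mul_nonneg hM0 hht𝔯
  nlinarith [hAsum, hBsum, hG1', hG3', ha1, ha2, ha3]

end Fermat.Agent.MW.HG.Disc
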