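/-
MW / HT-Q, helper21 — THE INSTANCE of `HG.Setting.NormData` (the hypothesis of row G2, global
Mahler): for every `Γ`-fixed family `f` of functions regular off `pinf` with pole orders `≤ M`,
the norm of `φ = ∑ aᵢ fᵢ` from `F` to `K(t)` is a polynomial in `t` of degree `≤ M` whose
coefficients are forms of degree `m` in `a` with `Γ`-fixed coefficients, and whose roots are the
`t`-values of the zeros of `φ`.

Built on `MW/Ht/NormForm.lean` (norm forms, roots of the norm polynomial, equivariance) and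
`MW/Adj/Roots.lean`.

* `transcendental_t`, `mem_Ot_of_regOff`, `finrank_eq : [F : K(t)] = m`;
* `normPolyT_eq_prod`, `natDegree_normPolyT_eq_deg`, `deg_le_of_isZDiv`;
* `exists_normData : Nonempty (𝒮.NormData f M)`.
-/
import Mathlib
import Fermat.Prelude.Def_AlgebraicCurve_Repartitions
import Fermat.Agent.MW.HG.Defs
import Fermat.Agent.MW.Ht.NormForm

set_option autoImplicit false
set_option linter.unusedSectionVars false

noncomputable section

namespace Fermat.Agent.MW.HG.NormDataOf

open Polynomial IntermediateField AlgebraicCurve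
open Fermat.Agent.Lib.FF Fermat.Agent.MW.Adj.Roots Fermat.Agent.MW.HtM Fermat.Agent.MW.HQ
open Fermat.Agent.MW.Ht.NormForm Fermat.Agent.MW.HG

variable {K F V : Type*} [Field K] [Field F] [Algebra K F] {Ab : AbsFamily K V}
  {pinf : Place K F} {t : F} {m : ℕ} [IsAlgClosed K] [CharZero K] {x : F}

/-! ### Generalities on the setting -/

/-- `t` has a pole, hence is transcendental. -/
theorem transcendental_t (𝒮 : Setting Ab pinf t m) : Transcendental K t := by
  intro halg
  obtain ⟨c, hc⟩ := exists_eq_algebraMap_of_isAlgebraic halg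
  have h1 := 𝒮.t_pole
  rw [hc, Fermat.Agent.S24.ord_algebraMap] at h1
  have := 𝒮.m_pos
  omega

theorem ord_t_nonneg_iff (𝒮 : Setting Ab pinf t m) (P : Place K F) :
    0 ≤ P.ord t ↔ P ≠ pinf := by
  constructor
  · rintro h rfl
    rw [𝒮.t_pole] at h
    have := 𝒮.m_pos
    omega
  · exact fun hP => 𝒮.t_reg P hP

/-- Functions regular off `pinf` are integral over `K[t]`. -/
theorem mem_Ot_of_regOff (h : IsFF1 K F x) (𝒮 : Setting Ab pinf t m) {f : F}
    (hf : RegOff pinf f) : f ∈ Ot (K := K) t := by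
  rw [mem_Ot_iff h (transcendental_t 𝒮)]
  exact fun P hP => hf P ((ord_t_nonneg_iff 𝒮 P).mp hP)

theorem mem_support_iff_of_isZDiv (𝒮 : Setting Ab pinf t m) {φ : F} {Z : Place K F →₀ ℕ}
    (hZ : IsZDiv pinf φ Z) (P : Place K F) :
    P ∈ Z.support ↔ 0 ≤ P.ord t ∧ P.ord φ ≠ 0 := by
  rw [Finsupp.mem_support_iff, ord_t_nonneg_iff 𝒮]
  constructor
  · intro hP
    have hne : P ≠ pinf := fun e => hP (e ▸ hZ.1)
    refine ⟨hne, ?_⟩
    rw [← hZ.2 P hne]
    exact_mod_cast hP
  · rintro ⟨hne, h0⟩ hP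
    apply h0
    rw [← hZ.2 P hne, hP]
    rfl

theorem toNat_ord_of_isZDiv {φ : F} {Z : Place K F →₀ ℕ} (hZ : IsZDiv pinf φ Z)
    {P : Place K F} (hP : P ∈ Z.support) : (P.ord φ).toNat = Z P := by
  have hne : P ≠ pinf := fun e => (Finsupp.mem_support_iff.mp hP) (e ▸ hZ.1)
  rw [← hZ.2 P hne]
  simp

/-- A linear combination of functions of order `≥ b` at `P` has order `≥ b`. -/
theorem le_ord_sum_smul {P : Place K F} {ι : Type*} (s : Finset ι) (a : ι → K) (f : ι → F)
    (b : ℤ) (hf : ∀ i ∈ s, b ≤ P.ord (f i)) (hne : ∑ i ∈ s, a i • f i ≠ 0) :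
    b ≤ P.ord (∑ i ∈ s, a i • f i) := by
  have h1 : P.adicValuation (∑ i ∈ s, a i • f i) ≤ WithZero.exp (-b) := by
    refine Valuation.map_sum_le _ fun i hi => ?_
    have h2 : P.adicValuation (f i) ≤ WithZero.exp (-b) :=
      P.adicValuation_le_exp_iff.mpr (Or.inr (by simpa using hf i hi))
    rw [Algebra.smul_def, map_mul]
    exact (mul_le_of_le_one_left' (P.adicValuation_algebraMap_le_one (a i))).trans h2
  simpa using (P.adicValuation_le_exp_iff.mp h1).resolve_left hne

/-- The degree of the divisor of zeros is the pole order at `pinf`. -/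
theorem deg_eq_of_isZDiv (h : IsFF1 K F x) {φ : F} (hφ : φ ≠ 0) {Z : Place K F →₀ ℕ}
    (hZ : IsZDiv pinf φ Z) : ((deg Z : ℕ) : ℤ) = -pinf.ord φ := by
  classical
  haveI := h.hasPrincipalDivisors
  obtain ⟨D, hD, hdeg⟩ := HasPrincipalDivisors.exists_divisor (K := K) φ hφ
  rw [h.degree_eq_sum] at hdeg
  have hnot : pinf ∉ Z.support := by
    rw [Finsupp.mem_support_iff, not_not]; exact hZ.1
  have h1 : ∑ v ∈ D.support, D v = ∑ v ∈ insert pinf Z.support, v.ord φ := by
    rw [Finset.sum_congr rfl (fun v _ => hD v)]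
    refine Finset.sum_subset ?_ ?_
    · intro v hv
      rw [Finsupp.mem_support_iff, hD v] at hv
      by_cases hvp : v = pinf
      · rw [hvp]; exact Finset.mem_insert_self _ _
      · refine Finset.mem_insert_of_mem (Finsupp.mem_support_iff.mpr ?_)
        intro h0
        apply hv
        rw [← hZ.2 v hvp, h0]
        rfl
    · intro v _ hv
      rw [Finsupp.mem_support_iff, hD v, not_not] at hv
      exact hv
  rw [h1, Finset.sum_insert hnot] at hdeg
  have h2 : ∑ v ∈ Z.support, v.ord φ = ((deg Z : ℕ) : ℤ) := by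
    unfold deg
    rw [Finsupp.sum]
    push_cast
    exact Finset.sum_congr rfl fun v hv => (hZ.2 v (fun e => hnot (e ▸ hv))).symm
  rw [h2] at hdeg
  omega

/-! ### The norm polynomial in the setting -/

/-- **The norm polynomial** of `f ≠ 0` regular off `pinf` is `c · ∏_{R ∈ Z} (X − t(R))^{Z R}`,
`Z` the divisor of zeros of `f`. -/
theorem normPolyT_eq_prod (h : IsFF1 K F x) (𝒮 : Setting Ab pinf t m) (f : Ot (K := K) t)
    (hf : (f : F) ≠ 0) {Z : Place K F →₀ ℕ} (hZ : IsZDiv pinf (f : F) Z) :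
    normPolyT (transcendental_t 𝒮) f
      = C (normPolyT (transcendental_t 𝒮) f).leadingCoeff *
        ∏ R ∈ Z.support, (X - C (pval R t)) ^ (Z R) := by
  have ht := transcendental_t 𝒮
  have h1 := (IsAlgClosed.splits (normPolyT ht f)).eq_prod_roots
  have h2 := prod_roots_normPolyT (M := K[X]) h ht f hf (fun r => X - C r) Z.support
    (mem_support_iff_of_isZDiv 𝒮 hZ)
  rw [h2] at h1
  conv_lhs => rw [h1]
  congr 1
  exact Finset.prod_congr rfl fun R hR => by rw [toNat_ord_of_isZDiv hZ hR]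

theorem natDegree_normPolyT_eq_deg (h : IsFF1 K F x) (𝒮 : Setting Ab pinf t m)
    (f : Ot (K := K) t) (hf : (f : F) ≠ 0) {Z : Place K F →₀ ℕ} (hZ : IsZDiv pinf (f : F) Z) :
    (normPolyT (transcendental_t 𝒮) f).natDegree = deg Z := by
  rw [natDegree_normPolyT h (transcendental_t 𝒮) f hf Z.support (mem_support_iff_of_isZDiv 𝒮 hZ)]
  unfold deg
  rw [Finsupp.sum]
  exact Finset.sum_congr rfl fun R hR => toNat_ord_of_isZDiv hZ hR

/-- **`[F : K(t)] = m`**, the pole order of `t` at `pinf`. -/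
theorem finrank_eq (h : IsFF1 K F x) (𝒮 : Setting Ab pinf t m) :
    Module.finrank K⟮t⟯ F = m := by
  have ht := transcendental_t 𝒮
  have := (h.of_transcendental ht).finiteDimensional
  obtain ⟨Z, hZ, hdeg⟩ := 𝒮.fib 0
  rw [map_zero, sub_zero] at hZ
  have htmem : t ∈ Ot (K := K) t := mem_Ot_of_regOff h 𝒮 𝒮.t_reg
  have ht0 : t ≠ 0 := by
    rintro rfl
    exact ht (isAlgebraic_zero)
  have h1 : normPolyT ht ⟨t, htmem⟩ = X ^ Module.finrank K⟮t⟯ F := by
    apply transcendental_iff_injective.mp ht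
    rw [aeval_normPolyT h ht]
    show algebraMap K⟮t⟯ F (Algebra.norm K⟮t⟯ t) = _
    have h2 : Algebra.norm K⟮t⟯ (algebraMap K⟮t⟯ F (AdjoinSimple.gen K t))
        = (AdjoinSimple.gen K t) ^ Module.finrank K⟮t⟯ F := Algebra.norm_algebraMap _
    rw [AdjoinSimple.algebraMap_gen] at h2
    rw [h2, map_pow, AdjoinSimple.algebraMap_gen, map_pow, aeval_X]
  have h3 := natDegree_normPolyT_eq_deg h 𝒮 ⟨t, htmem⟩ ht0 hZ
  rw [h1, natDegree_X_pow] at h3
  rw [h3, hdeg]

/-! ### The instance -/

/-- **The norm data of a `Γ`-fixed family** of functions regular off `pinf` with pole orders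
`≤ M`: the hypothesis of the global Mahler bounds (row G2). -/
theorem exists_normData (h : IsFF1 K F x) (𝒮 : Setting Ab pinf t m) {ι : Type} [Fintype ι]
    (f : ι → F) (M : ℕ) (hf : 𝒮.Fam f M) : Nonempty (𝒮.NormData f M) := by
  classical
  have ht := transcendental_t 𝒮
  have hmemf : ∀ i, f i ∈ Ot (K := K) t := fun i => mem_Ot_of_regOff h 𝒮 (hf.reg i)
  let u : ι → Ot (K := K) t := fun i => ⟨f i, hmemf i⟩
  obtain ⟨D, p, hp_hom, hp_zero, hp_eval⟩ := exists_norm_forms h ht u
  have hcoe : ∀ a : ι → K, ((∑ i, a i • u i : Ot (K := K) t) : F) = ∑ i, a i • f i := by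
    intro a
    push_cast
    rfl
  -- equivariance of the forms
  have hequiv : ∀ g ∈ 𝒮.Γ, ∀ (a : ι → K) (k : ℕ),
      MvPolynomial.eval (fun i => SemilinearAut.baseAut g (a i)) (p k)
        = SemilinearAut.baseAut g (MvPolynomial.eval a (p k)) := by
    intro g hg a k
    have hgt : g • t = t := 𝒮.t_fixed g hg
    have h1 := normPolyT_smul h ht g hgt (∑ i, a i • u i)
    have h2 : (⟨g • ((∑ i, a i • u i : Ot (K := K) t) : F),
        smul_mem_Ot h ht g hgt (∑ i, a i • u i : Ot (K := K) t).2⟩ : Ot (K := K) t)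
        = ∑ i, SemilinearAut.baseAut g (a i) • u i := by
      apply Subtype.ext
      show g • ((∑ i, a i • u i : Ot (K := K) t) : F) = _
      rw [hcoe, hcoe]
      rw [Finset.smul_sum]
      refine Finset.sum_congr rfl fun i _ => ?_
      rw [Algebra.smul_def, smul_mul', SemilinearAut.smul_algebraMap, hf.fixed g hg i,
        ← Algebra.smul_def]
    rw [h2] at h1
    rw [← hp_eval, h1, Polynomial.coeff_map, hp_eval]
    rfl
  refine ⟨{ N := fun k => p k
            hom := fun k => by rw [← finrank_eq h 𝒮]; exact hp_hom k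
            fixed := ?_
            root := ?_ }⟩
  · intro g hg k
    apply MvPolynomial.funext
    intro y
    set σ : K →+* K := ((SemilinearAut.baseAut g : K ≃+* K) : K →+* K) with hσ
    let a : ι → K := fun i => (SemilinearAut.baseAut g).symm (y i)
    have hy : y = fun i => SemilinearAut.baseAut g (a i) :=
      funext fun i => ((SemilinearAut.baseAut g).apply_symm_apply (y i)).symm
    have h1 : MvPolynomial.eval y (MvPolynomial.map σ (p k)) = σ (MvPolynomial.eval a (p k)) := by
      rw [MvPolynomial.eval_map, ← MvPolynomial.eval₂_id (p k), MvPolynomial.eval₂_comp_left,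
        RingHom.comp_id]
      congr 1
    rw [h1, hy, hequiv g hg a k]
    rfl
  · intro a hφ Z hZ
    set φ' : Ot (K := K) t := ∑ i, a i • u i with hφ'
    have hφ'coe : (φ' : F) = ∑ i, a i • f i := hcoe a
    have hφ'0 : (φ' : F) ≠ 0 := by rw [hφ'coe]; exact hφ
    have hZ' : IsZDiv pinf (φ' : F) Z := by rw [hφ'coe]; exact hZ
    have hpole : -(M : ℤ) ≤ pinf.ord (∑ i, a i • f i) :=
      le_ord_sum_smul Finset.univ a f _ (fun i _ => hf.pole i) hφ
    have hdegZ : deg Z ≤ M := by
      have := deg_eq_of_isZDiv h hφ hZ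
      omega
    have hnat : (normPolyT ht φ').natDegree < M + 1 := by
      rw [natDegree_normPolyT_eq_deg h 𝒮 φ' hφ'0 hZ']
      omega
    refine ⟨(normPolyT ht φ').leadingCoeff,
      Polynomial.leadingCoeff_ne_zero.mpr (normPolyT_ne_zero h ht φ' hφ'0), ?_⟩
    rw [← normPolyT_eq_prod h 𝒮 φ' hφ'0 hZ']
    conv_rhs => rw [Polynomial.as_sum_range' (normPolyT ht φ') (M + 1) hnat]
    rw [Fin.sum_univ_eq_sum_range (fun k => C (MvPolynomial.eval a (p k)) * X ^ k) (M + 1)]
    refine Finset.sum_congr rfl fun k _ => ?_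
    rw [← hp_eval a k, Polynomial.C_mul_X_pow_eq_monomial]

end Fermat.Agent.MW.HG.NormDataOf
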