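/-
MW / HT-Q — `CurveInst` (helper4): THE INSTANCE TERM of `HG.CurveD` (`HG/Curve2.lean`).

Layer A (this file, generic in the `Setting`): the `CurveD₀` / `CurveD` terms from RAW,
function-level data, so that every supplier plugs in its own vocabulary:

* `IsFixedBasis 𝒮 f M` : `f` is a `Γ`-fixed basis of `L(M · pinf)`;
  `IsFixedBasis.fam`, `.exists_coeff`, `.uFix`, `.card_add_genus`;
* `exists_isZDiv`, `exists_isZDiv_sum_le` : divisors of zeros off `pinf`;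
* `mkD₀` : the `CurveD₀` term from a family `w M` of fixed bases, a fixed basis `w₁` of
  `L((n + γ) · pinf)`, a `Fam` `κ`, the ramification divisor `𝔯`, a class map `cl` with
  (class zero ⟸ zero divisor of a `U`-fixed function), (class zero ⟹ zero divisor of a `U`-fixed
  function), and the moving lemma;
* `GoodRaw` : the body of `CurveD₀.Good` for explicit data, `mkD₀_good_iff` (by `Iff.rfl`);
* `nonempty_curveD` : `Nonempty (CurveD 𝒮 J)` from the above + Northcott + the good translates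
  in the `GoodRaw` form.
-/
import Mathlib
import Fermat.Agent.MW.HG.Curve2
import Fermat.Agent.MW.HG.Basic
import Fermat.Agent.MW.HG.NormDataOf
import Fermat.Agent.MW.Ht.RamDiv
import Fermat.Agent.Lib.FF.WeilCanonical

set_option autoImplicit false
set_option linter.unusedSectionVars false

noncomputable section

namespace Fermat.Agent.MW.HG.CurveInst

open AlgebraicCurve Module
open Fermat.Agent.Lib.FF Fermat.Agent.MW.HtM Fermat.Agent.MW.HQ Fermat.Agent.MW.HG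

variable {K F V : Type*} [Field K] [Field F] [Algebra K F] {Ab : AbsFamily K V}
  {pinf : Place K F} {t : F} {m : ℕ}

/-! ### Membership in `L(M · pinf)` -/

theorem mem_rr_single_iff {M : ℕ} {ψ : F} (hψ : ψ ≠ 0) :
    ψ ∈ riemannRochSpace (Finsupp.single pinf (M : ℤ)) ↔
      RegOff pinf ψ ∧ -(M : ℤ) ≤ pinf.ord ψ := by
  classical
  rw [mem_riemannRochSpace_iff]
  constructor
  · intro h
    refine ⟨fun P hP => ?_, ?_⟩
    · have h1 := (h P).resolve_left hψ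
      rwa [Finsupp.single_apply, if_neg (Ne.symm hP), neg_zero] at h1
    · have h1 := (h pinf).resolve_left hψ
      rwa [Finsupp.single_eq_same] at h1
  · rintro ⟨h1, h2⟩ v
    right
    by_cases hv : v = pinf
    · subst hv; rwa [Finsupp.single_eq_same]
    · rw [Finsupp.single_apply, if_neg (Ne.symm hv), neg_zero]; exact h1 v hv

/-! ### Fixed bases -/

/-- `f` is a `Γ`-fixed basis of `L(M · pinf)`. -/
structure IsFixedBasis (𝒮 : Setting Ab pinf t m) {r : ℕ} (f : Fin r → F) (M : ℕ) : Prop where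
  fixed : ∀ g ∈ 𝒮.Γ, ∀ i, g • f i = f i
  li : LinearIndependent K f
  span : Submodule.span K (Set.range f) = riemannRochSpace (Finsupp.single pinf (M : ℤ))

namespace IsFixedBasis

variable {𝒮 : Setting Ab pinf t m} {r : ℕ} {f : Fin r → F} {M : ℕ}

theorem mem (hf : IsFixedBasis 𝒮 f M) (i : Fin r) :
    f i ∈ riemannRochSpace (Finsupp.single pinf (M : ℤ)) := by
  rw [← hf.span]; exact Submodule.subset_span ⟨i, rfl⟩

theorem fam (hf : IsFixedBasis 𝒮 f M) : 𝒮.Fam f M :=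
  ⟨fun i => ((mem_rr_single_iff (hf.li.ne_zero i)).mp (hf.mem i)).1,
    fun i => ((mem_rr_single_iff (hf.li.ne_zero i)).mp (hf.mem i)).2, hf.fixed⟩

theorem exists_coeff (hf : IsFixedBasis 𝒮 f M) {ψ : F} (hψ : ψ ≠ 0) (hreg : RegOff pinf ψ)
    (hpole : -(M : ℤ) ≤ pinf.ord ψ) : ∃ a : Fin r → K, ψ = ∑ i, a i • f i := by
  have h1 : ψ ∈ Submodule.span K (Set.range f) := by
    rw [hf.span]; exact (mem_rr_single_iff hψ).mpr ⟨hreg, hpole⟩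
  obtain ⟨a, ha⟩ := (Submodule.mem_span_range_iff_exists_fun K).mp h1
  exact ⟨a, ha.symm⟩

/-- The coefficient vector of a `U`-fixed function in a `Γ`-fixed basis is `U`-fixed. -/
theorem uFix (hf : IsFixedBasis 𝒮 f M) {a : Fin r → K}
    (h : ∀ u ∈ 𝒮.U, u • (∑ i, a i • f i) = ∑ i, a i • f i) : 𝒮.UFix a := by
  intro u hu i
  have h1 := 𝒮.smul_sum_smul hf.fam (𝒮.U_le hu) Finset.univ a
  rw [h u hu] at h1
  have h2 : ∑ i, (a i - SemilinearAut.baseAut u (a i)) • f i = 0 := by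
    simp only [sub_smul, Finset.sum_sub_distrib]
    rw [← h1]; exact sub_self _
  have h3 := Fintype.linearIndependent_iff.mp hf.li _ h2 i
  exact (sub_eq_zero.mp h3).symm

/-- Riemann–Roch: a basis of `L(M · pinf)` has `M + 1 - g` elements for `M ≥ 2g - 1`. -/
theorem card_add_genus {x : F} (h : IsFF1 K F x) (hf : IsFixedBasis 𝒮 f M)
    (hM : 2 * genusFF K F ≤ M + 1) : r + genusFF K F = M + 1 := by
  have h1 : finrank K (Submodule.span K (Set.range f)) = r := by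
    rw [finrank_span_eq_card hf.li, Fintype.card_fin]
  rw [hf.span] at h1
  have h2 := WeilCanonical.finrank_L_of_degree h
    (D := (Finsupp.single pinf (M : ℤ) : Divisor K F))
    (by rw [Divisor.degree_single, h.deg_eq_one]; push_cast; omega)
  rw [h1, Divisor.degree_single, h.deg_eq_one] at h2
  push_cast at h2
  omega

end IsFixedBasis

/-! ### Divisors of zeros -/

theorem exists_isZDiv {x : F} (h : IsFF1 K F x) {ψ : F} (hψ : ψ ≠ 0) (hreg : RegOff pinf ψ) :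
    ∃ Z : Place K F →₀ ℕ, IsZDiv pinf ψ Z := by
  classical
  have := h.hasPrincipalDivisors
  obtain ⟨D, hD, -⟩ := HasPrincipalDivisors.exists_divisor (K := K) ψ hψ
  refine ⟨(Ht.RamDiv.toNatDiv D).erase pinf, by simp, fun P hP => ?_⟩
  rw [Finsupp.erase_ne hP, Ht.RamDiv.coe_toNatDiv (by rw [hD]; exact hreg P hP), hD]

theorem exists_isZDiv_sum_le [IsAlgClosed K] [CharZero K] {x : F} (h : IsFF1 K F x)
    (𝒮 : Setting Ab pinf t m) {ι : Type*} [Fintype ι] {f : ι → F} {M : ℕ} (hf : 𝒮.Fam f M)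
    (a : ι → K) (hne : (∑ i, a i • f i) ≠ 0) :
    ∃ Z : Place K F →₀ ℕ, IsZDiv pinf (∑ i, a i • f i) Z ∧ deg Z ≤ M := by
  obtain ⟨Z, hZ⟩ := exists_isZDiv h hne (𝒮.regOff_sum_smul hf Finset.univ a)
  refine ⟨Z, hZ, ?_⟩
  have h1 := NormDataOf.deg_eq_of_isZDiv h hne hZ
  have h2 := NormDataOf.le_ord_sum_smul (P := pinf) Finset.univ a f (-(M : ℤ))
    (fun i _ => hf.pole i) hne
  omega

/-! ### The `CurveD₀` term -/

/-- **The `CurveD₀` term from raw data.** -/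
def mkD₀ [IsAlgClosed K] [CharZero K] (𝒮 : Setting Ab pinf t m) {J : Type*} [AddCommGroup J]
    {x : F} (h : IsFF1 K F x)
    (hmle : 𝒮.MLe) (hlip : 𝒮.Lip) (hram : 𝒮.RamLe)
    (harch : ∀ v, IsNonarchimedean (Ab.abv v) ∨ ∃ j : K →+* ℂ, ∀ a, Ab.abv v a = ‖j a‖)
    (γ : ℕ) (cl : (Place K F →₀ ℕ) →+ J)
    (l : ℕ → ℕ) (w : ∀ M : ℕ, Fin (l M) → F) (hw : ∀ M, IsFixedBasis 𝒮 (w M) M)
    (hcl0 : ∀ ψ : F, ψ ≠ 0 → (∀ u ∈ 𝒮.U, u • ψ = ψ) →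
      ∀ Z : Place K F →₀ ℕ, IsZDiv pinf ψ Z → cl Z = 0)
    (hfun : ∀ Z ∈ 𝒮.RatU, cl Z = 0 →
      ∃ ψ : F, ψ ≠ 0 ∧ (∀ u ∈ 𝒮.U, u • ψ = ψ) ∧ IsZDiv pinf ψ Z)
    (d₀ : ℕ)
    (hrep : ∀ (x : J) (S : Finset (Place K F)), ∃ D ∈ 𝒮.RatU, cl D = x ∧ deg D ≤ d₀ ∧
      ∀ p ∈ D.support, ∀ q ∈ S, 𝒮.far p q)
    (MK : ℕ) (hMK : MK + 1 ≤ 2 * γ) (κ : Fin γ → F) (hκ : 𝒮.Fam κ MK)
    (𝔯 : Place K F →₀ ℕ) (h𝔯inf : 𝔯 pinf = 0)
    (h𝔯 : ∀ P : Place K F, P ≠ pinf →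
      (𝔯 P : ℤ) = P.ord (t - algebraMap K F (pval P t)) - 1)
    (hRH : 2 * γ + m ≤ deg 𝔯 + 1)
    (n : ℕ) (w₁ : Fin (n + 1) → F) (hw₁ : IsFixedBasis 𝒮 w₁ (n + γ)) : CurveD₀ 𝒮 J where
  mle := hmle
  lip := hlip
  ram := hram
  harch := harch
  γ := γ
  cl := cl
  l := l
  w := w
  w_fam := fun M => (hw M).fam
  w_li := fun M => (hw M).li
  w_norm := fun M => Classical.choice (NormDataOf.exists_normData h 𝒮 (w M) M (hw M).fam)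
  w_zdiv := fun M a hne => exists_isZDiv_sum_le h 𝒮 (hw M).fam a hne
  cl_zdiv := fun M a ha hne Z hZ =>
    hcl0 _ hne (fun u hu => 𝒮.smul_eq_of_UFix (hw M).fam ha hu Finset.univ) Z hZ
  exists_fun := fun Z hZ hcl => by
    obtain ⟨ψ, hψ, hfix, hZd⟩ := hfun Z hZ hcl
    have hdeg := NormDataOf.deg_eq_of_isZDiv h hψ hZd
    obtain ⟨a, ha⟩ := (hw (deg Z)).exists_coeff hψ hZd.regOff (by omega)
    subst ha
    exact ⟨a, (hw _).uFix hfix, hψ, hZd⟩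
  d₀ := d₀
  rep := hrep
  MK := MK
  hMK := hMK
  κ := κ
  κ_fam := hκ
  𝔯 := 𝔯
  𝔯_inf := h𝔯inf
  𝔯_spec := h𝔯
  hRH := hRH
  n := n
  M₁ := n + γ
  hM₁ := rfl
  w₁ := w₁
  w₁_fam := hw₁.fam
  w₁_li := hw₁.li
  w₁_norm := Classical.choice (NormDataOf.exists_normData h 𝒮 w₁ (n + γ) hw₁.fam)
  w₁_zdiv := fun a hne => (exists_isZDiv_sum_le h 𝒮 hw₁.fam a hne).imp fun _ hZ => hZ.1
  w₁_cl := fun a ha hne Z hZ =>
    hcl0 _ hne (fun u hu => 𝒮.smul_eq_of_UFix hw₁.fam ha hu Finset.univ) Z hZ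

/-- **The body of `CurveD₀.Good`**, for explicit data. -/
def GoodRaw (𝒮 : Setting Ab pinf t m) (γ n : ℕ) (κ : Fin γ → F) (w₁ : Fin (n + 1) → F)
    (𝔯 : Place K F →₀ ℕ) (E : Place K F →₀ ℕ) : Prop :=
  ∃ (P : Fin γ → Place K F) (R : Fin n → Place K F) (a : Fin (n + 1) → K),
    E = tdiv P ∧ Function.Injective P ∧ (∀ j, P j ≠ pinf) ∧ tdiv P ∈ 𝒮.RatU ∧
    Matrix.det (Matrix.of fun i j => pval (P j) (κ i)) ≠ 0 ∧
    𝒮.UFix a ∧ (∑ i, a i • w₁ i) ≠ 0 ∧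
    IsZDiv pinf (∑ i, a i • w₁ i) (tdiv P + tdiv R) ∧
    Function.Injective R ∧ (∀ j, R j ≠ pinf) ∧ tdiv R ∈ 𝒮.RatU ∧
    (∀ Q, (tdiv P + tdiv R) Q ≤ 1) ∧
    Set.InjOn (fun Q : Place K F => pval Q t) ((tdiv P + tdiv R).support : Set (Place K F)) ∧
    Far 𝒮.far (tdiv P + tdiv R) 𝔯 ∧
    Far 𝒮.far (tdiv P) (tdiv R) ∧
    (∃ i : Fin (n + 1),
      Matrix.det (Matrix.of fun k j => pval (R j) (w₁ (i.succAbove k))) ≠ 0)

/-- `Good` for a general `CurveD₀` term is `GoodRaw` of its fields. -/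
theorem good_iff {𝒮 : Setting Ab pinf t m} {J : Type*} [AddCommGroup J] (𝒟 : CurveD₀ 𝒮 J)
    (E : Place K F →₀ ℕ) : 𝒟.Good E ↔ GoodRaw 𝒮 𝒟.γ 𝒟.n 𝒟.κ 𝒟.w₁ 𝒟.𝔯 E := Iff.rfl

/-- **`Nonempty (CurveD 𝒮 J)`** from a `CurveD₀` term, Northcott and the good translates. -/
theorem nonempty_curveD_of {𝒮 : Setting Ab pinf t m} {J : Type*} [AddCommGroup J]
    (𝒟 : CurveD₀ 𝒮 J)
    (hnorth : ∀ (d : ℕ) (T : ℝ), {E | E ∈ 𝒮.RatU ∧ deg E ≤ d ∧ ht 𝒮.etaU E ≤ T}.Finite)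
    (htrans : ∃ 𝒞 : Finset J, ∀ x : J, ∃ c ∈ 𝒞, ∃ E,
      GoodRaw 𝒮 𝒟.γ 𝒟.n 𝒟.κ 𝒟.w₁ 𝒟.𝔯 E ∧ 𝒟.cl E = x + c) :
    Nonempty (CurveD 𝒮 J) :=
  ⟨{ toCurveD₀ := 𝒟, north := hnorth, translates := htrans }⟩

/-- **`Nonempty (CurveD 𝒮 J)` from raw data** (the hypotheses of `mkD₀`, Northcott, and the good
translates in the `GoodRaw` form for the SAME `γ n κ w₁ 𝔯 cl`). -/
theorem nonempty_curveD [IsAlgClosed K] [CharZero K] (𝒮 : Setting Ab pinf t m) {J : Type*}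
    [AddCommGroup J] {x : F} (h : IsFF1 K F x)
    (hmle : 𝒮.MLe) (hlip : 𝒮.Lip) (hram : 𝒮.RamLe)
    (harch : ∀ v, IsNonarchimedean (Ab.abv v) ∨ ∃ j : K →+* ℂ, ∀ a, Ab.abv v a = ‖j a‖)
    (γ : ℕ) (cl : (Place K F →₀ ℕ) →+ J)
    (l : ℕ → ℕ) (w : ∀ M : ℕ, Fin (l M) → F) (hw : ∀ M, IsFixedBasis 𝒮 (w M) M)
    (hcl0 : ∀ ψ : F, ψ ≠ 0 → (∀ u ∈ 𝒮.U, u • ψ = ψ) →
      ∀ Z : Place K F →₀ ℕ, IsZDiv pinf ψ Z → cl Z = 0)
    (hfun : ∀ Z ∈ 𝒮.RatU, cl Z = 0 →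
      ∃ ψ : F, ψ ≠ 0 ∧ (∀ u ∈ 𝒮.U, u • ψ = ψ) ∧ IsZDiv pinf ψ Z)
    (d₀ : ℕ)
    (hrep : ∀ (x : J) (S : Finset (Place K F)), ∃ D ∈ 𝒮.RatU, cl D = x ∧ deg D ≤ d₀ ∧
      ∀ p ∈ D.support, ∀ q ∈ S, 𝒮.far p q)
    (MK : ℕ) (hMK : MK + 1 ≤ 2 * γ) (κ : Fin γ → F) (hκ : 𝒮.Fam κ MK)
    (𝔯 : Place K F →₀ ℕ) (h𝔯inf : 𝔯 pinf = 0)
    (h𝔯 : ∀ P : Place K F, P ≠ pinf →
      (𝔯 P : ℤ) = P.ord (t - algebraMap K F (pval P t)) - 1)
    (hRH : 2 * γ + m ≤ deg 𝔯 + 1)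
    (n : ℕ) (w₁ : Fin (n + 1) → F) (hw₁ : IsFixedBasis 𝒮 w₁ (n + γ))
    (hnorth : ∀ (d : ℕ) (T : ℝ), {E | E ∈ 𝒮.RatU ∧ deg E ≤ d ∧ ht 𝒮.etaU E ≤ T}.Finite)
    (htrans : ∃ 𝒞 : Finset J, ∀ x : J, ∃ c ∈ 𝒞, ∃ E,
      GoodRaw 𝒮 γ n κ w₁ 𝔯 E ∧ cl E = x + c) :
    Nonempty (CurveD 𝒮 J) :=
  nonempty_curveD_of
    (mkD₀ 𝒮 h hmle hlip hram harch γ cl l w hw hcl0 hfun d₀ hrep MK hMK κ hκ 𝔯 h𝔯inf h𝔯 hRH n
      w₁ hw₁) hnorth htrans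

end Fermat.Agent.MW.HG.CurveInst
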