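/-
MW / HT-Q, row G4 (helper86) — the discriminant bound, literal form.

`Setting.disc_ge` : for a reduced zero divisor `Z` of a `U`-fixed member of a `Γ`-fixed family,
on which `t` is injective and which is in `t`-general position with respect to the affine
ramification divisor `𝔯` of `t`:
`(2 deg Z + deg 𝔯 − m − 1) · h(Z) ≤ G(Z, Z) + C`
(with Riemann–Hurwitz `deg 𝔯 = 2g + m − 1` this is `(2 deg Z + 2g − 2) · h(Z) ≤ G(Z, Z) + C`).

= `Disc.disc_ge_of` (MW/HG/DiscCore.lean) + G1 (`recLow_raw`) + G3 (`recUp_raw`).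
-/
import Mathlib
import Fermat.Agent.MW.HG.DiscCore
import Fermat.Agent.MW.HG.RecLow
import Fermat.Agent.MW.HG.RecUp

set_option autoImplicit false

noncomputable section

namespace Fermat.Agent.MW.HG

open AlgebraicCurve Fermat.Agent.MW.HtM Fermat.Agent.MW.HQ

variable {K F V : Type*} [Field K] [Field F] [Algebra K F]

namespace Setting

variable {Ab : AbsFamily K V} {pinf : Place K F} {t : F} {m : ℕ} (𝒮 : Setting Ab pinf t m)

/-- **G4 (Disc).**  The discriminant bound `G(Z, Z) ≥ (2 deg Z + deg 𝔯 − m − 1) · h(Z) − C`. -/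
theorem disc_ge (hM : 𝒮.MLe) (hL : 𝒮.Lip) (hR : 𝒮.RamLe) {ι : Type} [Fintype ι] (f : ι → F)
    (M : ℕ) (hf : 𝒮.Fam f M) (hB : 𝒮.MahlerLe f)
    (𝔯 : Place K F →₀ ℕ) (h𝔯 : 𝔯 pinf = 0)
    (h𝔯' : ∀ P : Place K F, P ≠ pinf →
      (𝔯 P : ℤ) = P.ord (t - algebraMap K F (pval P t)) - 1) :
    ∃ C : ℝ, ∀ a : ι → K, 𝒮.UFix a → (∑ i, a i • f i) ≠ 0 →
      ∀ Z : Place K F →₀ ℕ, IsZDiv pinf (∑ i, a i • f i) Z → deg Z = M → (∀ P, Z P ≤ 1) →
      (∀ p ∈ Z.support, ∀ q ∈ Z.support, pval p t = pval q t → p = q) → Far 𝒮.far Z 𝔯 →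
        ((2 * M + deg 𝔯 : ℝ) - m - 1) * ht 𝒮.etaU Z ≤ pairG 𝒮.gU Z Z + C :=
  Disc.disc_ge_of 𝒮 hL hR f M hf hB 𝔯 h𝔯 h𝔯' (𝒮.recLow_raw hM f M hf ((m - 1) * M))
    (𝒮.recUp_raw hM hL f M hf (deg 𝔯))

end Setting

end Fermat.Agent.MW.HG
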