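/-
MW / HT-Q, row G5 (HadK): the canonical Hadamard bound from the local determinant bound.

`Setting.hadK`: for a `Γ`-fixed family `κ : Fin n → F` with the local determinant bound
`𝒮.DetLe κ MK B` (all `κ i` vanish on the `Γ`-stable effective divisor `B`), and every `U`-rational
reduced divisor `E = ∑ j, P j` with `det (κ i (P j)) ≠ 0`:
  `pairG gU E E + 2 * pairG gU B E ≤ 2 * MK * ht etaU E + C`.

Proof: `d := det (κ i (P j))`; for `s ∈ Sg` the determinant at the tuple `s • P` is `s d`; the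
local bound at `(s • P, v)`, logarithm, sum over `v` and `s`; `d ^ 2` is `U`-fixed (it is the
determinant of the Gram matrix `∑ j, κ i (P j) * κ i' (P j)`, a symmetric function of the points),
so `∑ s, ∑ᶠ v, log |s d|_v = 0` by the product formula.

The auxiliary lemmas live in the namespace `Fermat.Agent.MW.HG.HadK`.
-/
import Mathlib
import Fermat.Prelude.Def_AlgebraicCurve_Repartitions
import Fermat.Agent.MW.HG.Defs

set_option autoImplicit false

noncomputable section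

namespace Fermat.Agent.MW.HG

open AlgebraicCurve Fermat.Agent.MW.HtM Fermat.Agent.MW.HQ

variable {K F V : Type*} [Field K] [Field F] [Algebra K F]

namespace HadK

/-! ### Equivariance of the value map -/

theorem adicValuation_smul (g : SemilinearAut K F) (P : Place K F) (x : F) :
    (g • P).adicValuation (g • x) = P.adicValuation x := by
  rcases eq_or_ne x 0 with rfl | hx
  · simp
  have hgx : g • x ≠ 0 := by
    rw [SemilinearAut.smul_def]
    exact (RingEquiv.map_ne_zero_iff _).mpr hx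
  rw [(g • P).adicValuation_eq_exp_neg_ord hgx, P.adicValuation_eq_exp_neg_ord hx,
    SemilinearAut.ord_smul]

theorem smul_sub_algebraMap (g : SemilinearAut K F) (f : F) (c : K) :
    g • (f - algebraMap K F c) = g • f - algebraMap K F (SemilinearAut.baseAut g c) := by
  rw [smul_sub, SemilinearAut.smul_algebraMap]

/-- The value map is equivariant under semilinear automorphisms. -/
theorem pval_smul (g : SemilinearAut K F) (P : Place K F) (f : F) :
    pval (g • P) (g • f) = SemilinearAut.baseAut g (pval P f) := by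
  classical
  by_cases h : ∃ c : K, P.adicValuation (f - algebraMap K F c) < 1
  · obtain ⟨c, hc⟩ := h
    rw [pval_eq P hc]
    refine pval_eq (g • P) ?_
    rw [← smul_sub_algebraMap, adicValuation_smul]
    exact hc
  · have h' : ¬ ∃ c : K, (g • P).adicValuation (g • f - algebraMap K F c) < 1 := by
      rintro ⟨c, hc⟩
      refine h ⟨(SemilinearAut.baseAut g).symm c, ?_⟩
      rw [← adicValuation_smul g, smul_sub_algebraMap, RingEquiv.apply_symm_apply]
      exact hc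
    have e1 : pval P f = 0 := by
      unfold pval
      rw [dif_neg h]
    have e2 : pval (g • P) (g • f) = 0 := by
      unfold pval
      rw [dif_neg h']
    rw [e1, e2, map_zero]

/-- The determinant of the values of a fixed family at a moved tuple of points. -/
theorem det_smul (s : SemilinearAut K F) {n : ℕ} (κ : Fin n → F) (hκ : ∀ i, s • κ i = κ i)
    (P : Fin n → Place K F) :
    Matrix.det (Matrix.of fun i j => pval (s • P j) (κ i))
      = SemilinearAut.baseAut s (Matrix.det (Matrix.of fun i j => pval (P j) (κ i))) := by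
  have h : (Matrix.of fun i j => pval (s • P j) (κ i))
      = ((SemilinearAut.baseAut s : K ≃+* K) : K →+* K).mapMatrix
          (Matrix.of fun i j => pval (P j) (κ i)) := by
    ext i j
    simp only [RingHom.mapMatrix_apply, Matrix.map_apply, Matrix.of_apply]
    conv_lhs => rw [← hκ i]
    rw [pval_smul]
    rfl
  rw [h, ← RingHom.map_det]
  rfl

/-! ### Sums over the divisor of a tuple -/

theorem sum_tdiv {M : Type*} [AddCommMonoid M] {n : ℕ} (P : Fin n → Place K F)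
    (h : Place K F → ℕ → M) (h0 : ∀ p, h p 0 = 0)
    (hadd : ∀ p a b, h p (a + b) = h p a + h p b) :
    (tdiv P).sum h = ∑ j, h (P j) 1 := by
  unfold tdiv
  rw [← Finsupp.sum_finsetSum_index h0 hadd]
  exact Finset.sum_congr rfl fun j _ => Finsupp.sum_single_index (h0 _)

theorem mapDomain_tdiv (u : SemilinearAut K F) {n : ℕ} (P : Fin n → Place K F) :
    (tdiv P).mapDomain (fun R => u • R) = tdiv fun j => u • P j := by
  unfold tdiv
  rw [Finsupp.mapDomain_finsetSum]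
  exact Finset.sum_congr rfl fun j _ => Finsupp.mapDomain_single

/-- A symmetric function of the points only depends on the divisor of the tuple. -/
theorem sum_eq_of_tdiv_eq {n : ℕ} {P Q : Fin n → Place K F} (hPQ : tdiv P = tdiv Q)
    (h : Place K F → K) : ∑ j, h (P j) = ∑ j, h (Q j) := by
  have e : ∀ R : Fin n → Place K F, ∑ j, h (R j) = (tdiv R).sum fun p a => a • h p := by
    intro R
    rw [sum_tdiv R (fun p a => a • h p) (fun p => zero_smul _ _) (fun p a b => add_smul _ _ _)]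
    simp
  rw [e P, e Q, hPQ]

/-- The square of the determinant only depends on the divisor of the tuple. -/
theorem det_sq_eq_of_tdiv_eq {n : ℕ} (κ : Fin n → F) {P Q : Fin n → Place K F}
    (hPQ : tdiv P = tdiv Q) :
    Matrix.det (Matrix.of fun i j => pval (P j) (κ i)) ^ 2
      = Matrix.det (Matrix.of fun i j => pval (Q j) (κ i)) ^ 2 := by
  have e : ∀ R : Fin n → Place K F,
      Matrix.det (Matrix.of fun i j => pval (R j) (κ i)) ^ 2
        = Matrix.det (Matrix.of fun i i' : Fin n => ∑ j, pval (R j) (κ i) * pval (R j) (κ i')) := by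
    intro R
    have h1 : (Matrix.of fun i i' : Fin n => ∑ j, pval (R j) (κ i) * pval (R j) (κ i'))
        = (Matrix.of fun i j => pval (R j) (κ i)) *
            (Matrix.of fun i j => pval (R j) (κ i)).transpose := by
      ext i i'
      simp [Matrix.mul_apply]
    rw [h1, Matrix.det_mul, Matrix.det_transpose, pow_two]
  rw [e P, e Q]
  congr 1
  ext i i'
  exact sum_eq_of_tdiv_eq hPQ fun R => pval R (κ i) * pval R (κ i')

theorem ht_tdiv (η : Place K F → ℝ) {n : ℕ} (P : Fin n → Place K F) :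
    ht η (tdiv P) = ∑ j, η (P j) := by
  unfold ht
  rw [sum_tdiv P (fun p a => (a : ℝ) * η p) (fun p => by simp) (fun p a b => by push_cast; ring)]
  simp

theorem pairG_tdiv_right (g : Place K F → Place K F → ℝ) (D : Place K F →₀ ℕ) {n : ℕ}
    (P : Fin n → Place K F) :
    pairG g D (tdiv P) = ∑ j, D.sum fun p a => (a : ℝ) * g p (P j) := by
  unfold pairG
  have h1 : ∀ (p : Place K F) (a : ℕ),
      ((tdiv P).sum fun q b => (a : ℝ) * (b : ℝ) * g p q) = ∑ j, (a : ℝ) * g p (P j) := by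
    intro p a
    rw [sum_tdiv P (fun q b => (a : ℝ) * (b : ℝ) * g p q) (fun q => by simp)
      (fun q b c => by push_cast; ring)]
    simp
  simp only [h1]
  unfold Finsupp.sum
  exact Finset.sum_comm

/-- A symmetric array with zero diagonal sums to twice its strict upper triangle. -/
theorem sum_sum_eq_two_mul {n : ℕ} (x : Fin n → Fin n → ℝ) (hsymm : ∀ i j, x i j = x j i)
    (hdiag : ∀ i, x i i = 0) :
    ∑ i, ∑ j, x i j = 2 * ∑ i, ∑ j ∈ Finset.Ioi i, x i j := by
  have h1 : ∀ i j, x i j = (if i < j then x i j else 0) + (if j < i then x i j else 0) := by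
    intro i j
    rcases lt_trichotomy i j with h | h | h
    · simp [h, not_lt.mpr h.le]
    · subst h; simp [hdiag]
    · simp [h, not_lt.mpr h.le]
  have h2 : ∀ i, ∑ j, (if i < j then x i j else 0) = ∑ j ∈ Finset.Ioi i, x i j := by
    intro i
    rw [← Finset.sum_filter, Finset.filter_lt_eq_Ioi]
  have h3 : ∑ i, ∑ j, (if j < i then x i j else 0) = ∑ i, ∑ j, (if i < j then x i j else 0) := by
    rw [Finset.sum_comm]
    refine Finset.sum_congr rfl fun i _ => Finset.sum_congr rfl fun j _ => ?_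
    rw [hsymm j i]
  calc ∑ i, ∑ j, x i j
      = ∑ i, ∑ j, ((if i < j then x i j else 0) + (if j < i then x i j else 0)) :=
        Finset.sum_congr rfl fun i _ => Finset.sum_congr rfl fun j _ => h1 i j
    _ = ∑ i, ∑ j, (if i < j then x i j else 0) + ∑ i, ∑ j, (if j < i then x i j else 0) := by
        simp only [Finset.sum_add_distrib]
    _ = 2 * ∑ i, ∑ j ∈ Finset.Ioi i, x i j := by
        rw [h3, ← two_mul]
        congr 1
        exact Finset.sum_congr rfl fun i _ => h2 i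

/-! ### Finite supports -/

theorem finite_log_abv (Ab : AbsFamily K V) {a : K} (ha : a ≠ 0) :
    {v | Real.log (Ab.abv v a) ≠ 0}.Finite := by
  refine ((Ab.finite_gt_one a).union (Ab.finite_gt_one a⁻¹)).subset fun v hv => ?_
  by_contra hcon
  simp only [Set.mem_union, Set.mem_ofPred_eq, not_or, not_lt] at hcon
  obtain ⟨h1, h2⟩ := hcon
  apply hv
  have hpos : 0 < Ab.abv v a := (Ab.abv v).pos ha
  rw [map_inv₀] at h2
  have h3 : 1 ≤ Ab.abv v a := (inv_le_one₀ hpos).mp h2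
  rw [le_antisymm h1 h3, Real.log_one]

theorem finite_log_tame {C : V → ℝ} (hC : Tame C) (m : ℕ) :
    {v | Real.log (C v) / m ≠ 0}.Finite := by
  refine hC.2.subset fun v hv h1 => hv ?_
  rw [h1, Real.log_one, zero_div]

theorem finsum_eq_sum_of_zero_off {φ : V → ℝ} {T : Finset V} (h : ∀ v, v ∉ T → φ v = 0) :
    ∑ᶠ v, φ v = ∑ v ∈ T, φ v :=
  finsum_eq_sum_of_support_subset _ fun v hv => by
    by_contra hvT
    exact hv (h v hvT)

variable {Ab : AbsFamily K V} {pinf : Place K F} {t : F} {m : ℕ} (𝒮 : Setting Ab pinf t m)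

theorem finite_lam {p q : Place K F} (hp : p ≠ pinf) (hq : q ≠ pinf) :
    {v | 𝒮.lam v p q ≠ 0}.Finite := by
  by_cases hpq : p = q
  · subst hpq
    convert Set.finite_empty
    ext v
    simp [Setting.lam, 𝒮.δ_self v p hp]
  · refine (𝒮.δ_eq_one p q hp hq hpq).subset fun v hv h1 => hv ?_
    simp [Setting.lam, h1]

theorem finite_eta (p : Place K F) : {v | 𝒮.eta v p ≠ 0}.Finite := by
  refine (Ab.finite_gt_one (pval p t)).subset fun v hv => ?_
  by_contra hcon
  apply hv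
  simp only [Set.mem_ofPred_eq, not_lt] at hcon
  simp [Setting.eta, max_eq_left hcon]

theorem smul_ne_pinf {s : SemilinearAut K F} (hs : s ∈ 𝒮.Γ) {p : Place K F} (hp : p ≠ pinf) :
    s • p ≠ pinf := fun h =>
  hp (MulAction.injective s (h.trans (𝒮.inf_fixed s hs).symm))

theorem gU_symm (p q : Place K F) : 𝒮.gU p q = 𝒮.gU q p := by
  unfold Setting.gU Setting.lam
  exact Finset.sum_congr rfl fun s _ => finsum_congr fun v => by rw [𝒮.δ_symm]

theorem gU_self {p : Place K F} (hΓ : ∀ s ∈ 𝒮.Sg, s • p ≠ pinf) :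
    𝒮.gU p p = 0 := by
  unfold Setting.gU Setting.lam
  refine Finset.sum_eq_zero fun s hs => ?_
  have : ∀ v, -Real.log (𝒮.δ v (s • p) (s • p)) = 0 := fun v => by
    rw [𝒮.δ_self v _ (hΓ s hs), Real.log_zero, neg_zero]
  simp only [this, finsum_zero]

/-! ### The local inequality in logarithmic form -/

theorem local_log (hm : 0 < m) {n : ℕ} (κ : Fin n → F) (MK : ℕ) (B : Place K F →₀ ℕ)
    {C : V → ℝ} (hC : Tame C) (v : V) (Q : Fin n → Place K F)
    (h : Ab.abv v (Matrix.det (Matrix.of fun i j => pval (Q j) (κ i))) ^ m ≤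
      C v * (∏ j, max 1 (Ab.abv v (pval (Q j) t))) ^ MK *
        (∏ i, ∏ j ∈ Finset.Ioi i, 𝒮.δ v (Q i) (Q j)) ^ m *
        (∏ j, B.prod fun b k => 𝒮.δ v b (Q j) ^ k) ^ m)
    (hd : Matrix.det (Matrix.of fun i j => pval (Q j) (κ i)) ≠ 0) :
    Real.log (Ab.abv v (Matrix.det (Matrix.of fun i j => pval (Q j) (κ i)))) ≤
      Real.log (C v) / m + MK * ∑ j, 𝒮.eta v (Q j)
        - ∑ i, ∑ j ∈ Finset.Ioi i, 𝒮.lam v (Q i) (Q j)
        - ∑ j, B.sum fun b k => (k : ℝ) * 𝒮.lam v b (Q j) := by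
  set d := Matrix.det (Matrix.of fun i j => pval (Q j) (κ i)) with hd_def
  set X : ℝ := ∏ j, max 1 (Ab.abv v (pval (Q j) t)) with hX
  set Y : ℝ := ∏ i, ∏ j ∈ Finset.Ioi i, 𝒮.δ v (Q i) (Q j) with hY
  set W : ℝ := ∏ j, B.prod fun b k => 𝒮.δ v b (Q j) ^ k with hW
  have hm' : (0 : ℝ) < m := by exact_mod_cast hm
  have hdpos : 0 < Ab.abv v d := (Ab.abv v).pos hd
  have hLpos : 0 < Ab.abv v d ^ m := pow_pos hdpos m
  have hCpos : 0 < C v := hC.pos v
  have hXpos : 0 < X := lt_of_lt_of_le one_pos (one_le_prod_max _ _)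
  have hYne : Y ≠ 0 := by
    intro h0
    rw [h0, zero_pow hm.ne', mul_zero, zero_mul] at h
    exact absurd h (not_le.mpr hLpos)
  have hWne : W ≠ 0 := by
    intro h0
    rw [h0, zero_pow hm.ne', mul_zero] at h
    exact absurd h (not_le.mpr hLpos)
  have hlog : (m : ℝ) * Real.log (Ab.abv v d) ≤
      Real.log (C v) + MK * Real.log X + m * Real.log Y + m * Real.log W := by
    have h1 := Real.log_le_log hLpos h
    rw [Real.log_pow,
      Real.log_mul (mul_ne_zero (mul_ne_zero hCpos.ne' (pow_ne_zero _ hXpos.ne'))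
        (pow_ne_zero _ hYne)) (pow_ne_zero _ hWne),
      Real.log_mul (mul_ne_zero hCpos.ne' (pow_ne_zero _ hXpos.ne')) (pow_ne_zero _ hYne),
      Real.log_mul hCpos.ne' (pow_ne_zero _ hXpos.ne'),
      Real.log_pow, Real.log_pow, Real.log_pow] at h1
    exact h1
  have hlogX : Real.log X = m * ∑ j, 𝒮.eta v (Q j) := by
    rw [hX, Real.log_prod (fun j _ => (lt_of_lt_of_le one_pos (le_max_left _ _)).ne'),
      Finset.mul_sum]
    refine Finset.sum_congr rfl fun j _ => ?_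
    unfold Setting.eta
    field_simp
  have hlogY : Real.log Y = -∑ i, ∑ j ∈ Finset.Ioi i, 𝒮.lam v (Q i) (Q j) := by
    have hne : ∀ i ∈ (Finset.univ : Finset (Fin n)),
        ∏ j ∈ Finset.Ioi i, 𝒮.δ v (Q i) (Q j) ≠ 0 := Finset.prod_ne_zero_iff.mp hYne
    rw [hY, Real.log_prod hne, ← Finset.sum_neg_distrib]
    refine Finset.sum_congr rfl fun i hi => ?_
    rw [Real.log_prod (Finset.prod_ne_zero_iff.mp (hne i hi)), ← Finset.sum_neg_distrib]
    refine Finset.sum_congr rfl fun j _ => ?_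
    simp [Setting.lam]
  have hlogW : Real.log W = -∑ j, B.sum fun b k => (k : ℝ) * 𝒮.lam v b (Q j) := by
    have hne : ∀ j ∈ (Finset.univ : Finset (Fin n)),
        (B.prod fun b k => 𝒮.δ v b (Q j) ^ k) ≠ 0 := Finset.prod_ne_zero_iff.mp hWne
    rw [hW, Real.log_prod hne, ← Finset.sum_neg_distrib]
    refine Finset.sum_congr rfl fun j hj => ?_
    have h2 := hne j hj
    unfold Finsupp.prod at h2 ⊢
    rw [Real.log_prod (Finset.prod_ne_zero_iff.mp h2)]
    unfold Finsupp.sum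
    rw [← Finset.sum_neg_distrib]
    refine Finset.sum_congr rfl fun b _ => ?_
    rw [Real.log_pow]
    simp [Setting.lam]
  rw [hlogX, hlogY, hlogW] at hlog
  have key : (Real.log (C v) / m + MK * ∑ j, 𝒮.eta v (Q j)
        - ∑ i, ∑ j ∈ Finset.Ioi i, 𝒮.lam v (Q i) (Q j)
        - ∑ j, B.sum fun b k => (k : ℝ) * 𝒮.lam v b (Q j)) * m
      = Real.log (C v) + MK * (m * ∑ j, 𝒮.eta v (Q j))
        + m * -∑ i, ∑ j ∈ Finset.Ioi i, 𝒮.lam v (Q i) (Q j)
        + m * -∑ j, B.sum fun b k => (k : ℝ) * 𝒮.lam v b (Q j) := by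
    field_simp
    ring
  refine le_of_mul_le_mul_right ?_ hm'
  rw [key, mul_comm]
  exact hlog

end HadK

open HadK

namespace Setting

variable {Ab : AbsFamily K V} {pinf : Place K F} {t : F} {m : ℕ} (𝒮 : Setting Ab pinf t m)

/-- **(HadK)**: the canonical Hadamard bound from the local determinant bound. -/
theorem hadK {n : ℕ} (κ : Fin n → F) (MK : ℕ) (hκ : 𝒮.Fam κ MK) (B : Place K F →₀ ℕ)
    (hB0 : B pinf = 0) (hBs : ∀ s ∈ 𝒮.Γ, B.mapDomain (fun P => s • P) = B)
    (hdet : 𝒮.DetLe κ MK B) :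
    ∃ C : ℝ, ∀ P : Fin n → Place K F, Function.Injective P → (∀ j, P j ≠ pinf) →
      tdiv P ∈ 𝒮.RatU →
      Matrix.det (Matrix.of fun i j => pval (P j) (κ i)) ≠ 0 →
        pairG 𝒮.gU (tdiv P) (tdiv P) + 2 * pairG 𝒮.gU B (tdiv P) ≤
          2 * (MK : ℝ) * ht 𝒮.etaU (tdiv P) + C := by
  classical
  obtain ⟨C, hC, hb⟩ := hdet
  refine ⟨2 * (𝒮.Sg.card * ∑ᶠ v, Real.log (C v) / m), fun P _hinj hP hRat hd => ?_⟩
  set d := Matrix.det (Matrix.of fun i j => pval (P j) (κ i)) with hd_def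
  have hsP : ∀ s ∈ 𝒮.Sg, ∀ j, s • P j ≠ pinf := fun s hs j =>
    smul_ne_pinf 𝒮 (𝒮.Sg_mem s hs) (hP j)
  have hsb : ∀ s ∈ 𝒮.Sg, ∀ b ∈ B.support, s • b ≠ pinf := fun s hs b hb =>
    smul_ne_pinf 𝒮 (𝒮.Sg_mem s hs) fun h => by
      rw [h] at hb
      exact (Finsupp.mem_support_iff.mp hb) hB0
  have hsd : ∀ s : SemilinearAut K F, SemilinearAut.baseAut s d ≠ 0 := fun s =>
    (RingEquiv.map_ne_zero_iff _).mpr hd
  -- (1) the local inequalities
  have hloc : ∀ s ∈ 𝒮.Sg, ∀ v, Real.log (Ab.abv v (SemilinearAut.baseAut s d)) ≤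
      Real.log (C v) / m + MK * ∑ j, 𝒮.eta v (s • P j)
        - ∑ i, ∑ j ∈ Finset.Ioi i, 𝒮.lam v (s • P i) (s • P j)
        - ∑ j, B.sum fun b k => (k : ℝ) * 𝒮.lam v (s • b) (s • P j) := by
    intro s hs v
    have hsΓ := 𝒮.Sg_mem s hs
    have hdet_s := det_smul s κ (fun i => hκ.fixed s hsΓ i) P
    have h1 := local_log 𝒮 𝒮.m_pos κ MK B hC v (fun j => s • P j) (hb v _ (hsP s hs))
      (by rw [hdet_s]; exact hsd s)
    rw [hdet_s] at h1
    have hB' : ∀ q : Place K F, (B.sum fun b k => (k : ℝ) * 𝒮.lam v b q)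
        = B.sum fun b k => (k : ℝ) * 𝒮.lam v (s • b) q := by
      intro q
      conv_lhs => rw [← hBs s hsΓ]
      exact Finsupp.sum_mapDomain_index (fun b => by simp) (fun b m₁ m₂ => by push_cast; ring)
    simpa only [hB'] using h1
  -- (2) a finite set of places carrying all the local terms
  have hfin : ({v | Real.log (C v) / m ≠ 0} ∪ ⋃ s ∈ (𝒮.Sg : Set (SemilinearAut K F)),
      ((({v | Real.log (Ab.abv v (SemilinearAut.baseAut s d)) ≠ 0} ∪
        ⋃ j, {v | 𝒮.eta v (s • P j) ≠ 0}) ∪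
        ⋃ i, ⋃ j, {v | 𝒮.lam v (s • P i) (s • P j) ≠ 0}) ∪
        ⋃ b ∈ (B.support : Set (Place K F)), ⋃ j, {v | 𝒮.lam v (s • b) (s • P j) ≠ 0})).Finite := by
    refine (finite_log_tame hC m).union (Set.Finite.biUnion (Finset.finite_toSet _) fun s hs => ?_)
    have hs' : s ∈ 𝒮.Sg := Finset.mem_coe.mp hs
    refine (((finite_log_abv Ab (hsd s)).union
      (Set.finite_iUnion fun j => finite_eta 𝒮 _)).union
      (Set.finite_iUnion fun i => Set.finite_iUnion fun j =>
        finite_lam 𝒮 (hsP s hs' i) (hsP s hs' j))).union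
      (Set.Finite.biUnion (Finset.finite_toSet _) fun b hb => Set.finite_iUnion fun j =>
        finite_lam 𝒮 (hsb s hs' b (Finset.mem_coe.mp hb)) (hsP s hs' j))
  set T : Finset V := hfin.toFinset with hT
  have hT0 : ∀ v, v ∉ T → Real.log (C v) / m = 0 := fun v hv => by
    by_contra h
    exact hv (hfin.mem_toFinset.mpr (Or.inl h))
  have hT1 : ∀ s ∈ 𝒮.Sg, ∀ v, v ∉ T → Real.log (Ab.abv v (SemilinearAut.baseAut s d)) = 0 :=
    fun s hs v hv => by
      by_contra h
      exact hv (hfin.mem_toFinset.mpr (Or.inr (Set.mem_biUnion (Finset.mem_coe.mpr hs)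
        (Or.inl (Or.inl (Or.inl h))))))
  have hT2 : ∀ s ∈ 𝒮.Sg, ∀ j, ∀ v, v ∉ T → 𝒮.eta v (s • P j) = 0 := fun s hs j v hv => by
    by_contra h
    exact hv (hfin.mem_toFinset.mpr (Or.inr (Set.mem_biUnion (Finset.mem_coe.mpr hs)
      (Or.inl (Or.inl (Or.inr (Set.mem_iUnion.mpr ⟨j, h⟩)))))))
  have hT3 : ∀ s ∈ 𝒮.Sg, ∀ i j, ∀ v, v ∉ T → 𝒮.lam v (s • P i) (s • P j) = 0 :=
    fun s hs i j v hv => by
      by_contra h
      exact hv (hfin.mem_toFinset.mpr (Or.inr (Set.mem_biUnion (Finset.mem_coe.mpr hs)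
        (Or.inl (Or.inr (Set.mem_iUnion.mpr ⟨i, Set.mem_iUnion.mpr ⟨j, h⟩⟩))))))
  have hT4 : ∀ s ∈ 𝒮.Sg, ∀ b ∈ B.support, ∀ j, ∀ v, v ∉ T → 𝒮.lam v (s • b) (s • P j) = 0 :=
    fun s hs b hb j v hv => by
      by_contra h
      exact hv (hfin.mem_toFinset.mpr (Or.inr (Set.mem_biUnion (Finset.mem_coe.mpr hs)
        (Or.inr (Set.mem_biUnion (Finset.mem_coe.mpr hb) (Set.mem_iUnion.mpr ⟨j, h⟩))))))
  -- (3) the global quantities as sums over `Sg ×ˢ T`
  have hΛ : ∀ ψ : SemilinearAut K F → V → ℝ,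
      ∑ x ∈ 𝒮.Sg ×ˢ T, ψ x.1 x.2 = ∑ s ∈ 𝒮.Sg, ∑ v ∈ T, ψ s v := fun ψ =>
    Finset.sum_product _ _ _
  have hc : ∑ x ∈ 𝒮.Sg ×ˢ T, Real.log (C x.2) / m
      = 𝒮.Sg.card * ∑ᶠ v, Real.log (C v) / m := by
    rw [hΛ fun _ v => Real.log (C v) / m, Finset.sum_const, nsmul_eq_mul,
      finsum_eq_sum_of_zero_off hT0]
  have he : ∀ j, ∑ x ∈ 𝒮.Sg ×ˢ T, 𝒮.eta x.2 (x.1 • P j) = 𝒮.etaU (P j) := by
    intro j
    rw [hΛ fun s v => 𝒮.eta v (s • P j)]
    unfold Setting.etaU
    exact Finset.sum_congr rfl fun s hs => (finsum_eq_sum_of_zero_off (hT2 s hs j)).symm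
  have hg : ∀ i j, ∑ x ∈ 𝒮.Sg ×ˢ T, 𝒮.lam x.2 (x.1 • P i) (x.1 • P j) = 𝒮.gU (P i) (P j) := by
    intro i j
    rw [hΛ fun s v => 𝒮.lam v (s • P i) (s • P j)]
    unfold Setting.gU
    exact Finset.sum_congr rfl fun s hs => (finsum_eq_sum_of_zero_off (hT3 s hs i j)).symm
  have hgB : ∀ b ∈ B.support, ∀ j,
      ∑ x ∈ 𝒮.Sg ×ˢ T, 𝒮.lam x.2 (x.1 • b) (x.1 • P j) = 𝒮.gU b (P j) := by
    intro b hb j
    rw [hΛ fun s v => 𝒮.lam v (s • b) (s • P j)]
    unfold Setting.gU
    exact Finset.sum_congr rfl fun s hs => (finsum_eq_sum_of_zero_off (hT4 s hs b hb j)).symm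
  -- the product formula for `d ^ 2`
  have hfix : ∀ u ∈ 𝒮.U, SemilinearAut.baseAut u (d ^ 2) = d ^ 2 := by
    intro u hu
    have huΓ := 𝒮.U_le hu
    have h1 : tdiv (fun j => u • P j) = tdiv P := by
      rw [← mapDomain_tdiv]
      exact hRat.2 u hu
    rw [map_pow, ← det_smul u κ (fun i => hκ.fixed u huΓ i) P]
    exact det_sq_eq_of_tdiv_eq κ h1
  have hpf : ∑ x ∈ 𝒮.Sg ×ˢ T, Real.log (Ab.abv x.2 (SemilinearAut.baseAut x.1 d)) = 0 := by
    rw [hΛ fun s v => Real.log (Ab.abv v (SemilinearAut.baseAut s d))]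
    have h1 := 𝒮.pf (d ^ 2) (pow_ne_zero 2 hd) hfix
    have h2 : ∀ s ∈ 𝒮.Sg, ∑ᶠ v, Real.log (Ab.abv v (SemilinearAut.baseAut s (d ^ 2)))
        = 2 * ∑ v ∈ T, Real.log (Ab.abv v (SemilinearAut.baseAut s d)) := by
      intro s hs
      rw [← finsum_eq_sum_of_zero_off (hT1 s hs), mul_finsum]
      refine finsum_congr fun v => ?_
      rw [map_pow, map_pow, Real.log_pow]
      norm_num
    rw [Finset.sum_congr rfl h2, ← Finset.mul_sum] at h1
    linarith
  -- (4) summation of the local inequalities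
  have hsum : ∑ x ∈ 𝒮.Sg ×ˢ T, Real.log (Ab.abv x.2 (SemilinearAut.baseAut x.1 d)) ≤
      ∑ x ∈ 𝒮.Sg ×ˢ T, (Real.log (C x.2) / m + MK * ∑ j, 𝒮.eta x.2 (x.1 • P j)
        - ∑ i, ∑ j ∈ Finset.Ioi i, 𝒮.lam x.2 (x.1 • P i) (x.1 • P j)
        - ∑ j, B.sum fun b k => (k : ℝ) * 𝒮.lam x.2 (x.1 • b) (x.1 • P j)) :=
    Finset.sum_le_sum fun x hx => hloc x.1 (Finset.mem_product.mp hx).1 x.2
  have hT2' : ∑ x ∈ 𝒮.Sg ×ˢ T, (MK : ℝ) * ∑ j, 𝒮.eta x.2 (x.1 • P j)
      = MK * ∑ j, 𝒮.etaU (P j) := by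
    rw [← Finset.mul_sum, Finset.sum_comm]
    exact congrArg _ (Finset.sum_congr rfl fun j _ => he j)
  have hT3' : ∑ x ∈ 𝒮.Sg ×ˢ T, ∑ i, ∑ j ∈ Finset.Ioi i, 𝒮.lam x.2 (x.1 • P i) (x.1 • P j)
      = ∑ i, ∑ j ∈ Finset.Ioi i, 𝒮.gU (P i) (P j) := by
    rw [Finset.sum_comm]
    refine Finset.sum_congr rfl fun i _ => ?_
    rw [Finset.sum_comm]
    exact Finset.sum_congr rfl fun j _ => hg i j
  have hT4' : ∑ x ∈ 𝒮.Sg ×ˢ T, ∑ j, (B.sum fun b k => (k : ℝ) * 𝒮.lam x.2 (x.1 • b) (x.1 • P j))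
      = ∑ j, B.sum fun b k => (k : ℝ) * 𝒮.gU b (P j) := by
    rw [Finset.sum_comm]
    refine Finset.sum_congr rfl fun j _ => ?_
    unfold Finsupp.sum
    rw [Finset.sum_comm]
    refine Finset.sum_congr rfl fun b hb => ?_
    rw [← Finset.mul_sum, hgB b hb j]
  rw [hpf, Finset.sum_sub_distrib, Finset.sum_sub_distrib, Finset.sum_add_distrib, hc, hT2',
    hT3', hT4'] at hsum
  -- (5) the global quantities
  have hH1 : ht 𝒮.etaU (tdiv P) = ∑ j, 𝒮.etaU (P j) := ht_tdiv _ P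
  have hH3 : pairG 𝒮.gU B (tdiv P) = ∑ j, B.sum fun b k => (k : ℝ) * 𝒮.gU b (P j) :=
    pairG_tdiv_right _ B P
  have hH2 : pairG 𝒮.gU (tdiv P) (tdiv P) = 2 * ∑ i, ∑ j ∈ Finset.Ioi i, 𝒮.gU (P i) (P j) := by
    rw [pairG_tdiv_right, ← sum_sum_eq_two_mul (fun i j => 𝒮.gU (P i) (P j))
      (fun i j => gU_symm 𝒮 _ _) (fun i => gU_self 𝒮 fun s hs => hsP s hs i),
      Finset.sum_comm]
    refine Finset.sum_congr rfl fun j _ => ?_
    rw [sum_tdiv P (fun p a => (a : ℝ) * 𝒮.gU p (P j)) (fun p => by simp)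
      (fun p a b => by push_cast; ring)]
    simp
  rw [hH1, hH2, hH3]
  linarith

end Setting

end Fermat.Agent.MW.HG
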