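/-
MW / HT-Q (helper77) — **the GLOBAL Hadamard inequalities**, from the local determinant bound
`Setting.DetLe` and the product formula `Setting.pf`.

For a `Γ`-fixed family `κ : Fin n → F` of functions regular off `pinf` with a local determinant
bound `𝒮.DetLe κ M B` (`B` a `Γ`-stable effective divisor off `pinf` on which the `κ i` vanish),
and a `U`-stable reduced divisor `E = P_1 + … + P_n` off `pinf` and off `B` with
`det (κ_i (P_j)) ≠ 0`:

  `pairG gU E E + 2 · pairG gU B E ≤ 2 · M · ht etaU E + C`            (`det_global`)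

(the determinant is `U`-fixed up to sign, so its square is `U`-fixed and the product formula kills
its contribution).  `B = 0` is (HadK) with coefficient `M`.

For a `Γ`-fixed family `b : Fin (r + 1) → F` with the determinant bounds for all its
`r`-subfamilies, a `U`-stable reduced divisor `R = R_1 + … + R_r` and a `U`-fixed coefficient
vector `a ≠ 0` with `∑ i, a i * b_i (R_j) = 0` for all `j` (the function `ψ = ∑ a i • b i`
vanishes on `R`), if some maximal minor of `(b_i (R_j))` does not vanish: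

  `hU a + pairG gU R R / 2 ≤ M · ht etaU R + C`                          (`minor_global`)

(`a` is proportional to the vector of signed maximal minors).  Together with the lower Mahler
bound `MahlerGe b` this is (HadR).
-/
import Mathlib
import Fermat.Prelude.Def_AlgebraicCurve_Repartitions
import Fermat.Agent.MW.HG.Defs

set_option autoImplicit false

noncomputable section

namespace Fermat.Agent.MW.HG.HadGlobal

open AlgebraicCurve Fermat.Agent.MW.HtM Fermat.Agent.MW.HQ Fermat.Agent.MW.HG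

variable {K F V : Type*} [Field K] [Field F] [Algebra K F]

/-! ### Generalities on `finsum` -/

/-- Finitely many functions of finite support vanish off a common finite set. -/
theorem exists_common_support {I : Type*} (s : Finset I) (f : I → V → ℝ)
    (hf : ∀ i ∈ s, (Function.support (f i)).Finite) :
    ∃ T : Finset V, ∀ i ∈ s, Function.support (f i) ⊆ ↑T := by
  classical
  refine ⟨(Set.Finite.biUnion s.finite_toSet fun i hi => hf i hi).toFinset, fun i hi v hv => ?_⟩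
  rw [Set.Finite.coe_toFinset]
  exact Set.mem_biUnion (x := i) hi hv

theorem finsum_two_mul (f : V → ℝ) : ∑ᶠ v, 2 * f v = 2 * ∑ᶠ v, f v :=
  (mul_finsum f 2).symm

/-! ### Finite supports -/

variable {Ab : AbsFamily K V}

theorem finite_abv_ne_one (Ab : AbsFamily K V) {a : K} (ha : a ≠ 0) :
    {v | Ab.abv v a ≠ 1}.Finite := by
  refine ((Ab.finite_gt_one a).union (Ab.finite_gt_one a⁻¹)).subset ?_
  intro v hv
  rcases lt_or_gt_of_ne hv with h | h
  · right
    show 1 < Ab.abv v a⁻¹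
    rw [map_inv₀]
    exact (one_lt_inv₀ ((Ab.abv v).pos ha)).2 h
  · left; exact h

theorem support_log_abv_finite (Ab : AbsFamily K V) {a : K} (ha : a ≠ 0) :
    (Function.support fun v => Real.log (Ab.abv v a)).Finite := by
  refine (finite_abv_ne_one Ab ha).subset ?_
  intro v hv h1
  apply hv
  show Real.log (Ab.abv v a) = 0
  rw [h1, Real.log_one]

theorem support_log_tame {C : V → ℝ} (hC : Tame C) :
    (Function.support fun v => Real.log (C v)).Finite := by
  refine hC.2.subset ?_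
  intro v hv h1
  apply hv
  show Real.log (C v) = 0
  rw [h1, Real.log_one]

variable {pinf : Place K F} {t : F} {m : ℕ} (𝒮 : Setting Ab pinf t m)

theorem support_eta_finite (p : Place K F) : (Function.support fun v => 𝒮.eta v p).Finite := by
  refine (Ab.finite_gt_one (pval p t)).subset ?_
  intro v hv
  by_contra h
  apply hv
  have h1 : Ab.abv v (pval p t) ≤ 1 := not_lt.1 h
  show Real.log (max 1 (Ab.abv v (pval p t))) / m = 0
  rw [max_eq_left h1, Real.log_one, zero_div]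

theorem lam_self (v : V) {p : Place K F} (hp : p ≠ pinf) : 𝒮.lam v p p = 0 := by
  unfold Setting.lam
  rw [𝒮.δ_self v p hp, Real.log_zero, neg_zero]

theorem lam_symm (v : V) (p q : Place K F) : 𝒮.lam v p q = 𝒮.lam v q p := by
  unfold Setting.lam
  rw [𝒮.δ_symm]

theorem support_lam_finite {p q : Place K F} (hp : p ≠ pinf) (hq : q ≠ pinf) :
    (Function.support fun v => 𝒮.lam v p q).Finite := by
  rcases eq_or_ne p q with rfl | hpq
  · have : (fun v => 𝒮.lam v p p) = fun _ => 0 := funext fun v => lam_self 𝒮 v hp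
    rw [this]
    simp
  · refine (𝒮.δ_eq_one p q hp hq hpq).subset ?_
    intro v hv h1
    apply hv
    show -Real.log (𝒮.δ v p q) = 0
    rw [h1, Real.log_one, neg_zero]

theorem gU_self {p : Place K F} (hΓ : ∀ s ∈ 𝒮.Sg, s • p ≠ pinf) :
    𝒮.gU p p = 0 := by
  unfold Setting.gU
  refine Finset.sum_eq_zero fun s hs => ?_
  have : (fun v => 𝒮.lam v (s • p) (s • p)) = fun _ => 0 :=
    funext fun v => lam_self 𝒮 v (hΓ s hs)
  rw [this, finsum_zero]

theorem gU_symm (p q : Place K F) : 𝒮.gU p q = 𝒮.gU q p := by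
  unfold Setting.gU
  exact Finset.sum_congr rfl fun s _ => finsum_congr fun v => lam_symm 𝒮 v _ _

/-! ### Equivariance of the value map -/

theorem adicValuation_smul_aut (g : SemilinearAut K F) (P : Place K F) (f : F) :
    (g • P).adicValuation (g • f) = P.adicValuation f := by
  rcases eq_or_ne f 0 with rfl | hf
  · simp
  · have hgf : g • f ≠ 0 := (smul_ne_zero_iff_ne _).mpr hf
    rw [Place.adicValuation_eq_exp_neg_ord _ hgf, Place.adicValuation_eq_exp_neg_ord _ hf,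
      SemilinearAut.ord_smul]

/-- The value map is equivariant for semilinear automorphisms. -/
theorem pval_smul_aut (g : SemilinearAut K F) (P : Place K F) (f : F) :
    pval (g • P) (g • f) = SemilinearAut.baseAut g (pval P f) := by
  classical
  by_cases h : ∃ c : K, P.adicValuation (f - algebraMap K F c) < 1
  · obtain ⟨c, hc⟩ := h
    rw [pval_eq P hc]
    refine pval_eq (g • P) ?_
    have e : g • f - algebraMap K F (SemilinearAut.baseAut g c) = g • (f - algebraMap K F c) := by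
      rw [smul_sub, SemilinearAut.smul_algebraMap]
    rw [e, adicValuation_smul_aut]
    exact hc
  · have h' : ¬ ∃ c : K, (g • P).adicValuation (g • f - algebraMap K F c) < 1 := by
      rintro ⟨c, hc⟩
      apply h
      refine ⟨(SemilinearAut.baseAut g).symm c, ?_⟩
      have e : g • (f - algebraMap K F ((SemilinearAut.baseAut g).symm c))
          = g • f - algebraMap K F c := by
        rw [smul_sub, SemilinearAut.smul_algebraMap, RingEquiv.apply_symm_apply]
      rw [← adicValuation_smul_aut g, e]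
      exact hc
    have e1 : pval P f = 0 := by unfold pval; rw [dif_neg h]
    have e2 : pval (g • P) (g • f) = 0 := by unfold pval; rw [dif_neg h']
    rw [e1, e2, map_zero]

theorem pval_smul_fixed (g : SemilinearAut K F) (P : Place K F) {f : F} (hf : g • f = f) :
    pval (g • P) f = SemilinearAut.baseAut g (pval P f) := by
  have h := pval_smul_aut g P f
  rwa [hf] at h

theorem smul_ne_pinf {g : SemilinearAut K F} (hg : g ∈ 𝒮.Γ) {P : Place K F} (hP : P ≠ pinf) :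
    g • P ≠ pinf := by
  intro h
  apply hP
  have h2 : g • P = g • pinf := by rw [h, 𝒮.inf_fixed g hg]
  exact MulAction.injective g h2

/-- The matrix of values at the translated points is the image of the matrix of values. -/
theorem det_smul {n : ℕ} (κ : Fin n → F) {g : SemilinearAut K F} (hκ : ∀ i, g • κ i = κ i)
    (P : Fin n → Place K F) :
    Matrix.det (Matrix.of fun i j => pval (g • P j) (κ i)) =
      SemilinearAut.baseAut g (Matrix.det (Matrix.of fun i j => pval (P j) (κ i))) := by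
  have h := RingHom.map_det ((SemilinearAut.baseAut g : K ≃+* K) : K →+* K)
    (Matrix.of fun i j => pval (P j) (κ i))
  rw [RingHom.coe_coe] at h
  rw [h]
  congr 1
  ext i j
  simp [pval_smul_fixed g (P j) (hκ i)]

/-! ### The local inequality in logarithmic form -/

/-- Logarithmic form of the local determinant bound at one place. -/
theorem local_log_le {n : ℕ} (M : ℕ) (B : Place K F →₀ ℕ) (hB0 : B pinf = 0) {c : ℝ}
    (hc : 0 < c) (v : V) (Q : Fin n → Place K F) (hQ : ∀ j, Q j ≠ pinf)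
    (hQinj : Function.Injective Q) (hQB : ∀ j, Q j ∉ B.support) {x : ℝ} (hx : 0 < x)
    (h : x ^ m ≤ c * (∏ j, max 1 (Ab.abv v (pval (Q j) t))) ^ M *
        (∏ i, ∏ j ∈ Finset.Ioi i, 𝒮.δ v (Q i) (Q j)) ^ m *
        (∏ j, B.prod fun b k => 𝒮.δ v b (Q j) ^ k) ^ m) :
    (m : ℝ) * (∑ i, ∑ j ∈ Finset.Ioi i, 𝒮.lam v (Q i) (Q j) +
        ∑ j, B.sum fun b k => (k : ℝ) * 𝒮.lam v b (Q j)) ≤
      Real.log c + (M : ℝ) * (m : ℝ) * ∑ j, 𝒮.eta v (Q j) - (m : ℝ) * Real.log x := by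
  have hm : (m : ℝ) ≠ 0 := Nat.cast_ne_zero.2 𝒮.m_pos.ne'
  have hδpos : ∀ i, ∀ j ∈ Finset.Ioi i, 0 < 𝒮.δ v (Q i) (Q j) := fun i j hj =>
    𝒮.δ_pos v _ _ (hQ i) (hQ j) (fun e => (Finset.mem_Ioi.1 hj).ne (hQinj e))
  have hBpos : ∀ j, ∀ b ∈ B.support, 0 < 𝒮.δ v b (Q j) := fun j b hb =>
    𝒮.δ_pos v _ _ (fun e => by rw [e, Finsupp.mem_support_iff] at hb; exact hb hB0) (hQ j)
      (fun e => hQB j (e ▸ hb))
  have hmaxpos : ∀ j, 0 < max 1 (Ab.abv v (pval (Q j) t)) := fun j =>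
    lt_of_lt_of_le one_pos (le_max_left _ _)
  have hXpos : 0 < ∏ j, max 1 (Ab.abv v (pval (Q j) t)) := Finset.prod_pos fun j _ => hmaxpos j
  have hYpos : 0 < ∏ i, ∏ j ∈ Finset.Ioi i, 𝒮.δ v (Q i) (Q j) :=
    Finset.prod_pos fun i _ => Finset.prod_pos fun j hj => hδpos i j hj
  have hWjpos : ∀ j, 0 < B.prod fun b k => 𝒮.δ v b (Q j) ^ k := fun j =>
    Finset.prod_pos fun b hb => pow_pos (hBpos j b hb) _
  have hWpos : 0 < ∏ j, B.prod fun b k => 𝒮.δ v b (Q j) ^ k := Finset.prod_pos fun j _ => hWjpos j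
  have e1 : ∑ j, 𝒮.eta v (Q j) =
      Real.log (∏ j, max 1 (Ab.abv v (pval (Q j) t))) / m := by
    rw [Real.log_prod (fun j _ => (hmaxpos j).ne'), Finset.sum_div]
    rfl
  have e2 : ∑ i, ∑ j ∈ Finset.Ioi i, 𝒮.lam v (Q i) (Q j) =
      -Real.log (∏ i, ∏ j ∈ Finset.Ioi i, 𝒮.δ v (Q i) (Q j)) := by
    rw [Real.log_prod (fun i _ => (Finset.prod_pos fun j hj => hδpos i j hj).ne'),
      ← Finset.sum_neg_distrib]
    refine Finset.sum_congr rfl fun i _ => ?_
    rw [Real.log_prod (fun j hj => (hδpos i j hj).ne'), ← Finset.sum_neg_distrib]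
    rfl
  have e3 : ∑ j, B.sum (fun b k => (k : ℝ) * 𝒮.lam v b (Q j)) =
      -Real.log (∏ j, B.prod fun b k => 𝒮.δ v b (Q j) ^ k) := by
    rw [Real.log_prod (fun j _ => (hWjpos j).ne'), ← Finset.sum_neg_distrib]
    refine Finset.sum_congr rfl fun j _ => ?_
    unfold Finsupp.prod Finsupp.sum
    rw [Real.log_prod (fun b hb => (pow_pos (hBpos j b hb) _).ne'), ← Finset.sum_neg_distrib]
    refine Finset.sum_congr rfl fun b _ => ?_
    rw [Real.log_pow]
    unfold Setting.lam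
    ring
  have hlog : (m : ℝ) * Real.log x ≤
      Real.log c + M * Real.log (∏ j, max 1 (Ab.abv v (pval (Q j) t))) +
        m * Real.log (∏ i, ∏ j ∈ Finset.Ioi i, 𝒮.δ v (Q i) (Q j)) +
        m * Real.log (∏ j, B.prod fun b k => 𝒮.δ v b (Q j) ^ k) := by
    have h1 := Real.log_le_log (pow_pos hx m) h
    rw [Real.log_pow, Real.log_mul (by positivity) (by positivity),
      Real.log_mul (by positivity) (by positivity), Real.log_mul hc.ne' (by positivity),
      Real.log_pow, Real.log_pow, Real.log_pow] at h1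
    exact h1
  rw [e1, e2, e3]
  have e4 : (M : ℝ) * m * (Real.log (∏ j, max 1 (Ab.abv v (pval (Q j) t))) / m) =
      M * Real.log (∏ j, max 1 (Ab.abv v (pval (Q j) t))) := by
    field_simp
  rw [e4]
  linarith

/-! ### Summation over the places -/

/-- The local inequalities at the points `Q`, summed over all places. -/
theorem sum_places_le {n : ℕ} (M : ℕ) (B : Place K F →₀ ℕ) (hB0 : B pinf = 0) {C : V → ℝ}
    (hC : Tame C) (Q : Fin n → Place K F) (hQ : ∀ j, Q j ≠ pinf)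
    (hQinj : Function.Injective Q) (hQB : ∀ j, Q j ∉ B.support) {d : K} (hd : d ≠ 0)
    (h : ∀ v, Ab.abv v d ^ m ≤ C v * (∏ j, max 1 (Ab.abv v (pval (Q j) t))) ^ M *
        (∏ i, ∏ j ∈ Finset.Ioi i, 𝒮.δ v (Q i) (Q j)) ^ m *
        (∏ j, B.prod fun b k => 𝒮.δ v b (Q j) ^ k) ^ m) :
    (m : ℝ) * (∑ i, ∑ j ∈ Finset.Ioi i, ∑ᶠ v, 𝒮.lam v (Q i) (Q j) +
        ∑ j, B.sum fun b k => (k : ℝ) * ∑ᶠ v, 𝒮.lam v b (Q j)) ≤
      ∑ᶠ v, Real.log (C v) + (M : ℝ) * (m : ℝ) * ∑ j, ∑ᶠ v, 𝒮.eta v (Q j)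
        - (m : ℝ) * ∑ᶠ v, Real.log (Ab.abv v d) := by
  classical
  have hBne : ∀ b ∈ B.support, b ≠ pinf := fun b hb e => by
    rw [e, Finsupp.mem_support_iff] at hb; exact hb hB0
  obtain ⟨T1, hT1⟩ := exists_common_support (Finset.univ : Finset (Fin n))
    (fun j v => 𝒮.eta v (Q j)) (fun j _ => support_eta_finite 𝒮 (Q j))
  obtain ⟨T2, hT2⟩ := exists_common_support (Finset.univ : Finset (Fin n × Fin n))
    (fun ij v => 𝒮.lam v (Q ij.1) (Q ij.2))
    (fun ij _ => support_lam_finite 𝒮 (hQ ij.1) (hQ ij.2))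
  obtain ⟨T3, hT3⟩ := exists_common_support (B.support ×ˢ (Finset.univ : Finset (Fin n)))
    (fun bj v => 𝒮.lam v bj.1 (Q bj.2))
    (fun bj hbj => support_lam_finite 𝒮 (hBne bj.1 (Finset.mem_product.1 hbj).1) (hQ bj.2))
  obtain ⟨T4, hT4⟩ := exists_common_support (Finset.univ : Finset Unit)
    (fun _ v => Real.log (C v)) (fun _ _ => support_log_tame hC)
  obtain ⟨T5, hT5⟩ := exists_common_support (Finset.univ : Finset Unit)
    (fun _ v => Real.log (Ab.abv v d)) (fun _ _ => support_log_abv_finite Ab hd)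
  set T : Finset V := T1 ∪ T2 ∪ T3 ∪ T4 ∪ T5 with hT
  have s1 : ∀ j, ∑ᶠ v, 𝒮.eta v (Q j) = ∑ v ∈ T, 𝒮.eta v (Q j) := fun j =>
    finsum_eq_sum_of_support_subset _ ((hT1 j (Finset.mem_univ _)).trans (by
      rw [hT]; intro v hv; simp only [Finset.coe_union, Set.mem_union]; tauto))
  have s2 : ∀ i j, ∑ᶠ v, 𝒮.lam v (Q i) (Q j) = ∑ v ∈ T, 𝒮.lam v (Q i) (Q j) := fun i j =>
    finsum_eq_sum_of_support_subset _ ((hT2 (i, j) (Finset.mem_univ _)).trans (by
      rw [hT]; intro v hv; simp only [Finset.coe_union, Set.mem_union]; tauto))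
  have s3 : ∀ b ∈ B.support, ∀ j, ∑ᶠ v, 𝒮.lam v b (Q j) = ∑ v ∈ T, 𝒮.lam v b (Q j) :=
    fun b hb j => finsum_eq_sum_of_support_subset _
      ((hT3 (b, j) (Finset.mem_product.2 ⟨hb, Finset.mem_univ _⟩)).trans (by
        rw [hT]; intro v hv; simp only [Finset.coe_union, Set.mem_union]; tauto))
  have s4 : ∑ᶠ v, Real.log (C v) = ∑ v ∈ T, Real.log (C v) :=
    finsum_eq_sum_of_support_subset _ ((hT4 () (Finset.mem_univ _)).trans (by
      rw [hT]; intro v hv; simp only [Finset.coe_union, Set.mem_union]; tauto))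
  have s5 : ∑ᶠ v, Real.log (Ab.abv v d) = ∑ v ∈ T, Real.log (Ab.abv v d) :=
    finsum_eq_sum_of_support_subset _ ((hT5 () (Finset.mem_univ _)).trans (by
      rw [hT]; intro v hv; simp only [Finset.coe_union, Set.mem_union]; tauto))
  have hloc : ∀ v ∈ T, (m : ℝ) * (∑ i, ∑ j ∈ Finset.Ioi i, 𝒮.lam v (Q i) (Q j) +
        ∑ j, B.sum fun b k => (k : ℝ) * 𝒮.lam v b (Q j)) ≤
      Real.log (C v) + (M : ℝ) * (m : ℝ) * ∑ j, 𝒮.eta v (Q j)
        - (m : ℝ) * Real.log (Ab.abv v d) := fun v _ =>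
    local_log_le 𝒮 M B hB0 (hC.pos v) v Q hQ hQinj hQB ((Ab.abv v).pos hd) (h v)
  have hsum := Finset.sum_le_sum hloc
  have eL : ∑ v ∈ T, (m : ℝ) * (∑ i, ∑ j ∈ Finset.Ioi i, 𝒮.lam v (Q i) (Q j) +
        ∑ j, B.sum fun b k => (k : ℝ) * 𝒮.lam v b (Q j)) =
      (m : ℝ) * (∑ i, ∑ j ∈ Finset.Ioi i, ∑ᶠ v, 𝒮.lam v (Q i) (Q j) +
        ∑ j, B.sum fun b k => (k : ℝ) * ∑ᶠ v, 𝒮.lam v b (Q j)) := by
    rw [← Finset.mul_sum, Finset.sum_add_distrib]
    congr 2
    · rw [Finset.sum_comm]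
      refine Finset.sum_congr rfl fun i _ => ?_
      rw [Finset.sum_comm]
      exact Finset.sum_congr rfl fun j _ => (s2 i j).symm
    · rw [Finset.sum_comm]
      refine Finset.sum_congr rfl fun j _ => ?_
      unfold Finsupp.sum
      rw [Finset.sum_comm]
      refine Finset.sum_congr rfl fun b hb => ?_
      show ∑ x ∈ T, ((B b : ℕ) : ℝ) * 𝒮.lam x b (Q j) = ((B b : ℕ) : ℝ) * ∑ᶠ v, 𝒮.lam v b (Q j)
      rw [s3 b hb j, Finset.mul_sum]
  have eR : ∑ v ∈ T, (Real.log (C v) + (M : ℝ) * (m : ℝ) * ∑ j, 𝒮.eta v (Q j)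
        - (m : ℝ) * Real.log (Ab.abv v d)) =
      ∑ᶠ v, Real.log (C v) + (M : ℝ) * (m : ℝ) * ∑ j, ∑ᶠ v, 𝒮.eta v (Q j)
        - (m : ℝ) * ∑ᶠ v, Real.log (Ab.abv v d) := by
    rw [Finset.sum_sub_distrib, Finset.sum_add_distrib, ← Finset.mul_sum, ← Finset.mul_sum,
      Finset.sum_comm, s4, s5]
    congr 3
    exact Finset.sum_congr rfl fun j _ => (s1 j).symm
  rw [eL, eR] at hsum
  exact hsum

/-! ### Tuples of places as divisors -/

omit [Field K] [Field F] [Algebra K F] in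
theorem sum_sum_eq_two_mul_Ioi {n : ℕ} (a : Fin n → Fin n → ℝ) (hsymm : ∀ i j, a i j = a j i)
    (hdiag : ∀ i, a i i = 0) : ∑ i, ∑ j, a i j = 2 * ∑ i, ∑ j ∈ Finset.Ioi i, a i j := by
  classical
  have h1 : ∀ i, ∑ j, a i j = ∑ j ∈ Finset.Iio i, a i j + ∑ j ∈ Finset.Ioi i, a i j := by
    intro i
    have e1 : Finset.Iio i = Finset.univ.filter (fun j => j < i) := by ext j; simp
    rw [← Finset.sum_filter_add_sum_filter_not Finset.univ (fun j => j < i), e1]
    congr 1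
    symm
    refine Finset.sum_subset ?_ ?_
    · intro j hj
      simp only [Finset.mem_Ioi] at hj
      simp only [Finset.mem_filter, Finset.mem_univ, true_and, not_lt]
      exact hj.le
    · intro j hj hj'
      simp only [Finset.mem_filter, Finset.mem_univ, true_and, not_lt] at hj
      simp only [Finset.mem_Ioi, not_lt] at hj'
      rw [le_antisymm hj' hj]
      exact hdiag i
  have h2 : ∑ i, ∑ j ∈ Finset.Iio i, a i j = ∑ i, ∑ j ∈ Finset.Ioi i, a i j := by
    rw [Finset.sum_comm' (s' := fun j => Finset.Ioi j) (t' := Finset.univ)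
      (by intro i j; simp)]
    exact Finset.sum_congr rfl fun j _ => Finset.sum_congr rfl fun i _ => hsymm i j
  rw [Finset.sum_congr rfl fun i _ => h1 i, Finset.sum_add_distrib, h2]
  ring

theorem ht_tdiv (η : Place K F → ℝ) {n : ℕ} (P : Fin n → Place K F) :
    ht η (tdiv P) = ∑ j, η (P j) := by
  unfold tdiv
  have h := map_sum (⟨⟨ht η, ht_zero η⟩, ht_add η⟩ : (Place K F →₀ ℕ) →+ ℝ)
    (fun j => Finsupp.single (P j) 1) Finset.univ
  simp only [AddMonoidHom.coe_mk, ZeroHom.coe_mk] at h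
  rw [h]
  refine Finset.sum_congr rfl fun j _ => ?_
  simp [ht]

theorem pairG_tdiv_right (g : Place K F → Place K F → ℝ) (D : Place K F →₀ ℕ) {n : ℕ}
    (P : Fin n → Place K F) :
    pairG g D (tdiv P) = ∑ j, D.sum fun b k => (k : ℝ) * g b (P j) := by
  unfold tdiv
  have h := map_sum (⟨⟨pairG g D, pairG_zero_right g D⟩, pairG_add_right g D⟩ :
    (Place K F →₀ ℕ) →+ ℝ) (fun j => Finsupp.single (P j) 1) Finset.univ
  simp only [AddMonoidHom.coe_mk, ZeroHom.coe_mk] at h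
  rw [h]
  refine Finset.sum_congr rfl fun j _ => ?_
  unfold pairG
  refine Finsupp.sum_congr fun b _ => ?_
  simp

theorem pairG_tdiv_tdiv (g : Place K F → Place K F → ℝ) {n : ℕ} (P : Fin n → Place K F) :
    pairG g (tdiv P) (tdiv P) = ∑ i, ∑ j, g (P i) (P j) := by
  rw [pairG_tdiv_right, Finset.sum_comm]
  refine Finset.sum_congr rfl fun j _ => ?_
  exact ht_tdiv (fun b => g b (P j)) P

theorem tdiv_apply_ne_zero_iff {n : ℕ} (P : Fin n → Place K F) (Q : Place K F) :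
    tdiv P Q ≠ 0 ↔ ∃ j, P j = Q := by
  classical
  unfold tdiv
  rw [Finsupp.finsetSum_apply]
  constructor
  · intro h
    obtain ⟨j, _, hj⟩ := Finset.exists_ne_zero_of_sum_ne_zero h
    refine ⟨j, ?_⟩
    by_contra hne
    exact hj (by rw [Finsupp.single_apply, if_neg hne])
  · rintro ⟨j, rfl⟩
    intro h
    have := (Finset.sum_eq_zero_iff.1 h) j (Finset.mem_univ _)
    simp at this

/-- An automorphism stabilising the divisor of an injective tuple permutes the tuple. -/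
theorem exists_perm_of_stable {n : ℕ} (P : Fin n → Place K F) (hP : Function.Injective P)
    (u : SemilinearAut K F) (hu : (tdiv P).mapDomain (fun Q => u • Q) = tdiv P) :
    ∃ π : Equiv.Perm (Fin n), ∀ j, u • P j = P (π j) := by
  have hinj : Function.Injective (fun Q : Place K F => u • Q) := MulAction.injective u
  have hex : ∀ j, ∃ j', P j' = u • P j := by
    intro j
    rw [← tdiv_apply_ne_zero_iff, ← hu, Finsupp.mapDomain_apply hinj,
      tdiv_apply_ne_zero_iff]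
    exact ⟨j, rfl⟩
  choose π₀ hπ₀ using hex
  have hπinj : Function.Injective π₀ := by
    intro j k hjk
    have h1 : u • P j = u • P k := by rw [← hπ₀ j, ← hπ₀ k, hjk]
    exact hP (hinj h1)
  exact ⟨Equiv.ofBijective π₀ (Finite.injective_iff_bijective.1 hπinj), fun j => (hπ₀ j).symm⟩

/-- The determinant of the values at a `U`-stable tuple is `U`-fixed up to sign: its square is
`U`-fixed. -/
theorem det_sq_fixed {n : ℕ} (κ : Fin n → F) (hκ : ∀ g ∈ 𝒮.Γ, ∀ i, g • κ i = κ i)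
    (P : Fin n → Place K F) (hP : Function.Injective P) (hRat : tdiv P ∈ 𝒮.RatU)
    (u : SemilinearAut K F) (hu : u ∈ 𝒮.U) :
    SemilinearAut.baseAut u (Matrix.det (Matrix.of fun i j => pval (P j) (κ i)) *
        Matrix.det (Matrix.of fun i j => pval (P j) (κ i))) =
      Matrix.det (Matrix.of fun i j => pval (P j) (κ i)) *
        Matrix.det (Matrix.of fun i j => pval (P j) (κ i)) := by
  obtain ⟨π, hπ⟩ := exists_perm_of_stable P hP u (hRat.2 u hu)
  have h1 : SemilinearAut.baseAut u (Matrix.det (Matrix.of fun i j => pval (P j) (κ i))) =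
      ((Equiv.Perm.sign π : ℤˣ) : ℤ) * Matrix.det (Matrix.of fun i j => pval (P j) (κ i)) := by
    rw [← det_smul κ (hκ u (𝒮.U_le hu)) P, ← Matrix.det_permute' π]
    congr 1
    ext i j
    simp [hπ j]
  have h2 : ((((Equiv.Perm.sign π : ℤˣ) : ℤ) : K)) * (((Equiv.Perm.sign π : ℤˣ) : ℤ) : K) = 1 := by
    rw [← Int.cast_mul, ← Units.val_mul, Int.units_mul_self]
    simp
  rw [map_mul, h1]
  calc _ = ((((Equiv.Perm.sign π : ℤˣ) : ℤ) : K) * (((Equiv.Perm.sign π : ℤˣ) : ℤ) : K)) *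
        (Matrix.det (Matrix.of fun i j => pval (P j) (κ i)) *
          Matrix.det (Matrix.of fun i j => pval (P j) (κ i))) := by ring
    _ = _ := by rw [h2, one_mul]

/-- Product formula for constants whose square is `U`-fixed. -/
theorem pf_of_sq_fixed {d : K} (hd : d ≠ 0)
    (hfix : ∀ u ∈ 𝒮.U, SemilinearAut.baseAut u (d * d) = d * d) :
    ∑ s ∈ 𝒮.Sg, ∑ᶠ v, Real.log (Ab.abv v (SemilinearAut.baseAut s d)) = 0 := by
  have h := 𝒮.pf (d * d) (mul_ne_zero hd hd) hfix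
  have e : ∀ s ∈ 𝒮.Sg, ∑ᶠ v, Real.log (Ab.abv v (SemilinearAut.baseAut s (d * d))) =
      2 * ∑ᶠ v, Real.log (Ab.abv v (SemilinearAut.baseAut s d)) := by
    intro s _
    rw [← finsum_two_mul]
    refine finsum_congr fun v => ?_
    rw [map_mul, map_mul, ← sq, Real.log_pow]
    norm_num
  rw [Finset.sum_congr rfl e, ← Finset.mul_sum] at h
  linarith

/-! ### The global determinant inequality -/

/-- **Global Hadamard inequality, tuple form.** -/
theorem det_global_tuple {n : ℕ} (κ : Fin n → F) (M : ℕ) (B : Place K F →₀ ℕ)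
    (hκ : ∀ g ∈ 𝒮.Γ, ∀ i, g • κ i = κ i) (hB0 : B pinf = 0)
    (hBΓ : ∀ g ∈ 𝒮.Γ, B.mapDomain (fun P => g • P) = B) (hdet : 𝒮.DetLe κ M B) :
    ∃ C : ℝ, ∀ P : Fin n → Place K F, Function.Injective P → (∀ j, P j ≠ pinf) →
      (∀ j, P j ∉ B.support) → tdiv P ∈ 𝒮.RatU →
      Matrix.det (Matrix.of fun i j => pval (P j) (κ i)) ≠ 0 →
      ∑ i, ∑ j ∈ Finset.Ioi i, 𝒮.gU (P i) (P j) +
          ∑ j, B.sum (fun b k => (k : ℝ) * 𝒮.gU b (P j)) ≤
        (M : ℝ) * ∑ j, 𝒮.etaU (P j) + C := by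
  obtain ⟨C, hC, hb⟩ := hdet
  have hm : (0 : ℝ) < m := Nat.cast_pos.2 𝒮.m_pos
  refine ⟨(𝒮.Sg.card : ℝ) * (∑ᶠ v, Real.log (C v)) / m, fun P hPinj hP hPB hRat hd => ?_⟩
  have hpf := pf_of_sq_fixed 𝒮 hd (det_sq_fixed 𝒮 κ hκ P hPinj hRat)
  have hs : ∀ s ∈ 𝒮.Sg,
      (m : ℝ) * (∑ i, ∑ j ∈ Finset.Ioi i, ∑ᶠ v, 𝒮.lam v (s • P i) (s • P j) +
        ∑ j, B.sum fun b k => (k : ℝ) * ∑ᶠ v, 𝒮.lam v (s • b) (s • P j)) ≤
      ∑ᶠ v, Real.log (C v) + (M : ℝ) * (m : ℝ) * ∑ j, ∑ᶠ v, 𝒮.eta v (s • P j)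
        - (m : ℝ) * ∑ᶠ v, Real.log (Ab.abv v (SemilinearAut.baseAut s
            (Matrix.det (Matrix.of fun i j => pval (P j) (κ i))))) := by
    intro s hs
    have hsΓ := 𝒮.Sg_mem s hs
    have hsinj : Function.Injective (fun Q : Place K F => s • Q) := MulAction.injective s
    have hQ : ∀ j, s • P j ≠ pinf := fun j => smul_ne_pinf 𝒮 hsΓ (hP j)
    have hQinj : Function.Injective (fun j => s • P j) := hsinj.comp hPinj
    have hQB : ∀ j, s • P j ∉ B.support := by
      intro j hj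
      apply hPB j
      rw [Finsupp.mem_support_iff] at hj ⊢
      rwa [← hBΓ s hsΓ, Finsupp.mapDomain_apply hsinj] at hj
    have hds := det_smul κ (hκ s hsΓ) P
    have h := sum_places_le 𝒮 M B hB0 hC (fun j => s • P j) hQ hQinj hQB
      (d := SemilinearAut.baseAut s (Matrix.det (Matrix.of fun i j => pval (P j) (κ i))))
      (by simpa using hd) (fun v => by rw [← hds]; exact hb v _ hQ)
    have hre : ∀ j, (B.sum fun b k => (k : ℝ) * ∑ᶠ v, 𝒮.lam v b (s • P j)) =
        B.sum fun b k => (k : ℝ) * ∑ᶠ v, 𝒮.lam v (s • b) (s • P j) := by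
      intro j
      conv_lhs => rw [← hBΓ s hsΓ]
      exact Finsupp.sum_mapDomain_index_inj hsinj
    rw [Finset.sum_congr rfl fun j _ => hre j] at h
    exact h
  have hsum := Finset.sum_le_sum hs
  have eL : ∑ s ∈ 𝒮.Sg,
      (m : ℝ) * (∑ i, ∑ j ∈ Finset.Ioi i, ∑ᶠ v, 𝒮.lam v (s • P i) (s • P j) +
        ∑ j, B.sum fun b k => (k : ℝ) * ∑ᶠ v, 𝒮.lam v (s • b) (s • P j)) =
      (m : ℝ) * (∑ i, ∑ j ∈ Finset.Ioi i, 𝒮.gU (P i) (P j) +
          ∑ j, B.sum (fun b k => (k : ℝ) * 𝒮.gU b (P j))) := by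
    rw [← Finset.mul_sum, Finset.sum_add_distrib]
    congr 2
    · rw [Finset.sum_comm]
      refine Finset.sum_congr rfl fun i _ => ?_
      rw [Finset.sum_comm]
      rfl
    · rw [Finset.sum_comm]
      refine Finset.sum_congr rfl fun j _ => ?_
      unfold Finsupp.sum
      rw [Finset.sum_comm]
      refine Finset.sum_congr rfl fun b _ => ?_
      show ∑ s ∈ 𝒮.Sg, ((B b : ℕ) : ℝ) * ∑ᶠ v, 𝒮.lam v (s • b) (s • P j) =
        ((B b : ℕ) : ℝ) * 𝒮.gU b (P j)
      rw [← Finset.mul_sum]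
      rfl
  have eR : ∑ s ∈ 𝒮.Sg, (∑ᶠ v, Real.log (C v) +
        (M : ℝ) * (m : ℝ) * ∑ j, ∑ᶠ v, 𝒮.eta v (s • P j)
        - (m : ℝ) * ∑ᶠ v, Real.log (Ab.abv v (SemilinearAut.baseAut s
            (Matrix.det (Matrix.of fun i j => pval (P j) (κ i)))))) =
      (𝒮.Sg.card : ℝ) * (∑ᶠ v, Real.log (C v)) +
        (M : ℝ) * (m : ℝ) * ∑ j, 𝒮.etaU (P j) := by
    rw [Finset.sum_sub_distrib, Finset.sum_add_distrib, ← Finset.mul_sum, ← Finset.mul_sum,
      hpf, mul_zero, sub_zero, Finset.sum_const, nsmul_eq_mul, Finset.sum_comm]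
    rfl
  rw [eL, eR] at hsum
  rw [div_eq_mul_inv]
  have h3 : (∑ i, ∑ j ∈ Finset.Ioi i, 𝒮.gU (P i) (P j) +
      ∑ j, B.sum (fun b k => (k : ℝ) * 𝒮.gU b (P j))) =
      ((m : ℝ) * (∑ i, ∑ j ∈ Finset.Ioi i, 𝒮.gU (P i) (P j) +
        ∑ j, B.sum (fun b k => (k : ℝ) * 𝒮.gU b (P j)))) * (m : ℝ)⁻¹ := by
    field_simp
  rw [h3]
  calc _ ≤ ((𝒮.Sg.card : ℝ) * (∑ᶠ v, Real.log (C v)) +
        (M : ℝ) * (m : ℝ) * ∑ j, 𝒮.etaU (P j)) * (m : ℝ)⁻¹ :=
        mul_le_mul_of_nonneg_right hsum (inv_nonneg.2 hm.le)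
    _ = _ := by field_simp; ring

/-- **Global Hadamard inequality (HadK)**, divisor form: for a `Γ`-fixed family `κ` with the local
determinant bound `DetLe κ M B` and a `U`-stable reduced divisor `E = ∑ P j` off `pinf` and off
`B` with `det (κ i (P j)) ≠ 0`:  `G(E, E) + 2 G(B, E) ≤ 2 M h(E) + C`. -/
theorem det_global {n : ℕ} (κ : Fin n → F) (M : ℕ) (B : Place K F →₀ ℕ)
    (hκ : ∀ g ∈ 𝒮.Γ, ∀ i, g • κ i = κ i) (hB0 : B pinf = 0)
    (hBΓ : ∀ g ∈ 𝒮.Γ, B.mapDomain (fun P => g • P) = B) (hdet : 𝒮.DetLe κ M B) :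
    ∃ C : ℝ, ∀ P : Fin n → Place K F, Function.Injective P → (∀ j, P j ≠ pinf) →
      (∀ j, P j ∉ B.support) → tdiv P ∈ 𝒮.RatU →
      Matrix.det (Matrix.of fun i j => pval (P j) (κ i)) ≠ 0 →
      pairG 𝒮.gU (tdiv P) (tdiv P) + 2 * pairG 𝒮.gU B (tdiv P) ≤
        2 * ((M : ℝ) * ht 𝒮.etaU (tdiv P)) + C := by
  obtain ⟨C, hC⟩ := det_global_tuple 𝒮 κ M B hκ hB0 hBΓ hdet
  refine ⟨2 * C, fun P hPinj hP hPB hRat hd => ?_⟩
  have h := hC P hPinj hP hPB hRat hd
  rw [pairG_tdiv_tdiv, pairG_tdiv_right, ht_tdiv,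
    sum_sum_eq_two_mul_Ioi (fun i j => 𝒮.gU (P i) (P j)) (fun i j => gU_symm 𝒮 _ _)
      (fun i => gU_self 𝒮 fun s hs => smul_ne_pinf 𝒮 (𝒮.Sg_mem s hs) (hP i))]
  linarith

end Fermat.Agent.MW.HG.HadGlobal
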