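/-
MW / HT-Q (helper77) — **the global Hadamard inequality for the residual divisor (HadR)**.

`b : Fin (n + 1) → F` is a `Γ`-fixed family of functions regular off `pinf`, with the local
determinant bounds `𝒮.DetLe (fun k => b (i.succAbove k)) M 0` for all its `n`-subfamilies.
For a `U`-stable reduced divisor `R = R_1 + … + R_n` off `pinf` and a `U`-fixed coefficient
vector `a ≠ 0` such that `ψ = ∑ a i • b i` vanishes on `R`, if some maximal minor of the matrix
`(b_i (R_j))` does not vanish, then `a` is proportional to the vector of signed maximal minors,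
the factor of proportionality is `U`-fixed up to sign, and

  `hU a + pairG gU R R / 2 ≤ M · ht etaU R + C`            (`minor_global`, `hadR_global`).
-/
import Mathlib
import Fermat.Agent.MW.HG.HadGlobal

set_option autoImplicit false

noncomputable section

namespace Fermat.Agent.MW.HG.HadMinor

open AlgebraicCurve Fermat.Agent.MW.HtM Fermat.Agent.MW.HQ Fermat.Agent.MW.HG
open Fermat.Agent.MW.HG.HadGlobal

variable {K F V : Type*} [Field K] [Field F] [Algebra K F]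

/-! ### Linear algebra: the kernel of an `n × (n + 1)` matrix with a non-zero maximal minor -/

section LinAlg

variable {n : ℕ} (A : Fin n → Fin (n + 1) → K)

/-- The maximal minors of the `n × (n + 1)` matrix `A`. -/
def minor (i : Fin (n + 1)) : K := Matrix.det (Matrix.of fun k j => A j (i.succAbove k))

omit [Field F] [Algebra K F] in
/-- The vector of signed maximal minors lies in the kernel. -/
theorem sum_mul_minor (j : Fin n) : ∑ i, A j i * ((-1) ^ (i : ℕ) * minor A i) = 0 := by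
  have h0 : (Matrix.of (Fin.cons (A j) A : Fin (n + 1) → Fin (n + 1) → K)).det = 0 :=
    Matrix.det_zero_of_row_eq (i := 0) (j := j.succ) (Fin.succ_ne_zero j).symm (by
      ext i; simp)
  rw [Matrix.det_succ_row_zero] at h0
  rw [← h0]
  refine Finset.sum_congr rfl fun i _ => ?_
  have e : ((Matrix.of (Fin.cons (A j) A : Fin (n + 1) → Fin (n + 1) → K)).submatrix
      Fin.succ i.succAbove).det = minor A i := by
    unfold minor
    rw [← Matrix.det_transpose]
    congr 1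
  rw [e]
  simp only [Matrix.of_apply, Fin.cons_zero]
  ring

omit [Field F] [Algebra K F] in
theorem eq_zero_of_minor_ne_zero {i₀ : Fin (n + 1)} (h0 : minor A i₀ ≠ 0)
    (x : Fin (n + 1) → K) (hx : ∀ j, ∑ i, A j i * x i = 0) (hx0 : x i₀ = 0) : x = 0 := by
  have hM : (Matrix.of fun j k => A j (i₀.succAbove k)).det ≠ 0 := by
    rw [← Matrix.det_transpose]; exact h0
  have hv : Matrix.mulVec (Matrix.of fun j k => A j (i₀.succAbove k))
      (fun k => x (i₀.succAbove k)) = 0 := by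
    ext j
    have := hx j
    rw [Fin.sum_univ_succAbove _ i₀, hx0, mul_zero, zero_add] at this
    simpa [Matrix.mulVec, dotProduct] using this
  have h1 := Matrix.eq_zero_of_mulVec_eq_zero hM hv
  ext i
  rcases eq_or_ne i i₀ with rfl | hne
  · exact hx0
  · obtain ⟨k, rfl⟩ := Fin.exists_succAbove_eq hne
    exact congrFun h1 k

omit [Field F] [Algebra K F] in
/-- A vector of the kernel is proportional to the vector of signed maximal minors. -/
theorem eq_mul_minor {i₀ : Fin (n + 1)} (h0 : minor A i₀ ≠ 0) (a : Fin (n + 1) → K)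
    (ha : ∀ j, ∑ i, A j i * a i = 0) (i : Fin (n + 1)) :
    a i = (a i₀ / ((-1) ^ (i₀ : ℕ) * minor A i₀)) * ((-1) ^ (i : ℕ) * minor A i) := by
  have hc0 : ((-1 : K) ^ (i₀ : ℕ) * minor A i₀) ≠ 0 :=
    mul_ne_zero (pow_ne_zero _ (by norm_num)) h0
  have hx := eq_zero_of_minor_ne_zero A h0
    (fun i => a i - (a i₀ / ((-1) ^ (i₀ : ℕ) * minor A i₀)) * ((-1) ^ (i : ℕ) * minor A i))
    (fun j => by
      have e : ∑ i, A j i * (a i - (a i₀ / ((-1) ^ (i₀ : ℕ) * minor A i₀)) *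
            ((-1) ^ (i : ℕ) * minor A i)) =
          ∑ i, A j i * a i - (a i₀ / ((-1) ^ (i₀ : ℕ) * minor A i₀)) *
            ∑ i, A j i * ((-1) ^ (i : ℕ) * minor A i) := by
        rw [Finset.mul_sum, ← Finset.sum_sub_distrib]
        exact Finset.sum_congr rfl fun i _ => by ring
      rw [e, ha j, sum_mul_minor A j, mul_zero, sub_zero])
    (by
      show a i₀ - (a i₀ / ((-1) ^ (i₀ : ℕ) * minor A i₀)) * ((-1) ^ (i₀ : ℕ) * minor A i₀) = 0
      rw [div_mul_cancel₀ _ hc0, sub_self])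
  have := congrFun hx i
  exact sub_eq_zero.1 this

end LinAlg

/-! ### Heights of vectors -/

variable {Ab : AbsFamily K V}

theorem iSup_abv_pos {ι : Type*} [Finite ι] (v : V) (x : ι → K) {i₀ : ι} (h0 : x i₀ ≠ 0) :
    0 < ⨆ i, Ab.abv v (x i) :=
  lt_of_lt_of_le ((Ab.abv v).pos h0)
    (le_ciSup (f := fun i => Ab.abv v (x i)) (Set.finite_range _).bddAbove i₀)

theorem support_log_iSup_finite (Ab : AbsFamily K V) {ι : Type*} [Finite ι] (x : ι → K)
    {i₀ : ι} (h0 : x i₀ ≠ 0) :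
    (Function.support fun v => Real.log (⨆ i, Ab.abv v (x i))).Finite := by
  have : Nonempty ι := ⟨i₀⟩
  have hfin : ((⋃ i, {v | 1 < Ab.abv v (x i)}) ∪ {v | Ab.abv v (x i₀) ≠ 1}).Finite :=
    (Set.finite_iUnion fun i => Ab.finite_gt_one (x i)).union (finite_abv_ne_one Ab h0)
  refine hfin.subset ?_
  intro v hv
  by_contra hcon
  simp only [Set.mem_union, Set.mem_iUnion, Set.mem_ofPred_eq, not_or, not_exists, not_lt,
    not_not] at hcon
  apply hv
  have h1 : ⨆ i, Ab.abv v (x i) = 1 := by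
    apply le_antisymm
    · exact ciSup_le fun i => hcon.1 i
    · rw [← hcon.2]
      exact le_ciSup (f := fun i => Ab.abv v (x i)) (Set.finite_range _).bddAbove i₀
  show Real.log (⨆ i, Ab.abv v (x i)) = 0
  rw [h1, Real.log_one]

/-- The logarithmic size of a vector `lam • c` (up to signs). -/
theorem finsum_log_iSup_mul (Ab : AbsFamily K V) {ι : Type*} [Finite ι] (a c : ι → K) (lam : K)
    (hlam : lam ≠ 0) {i₀ : ι} (h0 : c i₀ ≠ 0)
    (h : ∀ v i, Ab.abv v (a i) = Ab.abv v lam * Ab.abv v (c i)) :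
    ∑ᶠ v, Real.log (⨆ i, Ab.abv v (a i)) =
      ∑ᶠ v, Real.log (Ab.abv v lam) + ∑ᶠ v, Real.log (⨆ i, Ab.abv v (c i)) := by
  have e : ∀ v, Real.log (⨆ i, Ab.abv v (a i)) =
      Real.log (Ab.abv v lam) + Real.log (⨆ i, Ab.abv v (c i)) := by
    intro v
    have e1 : (⨆ i, Ab.abv v (a i)) = Ab.abv v lam * ⨆ i, Ab.abv v (c i) := by
      rw [Real.mul_iSup_of_nonneg ((Ab.abv v).nonneg lam)]
      exact iSup_congr fun i => h v i
    rw [e1, Real.log_mul ((Ab.abv v).pos hlam).ne' (iSup_abv_pos v c h0).ne']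
  rw [finsum_congr e]
  exact finsum_add_distrib (support_log_abv_finite Ab hlam) (support_log_iSup_finite Ab c h0)

/-! ### Summation over the places, for a vector of determinants -/

variable {pinf : Place K F} {t : F} {m : ℕ} (𝒮 : Setting Ab pinf t m)

/-- The local inequalities at the points `Q` for positive reals `x v`, summed over all places
(no divisor `B`). -/
theorem sum_places_le_gen {n : ℕ} (M : ℕ) {C : V → ℝ} (hC : Tame C) (Q : Fin n → Place K F)
    (hQ : ∀ j, Q j ≠ pinf) (hQinj : Function.Injective Q) (x : V → ℝ) (hx : ∀ v, 0 < x v)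
    (hxs : (Function.support fun v => Real.log (x v)).Finite)
    (h : ∀ v, x v ^ m ≤ C v * (∏ j, max 1 (Ab.abv v (pval (Q j) t))) ^ M *
        (∏ i, ∏ j ∈ Finset.Ioi i, 𝒮.δ v (Q i) (Q j)) ^ m) :
    (m : ℝ) * (∑ i, ∑ j ∈ Finset.Ioi i, ∑ᶠ v, 𝒮.lam v (Q i) (Q j)) ≤
      ∑ᶠ v, Real.log (C v) + (M : ℝ) * (m : ℝ) * ∑ j, ∑ᶠ v, 𝒮.eta v (Q j)
        - (m : ℝ) * ∑ᶠ v, Real.log (x v) := by
  classical
  obtain ⟨T1, hT1⟩ := exists_common_support (Finset.univ : Finset (Fin n))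
    (fun j v => 𝒮.eta v (Q j)) (fun j _ => support_eta_finite 𝒮 (Q j))
  obtain ⟨T2, hT2⟩ := exists_common_support (Finset.univ : Finset (Fin n × Fin n))
    (fun ij v => 𝒮.lam v (Q ij.1) (Q ij.2))
    (fun ij _ => support_lam_finite 𝒮 (hQ ij.1) (hQ ij.2))
  obtain ⟨T4, hT4⟩ := exists_common_support (Finset.univ : Finset Unit)
    (fun _ v => Real.log (C v)) (fun _ _ => support_log_tame hC)
  obtain ⟨T5, hT5⟩ := exists_common_support (Finset.univ : Finset Unit)
    (fun _ v => Real.log (x v)) (fun _ _ => hxs)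
  set T : Finset V := T1 ∪ T2 ∪ T4 ∪ T5 with hT
  have s1 : ∀ j, ∑ᶠ v, 𝒮.eta v (Q j) = ∑ v ∈ T, 𝒮.eta v (Q j) := fun j =>
    finsum_eq_sum_of_support_subset _ ((hT1 j (Finset.mem_univ _)).trans (by
      rw [hT]; intro v hv; simp only [Finset.coe_union, Set.mem_union]; tauto))
  have s2 : ∀ i j, ∑ᶠ v, 𝒮.lam v (Q i) (Q j) = ∑ v ∈ T, 𝒮.lam v (Q i) (Q j) := fun i j =>
    finsum_eq_sum_of_support_subset _ ((hT2 (i, j) (Finset.mem_univ _)).trans (by
      rw [hT]; intro v hv; simp only [Finset.coe_union, Set.mem_union]; tauto))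
  have s4 : ∑ᶠ v, Real.log (C v) = ∑ v ∈ T, Real.log (C v) :=
    finsum_eq_sum_of_support_subset _ ((hT4 () (Finset.mem_univ _)).trans (by
      rw [hT]; intro v hv; simp only [Finset.coe_union, Set.mem_union]; tauto))
  have s5 : ∑ᶠ v, Real.log (x v) = ∑ v ∈ T, Real.log (x v) :=
    finsum_eq_sum_of_support_subset _ ((hT5 () (Finset.mem_univ _)).trans (by
      rw [hT]; intro v hv; simp only [Finset.coe_union, Set.mem_union]; tauto))
  have hloc : ∀ v ∈ T, (m : ℝ) * (∑ i, ∑ j ∈ Finset.Ioi i, 𝒮.lam v (Q i) (Q j)) ≤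
      Real.log (C v) + (M : ℝ) * (m : ℝ) * ∑ j, 𝒮.eta v (Q j)
        - (m : ℝ) * Real.log (x v) := fun v _ => by
    have h1 := local_log_le 𝒮 M (0 : Place K F →₀ ℕ) rfl (hC.pos v) v Q hQ hQinj (by simp)
      (hx v) (by simpa using h v)
    simpa using h1
  have hsum := Finset.sum_le_sum hloc
  have eL : ∑ v ∈ T, (m : ℝ) * (∑ i, ∑ j ∈ Finset.Ioi i, 𝒮.lam v (Q i) (Q j)) =
      (m : ℝ) * (∑ i, ∑ j ∈ Finset.Ioi i, ∑ᶠ v, 𝒮.lam v (Q i) (Q j)) := by
    rw [← Finset.mul_sum]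
    congr 1
    rw [Finset.sum_comm]
    refine Finset.sum_congr rfl fun i _ => ?_
    rw [Finset.sum_comm]
    exact Finset.sum_congr rfl fun j _ => (s2 i j).symm
  have eR : ∑ v ∈ T, (Real.log (C v) + (M : ℝ) * (m : ℝ) * ∑ j, 𝒮.eta v (Q j)
        - (m : ℝ) * Real.log (x v)) =
      ∑ᶠ v, Real.log (C v) + (M : ℝ) * (m : ℝ) * ∑ j, ∑ᶠ v, 𝒮.eta v (Q j)
        - (m : ℝ) * ∑ᶠ v, Real.log (x v) := by
    rw [Finset.sum_sub_distrib, Finset.sum_add_distrib, ← Finset.mul_sum, ← Finset.mul_sum,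
      Finset.sum_comm, s4, s5]
    congr 3
    exact Finset.sum_congr rfl fun j _ => (s1 j).symm
  rw [eL, eR] at hsum
  exact hsum

/-! ### The global inequality -/

/-- **Global Hadamard inequality for the residual divisor**, linear form of the vanishing
condition. -/
theorem minor_global {n : ℕ} (b : Fin (n + 1) → F) (M : ℕ)
    (hb : ∀ g ∈ 𝒮.Γ, ∀ i, g • b i = b i)
    (hdet : ∀ i : Fin (n + 1), 𝒮.DetLe (fun k : Fin n => b (i.succAbove k)) M 0) :
    ∃ C : ℝ, ∀ (R : Fin n → Place K F) (a : Fin (n + 1) → K), Function.Injective R →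
      (∀ j, R j ≠ pinf) → tdiv R ∈ 𝒮.RatU → 𝒮.UFix a → (∃ i, a i ≠ 0) →
      (∀ j, ∑ i, a i * pval (R j) (b i) = 0) →
      (∃ i : Fin (n + 1),
        Matrix.det (Matrix.of fun k j => pval (R j) (b (i.succAbove k))) ≠ 0) →
      𝒮.hU a + pairG 𝒮.gU (tdiv R) (tdiv R) / 2 ≤ (M : ℝ) * ht 𝒮.etaU (tdiv R) + C := by
  choose Ci hCi hbi using hdet
  have hm : (0 : ℝ) < m := Nat.cast_pos.2 𝒮.m_pos
  have hCm : Tame (fun v => ∏ i, Ci i v) := Tame.prod _ _ fun i _ => hCi i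
  refine ⟨(𝒮.Sg.card : ℝ) * (∑ᶠ v, Real.log (∏ i, Ci i v)) / m, ?_⟩
  rintro R a hRinj hR hRat haU ⟨i₁, hai₁⟩ hker ⟨i₀, hi₀⟩
  -- the matrix of values and its minors
  set A : Fin n → Fin (n + 1) → K := fun j i => pval (R j) (b i) with hA
  have h0 : minor A i₀ ≠ 0 := hi₀
  have hc0 : ((-1 : K) ^ (i₀ : ℕ) * minor A i₀) ≠ 0 :=
    mul_ne_zero (pow_ne_zero _ (by norm_num)) h0
  have hac : ∀ i, a i = (a i₀ / ((-1) ^ (i₀ : ℕ) * minor A i₀)) *
      ((-1) ^ (i : ℕ) * minor A i) := eq_mul_minor A h0 a (fun j => by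
    rw [← hker j]; exact Finset.sum_congr rfl fun i _ => mul_comm _ _)
  have hlam0 : a i₀ / ((-1) ^ (i₀ : ℕ) * minor A i₀) ≠ 0 := by
    intro h
    apply hai₁
    rw [hac i₁, h, zero_mul]
  -- the square of the factor is `U`-fixed
  have hlamU : ∀ u ∈ 𝒮.U, SemilinearAut.baseAut u
      ((a i₀ / ((-1) ^ (i₀ : ℕ) * minor A i₀)) * (a i₀ / ((-1) ^ (i₀ : ℕ) * minor A i₀))) =
      (a i₀ / ((-1) ^ (i₀ : ℕ) * minor A i₀)) * (a i₀ / ((-1) ^ (i₀ : ℕ) * minor A i₀)) := by
    intro u hu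
    have hsgn : ((-1 : K) ^ (i₀ : ℕ)) * ((-1 : K) ^ (i₀ : ℕ)) = 1 := by
      rw [← mul_pow]; norm_num
    have h1 : (a i₀ / ((-1) ^ (i₀ : ℕ) * minor A i₀)) * (a i₀ / ((-1) ^ (i₀ : ℕ) * minor A i₀))
        = (a i₀ * a i₀) / (minor A i₀ * minor A i₀) := by
      rw [div_mul_div_comm]
      congr 1
      calc (-1 : K) ^ (i₀ : ℕ) * minor A i₀ * ((-1) ^ (i₀ : ℕ) * minor A i₀)
          = ((-1 : K) ^ (i₀ : ℕ) * (-1) ^ (i₀ : ℕ)) * (minor A i₀ * minor A i₀) := by ring
        _ = minor A i₀ * minor A i₀ := by rw [hsgn, one_mul]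
    have h2 := det_sq_fixed 𝒮 (fun k => b (i₀.succAbove k)) (fun g hg k => hb g hg _) R hRinj
      hRat u hu
    rw [h1, map_div₀, map_mul, haU u hu i₀]
    congr 1
  have hpf := pf_of_sq_fixed 𝒮 hlam0 hlamU
  -- the inequality for one `s`
  have hs : ∀ s ∈ 𝒮.Sg,
      (m : ℝ) * (∑ i, ∑ j ∈ Finset.Ioi i, ∑ᶠ v, 𝒮.lam v (s • R i) (s • R j)) ≤
      ∑ᶠ v, Real.log (∏ i, Ci i v) + (M : ℝ) * (m : ℝ) * ∑ j, ∑ᶠ v, 𝒮.eta v (s • R j)
        - (m : ℝ) * (∑ᶠ v, Real.log (⨆ i, Ab.abv v (SemilinearAut.baseAut s (a i))) -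
            ∑ᶠ v, Real.log (Ab.abv v (SemilinearAut.baseAut s
              (a i₀ / ((-1) ^ (i₀ : ℕ) * minor A i₀))))) := by
    intro s hs
    have hsΓ := 𝒮.Sg_mem s hs
    have hQ : ∀ j, s • R j ≠ pinf := fun j => smul_ne_pinf 𝒮 hsΓ (hR j)
    have hQinj : Function.Injective (fun j => s • R j) := (MulAction.injective s).comp hRinj
    have hds : ∀ i, Matrix.det (Matrix.of fun k j => pval (s • R j) (b (i.succAbove k))) =
        SemilinearAut.baseAut s (minor A i) := fun i =>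
      det_smul (fun k => b (i.succAbove k)) (fun k => hb s hsΓ _) R
    have hs0 : SemilinearAut.baseAut s (minor A i₀) ≠ 0 := by simpa using h0
    have hx := sum_places_le_gen 𝒮 M hCm (fun j => s • R j) hQ hQinj
      (fun v => ⨆ i, Ab.abv v (SemilinearAut.baseAut s (minor A i)))
      (fun v => iSup_abv_pos v _ hs0)
      (support_log_iSup_finite Ab _ hs0)
      (fun v => by
        obtain ⟨i, hi⟩ := exists_eq_ciSup_of_finite
          (f := fun i => Ab.abv v (SemilinearAut.baseAut s (minor A i)))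
        rw [← hi]
        have h1 := hbi i v (fun j => s • R j) hQ
        rw [hds i] at h1
        have h2 : Ci i v ≤ ∏ i, Ci i v :=
          Tame.le_prod Finset.univ Ci (fun i _ => hCi i) (Finset.mem_univ i) v
        simp only [Finsupp.prod_zero_index, Finset.prod_const_one, one_pow, mul_one] at h1
        refine h1.trans ?_
        have h3 : 0 ≤ (∏ j, max 1 (Ab.abv v (pval (s • R j) t))) ^ M :=
          pow_nonneg (Finset.prod_nonneg fun j _ => le_trans zero_le_one (le_max_left _ _)) _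
        have h4 : 0 ≤ (∏ i, ∏ j ∈ Finset.Ioi i, 𝒮.δ v (s • R i) (s • R j)) ^ m :=
          pow_nonneg (Finset.prod_nonneg fun i _ => Finset.prod_nonneg fun j _ =>
            𝒮.δ_nonneg _ _ _) _
        exact mul_le_mul_of_nonneg_right (mul_le_mul_of_nonneg_right h2 h3) h4)
    have e := finsum_log_iSup_mul Ab (fun i => SemilinearAut.baseAut s (a i))
      (fun i => SemilinearAut.baseAut s (minor A i))
      (SemilinearAut.baseAut s (a i₀ / ((-1) ^ (i₀ : ℕ) * minor A i₀)))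
      (by simpa using hlam0) hs0 (fun v i => by
        conv_lhs => rw [hac i]
        rw [map_mul, map_mul, map_mul, map_mul, map_pow, map_neg, map_one, map_pow,
          (Ab.abv v).map_neg, map_one, one_pow, one_mul])
    rw [e]
    have e' : ∀ x y : ℝ, x + y - x = y := fun x y => by ring
    rw [e']
    exact hx
  have hsum := Finset.sum_le_sum hs
  have eL : ∑ s ∈ 𝒮.Sg,
      (m : ℝ) * (∑ i, ∑ j ∈ Finset.Ioi i, ∑ᶠ v, 𝒮.lam v (s • R i) (s • R j)) =
      (m : ℝ) * (∑ i, ∑ j ∈ Finset.Ioi i, 𝒮.gU (R i) (R j)) := by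
    rw [← Finset.mul_sum]
    congr 1
    rw [Finset.sum_comm]
    refine Finset.sum_congr rfl fun i _ => ?_
    rw [Finset.sum_comm]
    rfl
  have eR : ∑ s ∈ 𝒮.Sg, (∑ᶠ v, Real.log (∏ i, Ci i v) +
        (M : ℝ) * (m : ℝ) * ∑ j, ∑ᶠ v, 𝒮.eta v (s • R j)
        - (m : ℝ) * (∑ᶠ v, Real.log (⨆ i, Ab.abv v (SemilinearAut.baseAut s (a i))) -
            ∑ᶠ v, Real.log (Ab.abv v (SemilinearAut.baseAut s
              (a i₀ / ((-1) ^ (i₀ : ℕ) * minor A i₀)))))) =
      (𝒮.Sg.card : ℝ) * (∑ᶠ v, Real.log (∏ i, Ci i v)) +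
        (M : ℝ) * (m : ℝ) * ∑ j, 𝒮.etaU (R j) - (m : ℝ) * 𝒮.hU a := by
    rw [Finset.sum_sub_distrib, Finset.sum_add_distrib, ← Finset.mul_sum, ← Finset.mul_sum,
      Finset.sum_sub_distrib, hpf, sub_zero, Finset.sum_const, nsmul_eq_mul, Finset.sum_comm]
    rfl
  rw [eL, eR] at hsum
  rw [pairG_tdiv_tdiv, ht_tdiv,
    sum_sum_eq_two_mul_Ioi (fun i j => 𝒮.gU (R i) (R j)) (fun i j => gU_symm 𝒮 _ _)
      (fun i => gU_self 𝒮 fun s hs => smul_ne_pinf 𝒮 (𝒮.Sg_mem s hs) (hR i))]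
  have h5 : (m : ℝ) * (𝒮.hU a + ∑ i, ∑ j ∈ Finset.Ioi i, 𝒮.gU (R i) (R j)) ≤
      (m : ℝ) * ((M : ℝ) * ∑ j, 𝒮.etaU (R j) +
        (𝒮.Sg.card : ℝ) * (∑ᶠ v, Real.log (∏ i, Ci i v)) / m) := by
    have e6 : (m : ℝ) * ((M : ℝ) * ∑ j, 𝒮.etaU (R j) +
        (𝒮.Sg.card : ℝ) * (∑ᶠ v, Real.log (∏ i, Ci i v)) / m) =
        (𝒮.Sg.card : ℝ) * (∑ᶠ v, Real.log (∏ i, Ci i v)) +
          (M : ℝ) * (m : ℝ) * ∑ j, 𝒮.etaU (R j) := by
      field_simp
      ring
    rw [e6]
    linarith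
  have h6 := le_of_mul_le_mul_left h5 hm
  linarith

/-! ### The vanishing condition in terms of orders -/

theorem adicValuation_smul_le_self (S : Place K F) (a : K) (x : F) :
    S.adicValuation (a • x) ≤ S.adicValuation x := by
  rw [Algebra.smul_def, map_mul]
  exact mul_le_of_le_one_left' (S.adicValuation_algebraMap_le_one a)

/-- The value of a linear combination of functions regular at `S`. -/
theorem pval_sum_smul_reg
    (hres : ∀ (P : Place K F) (f : F), 0 ≤ P.ord f →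
      ∃ c : K, P.adicValuation (f - algebraMap K F c) < 1)
    (S : Place K F) {ι : Type*} [Fintype ι] (a : ι → K) (u : ι → F)
    (hu : ∀ i, 0 ≤ S.ord (u i)) :
    pval S (∑ i, a i • u i) = ∑ i, a i * pval S (u i) := by
  apply pval_eq
  have h1 : ∑ i, a i • u i - algebraMap K F (∑ i, a i * pval S (u i))
      = ∑ i, a i • (u i - algebraMap K F (pval S (u i))) := by
    rw [map_sum, ← Finset.sum_sub_distrib]
    refine Finset.sum_congr rfl fun i _ => ?_
    rw [smul_sub, map_mul, Algebra.smul_def, Algebra.smul_def]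
  rw [h1]
  refine Valuation.map_sum_lt _ one_ne_zero fun i _ => ?_
  exact lt_of_le_of_lt (adicValuation_smul_le_self S (a i) _)
    (pval_spec S (hres S (u i) (hu i)))

/-- A function vanishing at `S` has value `0` there. -/
theorem pval_eq_zero_of_ord_pos (S : Place K F) {φ : F} (h : 0 < S.ord φ) : pval S φ = 0 := by
  apply pval_eq
  rw [map_zero, sub_zero]
  have hφ : φ ≠ 0 := by
    rintro rfl
    simp at h
  rw [S.adicValuation_eq_exp_neg_ord hφ, ← WithZero.exp_zero, WithZero.exp_lt_exp]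
  omega

/-- **Global Hadamard inequality for the residual divisor (HadR)**: for a `Γ`-fixed family
`b : Fin (n + 1) → F` regular off `pinf` with the determinant bounds for its `n`-subfamilies, a
`U`-stable reduced divisor `R = ∑ R j` off `pinf`, and a `U`-fixed coefficient vector `a` such that
`ψ = ∑ a i • b i ≠ 0` vanishes at every `R j`, if some maximal minor of `(b i (R j))` is non-zero:
`hU a + G(R, R) / 2 ≤ M · h(R) + C`. -/
theorem hadR_global {n : ℕ} (b : Fin (n + 1) → F) (M : ℕ) (hb : 𝒮.Fam b M)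
    (hdet : ∀ i : Fin (n + 1), 𝒮.DetLe (fun k : Fin n => b (i.succAbove k)) M 0) :
    ∃ C : ℝ, ∀ (R : Fin n → Place K F) (a : Fin (n + 1) → K), Function.Injective R →
      (∀ j, R j ≠ pinf) → tdiv R ∈ 𝒮.RatU → 𝒮.UFix a → (∑ i, a i • b i) ≠ 0 →
      (∀ j, 0 < (R j).ord (∑ i, a i • b i)) →
      (∃ i : Fin (n + 1),
        Matrix.det (Matrix.of fun k j => pval (R j) (b (i.succAbove k))) ≠ 0) →
      𝒮.hU a + pairG 𝒮.gU (tdiv R) (tdiv R) / 2 ≤ (M : ℝ) * ht 𝒮.etaU (tdiv R) + C := by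
  obtain ⟨C, hC⟩ := minor_global 𝒮 b M hb.fixed hdet
  refine ⟨C, fun R a hRinj hR hRat haU hψ hord hmin => ?_⟩
  refine hC R a hRinj hR hRat haU ?_ (fun j => ?_) hmin
  · by_contra hcon
    apply hψ
    refine Finset.sum_eq_zero fun i _ => ?_
    have : a i = 0 := by
      by_contra h
      exact hcon ⟨i, h⟩
    rw [this, zero_smul]
  · rw [← pval_sum_smul_reg 𝒮.resK (R j) a b (fun i => hb.reg i (R j) (hR j))]
    exact pval_eq_zero_of_ord_pos (R j) (hord j)

/-- The same with the vanishing condition in the form "`ψ` has divisor of zeros `E + ∑ R j`". -/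
theorem hadR_global_zdiv {n : ℕ} (b : Fin (n + 1) → F) (M : ℕ) (hb : 𝒮.Fam b M)
    (hdet : ∀ i : Fin (n + 1), 𝒮.DetLe (fun k : Fin n => b (i.succAbove k)) M 0) :
    ∃ C : ℝ, ∀ (R : Fin n → Place K F) (a : Fin (n + 1) → K) (E : Place K F →₀ ℕ),
      Function.Injective R → (∀ j, R j ≠ pinf) → tdiv R ∈ 𝒮.RatU → 𝒮.UFix a →
      (∑ i, a i • b i) ≠ 0 → IsZDiv pinf (∑ i, a i • b i) (E + tdiv R) →
      (∃ i : Fin (n + 1),
        Matrix.det (Matrix.of fun k j => pval (R j) (b (i.succAbove k))) ≠ 0) →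
      𝒮.hU a + pairG 𝒮.gU (tdiv R) (tdiv R) / 2 ≤ (M : ℝ) * ht 𝒮.etaU (tdiv R) + C := by
  obtain ⟨C, hC⟩ := hadR_global 𝒮 b M hb hdet
  refine ⟨C, fun R a E hRinj hR hRat haU hψ hZ hmin => ?_⟩
  refine hC R a hRinj hR hRat haU hψ (fun j => ?_) hmin
  have h1 := hZ.2 (R j) (hR j)
  have h2 : (tdiv R) (R j) ≠ 0 := (tdiv_apply_ne_zero_iff R (R j)).2 ⟨j, rfl⟩
  have h3 : 0 < (E + tdiv R) (R j) := by
    rw [Finsupp.add_apply]
    omega
  rw [← h1]
  exact_mod_cast h3

end Fermat.Agent.MW.HG.HadMinor
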