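/-
MW / HT-Q, row G2 (helper97): GLOBAL MAHLER `(B≤)`, `(B≥)` from the norm form.

For a family `f` with a norm form `ND : 𝒮.NormData f M` (forms `N k` of degree `m` in the
coefficient vector with `Γ`-fixed coefficients and
`∑ k, N k (a) X ^ k = c · ∏ R ∈ Z, (X - t(R)) ^ (Z R)` for the divisor of zeros `Z` of
`φ = ∑ a i • f i`):

* `Setting.mah_key` : `∑ s ∈ Sg, ∑ᶠ v, log ⨆ k |N k (s a)|_v = m · ht etaU Z + O(1)`
  (global Gauss–Mahler on the line, `MW/Height/GaussMahler.lean`, and the product formula `𝒮.pf`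
  for the `U`-fixed leading coefficient `c`);
* `Setting.mahlerGe_of_normData` : `(B≥)`, `ht etaU Z ≤ hU a + C`
  (the trivial bound `|N k (x)|_v ≤ C_v · max |x_i|_v ^ m`);
* `Setting.mahlerLe_of_normData` : `(B≤)`, `hU a ≤ ht etaU Z + C`
  (the forms `N k` have no common zero: `MW/Height/MorphismTame.lean`).
-/
import Mathlib
import Fermat.Agent.MW.HG.Defs
import Fermat.Agent.MW.Height.GaussMahler
import Fermat.Agent.MW.Height.MorphismTame

set_option autoImplicit false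

noncomputable section

namespace Fermat.Agent.MW.HG

open AlgebraicCurve Fermat.Agent.MW.HtM Fermat.Agent.MW.HQ
open Fermat.Agent.MW.Height Fermat.Agent.MW.Height.GaussMahler

variable {K F V : Type*} [Field K] [Field F] [Algebra K F]

/-! ### Multisets of roots with multiplicities -/

theorem mah_rootPoly_sum {P : Type*} (ρ : P → K) (n : P → ℕ) (S : Finset P) :
    rootPoly (∑ R ∈ S, Multiset.replicate (n R) (ρ R))
      = ∏ R ∈ S, (Polynomial.X - Polynomial.C (ρ R)) ^ (n R) := by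
  classical
  induction S using Finset.induction_on with
  | empty => simp
  | insert R S hR ih =>
    rw [Finset.sum_insert hR, Finset.prod_insert hR, rootPoly_add, ih]
    congr 1
    simp [rootPoly, Multiset.map_replicate, Multiset.prod_replicate]

omit [Field K] in
theorem mah_card_sum {P : Type*} (ρ : P → K) (n : P → ℕ) (S : Finset P) :
    Multiset.card (∑ R ∈ S, Multiset.replicate (n R) (ρ R)) = ∑ R ∈ S, n R := by
  rw [Multiset.card_sum]
  simp

omit [Field K] in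
theorem mah_sum_map {P : Type*} (ρ : P → K) (n : P → ℕ) (S : Finset P) (g : K → ℝ) :
    ((∑ R ∈ S, Multiset.replicate (n R) (ρ R)).map g).sum = ∑ R ∈ S, (n R : ℝ) * g (ρ R) := by
  classical
  induction S using Finset.induction_on with
  | empty => simp
  | insert R S hR ih =>
    rw [Finset.sum_insert hR, Finset.sum_insert hR, Multiset.map_add, Multiset.sum_add, ih,
      Multiset.map_replicate, Multiset.sum_replicate, nsmul_eq_mul]

/-- The multiset of the values `ρ R`, `R` in the support of `Z`, with multiplicities `Z R`. -/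
def mahRoots {P : Type*} (ρ : P → K) (Z : P →₀ ℕ) : Multiset K :=
  ∑ R ∈ Z.support, Multiset.replicate (Z R) (ρ R)

theorem mah_rootPoly {P : Type*} (ρ : P → K) (Z : P →₀ ℕ) :
    rootPoly (mahRoots ρ Z)
      = ∏ R ∈ Z.support, (Polynomial.X - Polynomial.C (ρ R)) ^ (Z R) :=
  mah_rootPoly_sum ρ Z Z.support

omit [Field K] in
theorem mah_card {P : Type*} (ρ : P → K) (Z : P →₀ ℕ) :
    Multiset.card (mahRoots ρ Z) = deg Z :=
  mah_card_sum ρ Z Z.support

/-! ### Polynomials `∑ k, C (b k) X ^ k` -/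

theorem mah_coeff_sum {M : ℕ} (b : Fin (M + 1) → K) (k : Fin (M + 1)) :
    (∑ k' : Fin (M + 1), Polynomial.C (b k') * Polynomial.X ^ (k' : ℕ)).coeff (k : ℕ) = b k := by
  rw [Polynomial.finsetSum_coeff]
  simp only [Polynomial.coeff_C_mul_X_pow]
  rw [Finset.sum_eq_single k]
  · simp
  · intro k' _ hne
    rw [if_neg]
    intro h
    exact hne (Fin.ext h.symm)
  · simp

theorem mah_natDegree_sum {M : ℕ} (b : Fin (M + 1) → K) :
    (∑ k' : Fin (M + 1), Polynomial.C (b k') * Polynomial.X ^ (k' : ℕ)).natDegree ≤ M := by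
  refine Polynomial.natDegree_sum_le_of_forall_le _ _ fun k' _ => ?_
  exact (Polynomial.natDegree_C_mul_X_pow_le _ _).trans (Nat.lt_succ_iff.mp k'.2)

/-- If `∑ k, C (b k) X ^ k = C c · ∏ (X - r)`, `c ≠ 0`, then there are at most `M` roots and the
coefficients are `b k = c · coeff`. -/
theorem mah_of_eq {M : ℕ} {b : Fin (M + 1) → K} {c : K} (hc : c ≠ 0) {s : Multiset K}
    (h : (∑ k : Fin (M + 1), Polynomial.C (b k) * Polynomial.X ^ (k : ℕ))
      = Polynomial.C c * rootPoly s) :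
    Multiset.card s ≤ M ∧ ∀ k : Fin (M + 1), b k = c * (rootPoly s).coeff (k : ℕ) := by
  refine ⟨?_, fun k => ?_⟩
  · have h1 := mah_natDegree_sum b
    rwa [h, Polynomial.natDegree_C_mul hc, natDegree_rootPoly] at h1
  · have h1 := mah_coeff_sum b k
    rw [h, Polynomial.coeff_C_mul] at h1
    exact h1.symm

/-! ### Semilinear automorphisms and values -/

theorem mah_adicValuation_smul (g : SemilinearAut K F) (P : Place K F) (x : F) :
    (g • P).adicValuation (g • x) = P.adicValuation x := by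
  rcases eq_or_ne x 0 with rfl | hx
  · simp
  · have h := SemilinearAut.ord_smul g P x
    unfold Place.ord at h
    have hgx : g • x ≠ 0 := by
      intro h0
      apply hx
      have := congrArg (fun y => g⁻¹ • y) h0
      simpa using this
    have h1 := Place.adicValuation_ne_zero P hx
    have h2 := Place.adicValuation_ne_zero (g • P) hgx
    rw [neg_inj] at h
    rw [← WithZero.exp_log h1, ← WithZero.exp_log h2, h]

/-- The value at a place is equivariant for semilinear automorphisms. -/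
theorem mah_pval_smul (g : SemilinearAut K F) (P : Place K F) (f : F) :
    pval (g • P) (g • f) = SemilinearAut.baseAut g (pval P f) := by
  classical
  by_cases h : ∃ c : K, P.adicValuation (f - algebraMap K F c) < 1
  · obtain ⟨c, hc⟩ := h
    rw [pval_eq P hc]
    apply pval_eq
    have e : g • f - algebraMap K F (SemilinearAut.baseAut g c) = g • (f - algebraMap K F c) := by
      rw [smul_sub, SemilinearAut.smul_algebraMap]
    rw [e, mah_adicValuation_smul]
    exact hc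
  · have h' : ¬ ∃ c : K, (g • P).adicValuation (g • f - algebraMap K F c) < 1 := by
      rintro ⟨c, hc⟩
      apply h
      refine ⟨(SemilinearAut.baseAut g).symm c, ?_⟩
      have e : g • (f - algebraMap K F ((SemilinearAut.baseAut g).symm c))
          = g • f - algebraMap K F c := by
        rw [smul_sub, SemilinearAut.smul_algebraMap, RingEquiv.apply_symm_apply]
      rw [← mah_adicValuation_smul g, e]
      exact hc
    unfold pval
    rw [dif_neg h, dif_neg h', map_zero]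

/-- The trivial global bound for forms of degree `m`:
`∑ᶠ v, log ⨆ k |N k (x)|_v ≤ m · ∑ᶠ v, log ⨆ i |x i|_v + C`. -/
theorem mah_forms_le (Ab : AbsFamily K V) {ι : Type} [Fintype ι] {M m : ℕ}
    (N : Fin (M + 1) → MvPolynomial ι K) (hN : ∀ k, (N k).IsHomogeneous m) :
    ∃ C : ℝ, ∀ x : ι → K, x ≠ 0 → (fun k => MvPolynomial.eval x (N k)) ≠ 0 →
      ∑ᶠ v, Real.log (⨆ k, Ab.abv v (MvPolynomial.eval x (N k)))
        ≤ m * ∑ᶠ v, Real.log (⨆ i, Ab.abv v (x i)) + C := by
  obtain ⟨C, hC, hb⟩ := MorphismTame.exists_tame_bounds Ab N hN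
    (fun _ : ι × Fin (M + 1) => (0 : MvPolynomial ι K)) (M := 0)
    (fun _ => MvPolynomial.isHomogeneous_zero _ _ _)
  refine ⟨∑ᶠ v, Real.log (C v), fun x hx hNx => ?_⟩
  have hP : ∀ v, 0 < ⨆ k, Ab.abv v (MvPolynomial.eval x (N k)) := fun v =>
    MorphismLocal.iSup_abv_pos (Ab.abv v) hNx
  have hmm : ∀ v, 0 < ⨆ i, Ab.abv v (x i) := fun v => MorphismLocal.iSup_abv_pos (Ab.abv v) hx
  have hle : ∀ v, Real.log (⨆ k, Ab.abv v (MvPolynomial.eval x (N k)))
      ≤ Real.log (C v) + m * Real.log (⨆ i, Ab.abv v (x i)) := by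
    intro v
    have h1 := Real.log_le_log (hP v) (hb v x).1
    rwa [Real.log_mul (hC.pos v).ne' (pow_pos (hmm v) m).ne', Real.log_pow] at h1
  have H1 : ∀ a : K, a ≠ 0 → {v | Ab.abv v a ≠ 1}.Finite := fun a ha =>
    MorphismTame.AbsFamily.finite_abv_ne_one Ab ha
  have hsP : (fun v => Real.log (⨆ k, Ab.abv v (MvPolynomial.eval x (N k)))).HasFiniteSupport := by
    refine (MorphismLocal.finite_iSup_abv_ne_one Ab.abv H1 hNx).subset fun v hv h1 => hv ?_
    show Real.log (⨆ k, Ab.abv v (MvPolynomial.eval x (N k))) = 0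
    rw [h1, Real.log_one]
  have hsm : (fun v => Real.log (⨆ i, Ab.abv v (x i))).HasFiniteSupport := by
    refine (MorphismLocal.finite_iSup_abv_ne_one Ab.abv H1 hx).subset fun v hv h1 => hv ?_
    show Real.log (⨆ i, Ab.abv v (x i)) = 0
    rw [h1, Real.log_one]
  have hsC : (fun v => Real.log (C v)).HasFiniteSupport := by
    refine hC.2.subset fun v hv h1 => hv ?_
    show Real.log (C v) = 0
    rw [h1, Real.log_one]
  have hsmm : (fun v => (m : ℝ) * Real.log (⨆ i, Ab.abv v (x i))).HasFiniteSupport := by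
    refine hsm.subset fun v hv h0 => hv ?_
    have h0' : Real.log (⨆ i, Ab.abv v (x i)) = 0 := h0
    show (m : ℝ) * Real.log (⨆ i, Ab.abv v (x i)) = 0
    rw [h0', mul_zero]
  calc ∑ᶠ v, Real.log (⨆ k, Ab.abv v (MvPolynomial.eval x (N k)))
      ≤ ∑ᶠ v, (Real.log (C v) + m * Real.log (⨆ i, Ab.abv v (x i))) :=
        finsum_le_finsum' hsP (hsC.add hsmm) hle
    _ = ∑ᶠ v, Real.log (C v) + ∑ᶠ v, (m : ℝ) * Real.log (⨆ i, Ab.abv v (x i)) :=
        finsum_add_distrib hsC hsmm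
    _ = m * ∑ᶠ v, Real.log (⨆ i, Ab.abv v (x i)) + ∑ᶠ v, Real.log (C v) := by
        rw [← mul_finsum, add_comm]

/-- A conjugate of a nonzero coefficient vector is nonzero. -/
theorem mah_conj_ne_zero {ι : Type} {a : ι → K} (ha : a ≠ 0) (s : SemilinearAut K F) :
    (fun i => SemilinearAut.baseAut s (a i)) ≠ 0 := by
  obtain ⟨i, hi⟩ := Function.ne_iff.1 ha
  intro h0
  have h1 := congrFun h0 i
  exact hi (by simpa using h1)

theorem mah_ne_zero_of_sum {ι : Type} [Fintype ι] {f : ι → F} {a : ι → K}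
    (h : (∑ i, a i • f i) ≠ 0) : a ≠ 0 := by
  rintro rfl
  exact h (by simp)

namespace Setting

variable {Ab : AbsFamily K V} {pinf : Place K F} {t : F} {m : ℕ} (𝒮 : Setting Ab pinf t m)

theorem mah_pval_t {s : SemilinearAut K F} (hs : s ∈ 𝒮.Γ) (R : Place K F) :
    pval (s • R) t = SemilinearAut.baseAut s (pval R t) := by
  have h := mah_pval_smul s R t
  rwa [𝒮.t_fixed s hs] at h

/-- The forms of a norm datum commute with the automorphisms in `Γ`. -/
theorem mah_eval_fixed {ι : Type} [Fintype ι] {f : ι → F} {M : ℕ} (ND : 𝒮.NormData f M)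
    {g : SemilinearAut K F} (hg : g ∈ 𝒮.Γ) (a : ι → K) (k : Fin (M + 1)) :
    MvPolynomial.eval (fun i => SemilinearAut.baseAut g (a i)) (ND.N k)
      = SemilinearAut.baseAut g (MvPolynomial.eval a (ND.N k)) := by
  conv_lhs => rw [← ND.fixed g hg k]
  rw [MvPolynomial.eval_map]
  exact (MvPolynomial.eval₂_comp _ _ _).symm

/-- The norm polynomial of the conjugate coefficient vector. -/
theorem mah_poly {ι : Type} [Fintype ι] {f : ι → F} {M : ℕ} (ND : 𝒮.NormData f M)
    {g : SemilinearAut K F} (hg : g ∈ 𝒮.Γ) {a : ι → K} {Z : Place K F →₀ ℕ} {c : K}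
    (hc : (∑ k : Fin (M + 1), Polynomial.C (MvPolynomial.eval a (ND.N k)) * Polynomial.X ^ (k : ℕ))
      = Polynomial.C c * ∏ R ∈ Z.support, (Polynomial.X - Polynomial.C (pval R t)) ^ (Z R)) :
    (∑ k : Fin (M + 1), Polynomial.C (MvPolynomial.eval
        (fun i => SemilinearAut.baseAut g (a i)) (ND.N k)) * Polynomial.X ^ (k : ℕ))
      = Polynomial.C (SemilinearAut.baseAut g c)
        * rootPoly (mahRoots (fun R => SemilinearAut.baseAut g (pval R t)) Z) := by
  have h := congrArg (Polynomial.map ((SemilinearAut.baseAut g : K ≃+* K) : K →+* K)) hc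
  rw [mah_rootPoly]
  simp only [Polynomial.map_sum, Polynomial.map_mul, Polynomial.map_C, Polynomial.map_pow,
    Polynomial.map_X, Polynomial.map_prod, Polynomial.map_sub, RingEquiv.coe_toRingHom] at h
  rw [← h]
  refine Finset.sum_congr rfl fun k _ => ?_
  rw [mah_eval_fixed 𝒮 ND hg]

/-- **Global Gauss–Mahler for one conjugate**: the size of `N (g a)` summed over the places is
the size of the leading coefficient plus the heights of the conjugate roots, up to a constant. -/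
theorem mah_finsum {ι : Type} [Fintype ι] {f : ι → F} {M : ℕ} (ND : 𝒮.NormData f M)
    {g : SemilinearAut K F} (hg : g ∈ 𝒮.Γ) {a : ι → K} {Z : Place K F →₀ ℕ} {c : K} (hc0 : c ≠ 0)
    (hc : (∑ k : Fin (M + 1), Polynomial.C (MvPolynomial.eval a (ND.N k)) * Polynomial.X ^ (k : ℕ))
      = Polynomial.C c * ∏ R ∈ Z.support, (Polynomial.X - Polynomial.C (pval R t)) ^ (Z R)) :
    (fun k : Fin (M + 1) =>
        MvPolynomial.eval (fun i => SemilinearAut.baseAut g (a i)) (ND.N k)) ≠ 0 ∧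
    |∑ᶠ v, Real.log (⨆ k : Fin (M + 1), Ab.abv v
          (MvPolynomial.eval (fun i => SemilinearAut.baseAut g (a i)) (ND.N k)))
        - ∑ᶠ v, Real.log (Ab.abv v (SemilinearAut.baseAut g c))
        - ∑ R ∈ Z.support, (Z R : ℝ) *
            ∑ᶠ v, Real.log (max 1 (Ab.abv v (SemilinearAut.baseAut g (pval R t))))|
      ≤ Ab.finite_arch.toFinset.card * ((M : ℝ) ^ 2 * Real.log 2) := by
  set σ := SemilinearAut.baseAut g with hσ
  set rts := mahRoots (fun R => σ (pval R t)) Z with hrts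
  have hσc : σ c ≠ 0 := fun h0 => hc0 (by simpa using h0)
  obtain ⟨hcard, hcoef⟩ := mah_of_eq hσc (mah_poly 𝒮 ND hg hc)
  refine ⟨?_, ?_⟩
  · intro h0
    have h1 := congrFun h0 ⟨Multiset.card rts, Nat.lt_succ_of_le hcard⟩
    simp only [Pi.zero_apply] at h1
    rw [hcoef, coeff_card_rootPoly, mul_one] at h1
    exact hσc h1
  · have hfun : (fun v => Real.log (⨆ k : Fin (M + 1), Ab.abv v
          (MvPolynomial.eval (fun i => σ (a i)) (ND.N k))))
        = fun v => Real.log (Ab.abv v (σ c))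
          + Real.log (⨆ k : Fin (M + 1), Ab.abv v ((rootPoly rts).coeff k)) := by
      funext v
      have h1 : (⨆ k : Fin (M + 1), Ab.abv v (MvPolynomial.eval (fun i => σ (a i)) (ND.N k)))
          = Ab.abv v (σ c) * ⨆ k : Fin (M + 1), Ab.abv v ((rootPoly rts).coeff k) := by
        rw [Real.mul_iSup_of_nonneg ((Ab.abv v).nonneg _)]
        congr 1
        funext k
        rw [hcoef k, map_mul]
      rw [h1, Real.log_mul ((Ab.abv v).ne_zero hσc)
        (lt_of_lt_of_le one_pos (one_le_iSup_coeff_rootPoly (Ab.abv v) rts hcard)).ne']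
    have hs1 : (fun v => Real.log (Ab.abv v (σ c))).HasFiniteSupport := by
      refine (MorphismTame.AbsFamily.finite_abv_ne_one Ab hσc).subset fun v hv h1 => hv ?_
      show Real.log (Ab.abv v (σ c)) = 0
      rw [h1, Real.log_one]
    have hs2 := hasFiniteSupport_log_iSup_coeff Ab.abv Ab.finite_gt_one rts hcard
    rw [hfun, finsum_add_distrib hs1 hs2, add_sub_cancel_left]
    have h3 := abs_finsum_log_iSup_coeff_sub_le Ab.abv Ab.finite_arch Ab.finite_gt_one rts hcard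
    have e : (rts.map fun r => ∑ᶠ v, Real.log (max 1 (Ab.abv v r))).sum
        = ∑ R ∈ Z.support, (Z R : ℝ) * ∑ᶠ v, Real.log (max 1 (Ab.abv v (σ (pval R t)))) :=
      mah_sum_map (fun R => σ (pval R t)) Z Z.support _
    rw [e] at h3
    refine h3.trans (mul_le_mul_of_nonneg_left ?_ (Nat.cast_nonneg _))
    refine mul_le_mul_of_nonneg_right ?_ (Real.log_nonneg one_le_two)
    have h4 : (Multiset.card rts : ℝ) ≤ M := by exact_mod_cast hcard
    exact pow_le_pow_left₀ (Nat.cast_nonneg _) h4 2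

/-- **The key identity**: `∑ s ∈ Sg, ∑ᶠ v, log ⨆ k |N k (s a)|_v = m · ht etaU Z + O(1)`. -/
theorem mah_key {ι : Type} [Fintype ι] (f : ι → F) (M : ℕ) (ND : 𝒮.NormData f M) :
    ∃ C : ℝ, ∀ a : ι → K, 𝒮.UFix a → (∑ i, a i • f i) ≠ 0 →
      ∀ Z : Place K F →₀ ℕ, IsZDiv pinf (∑ i, a i • f i) Z →
      (∀ s ∈ 𝒮.Sg, (fun k : Fin (M + 1) =>
          MvPolynomial.eval (fun i => SemilinearAut.baseAut s (a i)) (ND.N k)) ≠ 0) ∧
      |∑ s ∈ 𝒮.Sg, ∑ᶠ v, Real.log (⨆ k : Fin (M + 1), Ab.abv v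
          (MvPolynomial.eval (fun i => SemilinearAut.baseAut s (a i)) (ND.N k)))
        - m * ht 𝒮.etaU Z| ≤ C := by
  refine ⟨𝒮.Sg.card * (Ab.finite_arch.toFinset.card * ((M : ℝ) ^ 2 * Real.log 2)),
    fun a haU hφ Z hZ => ?_⟩
  obtain ⟨c, hc0, hc⟩ := ND.root a hφ Z hZ
  -- `c` is `U`-fixed
  have hcU : ∀ u ∈ 𝒮.U, SemilinearAut.baseAut u c = c := by
    have hc' : (∑ k : Fin (M + 1), Polynomial.C (MvPolynomial.eval a (ND.N k))
          * Polynomial.X ^ (k : ℕ))
        = Polynomial.C c * rootPoly (mahRoots (fun R => pval R t) Z) := by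
      rw [mah_rootPoly]
      exact hc
    obtain ⟨hcard, hcoef⟩ := mah_of_eq hc0 hc'
    have hk := hcoef ⟨Multiset.card (mahRoots (fun R => pval R t) Z), Nat.lt_succ_of_le hcard⟩
    rw [coeff_card_rootPoly, mul_one] at hk
    intro u hu
    have e : (fun i => SemilinearAut.baseAut u (a i)) = a := funext fun i => haU u hu i
    rw [← hk, ← mah_eval_fixed 𝒮 ND (𝒮.U_le hu), e]
  have hpf := 𝒮.pf c hc0 hcU
  have hloc := fun s (hs : s ∈ 𝒮.Sg) => mah_finsum 𝒮 ND (𝒮.Sg_mem s hs) hc0 hc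
  refine ⟨fun s hs => (hloc s hs).1, ?_⟩
  -- the height of `Z`
  have hm : (m : ℝ) ≠ 0 := Nat.cast_ne_zero.mpr 𝒮.m_pos.ne'
  have hη : ∀ R : Place K F, (m : ℝ) * 𝒮.etaU R = ∑ s ∈ 𝒮.Sg,
      ∑ᶠ v, Real.log (max 1 (Ab.abv v (SemilinearAut.baseAut s (pval R t)))) := by
    intro R
    unfold etaU
    rw [Finset.mul_sum]
    refine Finset.sum_congr rfl fun s hs => ?_
    have e : (fun v => 𝒮.eta v (s • R)) = fun v =>
        Real.log (max 1 (Ab.abv v (SemilinearAut.baseAut s (pval R t)))) * (m : ℝ)⁻¹ := by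
      funext v
      unfold eta
      rw [mah_pval_t 𝒮 (𝒮.Sg_mem s hs), div_eq_mul_inv]
    rw [e, ← finsum_mul, mul_comm, mul_assoc, inv_mul_cancel₀ hm, mul_one]
  have hht : (m : ℝ) * ht 𝒮.etaU Z = ∑ s ∈ 𝒮.Sg, ∑ R ∈ Z.support, (Z R : ℝ) *
      ∑ᶠ v, Real.log (max 1 (Ab.abv v (SemilinearAut.baseAut s (pval R t)))) := by
    unfold ht Finsupp.sum
    rw [Finset.mul_sum, Finset.sum_comm]
    refine Finset.sum_congr rfl fun R _ => ?_
    rw [← Finset.mul_sum, ← hη R]
    ring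
  have e : ∑ s ∈ 𝒮.Sg, ∑ᶠ v, Real.log (⨆ k : Fin (M + 1), Ab.abv v
          (MvPolynomial.eval (fun i => SemilinearAut.baseAut s (a i)) (ND.N k)))
        - m * ht 𝒮.etaU Z
      = ∑ s ∈ 𝒮.Sg, (∑ᶠ v, Real.log (⨆ k : Fin (M + 1), Ab.abv v
          (MvPolynomial.eval (fun i => SemilinearAut.baseAut s (a i)) (ND.N k)))
        - ∑ᶠ v, Real.log (Ab.abv v (SemilinearAut.baseAut s c))
        - ∑ R ∈ Z.support, (Z R : ℝ) *
            ∑ᶠ v, Real.log (max 1 (Ab.abv v (SemilinearAut.baseAut s (pval R t))))) := by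
    rw [Finset.sum_sub_distrib, Finset.sum_sub_distrib, hpf, sub_zero, hht]
  rw [e]
  refine (Finset.abs_sum_le_sum_abs _ _).trans ?_
  refine (Finset.sum_le_card_nsmul _ _ _ fun s hs => (hloc s hs).2).trans ?_
  rw [nsmul_eq_mul]

/-- **(B≥)**, global Mahler, lower half, from a norm form. -/
theorem mahlerGe_of_normData {ι : Type} [Fintype ι] (f : ι → F) (M : ℕ) (ND : 𝒮.NormData f M)
    (harch : ∀ v, IsNonarchimedean (Ab.abv v) ∨ ∃ j : K →+* ℂ, ∀ a, Ab.abv v a = ‖j a‖) :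
    𝒮.MahlerGe f := by
  have _ := harch
  obtain ⟨C₀, hC₀⟩ := 𝒮.mah_key f M ND
  obtain ⟨C₁, hC₁⟩ := mah_forms_le Ab ND.N ND.hom
  have hm : (0 : ℝ) < m := Nat.cast_pos.mpr 𝒮.m_pos
  refine ⟨(C₀ + 𝒮.Sg.card * C₁) / m, fun a haU hφ Z hZ => ?_⟩
  obtain ⟨hne, habs⟩ := hC₀ a haU hφ Z hZ
  have ha : a ≠ 0 := mah_ne_zero_of_sum hφ
  have h1 : ∑ s ∈ 𝒮.Sg, ∑ᶠ v, Real.log (⨆ k : Fin (M + 1), Ab.abv v
        (MvPolynomial.eval (fun i => SemilinearAut.baseAut s (a i)) (ND.N k)))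
      ≤ ∑ s ∈ 𝒮.Sg,
        (m * ∑ᶠ v, Real.log (⨆ i, Ab.abv v (SemilinearAut.baseAut s (a i))) + C₁) :=
    Finset.sum_le_sum fun s hs => hC₁ _ (mah_conj_ne_zero ha s) (hne s hs)
  have h2 : ∑ s ∈ 𝒮.Sg,
        (m * ∑ᶠ v, Real.log (⨆ i, Ab.abv v (SemilinearAut.baseAut s (a i))) + C₁)
      = m * 𝒮.hU a + 𝒮.Sg.card * C₁ := by
    unfold hU
    rw [Finset.sum_add_distrib, ← Finset.mul_sum, Finset.sum_const, nsmul_eq_mul]
  have h3 := (abs_le.1 habs).1
  have h4 : (m : ℝ) * ht 𝒮.etaU Z ≤ m * (𝒮.hU a + (C₀ + 𝒮.Sg.card * C₁) / m) := by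
    rw [mul_add, mul_div_cancel₀ _ hm.ne']
    linarith
  exact le_of_mul_le_mul_left h4 hm

/-- **(B≤)**, global Mahler, upper half, from a norm form. -/
theorem mahlerLe_of_normData [IsAlgClosed K] {ι : Type} [Fintype ι] (f : ι → F) (M : ℕ)
    (hli : LinearIndependent K f) (ND : 𝒮.NormData f M)
    (hZ : ∀ a : ι → K, (∑ i, a i • f i) ≠ 0 →
      ∃ Z : Place K F →₀ ℕ, IsZDiv pinf (∑ i, a i • f i) Z) : 𝒮.MahlerLe f := by
  obtain ⟨C₀, hC₀⟩ := 𝒮.mah_key f M ND
  -- the forms `N k` have no common zero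
  have h0 : ∀ x : ι → K, (∀ p ∈ (⊥ : Ideal (MvPolynomial ι K)), MvPolynomial.aeval x p = 0) →
      (∀ k, MvPolynomial.aeval x (ND.N k) = 0) → x = 0 := by
    intro x _ hx
    by_contra hx0
    have hφ : (∑ i, x i • f i) ≠ 0 := by
      intro h
      apply hx0
      funext i
      exact (Fintype.linearIndependent_iff.1 hli) x h i
    obtain ⟨Z, hZ'⟩ := hZ x hφ
    obtain ⟨c, hc0, hc⟩ := ND.root x hφ Z hZ'
    have hc' : (∑ k : Fin (M + 1), Polynomial.C (MvPolynomial.eval x (ND.N k))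
          * Polynomial.X ^ (k : ℕ))
        = Polynomial.C c * rootPoly (mahRoots (fun R => pval R t) Z) := by
      rw [mah_rootPoly]
      exact hc
    obtain ⟨hcard, hcoef⟩ := mah_of_eq hc0 hc'
    have hk := hcoef ⟨Multiset.card (mahRoots (fun R => pval R t) Z), Nat.lt_succ_of_le hcard⟩
    rw [coeff_card_rootPoly, mul_one] at hk
    have hk' := hx ⟨Multiset.card (mahRoots (fun R => pval R t) Z), Nat.lt_succ_of_le hcard⟩
    rw [MvPolynomial.aeval_eq_eval] at hk'
    exact hc0 (hk.symm.trans hk')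
  obtain ⟨C₁, hC₁⟩ := MorphismTame.exists_abs_finsum_log_sub_le_of_absFamily Ab
    (⊥ : Ideal (MvPolynomial ι K)) (by
      intro p hp n
      rw [Ideal.mem_bot] at hp
      rw [hp, map_zero]
      exact Ideal.zero_mem _) ND.N ND.hom K h0
  have hm : (0 : ℝ) < m := Nat.cast_pos.mpr 𝒮.m_pos
  refine ⟨(C₀ + 𝒮.Sg.card * C₁) / m, fun a haU hφ Z hZ' => ?_⟩
  obtain ⟨hne, habs⟩ := hC₀ a haU hφ Z hZ'
  have ha : a ≠ 0 := mah_ne_zero_of_sum hφ
  have h1 : ∑ s ∈ 𝒮.Sg,
        (m * ∑ᶠ v, Real.log (⨆ i, Ab.abv v (SemilinearAut.baseAut s (a i))) - C₁)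
      ≤ ∑ s ∈ 𝒮.Sg, ∑ᶠ v, Real.log (⨆ k : Fin (M + 1), Ab.abv v
        (MvPolynomial.eval (fun i => SemilinearAut.baseAut s (a i)) (ND.N k))) := by
    refine Finset.sum_le_sum fun s _ => ?_
    have h := hC₁ _ (mah_conj_ne_zero ha s) (by
      intro p hp
      rw [Ideal.mem_bot] at hp
      rw [hp, map_zero])
    have h' := (abs_le.1 h).1
    linarith
  have h2 : ∑ s ∈ 𝒮.Sg,
        (m * ∑ᶠ v, Real.log (⨆ i, Ab.abv v (SemilinearAut.baseAut s (a i))) - C₁)
      = m * 𝒮.hU a - 𝒮.Sg.card * C₁ := by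
    unfold hU
    rw [Finset.sum_sub_distrib, ← Finset.mul_sum, Finset.sum_const, nsmul_eq_mul]
  have h3 := (abs_le.1 habs).2
  have h4 : (m : ℝ) * 𝒮.hU a ≤ m * (ht 𝒮.etaU Z + (C₀ + 𝒮.Sg.card * C₁) / m) := by
    rw [mul_add, mul_div_cancel₀ _ hm.ne']
    linarith
  exact le_of_mul_le_mul_left h4 hm

end Setting

end Fermat.Agent.MW.HG
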