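/-
MW / HT-Q, row G8 (helper75) — ASSEMBLY: the facts about the curve (`CurveD`, MW/HG/Curve2.lean)
give a `HeightDatumS` (MW/HQ/DefsS.lean), hence a nonnegative quasi-quadratic Northcott function
on `J` (HQS-4, MW/HQ/HeightS.lean).

* reciprocity (`Assembly.recip`)  = `exists_fun` + (B≤) (`mahlerLe_of_normData`) + `recip_of`;
* positivity (`Assembly.pos`)     = (Disc) `disc_ge` for `w₁`  +  (HadK) `hadK` for `κ` with
  `B = 0`  +  (HadR) `hadR_global_zdiv` for `w₁`  +  (B≥) `mahlerGe_of_normData`, and the real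
  arithmetic `Assembly.arith` (Riemann–Hurwitz used as the inequality `2γ + m ≤ deg 𝔯 + 1`);
* Northcott and the good translates are fields of `CurveD`.
-/
import Mathlib
import Fermat.Agent.MW.HG.Curve2
import Fermat.Agent.MW.HG.Basic
import Fermat.Agent.MW.HG.Mahler
import Fermat.Agent.MW.HG.RecUp
import Fermat.Agent.MW.HG.Disc
import Fermat.Agent.MW.HG.HadK
import Fermat.Agent.MW.HG.HadMinor
import Fermat.Agent.MW.HQ.HeightS

set_option autoImplicit false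

noncomputable section

namespace Fermat.Agent.MW.HG

open AlgebraicCurve Fermat.Agent.MW.HtM Fermat.Agent.MW.HQ

variable {K F V : Type*} [Field K] [Field F] [Algebra K F]
variable {Ab : AbsFamily K V} {pinf : Place K F} {t : F} {m : ℕ}

namespace Assembly

/-- The divisor of a tuple of `n` places has degree `n`. -/
theorem deg_tdiv {n : ℕ} (P : Fin n → Place K F) : deg (tdiv P) = n := by
  classical
  have h : ∀ s : Finset (Fin n), deg (∑ j ∈ s, Finsupp.single (P j) 1) = s.card := by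
    intro s
    induction s using Finset.induction_on with
    | empty => simp
    | insert a s ha ih =>
      rw [Finset.sum_insert ha, deg_add, ih, Finset.card_insert_of_notMem ha]
      have : deg (Finsupp.single (P a) 1) = 1 := by simp [deg]
      rw [this, add_comm]
  simpa [tdiv] using h Finset.univ

/-- The real arithmetic behind positivity (no auxiliary divisor, Riemann–Hurwitz as an
inequality). -/
theorem arith (γ n MK M d mm : ℝ) (hM : M = n + γ) (hMK : MK + 1 ≤ 2 * γ)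
    (hRH : 2 * γ + mm ≤ d + 1) (C₁ C₂ C₃ C₄ hE hR GEE GER GRR a : ℝ) (hE0 : 0 ≤ hE)
    (hR0 : 0 ≤ hR)
    (hdisc : ((2 * M + d) - mm - 1) * (hE + hR) ≤ GEE + 2 * GER + GRR + C₁)
    (hK : GEE ≤ 2 * MK * hE + C₂)
    (hRR : a + GRR / 2 ≤ M * hR + C₃)
    (hge : hE + hR ≤ a + C₄) :
    hE - (C₁ / 2 + C₂ / 2 + C₃ + C₄) ≤ -(n * hE + γ * hR - GER) := by
  subst hM
  have p1 : (MK + 1) * hE ≤ (2 * γ) * hE := mul_le_mul_of_nonneg_right hMK hE0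
  have p2 : (2 * γ + mm) * (hE + hR) ≤ (d + 1) * (hE + hR) :=
    mul_le_mul_of_nonneg_right hRH (by linarith)
  nlinarith [p1, p2]

variable {𝒮 : Setting Ab pinf t m} {J : Type*} [AddCommGroup J]

/-- **Uniform reciprocity** for rational divisors of class `0` and bounded degree. -/
theorem recip [IsAlgClosed K] (𝒟 : CurveD₀ 𝒮 J) (M e : ℕ) :
    ∃ C : ℝ, ∀ Z ∈ 𝒮.RatU, 𝒟.cl Z = 0 → deg Z ≤ M → ∀ E ∈ 𝒮.RatU, deg E ≤ e →
      Far 𝒮.far Z E → |beta 𝒮.gU 𝒮.etaU Z E| ≤ C := by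
  have hB : ∀ μ, 𝒮.MahlerLe (𝒟.w μ) := fun μ =>
    𝒮.mahlerLe_of_normData (𝒟.w μ) μ (𝒟.w_li μ) (𝒟.w_norm μ)
      (fun a ha => (𝒟.w_zdiv μ a ha).imp fun Z h => h.1)
  choose C hC using fun μ => 𝒮.recip_of 𝒟.mle 𝒟.lip (𝒟.w μ) μ (𝒟.w_fam μ) (hB μ) e
  refine ⟨∑ μ ∈ Finset.range (M + 1), |C μ|, fun Z hZ hcl hdeg E hE hEd hfar => ?_⟩
  obtain ⟨a, ha, hne, hdiv⟩ := 𝒟.exists_fun Z hZ hcl
  refine (hC (deg Z) a ha hne Z hdiv rfl E hE hEd hfar).trans ((le_abs_self _).trans ?_)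
  exact Finset.single_le_sum (f := fun μ => |C μ|) (fun _ _ => abs_nonneg _)
    (Finset.mem_range.2 (by omega))

/-- **Positivity** for good divisors. -/
theorem pos [IsAlgClosed K] (𝒟 : CurveD₀ 𝒮 J) :
    ∃ C : ℝ, ∀ E, 𝒟.Good E → ∃ R ∈ 𝒮.RatU, 𝒟.cl (E + R) = 0 ∧ deg R ≤ max 𝒟.γ 𝒟.n ∧
      Far 𝒮.far E R ∧ ht 𝒮.etaU E - C ≤ -beta 𝒮.gU 𝒮.etaU E R := by
  have hB : 𝒮.MahlerLe 𝒟.w₁ :=
    𝒮.mahlerLe_of_normData 𝒟.w₁ 𝒟.M₁ 𝒟.w₁_li 𝒟.w₁_norm 𝒟.w₁_zdiv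
  obtain ⟨C₁, h₁⟩ :=
    𝒮.disc_ge 𝒟.mle 𝒟.lip 𝒟.ram 𝒟.w₁ 𝒟.M₁ 𝒟.w₁_fam hB 𝒟.𝔯 𝒟.𝔯_inf 𝒟.𝔯_spec
  obtain ⟨C₂, h₂⟩ := 𝒮.hadK 𝒟.κ 𝒟.MK 𝒟.κ_fam 0 rfl (fun _ _ => Finsupp.mapDomain_zero) 𝒟.κ_det
  obtain ⟨C₃, h₃⟩ := HadMinor.hadR_global_zdiv 𝒮 𝒟.w₁ 𝒟.M₁ 𝒟.w₁_fam 𝒟.w₁_det
  obtain ⟨C₄, h₄⟩ := 𝒮.mahlerGe_of_normData 𝒟.w₁ 𝒟.M₁ 𝒟.w₁_norm 𝒟.harch
  refine ⟨C₁ / 2 + C₂ / 2 + C₃ + C₄, ?_⟩
  rintro E ⟨P, R, a, rfl, hPinj, hP, hPrat, hdet, haU, hne, hZ, hRinj, hR, hRrat, hred, hinj,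
    hfar𝔯, hfarPR, hmin⟩
  refine ⟨tdiv R, hRrat, 𝒟.w₁_cl a haU hne _ hZ, (deg_tdiv R).le.trans (le_max_right _ _),
    hfarPR, ?_⟩
  have hdegZ : deg (tdiv P + tdiv R) = 𝒟.M₁ := by
    rw [deg_add, deg_tdiv, deg_tdiv, ← 𝒟.hM₁, add_comm]
  have k1 := h₁ a haU hne _ hZ hdegZ hred
    (fun p hp q hq h => hinj (Finset.mem_coe.2 hp) (Finset.mem_coe.2 hq) h) hfar𝔯
  have k2 := h₂ P hPinj hP hPrat hdet
  have k3 := h₃ R a (tdiv P) hRinj hR hRrat haU hne hZ hmin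
  have k4 := h₄ a haU hne _ hZ
  have e1 : ht 𝒮.etaU (tdiv P + tdiv R) = ht 𝒮.etaU (tdiv P) + ht 𝒮.etaU (tdiv R) :=
    ht_add _ _ _
  have e2 : pairG 𝒮.gU (tdiv P + tdiv R) (tdiv P + tdiv R)
      = pairG 𝒮.gU (tdiv P) (tdiv P) + 2 * pairG 𝒮.gU (tdiv P) (tdiv R)
        + pairG 𝒮.gU (tdiv R) (tdiv R) := by
    rw [pairG_add_left, pairG_add_right, pairG_add_right,
      pairG_symm 𝒮.gU_symm (tdiv R) (tdiv P)]
    ring
  rw [e1, e2] at k1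
  rw [e1] at k4
  have k2' : pairG 𝒮.gU (tdiv P) (tdiv P) ≤ 2 * (𝒟.MK : ℝ) * ht 𝒮.etaU (tdiv P) + C₂ := by
    have h0 : pairG 𝒮.gU (0 : Place K F →₀ ℕ) (tdiv P) = 0 := by simp [pairG]
    rw [h0] at k2
    linarith
  unfold beta
  rw [deg_tdiv, deg_tdiv]
  exact arith (𝒟.γ : ℝ) 𝒟.n 𝒟.MK 𝒟.M₁ (deg 𝒟.𝔯 : ℝ) m
    (by rw [← 𝒟.hM₁]; push_cast; ring) (by exact_mod_cast 𝒟.hMK) (by exact_mod_cast 𝒟.hRH)
    C₁ C₂ C₃ C₄ _ _ _ _ _ (𝒮.hU a) (ht_nonneg 𝒮.etaU_nonneg _) (ht_nonneg 𝒮.etaU_nonneg _)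
    k1 k2' k3 k4

end Assembly

variable {𝒮 : Setting Ab pinf t m} {J : Type*} [AddCommGroup J]

/-- **G8 (Assembly), first half.**  The facts about the curve give a `HeightDatumS` whose pair
function, point height, rational divisors and class map are those of the setting. -/
theorem CurveD.exists_heightDatumS [IsAlgClosed K] (𝒟 : CurveD 𝒮 J) :
    ∃ H : HeightDatumS J (Place K F),
      H.g = 𝒮.gU ∧ H.η = 𝒮.etaU ∧ H.Rat = 𝒮.RatU ∧ H.cl = 𝒟.cl := by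
  refine ⟨{ g := 𝒮.gU
            η := 𝒮.etaU
            Rat := 𝒮.RatU
            cl := 𝒟.cl
            g_symm := 𝒮.gU_symm
            far := 𝒮.far
            far_irrefl := 𝒮.far_irrefl
            far_symm := 𝒮.far_symm
            near_trans := 𝒮.near_trans
            d₀ := 𝒟.d₀
            rep := 𝒟.rep
            recip := Assembly.recip 𝒟.toCurveD₀
            η_nonneg := 𝒮.etaU_nonneg
            g_lb := ⟨0, fun p q _ => by simpa using 𝒮.gU_nonneg p q⟩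
            Good := 𝒟.toCurveD₀.Good
            d₁ := max 𝒟.γ 𝒟.n
            good_rat := ?_
            good_deg := ?_
            pos := Assembly.pos 𝒟.toCurveD₀
            north := ?_
            translates := 𝒟.translates }, rfl, rfl, rfl, rfl⟩
  · rintro E ⟨P, R, a, rfl, -, -, hPrat, -⟩
    exact hPrat
  · rintro E ⟨P, R, a, rfl, -⟩
    exact (Assembly.deg_tdiv P).le.trans (le_max_left _ _)
  · intro T
    refine (𝒟.north 𝒟.γ T).subset ?_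
    rintro E ⟨⟨P, R, a, rfl, -, -, hPrat, -⟩, hT⟩
    exact ⟨hPrat, (Assembly.deg_tdiv P).le, hT⟩

/-- **G8 (Assembly), second half.**  The facts about the curve give a nonnegative
quasi-quadratic Northcott function on `J`. -/
theorem CurveD.exists_height [IsAlgClosed K] (𝒟 : CurveD 𝒮 J) :
    ∃ q : J → ℝ, (∀ x, 0 ≤ q x) ∧
      (∃ C : ℝ, ∀ x y, |q (x + y) + q (x - y) - 2 * (q x + q y)| ≤ C) ∧
      ∀ T : ℝ, {x | q x ≤ T}.Finite := by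
  obtain ⟨H, -⟩ := 𝒟.exists_heightDatumS
  exact H.exists_height

end Fermat.Agent.MW.HG
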