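/-
MW / HT-Q, row G6 (HadR), linear algebra (Mathlib only): the kernel of an `n × (n+1)` matrix
with a nonzero maximal minor is the line spanned by the vector of signed maximal minors
(Plücker coordinates).

* `plucker W i = (-1)^i · det (W without column i)`;
* `plucker_mul_eq` : for `W a = 0`: `plucker W i₀ · a i = a i₀ · plucker W i`;
* `exists_eq_smul_plucker` : over a field, `plucker W i₀ ≠ 0` and `W a = 0` give `a = c • plucker W`.
-/
import Mathlib

set_option autoImplicit false

namespace Fermat.Agent.MW.HG.Cramer

variable {K : Type*} [CommRing K] {n : ℕ}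

/-- The signed maximal minors of an `n × (n+1)` matrix. -/
noncomputable def plucker (W : Matrix (Fin n) (Fin (n + 1)) K) (i : Fin (n + 1)) : K :=
  (-1) ^ (i : ℕ) * (W.submatrix id i.succAbove).det

/-- **Cramer**: a vector of the kernel is proportional to the vector of signed minors. -/
theorem plucker_mul_eq (W : Matrix (Fin n) (Fin (n + 1)) K) (a : Fin (n + 1) → K)
    (ha : W.mulVec a = 0) (i₀ i : Fin (n + 1)) :
    plucker W i₀ * a i = a i₀ * plucker W i := by
  classical
  let Mb : Matrix (Fin (n + 1)) (Fin (n + 1)) K :=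
    Matrix.of fun r => Fin.cases (motive := fun _ => Fin (n + 1) → K)
      (Pi.single i₀ (1 : K) : Fin (n + 1) → K) W r
  have hM0 : ∀ c, Mb 0 c = (Pi.single i₀ (1 : K) : Fin (n + 1) → K) c := fun c => rfl
  have hMs : ∀ (r : Fin n) c, Mb r.succ c = W r c := fun r c => rfl
  have hsub : ∀ j : Fin (n + 1),
      Mb.submatrix Fin.succ j.succAbove = W.submatrix id j.succAbove := by
    intro j
    ext r c
    rw [Matrix.submatrix_apply, Matrix.submatrix_apply, hMs]
    rfl
  have h1 : Mb.mulVec a = Pi.single 0 (a i₀) := by
    funext j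
    refine Fin.cases ?_ (fun j => ?_) j
    · simp only [Matrix.mulVec, dotProduct, hM0, Pi.single_apply]
      rw [Finset.sum_eq_single i₀]
      · simp
      · intro c _ hc
        simp [hc]
      · intro h
        exact absurd (Finset.mem_univ _) h
    · have := congrFun ha j
      simp only [Matrix.mulVec, dotProduct, Pi.zero_apply] at this
      simp only [Matrix.mulVec, dotProduct, hMs]
      rw [this, Pi.single_eq_of_ne (Fin.succ_ne_zero j)]
  have h2 : Mb.adjugate.mulVec (Mb.mulVec a) = Mb.det • a := by
    rw [Matrix.mulVec_mulVec, Matrix.adjugate_mul, Matrix.smul_mulVec, Matrix.one_mulVec]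
  have h3 : Mb.det = plucker W i₀ := by
    rw [Matrix.det_succ_row_zero, Finset.sum_eq_single i₀]
    · rw [hM0, Pi.single_eq_same, mul_one, hsub]
      rfl
    · intro j _ hj
      rw [hM0, Pi.single_eq_of_ne hj, mul_zero, zero_mul]
    · intro h
      exact absurd (Finset.mem_univ _) h
  have h4 : Mb.adjugate i 0 = plucker W i := by
    rw [Matrix.adjugate_fin_succ_eq_det_submatrix, Fin.succAbove_zero, hsub]
    simp [plucker]
  have h5 := congrFun h2 i
  rw [h1, h3] at h5
  simp only [Matrix.mulVec_single, Pi.smul_apply, smul_eq_mul] at h5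
  rw [← h5]
  simp [h4, mul_comm]

/-- Over a field: the kernel is the line spanned by the signed minors. -/
theorem exists_eq_smul_plucker {K : Type*} [Field K] {n : ℕ}
    (W : Matrix (Fin n) (Fin (n + 1)) K) (a : Fin (n + 1) → K) (ha : W.mulVec a = 0)
    (i₀ : Fin (n + 1)) (h0 : plucker W i₀ ≠ 0) :
    ∀ i, a i = a i₀ / plucker W i₀ * plucker W i := by
  intro i
  have h := plucker_mul_eq W a ha i₀ i
  field_simp
  rw [mul_comm]
  exact h

end Fermat.Agent.MW.HG.Cramer
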