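/-
MW / HT-Q, row G6 (HadR): the residual Hadamard bound.

`w : Fin (n + 1) → F` a `Γ`-fixed family of functions regular off `pinf` (pole order `≤ M`), all
of whose `n`-subfamilies satisfy the local determinant bound `DetLe`.  For `n` points `R j` (a
`U`-stable tuple) and a `U`-fixed coefficient vector `a` with `∑ i, a i • w i` vanishing at all
`R j`: the vector `a` is proportional to the vector `μ` of signed maximal minors of the matrix
`(w i (R j))` (Plücker coordinates, `HG/Cramer.lean`), so `hU a = hU μ` by the product formula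
(`a = 0` : `hU 0 = 0 ≤ hU μ`), and the determinant bounds give

  `hU a + G(R, R) / 2 ≤ M · h(R) + C`.

Helper lemmas live in the namespace `Fermat.Agent.MW.HG.HadR` (local copies of the API of row G0).
-/
import Mathlib
import Fermat.Prelude.Def_AlgebraicCurve_Repartitions
import Fermat.Agent.MW.HG.Defs
import Fermat.Agent.MW.HG.Cramer

set_option autoImplicit false

noncomputable section

namespace Fermat.Agent.MW.HG

open AlgebraicCurve Function Fermat.Agent.MW.HtM Fermat.Agent.MW.HQ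

variable {K F V : Type*} [Field K] [Field F] [Algebra K F]

namespace HadR

/-! ### generic helpers -/

/-- The value map is equivariant for semilinear automorphisms. -/
theorem pval_smul_aux (g : SemilinearAut K F) (P : Place K F) (f : F) :
    pval (g • P) (g • f) = SemilinearAut.baseAut g (pval P f) := by
  classical
  have hval : ∀ x : F, (g • P).adicValuation (g • x) = P.adicValuation x := by
    intro x
    rcases eq_or_ne x 0 with rfl | hx
    · simp
    · have hgx : g • x ≠ 0 := (smul_ne_zero_iff_ne _).mpr hx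
      rw [Place.adicValuation_eq_exp_neg_ord _ hgx, Place.adicValuation_eq_exp_neg_ord _ hx,
        SemilinearAut.ord_smul]
  by_cases h : ∃ c : K, P.adicValuation (f - algebraMap K F c) < 1
  · obtain ⟨c, hc⟩ := h
    rw [pval_eq P hc]
    refine pval_eq (g • P) ?_
    have e : g • f - algebraMap K F (SemilinearAut.baseAut g c) = g • (f - algebraMap K F c) := by
      rw [smul_sub, SemilinearAut.smul_algebraMap]
    rw [e, hval]
    exact hc
  · have h' : ¬ ∃ c : K, (g • P).adicValuation (g • f - algebraMap K F c) < 1 := by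
      rintro ⟨c, hc⟩
      apply h
      refine ⟨(SemilinearAut.baseAut g).symm c, ?_⟩
      have e : g • (f - algebraMap K F ((SemilinearAut.baseAut g).symm c))
          = g • f - algebraMap K F c := by
        rw [smul_sub, SemilinearAut.smul_algebraMap, RingEquiv.apply_symm_apply]
      rw [← hval, e]
      exact hc
    have e1 : pval P f = 0 := by unfold pval; rw [dif_neg h]
    have e2 : pval (g • P) (g • f) = 0 := by unfold pval; rw [dif_neg h']
    rw [e1, e2, map_zero]

/-- A nonzero element has absolute value `1` at almost all places. -/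
theorem finite_abv_ne_one (Ab : AbsFamily K V) {a : K} (ha : a ≠ 0) :
    {v | Ab.abv v a ≠ 1}.Finite := by
  refine ((Ab.finite_gt_one a).union (Ab.finite_gt_one a⁻¹)).subset fun v hv => ?_
  rcases lt_or_gt_of_ne (show Ab.abv v a ≠ 1 from hv) with h | h
  · right
    show 1 < Ab.abv v a⁻¹
    rw [map_inv₀]
    exact (one_lt_inv₀ ((Ab.abv v).pos ha)).2 h
  · left
    exact h

theorem hasFiniteSupport_log_abv (Ab : AbsFamily K V) {a : K} (ha : a ≠ 0) :
    HasFiniteSupport fun v => Real.log (Ab.abv v a) := by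
  refine (finite_abv_ne_one Ab ha).subset fun v hv => ?_
  intro h1
  apply hv
  show Real.log (Ab.abv v a) = 0
  rw [h1, Real.log_one]

theorem hasFiniteSupport_log_iSup (Ab : AbsFamily K V) {ι : Type*} [Finite ι] (x : ι → K)
    (i₀ : ι) (h0 : x i₀ ≠ 0) :
    HasFiniteSupport fun v => Real.log (⨆ i, Ab.abv v (x i)) := by
  have hfin : ((⋃ i, {v | 1 < Ab.abv v (x i)}) ∪ {v | Ab.abv v (x i₀) ≠ 1}).Finite :=
    (Set.finite_iUnion fun i => Ab.finite_gt_one (x i)).union (finite_abv_ne_one Ab h0)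
  refine hfin.subset fun v hv => ?_
  by_contra hcon
  apply hv
  simp only [Set.mem_union, Set.mem_iUnion, Set.mem_ofPred_eq, not_or, not_exists, not_lt,
    not_not] at hcon
  have hne : Nonempty ι := ⟨i₀⟩
  have h1 : (⨆ i, Ab.abv v (x i)) = 1 := by
    refine le_antisymm (ciSup_le hcon.1) ?_
    rw [← hcon.2]
    exact le_ciSup (Set.finite_range fun i => Ab.abv v (x i)).bddAbove i₀
  show Real.log (⨆ i, Ab.abv v (x i)) = 0
  rw [h1, Real.log_one]

theorem hasFiniteSupport_log_tame {C : V → ℝ} (hC : Tame C) :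
    HasFiniteSupport fun v => Real.log (C v) := by
  refine hC.2.subset fun v hv => ?_
  intro h1
  apply hv
  show Real.log (C v) = 0
  rw [h1, Real.log_one]

/-- `∑_{j,k} g j k = 2 ∑_{j<k} g j k` for a symmetric `g` vanishing on the diagonal. -/
theorem sum_sum_eq_two_mul {n : ℕ} (g : Fin n → Fin n → ℝ) (hsymm : ∀ j k, g j k = g k j)
    (hdiag : ∀ j, g j j = 0) :
    ∑ j, ∑ k, g j k = 2 * ∑ j, ∑ k ∈ Finset.Ioi j, g j k := by
  classical
  have h1 : ∀ j k, g j k = (if j < k then g j k else 0) + (if k < j then g j k else 0) := by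
    intro j k
    rcases lt_trichotomy j k with h | h | h
    · rw [if_pos h, if_neg (not_lt.2 h.le), add_zero]
    · subst h
      rw [if_neg (lt_irrefl _), hdiag, add_zero]
    · rw [if_neg (not_lt.2 h.le), if_pos h, zero_add]
  have h2 : ∀ j, ∑ k, (if j < k then g j k else 0) = ∑ k ∈ Finset.Ioi j, g j k := by
    intro j
    rw [← Finset.sum_filter, Finset.filter_lt_eq_Ioi]
  have h3 : ∑ j, ∑ k, (if k < j then g j k else 0) = ∑ j, ∑ k ∈ Finset.Ioi j, g j k := by
    rw [Finset.sum_comm]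
    refine Finset.sum_congr rfl fun k _ => ?_
    rw [← h2 k]
    refine Finset.sum_congr rfl fun j _ => ?_
    rw [hsymm j k]
  calc ∑ j, ∑ k, g j k
      = ∑ j, ∑ k, ((if j < k then g j k else 0) + (if k < j then g j k else 0)) :=
        Finset.sum_congr rfl fun j _ => Finset.sum_congr rfl fun k _ => h1 j k
    _ = ∑ j, ∑ k ∈ Finset.Ioi j, g j k + ∑ j, ∑ k ∈ Finset.Ioi j, g j k := by
        simp only [Finset.sum_add_distrib, h2, h3]
    _ = 2 * ∑ j, ∑ k ∈ Finset.Ioi j, g j k := by ring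

theorem ht_single (η : Place K F → ℝ) (p : Place K F) (a : ℕ) :
    ht η (Finsupp.single p a) = (a : ℝ) * η p := by
  unfold ht
  rw [Finsupp.sum_single_index]
  simp

theorem ht_tdiv (η : Place K F → ℝ) {n : ℕ} (P : Fin n → Place K F) :
    ht η (tdiv P) = ∑ j, η (P j) := by
  classical
  unfold tdiv
  have key : ∀ s : Finset (Fin n), ht η (∑ j ∈ s, Finsupp.single (P j) 1) = ∑ j ∈ s, η (P j) := by
    intro s
    induction s using Finset.induction_on with
    | empty => simp
    | insert a s ha ih =>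
      rw [Finset.sum_insert ha, Finset.sum_insert ha, ht_add, ih, ht_single]
      simp
  exact key Finset.univ

theorem pairG_single (g : Place K F → Place K F → ℝ) (p q : Place K F) :
    pairG g (Finsupp.single p 1) (Finsupp.single q 1) = g p q := by
  unfold pairG
  rw [Finsupp.sum_single_index, Finsupp.sum_single_index]
  · simp
  · simp
  · simp

theorem pairG_tdiv (g : Place K F → Place K F → ℝ) {n : ℕ} (P : Fin n → Place K F) :
    pairG g (tdiv P) (tdiv P) = ∑ j, ∑ k, g (P j) (P k) := by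
  classical
  unfold tdiv
  have key1 : ∀ (D : Place K F →₀ ℕ) (s : Finset (Fin n)),
      pairG g D (∑ k ∈ s, Finsupp.single (P k) 1) =
        ∑ k ∈ s, pairG g D (Finsupp.single (P k) 1) := by
    intro D s
    induction s using Finset.induction_on with
    | empty => simp
    | insert a s ha ih => rw [Finset.sum_insert ha, Finset.sum_insert ha, pairG_add_right, ih]
  have key2 : ∀ (E : Place K F →₀ ℕ) (s : Finset (Fin n)),
      pairG g (∑ j ∈ s, Finsupp.single (P j) 1) E =
        ∑ j ∈ s, pairG g (Finsupp.single (P j) 1) E := by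
    intro E s
    induction s using Finset.induction_on with
    | empty => simp
    | insert a s ha ih => rw [Finset.sum_insert ha, Finset.sum_insert ha, pairG_add_left, ih]
  rw [key2]
  refine Finset.sum_congr rfl fun j _ => ?_
  rw [key1]
  refine Finset.sum_congr rfl fun k _ => ?_
  exact pairG_single g _ _

/-- A tuple permuted by an automorphism: if `R` is injective and the divisor `∑ j, R j` is
stable under `u`, then `u` permutes the `R j`. -/
theorem exists_perm_of_tdiv (u : SemilinearAut K F) {n : ℕ} (R : Fin n → Place K F)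
    (hR : Function.Injective R)
    (hu : (tdiv R).mapDomain (fun P => u • P) = tdiv R) :
    ∃ π : Equiv.Perm (Fin n), ∀ j, u • R j = R (π j) := by
  classical
  have hex : ∀ j, ∃ k, R k = u • R j := by
    intro j
    by_contra hcon
    push Not at hcon
    have h1 := DFunLike.congr_fun hu (u • R j)
    have h2 : tdiv R (u • R j) = 0 := by
      unfold tdiv
      rw [Finsupp.finsetSum_apply]
      refine Finset.sum_eq_zero fun k _ => ?_
      rw [Finsupp.single_apply, if_neg (hcon k)]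
    rw [h2] at h1
    have h3 : (tdiv R).mapDomain (fun P => u • P) (u • R j) ≠ 0 := by
      unfold tdiv
      rw [Finsupp.mapDomain_finsetSum, Finsupp.finsetSum_apply]
      simp only [Finsupp.mapDomain_single]
      have h4 : (1 : ℕ) ≤ ∑ k, (Finsupp.single (u • R k) 1 : Place K F →₀ ℕ) (u • R j) := by
        have h5 := Finset.single_le_sum (f := fun k =>
          (Finsupp.single (u • R k) 1 : Place K F →₀ ℕ) (u • R j)) (fun _ _ => Nat.zero_le _)
          (Finset.mem_univ j)
        simp only [Finsupp.single_eq_same] at h5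
        exact h5
      omega
    exact h3 h1
  choose π hπ using hex
  have hinj : Function.Injective π := by
    intro j j' hjj
    have h1 : u • R j = u • R j' := by rw [← hπ j, ← hπ j', hjj]
    exact hR (MulAction.injective u h1)
  exact ⟨Equiv.ofBijective π (Finite.injective_iff_bijective.1 hinj), fun j => (hπ j).symm⟩

/-- `baseAut g` of a determinant of values of `g`-fixed functions. -/
theorem baseAut_det (g : SemilinearAut K F) {n : ℕ} (κ : Fin n → F) (hκ : ∀ i, g • κ i = κ i)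
    (P : Fin n → Place K F) :
    SemilinearAut.baseAut g (Matrix.det (Matrix.of fun i j => pval (P j) (κ i))) =
      Matrix.det (Matrix.of fun i j => pval (g • P j) (κ i)) := by
  have h1 := RingHom.map_det ((SemilinearAut.baseAut g : K ≃+* K) : K →+* K)
    (Matrix.of fun i j => pval (P j) (κ i))
  have h2 : SemilinearAut.baseAut g (Matrix.det (Matrix.of fun i j => pval (P j) (κ i))) =
      ((SemilinearAut.baseAut g : K ≃+* K) : K →+* K)
        (Matrix.det (Matrix.of fun i j => pval (P j) (κ i))) := rfl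
  rw [h2, h1]
  congr 1
  ext i j
  simp only [RingHom.mapMatrix_apply, Matrix.map_apply, Matrix.of_apply, RingHom.coe_coe]
  rw [← pval_smul_aux, hκ]

/-! ### helpers in a `Setting` -/

variable {Ab : AbsFamily K V} {pinf : Place K F} {t : F} {m : ℕ} (𝒮 : Setting Ab pinf t m)

theorem smul_ne_pinf {s : SemilinearAut K F} (hs : s ∈ 𝒮.Γ) {p : Place K F} (hp : p ≠ pinf) :
    s • p ≠ pinf := by
  intro h
  apply hp
  have h1 : s • p = s • pinf := by rw [h, 𝒮.inf_fixed s hs]
  exact MulAction.injective s h1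

theorem hasFiniteSupport_eta (p : Place K F) : HasFiniteSupport fun v => 𝒮.eta v p := by
  refine (Ab.finite_gt_one (pval p t)).subset fun v hv => ?_
  by_contra hcon
  apply hv
  simp only [Set.mem_ofPred_eq, not_lt] at hcon
  show 𝒮.eta v p = 0
  unfold Setting.eta
  rw [max_eq_left hcon, Real.log_one, zero_div]

theorem hasFiniteSupport_lam {p q : Place K F} (hp : p ≠ pinf) (hq : q ≠ pinf) :
    HasFiniteSupport fun v => 𝒮.lam v p q := by
  by_cases hpq : p = q
  · subst hpq
    have h0 : (fun v => 𝒮.lam v p p) = fun _ => (0 : ℝ) := by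
      funext v
      unfold Setting.lam
      rw [𝒮.δ_self v p hp, Real.log_zero, neg_zero]
    rw [h0]
    exact hasFiniteSupport_zero
  · refine (𝒮.δ_eq_one p q hp hq hpq).subset fun v hv => ?_
    intro h1
    apply hv
    show 𝒮.lam v p q = 0
    unfold Setting.lam
    rw [h1, Real.log_one, neg_zero]

/-- The product formula for constants whose square is `U`-fixed. -/
theorem pf_sq_aux (c : K) (hc : c ≠ 0)
    (h : ∀ u ∈ 𝒮.U, SemilinearAut.baseAut u (c ^ 2) = c ^ 2) :
    ∑ s ∈ 𝒮.Sg, ∑ᶠ v, Real.log (Ab.abv v (SemilinearAut.baseAut s c)) = 0 := by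
  have h1 := 𝒮.pf (c ^ 2) (pow_ne_zero 2 hc) h
  have h2 : ∀ s : SemilinearAut K F,
      ∑ᶠ v, Real.log (Ab.abv v (SemilinearAut.baseAut s (c ^ 2))) =
        2 * ∑ᶠ v, Real.log (Ab.abv v (SemilinearAut.baseAut s c)) := by
    intro s
    rw [mul_finsum]
    refine finsum_congr fun v => ?_
    rw [map_pow, map_pow, Real.log_pow]
    push_cast
    ring
  simp only [h2] at h1
  rw [← Finset.mul_sum] at h1
  linarith

theorem gU_self {p : Place K F} (hp : p ≠ pinf) : 𝒮.gU p p = 0 := by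
  unfold Setting.gU
  refine Finset.sum_eq_zero fun s hs => ?_
  refine finsum_eq_zero_of_forall_eq_zero fun v => ?_
  unfold Setting.lam
  rw [𝒮.δ_self v _ (smul_ne_pinf 𝒮 (𝒮.Sg_mem s hs) hp), Real.log_zero, neg_zero]

theorem gU_symm_aux (p q : Place K F) : 𝒮.gU p q = 𝒮.gU q p := by
  unfold Setting.gU
  refine Finset.sum_congr rfl fun s _ => finsum_congr fun v => ?_
  unfold Setting.lam
  rw [𝒮.δ_symm]

end HadR

namespace Setting

variable {Ab : AbsFamily K V} {pinf : Place K F} {t : F} {m : ℕ} (𝒮 : Setting Ab pinf t m)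

/-- **(HadR)**: the residual Hadamard bound. -/
theorem hadR {n : ℕ} (w : Fin (n + 1) → F) (M : ℕ) (hw : 𝒮.Fam w M)
    (hdet : ∀ i : Fin (n + 1), 𝒮.DetLe (fun k : Fin n => w (i.succAbove k)) M 0) :
    ∃ C : ℝ, ∀ a : Fin (n + 1) → K, 𝒮.UFix a → ∀ R : Fin n → Place K F, Function.Injective R →
      (∀ j, R j ≠ pinf) → tdiv R ∈ 𝒮.RatU →
      (∀ j, ∑ i, a i * pval (R j) (w i) = 0) →
      (∃ i : Fin (n + 1),
        Matrix.det (Matrix.of fun k j => pval (R j) (w (i.succAbove k))) ≠ 0) →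
        𝒮.hU a + pairG 𝒮.gU (tdiv R) (tdiv R) / 2 ≤ (M : ℝ) * ht 𝒮.etaU (tdiv R) + C := by
  classical
  unfold Setting.DetLe at hdet
  choose C hC hbound using hdet
  set Ctot : V → ℝ := fun v => ∏ i, C i v with hCtot
  have hCtame : Tame Ctot := Tame.prod _ _ fun i _ => hC i
  have hCle : ∀ i v, C i v ≤ Ctot v := fun i v =>
    Tame.le_prod _ _ (fun i _ => hC i) (Finset.mem_univ i) v
  have hm : (0 : ℝ) < m := by exact_mod_cast 𝒮.m_pos
  refine ⟨(𝒮.Sg.card : ℝ) * ((∑ᶠ v, Real.log (Ctot v)) / m), ?_⟩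
  intro a haU R hRinj hRinf hRat hker hex
  obtain ⟨i₀, hi₀⟩ := hex
  -- the matrix of values and its Plücker vector
  set W : Matrix (Fin n) (Fin (n + 1)) K := Matrix.of fun j i => pval (R j) (w i) with hW
  set minor : Fin (n + 1) → K := fun i =>
    Matrix.det (Matrix.of fun k j => pval (R j) (w (i.succAbove k))) with hminor
  have hpl : ∀ i, Cramer.plucker W i = (-1) ^ (i : ℕ) * minor i := by
    intro i
    unfold Cramer.plucker
    congr 1
    rw [← Matrix.det_transpose]
    rfl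
  set μ : Fin (n + 1) → K := Cramer.plucker W with hμ
  have hμi : ∀ i, μ i = (-1) ^ (i : ℕ) * minor i := hpl
  have hμ0 : μ i₀ ≠ 0 := by
    rw [hμi]
    exact mul_ne_zero (pow_ne_zero _ (neg_ne_zero.2 one_ne_zero)) hi₀
  have hWa : W.mulVec a = 0 := by
    funext j
    have h1 := hker j
    simp only [Matrix.mulVec, dotProduct, hW, Matrix.of_apply, Pi.zero_apply]
    rw [← h1]
    exact Finset.sum_congr rfl fun i _ => mul_comm _ _
  have hcr := Cramer.exists_eq_smul_plucker W a hWa i₀ hμ0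
  set c : K := a i₀ / μ i₀ with hc
  -- the Galois action on the minors
  have hgal : ∀ g ∈ 𝒮.Γ, ∀ i, SemilinearAut.baseAut g (minor i) =
      Matrix.det (Matrix.of fun k j => pval (g • R j) (w (i.succAbove k))) := fun g hg i =>
    HadR.baseAut_det g (fun k => w (i.succAbove k)) (fun k => hw.fixed g hg _) R
  have habsμ : ∀ (s : SemilinearAut K F) (v : V) (i : Fin (n + 1)),
      Ab.abv v (SemilinearAut.baseAut s (μ i)) = Ab.abv v (SemilinearAut.baseAut s (minor i)) := by
    intro s v i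
    rw [hμi, map_mul, map_pow, map_neg, map_one, (Ab.abv v).map_mul, (Ab.abv v).map_pow,
      (Ab.abv v).map_neg, (Ab.abv v).map_one, one_pow, one_mul]
  have hsign : ∀ u ∈ 𝒮.U, ∃ ε : K, ε * ε = 1 ∧
      ∀ i, SemilinearAut.baseAut u (μ i) = ε * μ i := by
    intro u hu
    obtain ⟨π, hπ⟩ := HadR.exists_perm_of_tdiv u R hRinj (hRat.2 u hu)
    refine ⟨(((Equiv.Perm.sign π : ℤˣ) : ℤ) : K), ?_, fun i => ?_⟩
    · have h1 : ((Equiv.Perm.sign π : ℤˣ) : ℤ) * ((Equiv.Perm.sign π : ℤˣ) : ℤ) = 1 := by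
        rw [← Units.val_mul, Int.units_mul_self, Units.val_one]
      exact_mod_cast congrArg (fun z : ℤ => (z : K)) h1
    · rw [hμi, map_mul, map_pow, map_neg, map_one, hgal u (𝒮.U_le hu) i]
      have e : (Matrix.of fun k j => pval (u • R j) (w (i.succAbove k))) =
          (Matrix.of fun k j => pval (R j) (w (i.succAbove k))).submatrix id π := by
        ext k j
        simp only [Matrix.submatrix_apply, Matrix.of_apply, id_eq, hπ j]
      rw [e, Matrix.det_permute']
      ring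
  -- the local terms of `hU μ`
  have hsμ0 : ∀ s : SemilinearAut K F, SemilinearAut.baseAut s (μ i₀) ≠ 0 := fun s =>
    (map_ne_zero_iff _ (SemilinearAut.baseAut s).injective).2 hμ0
  set Fsv : SemilinearAut K F → V → ℝ := fun s v =>
    Real.log (⨆ i, Ab.abv v (SemilinearAut.baseAut s (μ i))) with hFsv
  have hFfin : ∀ s, HasFiniteSupport (Fsv s) := fun s =>
    HadR.hasFiniteSupport_log_iSup Ab (fun i => SemilinearAut.baseAut s (μ i)) i₀ (hsμ0 s)
  have hsup_ge : ∀ (s : SemilinearAut K F) (v : V),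
      Ab.abv v (SemilinearAut.baseAut s (μ i₀)) ≤
        ⨆ i, Ab.abv v (SemilinearAut.baseAut s (μ i)) := fun s v =>
    le_ciSup (Set.finite_range fun i => Ab.abv v (SemilinearAut.baseAut s (μ i))).bddAbove i₀
  have hsup_pos : ∀ (s : SemilinearAut K F) (v : V),
      0 < ⨆ i, Ab.abv v (SemilinearAut.baseAut s (μ i)) := fun s v =>
    lt_of_lt_of_le ((Ab.abv v).pos (hsμ0 s)) (hsup_ge s v)
  have hUμ : 𝒮.hU μ = ∑ s ∈ 𝒮.Sg, ∑ᶠ v, Fsv s v := rfl
  -- Claim A : `hU a ≤ hU μ`
  have hA : 𝒮.hU a ≤ 𝒮.hU μ := by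
    by_cases hc0 : c = 0
    · have ha0 : ∀ i, a i = 0 := fun i => by rw [hcr i, hc0, zero_mul]
      have h1 : 𝒮.hU a = 0 := by
        unfold Setting.hU
        refine Finset.sum_eq_zero fun s _ => finsum_eq_zero_of_forall_eq_zero fun v => ?_
        simp [ha0]
      have hsq : ∀ u ∈ 𝒮.U, SemilinearAut.baseAut u (μ i₀ ^ 2) = μ i₀ ^ 2 := by
        intro u hu
        obtain ⟨ε, hε, hεμ⟩ := hsign u hu
        rw [map_pow, hεμ, mul_pow, sq ε, hε, one_mul]
      rw [h1, hUμ, ← HadR.pf_sq_aux 𝒮 (μ i₀) hμ0 hsq]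
      refine Finset.sum_le_sum fun s _ => ?_
      refine finsum_le_finsum' (HadR.hasFiniteSupport_log_abv Ab (hsμ0 s)) (hFfin s) fun v => ?_
      exact Real.log_le_log ((Ab.abv v).pos (hsμ0 s)) (hsup_ge s v)
    · have hsc0 : ∀ s : SemilinearAut K F, SemilinearAut.baseAut s c ≠ 0 := fun s =>
        (map_ne_zero_iff _ (SemilinearAut.baseAut s).injective).2 hc0
      have hsq : ∀ u ∈ 𝒮.U, SemilinearAut.baseAut u (c ^ 2) = c ^ 2 := by
        intro u hu
        obtain ⟨ε, hε, hεμ⟩ := hsign u hu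
        have hε0 : ε ≠ 0 := by
          rintro rfl
          rw [mul_zero] at hε
          exact zero_ne_one hε
        rw [hc, map_pow, map_div₀, hεμ, haU u hu i₀, div_pow, div_pow, mul_pow, sq ε, hε,
          one_mul]
      have h1 : 𝒮.hU a =
          ∑ s ∈ 𝒮.Sg, ∑ᶠ v, Real.log (Ab.abv v (SemilinearAut.baseAut s c)) + 𝒮.hU μ := by
        rw [hUμ, ← Finset.sum_add_distrib]
        unfold Setting.hU
        refine Finset.sum_congr rfl fun s _ => ?_
        rw [← finsum_add_distrib (HadR.hasFiniteSupport_log_abv Ab (hsc0 s)) (hFfin s)]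
        refine finsum_congr fun v => ?_
        have e : (⨆ i, Ab.abv v (SemilinearAut.baseAut s (a i))) =
            Ab.abv v (SemilinearAut.baseAut s c) *
              ⨆ i, Ab.abv v (SemilinearAut.baseAut s (μ i)) := by
          rw [Real.mul_iSup_of_nonneg ((Ab.abv v).nonneg _)]
          congr 1
          funext i
          rw [hcr i, map_mul, map_mul]
        rw [e, Real.log_mul ((Ab.abv v).pos (hsc0 s)).ne' (hsup_pos s v).ne']
      rw [h1, HadR.pf_sq_aux 𝒮 c hc0 hsq, zero_add]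
  -- Claim B : the determinant bounds
  have hRs : ∀ s ∈ 𝒮.Sg, ∀ j, s • R j ≠ pinf := fun s hs j =>
    HadR.smul_ne_pinf 𝒮 (𝒮.Sg_mem s hs) (hRinf j)
  have hRsne : ∀ (s : SemilinearAut K F) {j k : Fin n}, j ≠ k → s • R j ≠ s • R k :=
    fun s j k hjk h => hjk (hRinj (MulAction.injective s h))
  have hpt : ∀ s ∈ 𝒮.Sg, ∀ v, Fsv s v ≤ Real.log (Ctot v) / m +
      (M : ℝ) * ∑ j, 𝒮.eta v (s • R j) -
      ∑ j, ∑ k ∈ Finset.Ioi j, 𝒮.lam v (s • R j) (s • R k) := by
    intro s hs v
    obtain ⟨i, hi⟩ := exists_eq_ciSup_of_finite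
      (f := fun i => Ab.abv v (SemilinearAut.baseAut s (μ i)))
    have hpos := hsup_pos s v
    rw [← hi] at hpos
    show Real.log (⨆ i, Ab.abv v (SemilinearAut.baseAut s (μ i))) ≤ _
    rw [← hi]
    simp only [habsμ s v i, hgal s (𝒮.Sg_mem s hs) i] at hpos ⊢
    have hb := hbound i v (fun j => s • R j) (hRs s hs)
    simp only [Finsupp.prod_zero_index, Finset.prod_const_one, one_pow, mul_one] at hb
    have hXpos : 0 < ∏ j, max 1 (Ab.abv v (pval (s • R j) t)) :=
      Finset.prod_pos fun j _ => lt_of_lt_of_le one_pos (le_max_left _ _)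
    have hδpos : ∀ i' : Fin n, ∀ j ∈ Finset.Ioi i', 0 < 𝒮.δ v (s • R i') (s • R j) :=
      fun i' j hj => 𝒮.δ_pos v _ _ (hRs s hs i') (hRs s hs j)
        (hRsne s (ne_of_lt (Finset.mem_Ioi.1 hj)))
    have hYpos : 0 < ∏ i', ∏ j ∈ Finset.Ioi i', 𝒮.δ v (s • R i') (s • R j) :=
      Finset.prod_pos fun i' _ => Finset.prod_pos fun j hj => hδpos i' j hj
    have hCpos : 0 < C i v := (hC i).pos v
    have hlog := Real.log_le_log (pow_pos hpos m) hb
    rw [Real.log_pow, Real.log_mul (mul_pos hCpos (pow_pos hXpos M)).ne' (pow_pos hYpos m).ne',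
      Real.log_mul hCpos.ne' (pow_pos hXpos M).ne', Real.log_pow, Real.log_pow] at hlog
    have hlogX : Real.log (∏ j, max 1 (Ab.abv v (pval (s • R j) t))) =
        m * ∑ j, 𝒮.eta v (s • R j) := by
      rw [Real.log_prod (fun j _ => (lt_of_lt_of_le one_pos (le_max_left _ _)).ne'),
        Finset.mul_sum]
      refine Finset.sum_congr rfl fun j _ => ?_
      unfold Setting.eta
      field_simp
    have hlogY : Real.log (∏ i', ∏ j ∈ Finset.Ioi i', 𝒮.δ v (s • R i') (s • R j)) =
        -∑ j, ∑ k ∈ Finset.Ioi j, 𝒮.lam v (s • R j) (s • R k) := by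
      rw [Real.log_prod (fun i' _ => (Finset.prod_pos fun j hj => hδpos i' j hj).ne'),
        ← Finset.sum_neg_distrib]
      refine Finset.sum_congr rfl fun i' _ => ?_
      rw [Real.log_prod (fun j hj => (hδpos i' j hj).ne'), ← Finset.sum_neg_distrib]
      refine Finset.sum_congr rfl fun j _ => ?_
      unfold Setting.lam
      ring
    have hlogC : Real.log (C i v) ≤ Real.log (Ctot v) := Real.log_le_log hCpos (hCle i v)
    rw [hlogX, hlogY] at hlog
    have key : (m : ℝ) * Real.log (Ab.abv v (Matrix.det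
        (Matrix.of fun k j => pval (s • R j) (w (i.succAbove k))))) ≤
        (m : ℝ) * (Real.log (Ctot v) / m + (M : ℝ) * ∑ j, 𝒮.eta v (s • R j) -
          ∑ j, ∑ k ∈ Finset.Ioi j, 𝒮.lam v (s • R j) (s • R k)) := by
      have e : (m : ℝ) * (Real.log (Ctot v) / m + (M : ℝ) * ∑ j, 𝒮.eta v (s • R j) -
          ∑ j, ∑ k ∈ Finset.Ioi j, 𝒮.lam v (s • R j) (s • R k)) =
          Real.log (Ctot v) + (M : ℝ) * ((m : ℝ) * ∑ j, 𝒮.eta v (s • R j)) +
            (m : ℝ) * -∑ j, ∑ k ∈ Finset.Ioi j, 𝒮.lam v (s • R j) (s • R k) := by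
        field_simp
        ring
      rw [e]
      linarith
    exact le_of_mul_le_mul_left key hm
  have hBs : ∀ s ∈ 𝒮.Sg, ∑ᶠ v, Fsv s v ≤ (∑ᶠ v, Real.log (Ctot v)) / m +
      (M : ℝ) * ∑ j, ∑ᶠ v, 𝒮.eta v (s • R j) -
      ∑ j, ∑ k ∈ Finset.Ioi j, ∑ᶠ v, 𝒮.lam v (s • R j) (s • R k) := by
    intro s hs
    have hL : HasFiniteSupport fun v => Real.log (Ctot v) :=
      HadR.hasFiniteSupport_log_tame hCtame
    have he : ∀ j, HasFiniteSupport fun v => 𝒮.eta v (s • R j) := fun j =>
      HadR.hasFiniteSupport_eta 𝒮 _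
    have hl : ∀ j k, HasFiniteSupport fun v => 𝒮.lam v (s • R j) (s • R k) := fun j k =>
      HadR.hasFiniteSupport_lam 𝒮 (hRs s hs j) (hRs s hs k)
    have h1 : HasFiniteSupport fun v => Real.log (Ctot v) / m :=
      hL.subset fun v hv h0 => hv (by
        have h0' : Real.log (Ctot v) = 0 := h0
        show Real.log (Ctot v) / m = 0
        rw [h0', zero_div])
    have h2s : HasFiniteSupport fun v => ∑ j, 𝒮.eta v (s • R j) :=
      HasFiniteSupport.sum he Finset.univ
    have h2 : HasFiniteSupport fun v => (M : ℝ) * ∑ j, 𝒮.eta v (s • R j) :=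
      h2s.subset fun v hv h0 => hv (by
        have h0' : ∑ j, 𝒮.eta v (s • R j) = 0 := h0
        show (M : ℝ) * ∑ j, 𝒮.eta v (s • R j) = 0
        rw [h0', mul_zero])
    have h3j : ∀ j, HasFiniteSupport fun v => ∑ k ∈ Finset.Ioi j, 𝒮.lam v (s • R j) (s • R k) :=
      fun j => HasFiniteSupport.sum (hl j) (Finset.Ioi j)
    have h3 : HasFiniteSupport fun v =>
        ∑ j, ∑ k ∈ Finset.Ioi j, 𝒮.lam v (s • R j) (s • R k) :=
      HasFiniteSupport.sum h3j Finset.univ
    have h12 : HasFiniteSupport fun v =>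
        Real.log (Ctot v) / m + (M : ℝ) * ∑ j, 𝒮.eta v (s • R j) := h1.add h2
    have e1 : ∑ᶠ v, Real.log (Ctot v) / m = (∑ᶠ v, Real.log (Ctot v)) / m := by
      simp only [div_eq_mul_inv]
      rw [finsum_mul]
    have e2 : ∑ᶠ v, (M : ℝ) * ∑ j, 𝒮.eta v (s • R j) =
        (M : ℝ) * ∑ j, ∑ᶠ v, 𝒮.eta v (s • R j) := by
      rw [← mul_finsum, finsum_sum_comm _ _ fun j _ => he j]
    have e3 : ∑ᶠ v, ∑ j, ∑ k ∈ Finset.Ioi j, 𝒮.lam v (s • R j) (s • R k) =
        ∑ j, ∑ k ∈ Finset.Ioi j, ∑ᶠ v, 𝒮.lam v (s • R j) (s • R k) := by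
      rw [finsum_sum_comm _ _ fun j _ => h3j j]
      refine Finset.sum_congr rfl fun j _ => ?_
      rw [finsum_sum_comm _ _ fun k _ => hl j k]
    calc ∑ᶠ v, Fsv s v
        ≤ ∑ᶠ v, (Real.log (Ctot v) / m + (M : ℝ) * ∑ j, 𝒮.eta v (s • R j) -
            ∑ j, ∑ k ∈ Finset.Ioi j, 𝒮.lam v (s • R j) (s • R k)) :=
          finsum_le_finsum' (hFfin s) (h12.sub h3) (hpt s hs)
      _ = (∑ᶠ v, Real.log (Ctot v)) / m + (M : ℝ) * ∑ j, ∑ᶠ v, 𝒮.eta v (s • R j) -
            ∑ j, ∑ k ∈ Finset.Ioi j, ∑ᶠ v, 𝒮.lam v (s • R j) (s • R k) := by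
          rw [finsum_sub_distrib h12 h3, finsum_add_distrib h1 h2, e1, e2, e3]
  have hB : 𝒮.hU μ + pairG 𝒮.gU (tdiv R) (tdiv R) / 2 ≤
      (M : ℝ) * ht 𝒮.etaU (tdiv R) + (𝒮.Sg.card : ℝ) * ((∑ᶠ v, Real.log (Ctot v)) / m) := by
    have h1 : 𝒮.hU μ ≤ ∑ s ∈ 𝒮.Sg, ((∑ᶠ v, Real.log (Ctot v)) / m +
        (M : ℝ) * ∑ j, ∑ᶠ v, 𝒮.eta v (s • R j) -
        ∑ j, ∑ k ∈ Finset.Ioi j, ∑ᶠ v, 𝒮.lam v (s • R j) (s • R k)) := by
      rw [hUμ]
      exact Finset.sum_le_sum hBs
    have h2 : ∑ s ∈ 𝒮.Sg, ((∑ᶠ v, Real.log (Ctot v)) / m +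
        (M : ℝ) * ∑ j, ∑ᶠ v, 𝒮.eta v (s • R j) -
        ∑ j, ∑ k ∈ Finset.Ioi j, ∑ᶠ v, 𝒮.lam v (s • R j) (s • R k)) =
        (𝒮.Sg.card : ℝ) * ((∑ᶠ v, Real.log (Ctot v)) / m) + (M : ℝ) * ∑ j, 𝒮.etaU (R j) -
          ∑ j, ∑ k ∈ Finset.Ioi j, 𝒮.gU (R j) (R k) := by
      rw [Finset.sum_sub_distrib, Finset.sum_add_distrib, Finset.sum_const, nsmul_eq_mul,
        ← Finset.mul_sum]
      have e1 : ∑ s ∈ 𝒮.Sg, ∑ j, ∑ᶠ v, 𝒮.eta v (s • R j) = ∑ j, 𝒮.etaU (R j) := by
        rw [Finset.sum_comm]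
        rfl
      have e2 : ∑ s ∈ 𝒮.Sg, ∑ j, ∑ k ∈ Finset.Ioi j, ∑ᶠ v, 𝒮.lam v (s • R j) (s • R k) =
          ∑ j, ∑ k ∈ Finset.Ioi j, 𝒮.gU (R j) (R k) := by
        rw [Finset.sum_comm]
        refine Finset.sum_congr rfl fun j _ => ?_
        rw [Finset.sum_comm]
        rfl
      rw [e1, e2]
    have h3 : ht 𝒮.etaU (tdiv R) = ∑ j, 𝒮.etaU (R j) := HadR.ht_tdiv _ R
    have h4 : pairG 𝒮.gU (tdiv R) (tdiv R) = 2 * ∑ j, ∑ k ∈ Finset.Ioi j, 𝒮.gU (R j) (R k) := by
      rw [HadR.pairG_tdiv]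
      exact HadR.sum_sum_eq_two_mul _ (fun j k => HadR.gU_symm_aux 𝒮 _ _)
        (fun j => HadR.gU_self 𝒮 (hRinf j))
    rw [h3, h4]
    linarith
  linarith

end Setting

end Fermat.Agent.MW.HG
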