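/-
MW / HT-Q, row G7 (PosArith): positivity from (Disc) + (HadK) + (HadR) + (B≥) + (Small).

Pure real arithmetic on top of the bi-additivity and symmetry of `pairG` and `ht ≥ 0`:
for `E` (degree `γ`) and `R` (degree `n`, `n + γ = M`),

  `(Disc)`  `(2M + deg 𝔯 − m − 1)·h(E + R) ≤ G(E + R, E + R) + C₁`   (`deg 𝔯 + 1 = 2γ + m`),
  `(HadK)`  `G(E, E) + 2·G(B, E) ≤ 2·MK·h(E) + C₂`                    (`MK + 2 ≤ 2γ + deg B`),
  `(HadR)`  `a + G(R, R)/2 ≤ M·h(R) + C₃`,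
  `(B≥)`    `h(E + R) ≤ a + C₄`,
  `(Small)` `|β(B, E)| ≤ h(E)/2 + C₅`

give `h(E) − (C₁/2 + C₂/2 + C₃ + C₄ + C₅) ≤ −β(E, R)`.
-/
import Mathlib
import Fermat.Agent.MW.HG.Defs

set_option autoImplicit false

namespace Fermat.Agent.MW.HG

open AlgebraicCurve Fermat.Agent.MW.HtM Fermat.Agent.MW.HQ

variable {K F V : Type*} [Field K] [Field F] [Algebra K F] {Ab : AbsFamily K V}
  {pinf : Place K F} {t : F} {m : ℕ} (𝒮 : Setting Ab pinf t m)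

namespace Setting

/-- Symmetry of the global pair function (local copy for row G7). -/
theorem posArith_gU_symm (p q : Place K F) : 𝒮.gU p q = 𝒮.gU q p := by
  unfold gU lam
  refine Finset.sum_congr rfl fun s _ => ?_
  refine finsum_congr fun v => ?_
  rw [𝒮.δ_symm]

/-- Nonnegativity of the global point height (local copy for row G7). -/
theorem posArith_etaU_nonneg (p : Place K F) : 0 ≤ 𝒮.etaU p := by
  unfold etaU
  refine Finset.sum_nonneg fun s _ => finsum_nonneg fun v => ?_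
  unfold eta
  exact div_nonneg (Real.log_nonneg (le_max_left _ _)) (Nat.cast_nonneg _)

/-- **Row G7: positivity, arithmetic part.** -/
theorem pos_arith (γ M MK n : ℕ) (hn : n + γ = M) (B 𝔯 : Place K F →₀ ℕ)
    (hMK : MK + 2 ≤ 2 * γ + deg B) (hD : deg 𝔯 + 1 = 2 * γ + m)
    (C₁ C₂ C₃ C₄ C₅ : ℝ) (E R : Place K F →₀ ℕ) (hE : deg E = γ) (hRd : deg R = n) (ha : ℝ)
    (hdisc : ((2 * M + deg 𝔯 : ℝ) - m - 1) * ht 𝒮.etaU (E + R) ≤
      pairG 𝒮.gU (E + R) (E + R) + C₁)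
    (hK : pairG 𝒮.gU E E + 2 * pairG 𝒮.gU B E ≤ 2 * (MK : ℝ) * ht 𝒮.etaU E + C₂)
    (hRR : ha + pairG 𝒮.gU R R / 2 ≤ (M : ℝ) * ht 𝒮.etaU R + C₃)
    (hge : ht 𝒮.etaU (E + R) ≤ ha + C₄)
    (hsmall : |beta 𝒮.gU 𝒮.etaU B E| ≤ (1 / 2 : ℝ) * ht 𝒮.etaU E + C₅) :
    ht 𝒮.etaU E - (C₁ / 2 + C₂ / 2 + C₃ + C₄ + C₅) ≤ -beta 𝒮.gU 𝒮.etaU E R := by
  have hη := 𝒮.posArith_etaU_nonneg
  have e1 : ht 𝒮.etaU (E + R) = ht 𝒮.etaU E + ht 𝒮.etaU R := ht_add _ _ _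
  have e2 : pairG 𝒮.gU (E + R) (E + R)
      = pairG 𝒮.gU E E + 2 * pairG 𝒮.gU E R + pairG 𝒮.gU R R := by
    rw [pairG_add_left, pairG_add_right, pairG_add_right,
      pairG_symm 𝒮.posArith_gU_symm R E]
    ring
  rw [e1, e2] at hdisc
  rw [e1] at hge
  have hsm := (abs_le.mp hsmall).2
  unfold beta at hsm ⊢
  rw [hE] at hsm
  rw [hE, hRd]
  have hM' : (M : ℝ) = n + γ := by rw [← hn]; push_cast; ring
  have hD' : (deg 𝔯 : ℝ) + 1 = 2 * γ + m := by exact_mod_cast hD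
  have hMK' : (MK : ℝ) + 2 ≤ 2 * γ + deg B := by exact_mod_cast hMK
  have hE0 := ht_nonneg hη E
  have hB0 := ht_nonneg hη B
  have p1 : ((MK : ℝ) + 2) * ht 𝒮.etaU E ≤ (2 * γ + deg B) * ht 𝒮.etaU E :=
    mul_le_mul_of_nonneg_right hMK' hE0
  have p2 : 0 ≤ (γ : ℝ) * ht 𝒮.etaU B := mul_nonneg (Nat.cast_nonneg _) hB0
  have hdeg : (2 * (M : ℝ) + deg 𝔯) - m - 1 = 2 * n + 4 * γ - 2 := by rw [hM']; linarith
  rw [hdeg] at hdisc
  rw [hM'] at hRR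
  nlinarith [p1, p2, hE0, hdisc, hK, hRR, hge, hsm]

end Setting

end Fermat.Agent.MW.HG
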