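/-
MW / HT-Q — row G8 (second seat, helper21): `CurveD ⟹ HeightDatumS ⟹ the height function`.

The assembly of the height datum from the facts about the curve (`CurveD` of `HG/Curve2.lean`)
and the global rows:

* (G2) `Setting.mahlerLe_of_normData`, `Setting.mahlerGe_of_normData`   (`HG/Mahler.lean`),
* (G5) `Setting.hadK`                                                   (`HG/HadK.lean`),
* (G6) `Setting.hadR`                                                   (`HG/HadR.lean`),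
* (G7') `Setting.pos_arith'`                                            (`HG/PosArith2.lean`),
* (HQS) `HeightDatumS.exists_height`                                    (`HQ/HeightS.lean`),

with the conclusions of rows (G3) `Setting.recip_of` and (G4) `Setting.disc_ge` as the two named
hypotheses `RecipFor` and `DiscFor` (literally the conclusions of those rows, so that the final
term is `exists_height_of 𝒟 (fun μ e => 𝒮.recip_of …) (𝒮.disc_ge …)`).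
-/
import Mathlib
import Fermat.Agent.MW.HG.Curve2
import Fermat.Agent.MW.HG.Basic
import Fermat.Agent.MW.HG.Mahler
import Fermat.Agent.MW.HG.HadK
import Fermat.Agent.MW.HG.HadR
import Fermat.Agent.MW.HG.PosArith2
import Fermat.Agent.MW.HQ.HeightS

set_option autoImplicit false

noncomputable section

namespace Fermat.Agent.MW.HG.AssemblyB

open AlgebraicCurve Fermat.Agent.MW.HtM Fermat.Agent.MW.HQ Fermat.Agent.MW.HG

variable {K F V : Type*} [Field K] [Field F] [Algebra K F]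
variable {Ab : AbsFamily K V} {pinf : Place K F} {t : F} {m : ℕ}

/-! ### The two global rows that enter as hypotheses -/

/-- The conclusion of row G3 (`Setting.recip_of`) for the family `f`: two-sided reciprocity in
`t`-general position. -/
def RecipFor (𝒮 : Setting Ab pinf t m) {ι : Type} [Fintype ι] (f : ι → F) (M e : ℕ) : Prop :=
  ∃ C : ℝ, ∀ a : ι → K, 𝒮.UFix a → (∑ i, a i • f i) ≠ 0 →
    ∀ Z : Place K F →₀ ℕ, IsZDiv pinf (∑ i, a i • f i) Z → deg Z = M →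
    ∀ E ∈ 𝒮.RatU, deg E ≤ e → Far 𝒮.far Z E → |beta 𝒮.gU 𝒮.etaU Z E| ≤ C

/-- The conclusion of row G4 (`Setting.disc_ge`, non-injective form) for the family `f` and the
divisor `𝔯`: the discriminant bound. -/
def DiscFor (𝒮 : Setting Ab pinf t m) {ι : Type} [Fintype ι] (f : ι → F) (M : ℕ)
    (𝔯 : Place K F →₀ ℕ) : Prop :=
  ∃ C : ℝ, ∀ a : ι → K, 𝒮.UFix a → (∑ i, a i • f i) ≠ 0 →
    ∀ Z : Place K F →₀ ℕ, IsZDiv pinf (∑ i, a i • f i) Z → deg Z = M → (∀ P, Z P ≤ 1) →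
      Far 𝒮.far Z 𝔯 →
      ((2 * M + deg 𝔯 : ℝ) - m - 1) * ht 𝒮.etaU Z ≤ pairG 𝒮.gU Z Z + C

/-- The discriminant bound for divisors on whose support `t` is injective (the weaker form:
it suffices for the assembly, because `CurveD₀.Good` carries the injectivity). -/
def DiscInjFor (𝒮 : Setting Ab pinf t m) {ι : Type} [Fintype ι] (f : ι → F) (M : ℕ)
    (𝔯 : Place K F →₀ ℕ) : Prop :=
  ∃ C : ℝ, ∀ a : ι → K, 𝒮.UFix a → (∑ i, a i • f i) ≠ 0 →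
    ∀ Z : Place K F →₀ ℕ, IsZDiv pinf (∑ i, a i • f i) Z → deg Z = M → (∀ P, Z P ≤ 1) →
      Set.InjOn (fun Q : Place K F => pval Q t) (Z.support : Set (Place K F)) →
      Far 𝒮.far Z 𝔯 →
      ((2 * M + deg 𝔯 : ℝ) - m - 1) * ht 𝒮.etaU Z ≤ pairG 𝒮.gU Z Z + C

theorem DiscFor.inj {𝒮 : Setting Ab pinf t m} {ι : Type} [Fintype ι] {f : ι → F} {M : ℕ}
    {𝔯 : Place K F →₀ ℕ} (h : DiscFor 𝒮 f M 𝔯) : DiscInjFor 𝒮 f M 𝔯 := by
  obtain ⟨C, hC⟩ := h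
  exact ⟨C, fun a ha hne Z hZ hdeg hred _ hfar => hC a ha hne Z hZ hdeg hred hfar⟩

/-! ### Small facts -/

theorem deg_tdiv {n : ℕ} (P : Fin n → Place K F) : deg (tdiv P) = n := by
  unfold deg
  rw [HadK.sum_tdiv P (fun _ a => a) (fun _ => rfl) (fun _ _ _ => rfl)]
  simp

theorem one_le_tdiv_apply {n : ℕ} (R : Fin n → Place K F) (j : Fin n) : 1 ≤ tdiv R (R j) := by
  classical
  unfold tdiv
  rw [Finsupp.finsetSum_apply]
  calc 1 = (Finsupp.single (R j) 1 : Place K F →₀ ℕ) (R j) := by simp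
    _ ≤ ∑ k, (Finsupp.single (R k) 1 : Place K F →₀ ℕ) (R j) :=
        Finset.single_le_sum (f := fun k => (Finsupp.single (R k) 1 : Place K F →₀ ℕ) (R j))
          (fun _ _ => Nat.zero_le _) (Finset.mem_univ j)

/-- All residue fields are `K`, in the form used by the value calculus. -/
theorem resK_of (𝒮 : Setting Ab pinf t m) (P : Place K F) : Fermat.Agent.Lib.FF.RR.ResK P := by
  intro a
  obtain ⟨c, hc⟩ := 𝒮.resK P (a : F) (Fermat.Agent.S24.ord_nonneg_of_mem P a.2)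
  refine ⟨c, ?_⟩
  rw [← adicValuation_lt_one_iff]
  have e : ((a - algebraMap K P.toValuationSubring c : P.toValuationSubring) : F)
      = (a : F) - algebraMap K F c := by
    rw [← P.coe_algebraMap]
    rfl
  rw [e]
  exact hc

/-- A `K`-combination of functions regular off `pinf` which vanishes at `Q ≠ pinf` gives a linear
relation between the values at `Q`. -/
theorem sum_mul_pval_eq_zero (𝒮 : Setting Ab pinf t m) {ι : Type*} [Fintype ι] (a : ι → K)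
    (w : ι → F) (hw : ∀ i, RegOff pinf (w i)) {Q : Place K F} (hQ : Q ≠ pinf)
    (hpos : 0 < Q.ord (∑ i, a i • w i)) : ∑ i, a i * pval Q (w i) = 0 := by
  have hres := resK_of 𝒮 Q
  have hmem : ∀ i, w i ∈ Q.toValuationSubring := fun i =>
    Fermat.Agent.S24.mem_of_ord_nonneg Q (hw i Q hQ)
  have hmem' : ∀ i ∈ Finset.univ, a i • w i ∈ Q.toValuationSubring := fun i _ => by
    rw [Algebra.smul_def]
    exact mul_mem (Q.algebraMap_mem' (a i)) (hmem i)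
  have h1 : pval Q (∑ i, a i • w i) = ∑ i, a i * pval Q (w i) := by
    rw [pval_sum hres Finset.univ (fun i => a i • w i) hmem']
    exact Finset.sum_congr rfl fun i _ => pval_smul hres (a i) (hmem i)
  rw [← h1]
  exact pval_eq_zero_of_ord_pos hpos

variable {𝒮 : Setting Ab pinf t m} {J : Type*} [AddCommGroup J]

/-! ### Global Mahler for the families of the curve -/

theorem mahlerLe_w [IsAlgClosed K] (𝒟 : CurveD₀ 𝒮 J) (μ : ℕ) : 𝒮.MahlerLe (𝒟.w μ) :=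
  𝒮.mahlerLe_of_normData (𝒟.w μ) μ (𝒟.w_li μ) (𝒟.w_norm μ) fun a ha =>
    (𝒟.w_zdiv μ a ha).imp fun _ hZ => hZ.1

theorem mahlerLe_w₁ [IsAlgClosed K] (𝒟 : CurveD₀ 𝒮 J) : 𝒮.MahlerLe 𝒟.w₁ :=
  𝒮.mahlerLe_of_normData 𝒟.w₁ 𝒟.M₁ 𝒟.w₁_li 𝒟.w₁_norm 𝒟.w₁_zdiv

theorem mahlerGe_w₁ (𝒟 : CurveD₀ 𝒮 J) : 𝒮.MahlerGe 𝒟.w₁ :=
  𝒮.mahlerGe_of_normData 𝒟.w₁ 𝒟.M₁ 𝒟.w₁_norm 𝒟.harch

/-! ### The fields of the height datum -/

/-- **Uniform reciprocity** (the field `recip` of `PairingDatumS`). -/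
theorem recip_of_curve (𝒟 : CurveD₀ 𝒮 J) (hrecip : ∀ μ e : ℕ, RecipFor 𝒮 (𝒟.w μ) μ e)
    (M e : ℕ) :
    ∃ C : ℝ, ∀ Z ∈ 𝒮.RatU, 𝒟.cl Z = 0 → deg Z ≤ M → ∀ E ∈ 𝒮.RatU, deg E ≤ e →
      Far 𝒮.far Z E → |beta 𝒮.gU 𝒮.etaU Z E| ≤ C := by
  classical
  choose C hC using fun μ => hrecip μ e
  refine ⟨∑ μ ∈ Finset.range (M + 1), |C μ|, fun Z hZ hcl hdeg E hE hdE hfar => ?_⟩
  obtain ⟨a, haU, hne, hZd⟩ := 𝒟.exists_fun Z hZ hcl
  have h1 := hC (deg Z) a haU hne Z hZd rfl E hE hdE hfar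
  have h2 : |C (deg Z)| ≤ ∑ μ ∈ Finset.range (M + 1), |C μ| :=
    Finset.single_le_sum (f := fun μ => |C μ|) (fun μ _ => abs_nonneg _)
      (Finset.mem_range.mpr (by omega))
  exact h1.trans ((le_abs_self _).trans h2)

theorem good_rat (𝒟 : CurveD₀ 𝒮 J) {E : Place K F →₀ ℕ} (hE : 𝒟.Good E) : E ∈ 𝒮.RatU := by
  obtain ⟨P, R, a, rfl, -, -, hPrat, -⟩ := hE
  exact hPrat

theorem good_deg (𝒟 : CurveD₀ 𝒮 J) {E : Place K F →₀ ℕ} (hE : 𝒟.Good E) : deg E = 𝒟.γ := by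
  obtain ⟨P, R, a, rfl, -⟩ := hE
  exact deg_tdiv P

/-- **Positivity** (the field `pos` of `HeightDatumS`). -/
theorem pos_of_curve (𝒟 : CurveD₀ 𝒮 J) (hdisc : DiscInjFor 𝒮 𝒟.w₁ 𝒟.M₁ 𝒟.𝔯) :
    ∃ C : ℝ, ∀ E, 𝒟.Good E → ∃ R ∈ 𝒮.RatU, 𝒟.cl (E + R) = 0 ∧ deg R ≤ max 𝒟.γ 𝒟.n ∧
      Far 𝒮.far E R ∧ ht 𝒮.etaU E - C ≤ -beta 𝒮.gU 𝒮.etaU E R := by
  classical
  obtain ⟨C₁, hC₁⟩ := hdisc
  obtain ⟨C₂, hC₂⟩ := 𝒮.hadK 𝒟.κ 𝒟.MK 𝒟.κ_fam 0 rfl (fun s _ => Finsupp.mapDomain_zero) 𝒟.κ_det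
  obtain ⟨C₃, hC₃⟩ := 𝒮.hadR 𝒟.w₁ 𝒟.M₁ 𝒟.w₁_fam 𝒟.w₁_det
  obtain ⟨C₄, hC₄⟩ := mahlerGe_w₁ 𝒟
  refine ⟨C₁ / 2 + C₂ / 2 + C₃ + C₄, ?_⟩
  rintro E ⟨P, R, a, rfl, hPinj, hPinf, hPrat, hdet, haU, hne, hZ, hRinj, hRinf, hRrat, hred,
    hinj, hfar𝔯, hfarPR, hminor⟩
  have hdP : deg (tdiv P) = 𝒟.γ := deg_tdiv P
  have hdR : deg (tdiv R) = 𝒟.n := deg_tdiv R
  have hdZ : deg (tdiv P + tdiv R) = 𝒟.M₁ := by
    rw [deg_add, hdP, hdR, ← 𝒟.hM₁, add_comm]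
  refine ⟨tdiv R, hRrat, 𝒟.w₁_cl a haU hne _ hZ, hdR.le.trans (le_max_right _ _), hfarPR, ?_⟩
  -- (Disc)
  have h1 := hC₁ a haU hne _ hZ hdZ hred hinj hfar𝔯
  -- (HadK)
  have h2 := hC₂ P hPinj hPinf hPrat hdet
  have h20 : pairG 𝒮.gU 0 (tdiv P) = 0 := by simp [pairG]
  -- (HadR)
  have hvan : ∀ j, ∑ i, a i * pval (R j) (𝒟.w₁ i) = 0 := fun j =>
    sum_mul_pval_eq_zero 𝒮 a 𝒟.w₁ 𝒟.w₁_fam.reg (hRinf j) (by
      rw [← hZ.2 (R j) (hRinf j)]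
      have := one_le_tdiv_apply R j
      have h' : 1 ≤ (tdiv P + tdiv R) (R j) := by
        rw [Finsupp.add_apply]; omega
      exact_mod_cast h')
  have h3 := hC₃ a haU R hRinj hRinf hRrat hvan hminor
  -- (B≥)
  have h4 := hC₄ a haU hne _ hZ
  -- Riemann–Hurwitz, as an inequality: replace `𝔯` by a divisor of the exact degree
  have hm := 𝒮.m_pos
  set 𝔯' : Place K F →₀ ℕ := Finsupp.single pinf (2 * 𝒟.γ + m - 1) with h𝔯'
  have hd' : deg 𝔯' = 2 * 𝒟.γ + m - 1 := by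
    rw [h𝔯']
    unfold deg
    exact Finsupp.sum_single_index rfl
  have hD : deg 𝔯' + 1 = 2 * 𝒟.γ + m := by rw [hd']; omega
  have hht : 0 ≤ ht 𝒮.etaU (tdiv P + tdiv R) := ht_nonneg 𝒮.etaU_nonneg _
  have hle : ((deg 𝔯' : ℕ) : ℝ) ≤ ((deg 𝒟.𝔯 : ℕ) : ℝ) := by
    have := 𝒟.hRH
    exact_mod_cast (by omega : deg 𝔯' ≤ deg 𝒟.𝔯)
  have h1' : ((2 * 𝒟.M₁ + deg 𝔯' : ℝ) - m - 1) * ht 𝒮.etaU (tdiv P + tdiv R) ≤
      pairG 𝒮.gU (tdiv P + tdiv R) (tdiv P + tdiv R) + C₁ := by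
    refine le_trans (mul_le_mul_of_nonneg_right ?_ hht) h1
    linarith
  have hK : pairG 𝒮.gU (tdiv P) (tdiv P) ≤ 2 * (𝒟.MK : ℝ) * ht 𝒮.etaU (tdiv P) + C₂ := by
    rw [h20] at h2
    linarith
  exact 𝒮.pos_arith' 𝒟.γ 𝒟.M₁ 𝒟.MK 𝒟.n 𝒟.hM₁ 𝔯' 𝒟.hMK hD C₁ C₂ C₃ C₄ (tdiv P) (tdiv R) hdP hdR
    (𝒮.hU a) h1' hK h3 h4

/-! ### The assembly -/

/-- **Row G8**: the height datum of the curve, from the global rows G3 (`recip_of`) and G4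
(`disc_ge`). -/
theorem exists_heightDatumS_of (𝒟 : CurveD 𝒮 J)
    (hrecip : ∀ μ e : ℕ, RecipFor 𝒮 (𝒟.w μ) μ e) (hdisc : DiscInjFor 𝒮 𝒟.w₁ 𝒟.M₁ 𝒟.𝔯) :
    ∃ H : HeightDatumS J (Place K F),
      H.g = 𝒮.gU ∧ H.η = 𝒮.etaU ∧ H.Rat = 𝒮.RatU ∧ H.cl = 𝒟.cl := by
  refine ⟨{ g := 𝒮.gU
            η := 𝒮.etaU
            Rat := 𝒮.RatU
            cl := 𝒟.cl
            g_symm := 𝒮.gU_symm
            far := 𝒮.far
            far_irrefl := 𝒮.far_irrefl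
            far_symm := 𝒮.far_symm
            near_trans := 𝒮.near_trans
            d₀ := 𝒟.d₀
            rep := 𝒟.rep
            recip := recip_of_curve 𝒟.toCurveD₀ hrecip
            η_nonneg := 𝒮.etaU_nonneg
            g_lb := ⟨0, fun p q _ => by simpa using 𝒮.gU_nonneg p q⟩
            Good := 𝒟.Good
            d₁ := max 𝒟.γ 𝒟.n
            good_rat := fun E hE => good_rat 𝒟.toCurveD₀ hE
            good_deg := fun E hE => (good_deg 𝒟.toCurveD₀ hE).le.trans (le_max_left _ _)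
            pos := pos_of_curve 𝒟.toCurveD₀ hdisc
            north := fun T => (𝒟.north 𝒟.γ T).subset fun E hE =>
              ⟨good_rat 𝒟.toCurveD₀ hE.1, (good_deg 𝒟.toCurveD₀ hE.1).le, hE.2⟩
            translates := 𝒟.translates }, rfl, rfl, rfl, rfl⟩

/-- **Row G8**: the nonnegative quasi-quadratic Northcott function on `J`. -/
theorem exists_height_of (𝒟 : CurveD 𝒮 J)
    (hrecip : ∀ μ e : ℕ, RecipFor 𝒮 (𝒟.w μ) μ e) (hdisc : DiscInjFor 𝒮 𝒟.w₁ 𝒟.M₁ 𝒟.𝔯) :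
    ∃ q : J → ℝ, (∀ x, 0 ≤ q x) ∧
      (∃ C : ℝ, ∀ x y, |q (x + y) + q (x - y) - 2 * (q x + q y)| ≤ C) ∧
      ∀ T : ℝ, {x | q x ≤ T}.Finite := by
  obtain ⟨H, -⟩ := exists_heightDatumS_of 𝒟 hrecip hdisc
  exact H.exists_height

/-- **Row G8, closed form modulo the literal rows G3 and G4.**  The two hypotheses are the
LITERAL statements of `Setting.recip_of` (row 447) and `Setting.disc_ge` (row 448, non-injective
form) for this `𝒮`; when those rows are on main the final term is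
`exists_height_of_rows 𝒟 (fun hM hL _ _ f M hf hB e => 𝒮.recip_of hM hL f M hf hB e)
  (fun hM hL hR _ _ f M hf hB 𝔯 h h' => 𝒮.disc_ge hM hL hR f M hf hB 𝔯 h h')`. -/
theorem exists_height_of_rows [IsAlgClosed K] (𝒟 : CurveD 𝒮 J)
    (recip_of : ∀ (_hM : 𝒮.MLe) (_hL : 𝒮.Lip) (ι : Type) [Fintype ι] (f : ι → F) (M : ℕ)
      (_hf : 𝒮.Fam f M) (_hB : 𝒮.MahlerLe f) (e : ℕ),
      ∃ C : ℝ, ∀ a : ι → K, 𝒮.UFix a → (∑ i, a i • f i) ≠ 0 →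
        ∀ Z : Place K F →₀ ℕ, IsZDiv pinf (∑ i, a i • f i) Z → deg Z = M →
        ∀ E ∈ 𝒮.RatU, deg E ≤ e → Far 𝒮.far Z E → |beta 𝒮.gU 𝒮.etaU Z E| ≤ C)
    (disc_ge : ∀ (_hM : 𝒮.MLe) (_hL : 𝒮.Lip) (_hR : 𝒮.RamLe) (ι : Type) [Fintype ι] (f : ι → F)
      (M : ℕ) (_hf : 𝒮.Fam f M) (_hB : 𝒮.MahlerLe f) (𝔯 : Place K F →₀ ℕ) (_h𝔯 : 𝔯 pinf = 0)
      (_h𝔯' : ∀ P : Place K F, P ≠ pinf →
        (𝔯 P : ℤ) = P.ord (t - algebraMap K F (pval P t)) - 1),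
      ∃ C : ℝ, ∀ a : ι → K, 𝒮.UFix a → (∑ i, a i • f i) ≠ 0 →
        ∀ Z : Place K F →₀ ℕ, IsZDiv pinf (∑ i, a i • f i) Z → deg Z = M → (∀ P, Z P ≤ 1) →
          Far 𝒮.far Z 𝔯 →
          ((2 * M + deg 𝔯 : ℝ) - m - 1) * ht 𝒮.etaU Z ≤ pairG 𝒮.gU Z Z + C) :
    ∃ q : J → ℝ, (∀ x, 0 ≤ q x) ∧
      (∃ C : ℝ, ∀ x y, |q (x + y) + q (x - y) - 2 * (q x + q y)| ≤ C) ∧
      ∀ T : ℝ, {x | q x ≤ T}.Finite :=
  exists_height_of 𝒟
    (fun μ e => recip_of 𝒟.mle 𝒟.lip _ (𝒟.w μ) μ (𝒟.w_fam μ) (mahlerLe_w 𝒟.toCurveD₀ μ) e)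
    (DiscFor.inj (𝒮 := 𝒮) (f := 𝒟.w₁) (M := 𝒟.M₁) (𝔯 := 𝒟.𝔯)
      (disc_ge 𝒟.mle 𝒟.lip 𝒟.ram _ 𝒟.w₁ 𝒟.M₁ 𝒟.w₁_fam (mahlerLe_w₁ 𝒟.toCurveD₀) 𝒟.𝔯 𝒟.𝔯_inf
        𝒟.𝔯_spec))

end Fermat.Agent.MW.HG.AssemblyB
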