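/-
MW / HT-Q, row G8 (closed form, helper77) — **THE ASSEMBLY**: `CurveD 𝒮 J ⟹ HeightDatumS`,
hence a nonnegative quasi-quadratic Northcott function on `J`.

The discriminant bound (row G4, `Setting.disc_ge`) enters through the named statement
`DiscGe 𝒟` (its literal conclusion for the family `𝒟.w₁`, with the `t`-injectivity binder, which
`CurveD₀.Good` provides):

* `exists_heightDatumS_of_disc`, `exists_height_of_disc` (from `DiscGe 𝒟`);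
* `discGe` : `DiscGe 𝒟` from `Setting.disc_ge` (`HG/Disc.lean`);
* **`exists_heightDatumS`, `exists_height`** : the literal statements of row G8.

Inputs: `Setting.recip_of` (G3) + `Setting.mahlerLe_of_normData` (G2) for `recip`;
`Setting.hadK` (G5), `HadMinor.hadR_global_zdiv` (G6), `Setting.mahlerGe_of_normData` (G2),
`Setting.pos_arith'` (G7') for `pos`; the rest are fields of `CurveD`.
-/
import Mathlib
import Fermat.Agent.MW.HG.Curve2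
import Fermat.Agent.MW.HG.Basic
import Fermat.Agent.MW.HG.RecUp
import Fermat.Agent.MW.HG.Mahler
import Fermat.Agent.MW.HG.HadK
import Fermat.Agent.MW.HG.HadMinor
import Fermat.Agent.MW.HG.PosArith2
import Fermat.Agent.MW.HG.Disc
import Fermat.Agent.MW.HQ.HeightS

set_option autoImplicit false

noncomputable section

namespace Fermat.Agent.MW.HG.AssemblyC

open AlgebraicCurve Fermat.Agent.MW.HtM Fermat.Agent.MW.HQ Fermat.Agent.MW.HG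

variable {K F V : Type*} [Field K] [Field F] [Algebra K F]
variable {Ab : AbsFamily K V} {pinf : Place K F} {t : F} {m : ℕ}
variable {𝒮 : Setting Ab pinf t m} {J : Type*} [AddCommGroup J]

/-- The discriminant bound (row G4) for the family `𝒟.w₁`: the literal conclusion of
`Setting.disc_ge` (for reduced divisors of zeros on which `t` is injective, in general position
with respect to the ramification divisor). -/
def DiscGe (𝒟 : CurveD 𝒮 J) : Prop :=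
  ∃ C : ℝ, ∀ a : Fin (𝒟.n + 1) → K, 𝒮.UFix a → (∑ i, a i • 𝒟.w₁ i) ≠ 0 →
    ∀ Z : Place K F →₀ ℕ, IsZDiv pinf (∑ i, a i • 𝒟.w₁ i) Z → deg Z = 𝒟.M₁ →
      (∀ P, Z P ≤ 1) →
      (∀ p ∈ Z.support, ∀ q ∈ Z.support, pval p t = pval q t → p = q) → Far 𝒮.far Z 𝒟.𝔯 →
      ((2 * 𝒟.M₁ + deg 𝒟.𝔯 : ℝ) - m - 1) * ht 𝒮.etaU Z ≤ pairG 𝒮.gU Z Z + C

/-- The discriminant bound without the injectivity binder implies `DiscGe`. -/
theorem discGe_of_noninj (𝒟 : CurveD 𝒮 J)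
    (h : ∃ C : ℝ, ∀ a : Fin (𝒟.n + 1) → K, 𝒮.UFix a → (∑ i, a i • 𝒟.w₁ i) ≠ 0 →
      ∀ Z : Place K F →₀ ℕ, IsZDiv pinf (∑ i, a i • 𝒟.w₁ i) Z → deg Z = 𝒟.M₁ →
        (∀ P, Z P ≤ 1) → Far 𝒮.far Z 𝒟.𝔯 →
        ((2 * 𝒟.M₁ + deg 𝒟.𝔯 : ℝ) - m - 1) * ht 𝒮.etaU Z ≤ pairG 𝒮.gU Z Z + C) :
    DiscGe 𝒟 := by
  obtain ⟨C, hC⟩ := h
  exact ⟨C, fun a haU hψ Z hZ hdeg hred _ hfar => hC a haU hψ Z hZ hdeg hred hfar⟩

/-- `DiscGe 𝒟` from row G4 (`Setting.disc_ge`). -/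
theorem discGe [IsAlgClosed K] (𝒟 : CurveD 𝒮 J) : DiscGe 𝒟 :=
  𝒮.disc_ge 𝒟.mle 𝒟.lip 𝒟.ram 𝒟.w₁ 𝒟.M₁ 𝒟.w₁_fam
    (𝒮.mahlerLe_of_normData 𝒟.w₁ 𝒟.M₁ 𝒟.w₁_li 𝒟.w₁_norm 𝒟.w₁_zdiv) 𝒟.𝔯 𝒟.𝔯_inf 𝒟.𝔯_spec

theorem deg_tdiv {n : ℕ} (P : Fin n → Place K F) : deg (tdiv P) = n := by
  unfold tdiv
  have h := map_sum (⟨⟨deg, deg_zero⟩, deg_add⟩ : (Place K F →₀ ℕ) →+ ℕ)
    (fun j => Finsupp.single (P j) 1) Finset.univ
  simp only [AddMonoidHom.coe_mk, ZeroHom.coe_mk] at h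
  rw [h]
  simp [deg]

theorem deg_single (p : Place K F) (k : ℕ) : deg (Finsupp.single p k) = k := by
  simp [deg]

/-- **Uniform reciprocity** (`PairingDatumS.recip`) for a `CurveD`. -/
theorem recip [IsAlgClosed K] (𝒟 : CurveD 𝒮 J) (M e : ℕ) :
    ∃ C : ℝ, ∀ Z ∈ 𝒮.RatU, 𝒟.cl Z = 0 → deg Z ≤ M → ∀ E ∈ 𝒮.RatU, deg E ≤ e →
      Far 𝒮.far Z E → |beta 𝒮.gU 𝒮.etaU Z E| ≤ C := by
  have hB : ∀ μ : ℕ, 𝒮.MahlerLe (𝒟.w μ) := fun μ =>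
    𝒮.mahlerLe_of_normData (𝒟.w μ) μ (𝒟.w_li μ) (𝒟.w_norm μ)
      (fun a ha => (𝒟.w_zdiv μ a ha).imp fun Z h => h.1)
  have hrec := fun μ : ℕ => 𝒮.recip_of 𝒟.mle 𝒟.lip (𝒟.w μ) μ (𝒟.w_fam μ) (hB μ) e
  choose C hC using hrec
  refine ⟨∑ μ ∈ Finset.range (M + 1), |C μ|, fun Z hZ hcl hdeg E hE hEe hfar => ?_⟩
  obtain ⟨a, haU, hφ, hZd⟩ := 𝒟.exists_fun Z hZ hcl
  have h1 := hC (deg Z) a haU hφ Z hZd rfl E hE hEe hfar
  refine h1.trans ((le_abs_self _).trans ?_)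
  exact Finset.single_le_sum (f := fun μ => |C μ|) (fun μ _ => abs_nonneg _)
    (Finset.mem_range.2 (Nat.lt_succ_of_le hdeg))

/-- **Positivity** (`HeightDatumS.pos`) for a `CurveD`, from the discriminant bound. -/
theorem pos (𝒟 : CurveD 𝒮 J) (hdisc : DiscGe 𝒟) :
    ∃ C : ℝ, ∀ E, 𝒟.toCurveD₀.Good E → ∃ R ∈ 𝒮.RatU, 𝒟.cl (E + R) = 0 ∧
      deg R ≤ max 𝒟.γ 𝒟.n ∧ Far 𝒮.far E R ∧
      ht 𝒮.etaU E - C ≤ -beta 𝒮.gU 𝒮.etaU E R := by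
  obtain ⟨C₁, hC₁⟩ := hdisc
  obtain ⟨C₂, hC₂⟩ := 𝒮.hadK 𝒟.κ 𝒟.MK 𝒟.κ_fam 0 rfl (fun s _ => Finsupp.mapDomain_zero)
    𝒟.toCurveD₀.κ_det
  obtain ⟨C₃, hC₃⟩ := HadMinor.hadR_global_zdiv 𝒮 𝒟.w₁ 𝒟.M₁ 𝒟.w₁_fam 𝒟.toCurveD₀.w₁_det
  obtain ⟨C₄, hC₄⟩ := 𝒮.mahlerGe_of_normData 𝒟.w₁ 𝒟.M₁ 𝒟.w₁_norm 𝒟.harch
  refine ⟨C₁ / 2 + C₂ / 2 + C₃ + C₄, ?_⟩
  rintro E ⟨P, R, a, rfl, hPinj, hP, hPrat, hPdet, haU, hψ, hZ, hRinj, hR, hRrat, hred, hinj,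
    hfar𝔯, hfarPR, hmin⟩
  refine ⟨tdiv R, hRrat, 𝒟.w₁_cl a haU hψ _ hZ, ?_, hfarPR, ?_⟩
  · rw [deg_tdiv]; exact le_max_right _ _
  -- the four inequalities
  have hdegZ : deg (tdiv P + tdiv R) = 𝒟.M₁ := by
    rw [deg_add, deg_tdiv, deg_tdiv, ← 𝒟.hM₁, add_comm]
  have h1 := hC₁ a haU hψ (tdiv P + tdiv R) hZ hdegZ hred
    (fun p hp q hq h => hinj (Finset.mem_coe.2 hp) (Finset.mem_coe.2 hq) h) hfar𝔯
  have h2 := hC₂ P hPinj hP hPrat hPdet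
  rw [pairG_zero_left, mul_zero, add_zero] at h2
  have h3 := hC₃ R a (tdiv P) hRinj hR hRrat haU hψ hZ hmin
  have h4 := hC₄ a haU hψ (tdiv P + tdiv R) hZ
  -- Riemann–Hurwitz as an inequality: replace `𝔯` by a divisor of degree exactly `2γ + m − 1`
  have hm := 𝒮.m_pos
  have hdeg' : deg (Finsupp.single pinf (2 * 𝒟.γ + m - 1)) + 1 = 2 * 𝒟.γ + m := by
    rw [deg_single]; omega
  have hle : (deg (Finsupp.single pinf (2 * 𝒟.γ + m - 1)) : ℝ) ≤ deg 𝒟.𝔯 := by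
    have := 𝒟.hRH
    rw [deg_single]
    exact_mod_cast (by omega : 2 * 𝒟.γ + m - 1 ≤ deg 𝒟.𝔯)
  have hht : 0 ≤ ht 𝒮.etaU (tdiv P + tdiv R) := ht_nonneg 𝒮.etaU_nonneg _
  have h1' : ((2 * 𝒟.M₁ + deg (Finsupp.single pinf (2 * 𝒟.γ + m - 1)) : ℝ) - m - 1) *
      ht 𝒮.etaU (tdiv P + tdiv R) ≤ pairG 𝒮.gU (tdiv P + tdiv R) (tdiv P + tdiv R) + C₁ := by
    refine le_trans (mul_le_mul_of_nonneg_right ?_ hht) h1
    linarith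
  exact 𝒮.pos_arith' 𝒟.γ 𝒟.M₁ 𝒟.MK 𝒟.n 𝒟.hM₁ _ 𝒟.hMK hdeg' C₁ C₂ C₃ C₄ (tdiv P) (tdiv R)
    (deg_tdiv P) (deg_tdiv R) (𝒮.hU a) h1' h2 h3 h4

/-- **Row G8 (with (Disc) as a hypothesis): the height datum of a `CurveD`.** -/
theorem exists_heightDatumS_of_disc [IsAlgClosed K] (𝒟 : CurveD 𝒮 J) (hdisc : DiscGe 𝒟) :
    ∃ H : HeightDatumS J (Place K F),
      H.g = 𝒮.gU ∧ H.η = 𝒮.etaU ∧ H.Rat = 𝒮.RatU ∧ H.cl = 𝒟.cl := by
  refine ⟨{ g := 𝒮.gU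
            η := 𝒮.etaU
            Rat := 𝒮.RatU
            cl := 𝒟.cl
            g_symm := 𝒮.gU_symm
            far := 𝒮.far
            far_irrefl := 𝒮.far_irrefl
            far_symm := 𝒮.far_symm
            near_trans := 𝒮.near_trans
            d₀ := 𝒟.d₀
            rep := 𝒟.rep
            recip := recip 𝒟
            η_nonneg := 𝒮.etaU_nonneg
            g_lb := ⟨0, fun p q _ => by simpa using 𝒮.gU_nonneg p q⟩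
            Good := 𝒟.toCurveD₀.Good
            d₁ := max 𝒟.γ 𝒟.n
            good_rat := ?_
            good_deg := ?_
            pos := pos 𝒟 hdisc
            north := ?_
            translates := 𝒟.translates }, rfl, rfl, rfl, rfl⟩
  · rintro E ⟨P, R, a, rfl, -, -, hPrat, -⟩
    exact hPrat
  · rintro E ⟨P, R, a, rfl, -⟩
    rw [deg_tdiv]
    exact le_max_left _ _
  · intro T
    refine (𝒟.north 𝒟.γ T).subset ?_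
    rintro E ⟨⟨P, R, a, rfl, -, -, hPrat, -⟩, hT⟩
    exact ⟨hPrat, by rw [deg_tdiv], hT⟩

/-- **Row G8: the height datum of a `CurveD`.** -/
theorem exists_heightDatumS [IsAlgClosed K] (𝒟 : CurveD 𝒮 J) :
    ∃ H : HeightDatumS J (Place K F),
      H.g = 𝒮.gU ∧ H.η = 𝒮.etaU ∧ H.Rat = 𝒮.RatU ∧ H.cl = 𝒟.cl :=
  exists_heightDatumS_of_disc 𝒟 (discGe 𝒟)

/-- **Row G8: the height function of a `CurveD`** — nonnegative, quasi-quadratic, Northcott. -/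
theorem exists_height [IsAlgClosed K] (𝒟 : CurveD 𝒮 J) :
    ∃ q : J → ℝ, (∀ x, 0 ≤ q x) ∧
      (∃ C : ℝ, ∀ x y, |q (x + y) + q (x - y) - 2 * (q x + q y)| ≤ C) ∧
      ∀ T : ℝ, {x | q x ≤ T}.Finite := by
  obtain ⟨H, -⟩ := exists_heightDatumS 𝒟
  exact H.exists_height

/-- **Row G8 (with (Disc) as a hypothesis): the height function.** -/
theorem exists_height_of_disc [IsAlgClosed K] (𝒟 : CurveD 𝒮 J) (hdisc : DiscGe 𝒟) :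
    ∃ q : J → ℝ, (∀ x, 0 ≤ q x) ∧
      (∃ C : ℝ, ∀ x y, |q (x + y) + q (x - y) - 2 * (q x + q y)| ≤ C) ∧
      ∀ T : ℝ, {x | q x ≤ T}.Finite := by
  obtain ⟨H, -⟩ := exists_heightDatumS_of_disc 𝒟 hdisc
  exact H.exists_height

end Fermat.Agent.MW.HG.AssemblyC
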