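/-
MW / HT-Q — row G8, CLOSED (helper21): `CurveD ⟹ the height function`, no hypothesis left.

`AssemblyB.exists_height_of` (the assembly modulo rows G3, G4) with
* G3 := `Setting.recip_of` (`HG/RecUp.lean`),
* G4 := `Setting.disc_ge` (`HG/Disc.lean`; the form for divisors on whose support `t` is
  injective — `CurveD₀.Good` of `HG/Curve2.lean` carries that clause).
-/
import Mathlib
import Fermat.Agent.MW.HG.AssemblyB
import Fermat.Agent.MW.HG.RecUp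
import Fermat.Agent.MW.HG.Disc

set_option autoImplicit false

noncomputable section

namespace Fermat.Agent.MW.HG.AssemblyClosed

open AlgebraicCurve Fermat.Agent.MW.HtM Fermat.Agent.MW.HQ Fermat.Agent.MW.HG
open Fermat.Agent.MW.HG.AssemblyB

variable {K F V : Type*} [Field K] [Field F] [Algebra K F]
variable {Ab : AbsFamily K V} {pinf : Place K F} {t : F} {m : ℕ}
variable {𝒮 : Setting Ab pinf t m} {J : Type*} [AddCommGroup J]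

/-- Row G3 for the bases `w μ` of the curve. -/
theorem recipFor_w [IsAlgClosed K] (𝒟 : CurveD₀ 𝒮 J) (μ e : ℕ) : RecipFor 𝒮 (𝒟.w μ) μ e :=
  𝒮.recip_of 𝒟.mle 𝒟.lip (𝒟.w μ) μ (𝒟.w_fam μ) (mahlerLe_w 𝒟 μ) e

/-- Row G4 for the family `w₁` and the ramification divisor of the curve. -/
theorem discInjFor_w₁ [IsAlgClosed K] (𝒟 : CurveD₀ 𝒮 J) : DiscInjFor 𝒮 𝒟.w₁ 𝒟.M₁ 𝒟.𝔯 := by
  obtain ⟨C, hC⟩ := 𝒮.disc_ge 𝒟.mle 𝒟.lip 𝒟.ram 𝒟.w₁ 𝒟.M₁ 𝒟.w₁_fam (mahlerLe_w₁ 𝒟) 𝒟.𝔯 𝒟.𝔯_inf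
    𝒟.𝔯_spec
  exact ⟨C, fun a ha hne Z hZ hdeg hred hinj hfar =>
    hC a ha hne Z hZ hdeg hred (fun p hp q hq h => hinj hp hq h) hfar⟩

/-- **Row G8, closed**: the height datum of the curve. -/
theorem exists_heightDatumS [IsAlgClosed K] (𝒟 : CurveD 𝒮 J) :
    ∃ H : HeightDatumS J (Place K F),
      H.g = 𝒮.gU ∧ H.η = 𝒮.etaU ∧ H.Rat = 𝒮.RatU ∧ H.cl = 𝒟.cl :=
  exists_heightDatumS_of 𝒟 (recipFor_w 𝒟.toCurveD₀) (discInjFor_w₁ 𝒟.toCurveD₀)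

/-- **Row G8, closed**: a nonnegative quasi-quadratic Northcott function on `J`. -/
theorem exists_height [IsAlgClosed K] (𝒟 : CurveD 𝒮 J) :
    ∃ q : J → ℝ, (∀ x, 0 ≤ q x) ∧
      (∃ C : ℝ, ∀ x y, |q (x + y) + q (x - y) - 2 * (q x + q y)| ≤ C) ∧
      ∀ T : ℝ, {x | q x ≤ T}.Finite :=
  exists_height_of 𝒟 (recipFor_w 𝒟.toCurveD₀) (discInjFor_w₁ 𝒟.toCurveD₀)

end Fermat.Agent.MW.HG.AssemblyClosed
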