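/-
MW / HT-Q (sub-architect: helper89) — `CurveData`: THE COMPLETE LIST OF FACTS about the curve
that the height side of Mordell–Weil consumes.  Everything is stated for a general `Setting`
(`HG/Defs.lean`); the instance for `F = FNK Qb N` is the function-field half of the project, the
theorem `CurveData ⟹ HeightDatumS` (`HG/Assembly.lean`) is the global half.

Fields, by origin:
* local theory (HT-M): `mle`, `lip`, `ram`, `κ_det`, `w₁_det`;
* number theory: `harch`, `north` (Northcott for `U`-stable divisors of bounded degree);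
* function field: the `Γ`-fixed bases `w M` of `L(M·pinf)` with their norm forms, `cl` with
  "class zero ⟺ divisor of zeros of a `U`-fixed function", the moving lemma `rep`, the
  canonical-type space `κ` vanishing on `B`, the ramification divisor `𝔯` with Riemann–Hurwitz,
  and the good translates (`translates`, for the predicate `CurveData₀.Good`).
-/
import Mathlib
import Fermat.Agent.MW.HG.Defs

set_option autoImplicit false

noncomputable section

namespace Fermat.Agent.MW.HG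

open AlgebraicCurve Fermat.Agent.MW.HtM Fermat.Agent.MW.HQ

variable {K F V : Type*} [Field K] [Field F] [Algebra K F]
variable {Ab : AbsFamily K V} {pinf : Place K F} {t : F} {m : ℕ}

/-- The facts about the curve, except Northcott and the good translates. -/
structure CurveData₀ (𝒮 : Setting Ab pinf t m) (J : Type*) [AddCommGroup J] where
  /-- the three local estimates -/
  mle : 𝒮.MLe
  lip : 𝒮.Lip
  ram : 𝒮.RamLe
  /-- the archimedean absolute values come from complex embeddings -/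
  harch : ∀ v, IsNonarchimedean (Ab.abv v) ∨ ∃ j : K →+* ℂ, ∀ a, Ab.abv v a = ‖j a‖
  /-- the genus -/
  γ : ℕ
  /-- `cl D = [D − deg D · pinf]` for `D ∈ RatU` -/
  cl : (Place K F →₀ ℕ) →+ J
  /-- `l M = dim L(M · pinf)` and a `Γ`-fixed basis `w M` of it -/
  l : ℕ → ℕ
  w : ∀ M : ℕ, Fin (l M) → F
  w_fam : ∀ M, 𝒮.Fam (w M) M
  w_li : ∀ M, LinearIndependent K (w M)
  w_norm : ∀ M, 𝒮.NormData (w M) M
  /-- every nonzero element of `L(M · pinf)` has a divisor of zeros, of degree `≤ M` -/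
  w_zdiv : ∀ (M : ℕ) (a : Fin (l M) → K), (∑ i, a i • w M i) ≠ 0 →
    ∃ Z : Place K F →₀ ℕ, IsZDiv pinf (∑ i, a i • w M i) Z ∧ deg Z ≤ M
  /-- the divisor of zeros of a `U`-fixed function has class `0` -/
  cl_zdiv : ∀ (M : ℕ) (a : Fin (l M) → K), 𝒮.UFix a → (∑ i, a i • w M i) ≠ 0 →
    ∀ Z : Place K F →₀ ℕ, IsZDiv pinf (∑ i, a i • w M i) Z → cl Z = 0
  /-- a rational divisor of class `0` is the divisor of zeros of a `U`-fixed function of
  `L(deg Z · pinf)` -/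
  exists_fun : ∀ Z ∈ 𝒮.RatU, cl Z = 0 → ∃ a : Fin (l (deg Z)) → K, 𝒮.UFix a ∧
    (∑ i, a i • w (deg Z) i) ≠ 0 ∧ IsZDiv pinf (∑ i, a i • w (deg Z) i) Z
  /-- the moving lemma -/
  d₀ : ℕ
  rep : ∀ (x : J) (S : Finset (Place K F)), ∃ D ∈ 𝒮.RatU, cl D = x ∧ deg D ≤ d₀ ∧
    ∀ p ∈ D.support, ∀ q ∈ S, 𝒮.far p q
  /-- the canonical-type space: `γ` functions of pole order `≤ MK`, vanishing on `B`,
  `MK − deg B ≤ 2γ − 2` -/
  κ : Fin γ → F
  MK : ℕ
  κ_fam : 𝒮.Fam κ MK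
  B : Place K F →₀ ℕ
  B_inf : B pinf = 0
  B_stable : ∀ s ∈ 𝒮.Γ, B.mapDomain (fun P => s • P) = B
  κ_det : 𝒮.DetLe κ MK B
  hMK : MK + 2 ≤ 2 * γ + deg B
  /-- the affine ramification divisor of `t` and Riemann–Hurwitz -/
  𝔯 : Place K F →₀ ℕ
  𝔯_inf : 𝔯 pinf = 0
  𝔯_spec : ∀ P : Place K F, P ≠ pinf →
    (𝔯 P : ℤ) = P.ord (t - algebraMap K F (pval P t)) - 1
  hRH : deg 𝔯 + 1 = 2 * γ + m
  /-- the space `L(M₁ · pinf)` used for positivity: `n + 1` functions, `n + γ = M₁` -/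
  n : ℕ
  M₁ : ℕ
  hM₁ : n + γ = M₁
  w₁ : Fin (n + 1) → F
  w₁_fam : 𝒮.Fam w₁ M₁
  w₁_li : LinearIndependent K w₁
  w₁_norm : 𝒮.NormData w₁ M₁
  w₁_det : ∀ i : Fin (n + 1), 𝒮.DetLe (fun k : Fin n => w₁ (i.succAbove k)) M₁ 0
  w₁_zdiv : ∀ a : Fin (n + 1) → K, (∑ i, a i • w₁ i) ≠ 0 →
    ∃ Z : Place K F →₀ ℕ, IsZDiv pinf (∑ i, a i • w₁ i) Z
  w₁_cl : ∀ a : Fin (n + 1) → K, 𝒮.UFix a → (∑ i, a i • w₁ i) ≠ 0 →
    ∀ Z : Place K F →₀ ℕ, IsZDiv pinf (∑ i, a i • w₁ i) Z → cl Z = 0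

namespace CurveData₀

variable {𝒮 : Setting Ab pinf t m} {J : Type*} [AddCommGroup J] (𝒟 : CurveData₀ 𝒮 J)

/-- **Good divisors.**  `E = ∑ P j` reduced of degree `γ`, rational, non-special (the canonical
determinant does not vanish), in general position with respect to `B`; and there is a `U`-fixed
`ψ = ∑ a i • w₁ i ∈ L(M₁ · pinf)` whose divisor of zeros is `E + R` with `R = ∑ R j` rational,
`E + R` reduced and in general position with respect to the ramification divisor, `E` and `R` in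
general position, and `R` imposing independent conditions on `L(M₁ · pinf)`. -/
def Good (E : Place K F →₀ ℕ) : Prop :=
  ∃ (P : Fin 𝒟.γ → Place K F) (R : Fin 𝒟.n → Place K F) (a : Fin (𝒟.n + 1) → K),
    E = tdiv P ∧ Function.Injective P ∧ (∀ j, P j ≠ pinf) ∧ tdiv P ∈ 𝒮.RatU ∧
    Matrix.det (Matrix.of fun i j => pval (P j) (𝒟.κ i)) ≠ 0 ∧
    Far 𝒮.far 𝒟.B (tdiv P) ∧
    𝒮.UFix a ∧ (∑ i, a i • 𝒟.w₁ i) ≠ 0 ∧
    IsZDiv pinf (∑ i, a i • 𝒟.w₁ i) (tdiv P + tdiv R) ∧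
    Function.Injective R ∧ (∀ j, R j ≠ pinf) ∧ tdiv R ∈ 𝒮.RatU ∧
    (∀ Q, (tdiv P + tdiv R) Q ≤ 1) ∧
    Far 𝒮.far (tdiv P + tdiv R) 𝒟.𝔯 ∧
    Far 𝒮.far (tdiv P) (tdiv R) ∧
    (∃ i : Fin (𝒟.n + 1),
      Matrix.det (Matrix.of fun k j => pval (R j) (𝒟.w₁ (i.succAbove k))) ≠ 0)

end CurveData₀

/-- **All the facts about the curve.** -/
structure CurveData (𝒮 : Setting Ab pinf t m) (J : Type*) [AddCommGroup J]
    extends CurveData₀ 𝒮 J where
  /-- Northcott for rational divisors of bounded degree -/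
  north : ∀ (d : ℕ) (T : ℝ), {E | E ∈ 𝒮.RatU ∧ deg E ≤ d ∧ ht 𝒮.etaU E ≤ T}.Finite
  /-- a FINITE set of translations moves every class to the class of a good divisor -/
  translates : ∃ 𝒞 : Finset J, ∀ x : J, ∃ c ∈ 𝒞, ∃ E, toCurveData₀.Good E ∧ cl E = x + c

end Fermat.Agent.MW.HG
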