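/-
MW / HT-Q (helper82) — THE FIELD `north` OF `HG.CurveD` / `HG.CurveData` for the modular function
field: Northcott for rational effective divisors of bounded degree, transported from
helper17's `Ht/North.lean` (`finite_divisors_of_ht_le_act`) to the vocabulary of `HG.Setting`.

* `north_of_setting` : for ANY `𝒮 : Setting absFamily (placeInfL Qb N) t m` whose `U` contains the
  image of `U₀ ≤ GQ` and whose `Sg`-sums are sums over a finite set `Sg₀` of representatives of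
  the left cosets of `U₀` (true for `SettingInst.modSetting` and for any `Sg := Sg₀.image ρ`):
  `∀ d T, {E | E ∈ 𝒮.RatU ∧ deg E ≤ d ∧ ht 𝒮.etaU E ≤ T}.Finite`;
* `north_modSetting` : the case of `SettingInst.modSetting`.
-/
import Mathlib
import Fermat.Agent.MW.HG.SettingInst
import Fermat.Agent.MW.Ht.North

set_option autoImplicit false
set_option linter.unusedSectionVars false

noncomputable section

namespace Fermat.Agent.MW.HG.NorthInst

open AlgebraicCurve ModularCurve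
open Fermat.Agent.MW.HtM Fermat.Agent.MW.HQ Fermat.Agent.MW.HG Fermat.Agent.Lib.FF
open Fermat.Agent.Lib.FF.PlaceInf Fermat.Agent.MW.Ht.AbsQb Fermat.Agent.MW.HG.SettingInst

local notation "Qb" => AlgebraicClosure ℚ
local notation "GQ" => (AlgebraicClosure ℚ ≃ₐ[ℚ] AlgebraicClosure ℚ)

variable {N : ℕ} [NeZero N] {t : ↥(modularFunctionFieldBar N)} {m : ℕ}

/-- The value map of `t` has finite fibres on the set of ALL places. -/
theorem finite_pval_eq (𝒮 : Setting absFamily (placeInfL Qb N) t m) (c : Qb) :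
    {p : Place Qb ↥(modularFunctionFieldBar N) | pval p t = c}.Finite := by
  classical
  obtain ⟨T, -, hT⟩ := Fermat.Agent.MW.Ht.RamDiv.exists_fibre_finset (Res.isFF1_modular N)
    𝒮.t_reg 𝒮.t_pole 𝒮.m_pos c
  refine ((insert (placeInfL Qb N) T : Finset _).finite_toSet).subset fun p hp => ?_
  rw [Finset.coe_insert]
  by_cases hpi : p = placeInfL Qb N
  · exact Or.inl hpi
  · exact Or.inr ((hT p).mpr ⟨hpi, hp⟩)

/-- The global point height through `AbsQb.hplus`, for any setting whose `Sg`-sums are sums over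
`Sg₀ ⊆ GQ`. -/
theorem etaU_eq_hplus_of (𝒮 : Setting absFamily (placeInfL Qb N) t m) (Sg₀ : Finset GQ)
    (hsum : ∀ f : SemilinearAut Qb ↥(modularFunctionFieldBar N) → ℝ,
      ∑ s ∈ 𝒮.Sg, f s = ∑ σ ∈ Sg₀, f (gal N σ))
    (p : Place Qb ↥(modularFunctionFieldBar N)) :
    𝒮.etaU p = (∑ σ ∈ Sg₀, hplus (pval (gal N σ • p) t)) / m := by
  unfold Setting.etaU
  rw [hsum, Finset.sum_div]
  refine Finset.sum_congr rfl fun σ _ => ?_
  unfold hplus Setting.eta
  simp only [div_eq_mul_inv]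
  exact (finsum_mul' _ _ (hasFiniteSupport_logPlus _)).symm

/-- **Northcott (`north`)** for a modular setting. -/
theorem north_of_setting (𝒮 : Setting absFamily (placeInfL Qb N) t m)
    (U₀ : Subgroup GQ) (Sg₀ : Finset GQ) (hSg : ∀ g : GQ, ∃ s ∈ Sg₀, s⁻¹ * g ∈ U₀)
    (hU : ∀ σ ∈ U₀, gal N σ ∈ 𝒮.U)
    (hsum : ∀ f : SemilinearAut Qb ↥(modularFunctionFieldBar N) → ℝ,
      ∑ s ∈ 𝒮.Sg, f s = ∑ σ ∈ Sg₀, f (gal N σ))
    (htfix : ∀ σ : GQ, gal N σ • t = t) (d : ℕ) (T : ℝ) :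
    {E | E ∈ 𝒮.RatU ∧ deg E ≤ d ∧ ht 𝒮.etaU E ≤ T}.Finite := by
  have hm : (0 : ℝ) < m := by exact_mod_cast 𝒮.m_pos
  have key := Fermat.Agent.MW.Ht.North.finite_divisors_of_ht_le_act
    (P := Place Qb ↥(modularFunctionFieldBar N)) (fun σ p => gal N σ • p)
    (fun p => by rw [map_one, one_smul])
    (fun g h p => by rw [map_mul, mul_smul])
    (fun p => pval p t) (fun σ p => pval_gal_fixed htfix σ p)
    (finite_pval_eq 𝒮) U₀ Sg₀ hSg 𝒮.etaU 𝒮.etaU_nonneg (m : ℝ) 0 hm.le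
    (fun p => by
      rw [etaU_eq_hplus_of 𝒮 Sg₀ hsum p, mul_div_cancel₀ _ hm.ne', add_zero]) d T
  refine key.subset fun E hE => ⟨fun u hu p => ?_, hE.2.1, hE.2.2⟩
  have h1 := (Setting.mem_RatU 𝒮).mp hE.1
  have h2 := h1.2 (gal N u) (hU u hu)
  have h3 := Finsupp.mapDomain_apply (MulAction.injective (gal N u)) E p
  rw [h2] at h3
  exact h3

/-- **Northcott (`north`)** for `SettingInst.modSetting`: the field `north` of `HG.CurveD`. -/
theorem north_modSetting (L : LocalHt absFamily (placeInfL Qb N) t m) (hm : 0 < m)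
    (htfix : ∀ σ : GQ, gal N σ • t = t)
    (htreg : ∀ P : Place Qb ↥(modularFunctionFieldBar N), P ≠ placeInfL Qb N → 0 ≤ P.ord t)
    (htpole : (placeInfL Qb N).ord t = -(m : ℤ))
    (U₀ : Subgroup GQ) (Sg₀ : Finset GQ)
    (hS : Subgroup.IsComplement (Sg₀ : Set GQ) (U₀ : Set GQ)) (d : ℕ) (T : ℝ) :
    {E | E ∈ (modSetting L hm htfix htreg htpole U₀ Sg₀ hS).RatU ∧ deg E ≤ d ∧
      ht (modSetting L hm htfix htreg htpole U₀ Sg₀ hS).etaU E ≤ T}.Finite := by
  refine north_of_setting _ U₀ Sg₀ (fun g => ?_)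
    (fun σ hσ => gal_mem_U L hm htfix htreg htpole U₀ Sg₀ hS hσ)
    (fun f => sum_Sg L hm htfix htreg htpole U₀ Sg₀ hS f) htfix d T
  obtain ⟨s, hs, -⟩ := Subgroup.isComplement_iff_existsUnique_inv_mul_mem.mp hS g
  exact ⟨s, s.2, hs⟩

end Fermat.Agent.MW.HG.NorthInst
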