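/-
MW / HT-Q — the field `ram` of `HG.CurveD` for the modular setting `SettingInst.modSetting` built
on the function-field local height datum `LocalHtFF.localHtFF`:
`ram_modSetting` (seam of `HtM/RamClosed.setting_ramLe` with `HG/SettingInst.modSetting`), and
the same for ANY setting over `localHtFF` (`ram_of_localHtFF`).
-/
import Mathlib
import Fermat.Agent.MW.HG.SettingInst
import Fermat.Agent.MW.HtM.RamClosed

set_option autoImplicit false

namespace Fermat.Agent.MW.HG.RamInst

open AlgebraicCurve ModularCurve IntermediateField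
open Fermat.Agent.MW.HtM Fermat.Agent.MW.HQ Fermat.Agent.MW.HG Fermat.Agent.Lib.FF
open Fermat.Agent.Lib.FF.PlaceInf Fermat.Agent.MW.Ht.AbsQb Fermat.Agent.MW.HG.SettingInst
open Fermat.Agent.MW.HtM.LocalHtFF

local notation "Qb" => AlgebraicClosure ℚ
local notation "GQ" => (AlgebraicClosure ℚ ≃ₐ[ℚ] AlgebraicClosure ℚ)

variable {N : ℕ} [NeZero N] {t : ↥(modularFunctionFieldBar N)} {m : ℕ}
  [FiniteDimensional Qb⟮t⟯ ↥(modularFunctionFieldBar N)]
  {n₀ n₁ : ℕ} {x₀ : Fin n₀ → ↥(modularFunctionFieldBar N)}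
  {x₁ : Fin n₁ → ↥(modularFunctionFieldBar N)}

/-- **`ram` for any setting over the function-field local datum** of the modular function
field. -/
theorem ram_of_localHtFF (ht : Transcendental Qb t) (hc : IsCoords (K := Qb) t x₀ x₁)
    (𝒮 : Setting absFamily (placeInfL Qb N) t m)
    (h𝒮 : 𝒮.δ = (localHtFF absFamily ht hc 𝒮.m_pos 𝒮.t_reg 𝒮.t_pole).δ) : 𝒮.RamLe :=
  RamClosed.setting_ramLe absFamily ht hc 𝒮 h𝒮

/-- **The field `ram` of `HG.CurveD` for `SettingInst.modSetting`** over the local datum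
`localHtFF`. -/
theorem ram_modSetting (ht : Transcendental Qb t) (hc : IsCoords (K := Qb) t x₀ x₁)
    (hm : 0 < m) (htfix : ∀ σ : GQ, gal N σ • t = t)
    (htreg : ∀ P : Place Qb ↥(modularFunctionFieldBar N), P ≠ placeInfL Qb N → 0 ≤ P.ord t)
    (htpole : (placeInfL Qb N).ord t = -(m : ℤ))
    (U₀ : Subgroup GQ) (Sg₀ : Finset GQ)
    (hS : Subgroup.IsComplement (Sg₀ : Set GQ) (U₀ : Set GQ)) :
    (modSetting (localHtFF absFamily ht hc hm htreg htpole) hm htfix htreg htpole
      U₀ Sg₀ hS).RamLe :=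
  RamClosed.setting_ramLe absFamily ht hc _ rfl

end Fermat.Agent.MW.HG.RamInst
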