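/-
MW / HT-Q — `CurveInstMod` (helper4): Layers A2 and B of the instance term of `HG.CurveD`.

* Layer A2 (generic): `nonempty_curveD_of_bases` — `Nonempty (CurveD 𝒮 J)` from the EXISTENCE of
  `Γ`-fixed bases of all `L(M · pinf)` (sizes by Riemann–Roch), with `γ := genusFF K F ≥ 1`,
  `MK := 2γ − 1`, `κ` a fixed basis of `L((2γ − 1) · pinf)`, `w₁` a fixed basis of
  `L((n + γ) · pinf)`, `𝔯` the ramification divisor of `t` (Riemann–Hurwitz from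
  `Ht/RamCount.lean`); the good translates are asked for ARBITRARY such `κ`, `w₁`, `𝔯`.
* Layer B (modular): `nonempty_curveD_modular` — the same for `F = modularFunctionFieldBar N`
  and ANY `Setting` whose `Γ`, `U` are the images of `GQ`, `U₀` under `arithmeticGalois`;
  bases from `GalBridge.exists_rational_basis`, class map and moving lemma from `Gen/PlBridge`.
  Remaining named inputs: the three local estimates, Northcott, the two class-zero facts and the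
  good translates.
* `nonempty_curveD_modSetting` — Layer B at `SettingInst.modSetting (localHtFF …)`, where the
  local estimates and Northcott are theorems.
-/
import Mathlib
import Fermat.Agent.MW.HG.CurveInst
import Fermat.Agent.MW.HG.SettingInst
import Fermat.Agent.MW.HG.RamInst
import Fermat.Agent.MW.HG.NorthInst
import Fermat.Agent.MW.Gen.PlBridge
import Fermat.Agent.MW.Ht.GalBridge
import Fermat.Agent.MW.Ht.RamCount

set_option autoImplicit false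
set_option linter.unusedSectionVars false

noncomputable section

namespace Fermat.Agent.MW.HG.CurveInstMod

open AlgebraicCurve ModularCurve Module
open Fermat.Agent.Lib.FF Fermat.Agent.MW.HtM Fermat.Agent.MW.HQ Fermat.Agent.MW.HG
open Fermat.Agent.MW.HG.CurveInst

/-! ### Layer A2 -/

section Generic

variable {K F V : Type*} [Field K] [Field F] [Algebra K F] {Ab : AbsFamily K V}
  {pinf : Place K F} {t : F} {m : ℕ}

/-- A fixed basis of `L(M · pinf)` indexed by `Fin k`, `k = M + 1 - g`. -/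
theorem exists_fixedBasis_card {x : F} (h : IsFF1 K F x) (𝒮 : Setting Ab pinf t m)
    (hbasis : ∀ M : ℕ, ∃ (r : ℕ) (f : Fin r → F), IsFixedBasis 𝒮 f M) (M k : ℕ)
    (hM : 2 * genusFF K F ≤ M + 1) (hk : k + genusFF K F = M + 1) :
    ∃ f : Fin k → F, IsFixedBasis 𝒮 f M := by
  obtain ⟨r, f, hf⟩ := hbasis M
  have h1 := hf.card_add_genus h hM
  obtain rfl : r = k := by omega
  exact ⟨f, hf⟩

/-- **Layer A2.** -/
theorem nonempty_curveD_of_bases [IsAlgClosed K] [CharZero K] (𝒮 : Setting Ab pinf t m)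
    {J : Type*} [AddCommGroup J] {x : F} (h : IsFF1 K F x) (hg : 1 ≤ genusFF K F)
    (hmle : 𝒮.MLe) (hlip : 𝒮.Lip) (hram : 𝒮.RamLe)
    (harch : ∀ v, IsNonarchimedean (Ab.abv v) ∨ ∃ j : K →+* ℂ, ∀ a, Ab.abv v a = ‖j a‖)
    (cl : (Place K F →₀ ℕ) →+ J)
    (hbasis : ∀ M : ℕ, ∃ (r : ℕ) (f : Fin r → F), IsFixedBasis 𝒮 f M)
    (hcl0 : ∀ ψ : F, ψ ≠ 0 → (∀ u ∈ 𝒮.U, u • ψ = ψ) →
      ∀ Z : Place K F →₀ ℕ, IsZDiv pinf ψ Z → cl Z = 0)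
    (hfun : ∀ Z ∈ 𝒮.RatU, cl Z = 0 →
      ∃ ψ : F, ψ ≠ 0 ∧ (∀ u ∈ 𝒮.U, u • ψ = ψ) ∧ IsZDiv pinf ψ Z)
    (d₀ : ℕ)
    (hrep : ∀ (x : J) (S : Finset (Place K F)), ∃ D ∈ 𝒮.RatU, cl D = x ∧ deg D ≤ d₀ ∧
      ∀ p ∈ D.support, ∀ q ∈ S, 𝒮.far p q)
    (n : ℕ) (hn : genusFF K F ≤ n + 1)
    (hnorth : ∀ (d : ℕ) (T : ℝ), {E | E ∈ 𝒮.RatU ∧ deg E ≤ d ∧ ht 𝒮.etaU E ≤ T}.Finite)
    (htrans : ∀ (κ : Fin (genusFF K F) → F) (w₁ : Fin (n + 1) → F) (𝔯 : Place K F →₀ ℕ),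
      IsFixedBasis 𝒮 κ (2 * genusFF K F - 1) → IsFixedBasis 𝒮 w₁ (n + genusFF K F) →
      𝔯 pinf = 0 →
      (∀ P : Place K F, P ≠ pinf → (𝔯 P : ℤ) = P.ord (t - algebraMap K F (pval P t)) - 1) →
      ∃ 𝒞 : Finset J, ∀ x : J, ∃ c ∈ 𝒞, ∃ E,
        GoodRaw 𝒮 (genusFF K F) n κ w₁ 𝔯 E ∧ cl E = x + c) :
    Nonempty (CurveD 𝒮 J) := by
  classical
  obtain ⟨κ, hκ⟩ := exists_fixedBasis_card h 𝒮 hbasis (2 * genusFF K F - 1) (genusFF K F)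
    (by omega) (by omega)
  obtain ⟨w₁, hw₁⟩ := exists_fixedBasis_card h 𝒮 hbasis (n + genusFF K F) (n + 1)
    (by omega) (by omega)
  obtain ⟨𝔯, h𝔯0, h𝔯, hdeg⟩ :=
    Fermat.Agent.MW.Ht.RamCount.exists_ramDiv h pinf t m 𝒮.m_pos 𝒮.t_reg 𝒮.t_pole
  have hRH : 2 * genusFF K F + m ≤ deg 𝔯 + 1 := by
    have := 𝒮.m_pos
    omega
  choose l w hw using hbasis
  exact nonempty_curveD 𝒮 h hmle hlip hram harch (genusFF K F) cl l w hw hcl0 hfun d₀ hrep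
    (2 * genusFF K F - 1) (by omega) κ hκ.fam 𝔯 h𝔯0 h𝔯 hRH n w₁ hw₁ hnorth
    (htrans κ w₁ 𝔯 hκ hw₁ h𝔯0 h𝔯)

end Generic

/-! ### Layer B: the modular function field -/

section Modular

open Fermat.Agent.Lib.FF.PlaceInf Fermat.Agent.MW.Ht.AbsQb Fermat.Agent.MW.Ht.Defs
open Fermat.Agent.MW.Gen Fermat.Agent.MW.HG.SettingInst

local notation "Qb" => AlgebraicClosure ℚ
local notation "GQ" => (AlgebraicClosure ℚ ≃ₐ[ℚ] AlgebraicClosure ℚ)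

variable (N : ℕ) [NeZero N] {t : ↥(modularFunctionFieldBar N)} {m : ℕ}

/-- **Layer B.**  The `CurveD` term for the modular function field and any `Setting` whose `Γ`,
`U` are the images of `GQ`, `U₀`. -/
theorem nonempty_curveD_modular (𝒮 : Setting absFamily (placeInfL Qb N) t m)
    (U₀ : Subgroup GQ)
    (hΓ : ∀ g, g ∈ 𝒮.Γ ↔ ∃ σ : GQ, gal N σ = g)
    (hU : ∀ g, g ∈ 𝒮.U ↔ ∃ σ ∈ U₀, gal N σ = g)
    (hg : 1 ≤ genusFF Qb ↥(modularFunctionFieldBar N))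
    (hmle : 𝒮.MLe) (hlip : 𝒮.Lip) (hram : 𝒮.RamLe)
    (hnorth : ∀ (d : ℕ) (T : ℝ), {E | E ∈ 𝒮.RatU ∧ deg E ≤ d ∧ ht 𝒮.etaU E ≤ T}.Finite)
    (J : AddSubgroup (JZero N)) (hJ₁ : ∀ x ∈ J, ∀ σ ∈ U₀, σ • x = x)
    (hJ₂ : ∀ x : JZero N, (∀ σ ∈ U₀, σ • x = x) → x ∈ J)
    (hzero : ∀ (ψ : ↥(modularFunctionFieldBar N)) (Z : Pl N →₀ ℕ), ψ ≠ 0 →
      IsZDiv (placeInfL Qb N) ψ Z → PlBridge.clPl N Z = 0)
    (hfixfun : ∀ Z : Pl N →₀ ℕ, Z (placeInfL Qb N) = 0 →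
      (∀ σ ∈ U₀, Z.mapDomain (fun P => gal N σ • P) = Z) → PlBridge.clPl N Z = 0 →
      ∃ ψ : ↥(modularFunctionFieldBar N), ψ ≠ 0 ∧ (∀ σ ∈ U₀, gal N σ • ψ = ψ) ∧
        IsZDiv (placeInfL Qb N) ψ Z)
    (n : ℕ) (hn : genusFF Qb ↥(modularFunctionFieldBar N) ≤ n + 1)
    (htrans : ∀ cl : (Pl N →₀ ℕ) →+ J,
      (∀ D : Pl N →₀ ℕ, (∀ σ ∈ U₀, D.mapDomain (fun P => gal N σ • P) = D) →
        (cl D : JZero N) = PlBridge.clPl N D) →
      ∀ (κ : Fin (genusFF Qb ↥(modularFunctionFieldBar N)) → ↥(modularFunctionFieldBar N))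
        (w₁ : Fin (n + 1) → ↥(modularFunctionFieldBar N)) (𝔯 : Pl N →₀ ℕ),
      IsFixedBasis 𝒮 κ (2 * genusFF Qb ↥(modularFunctionFieldBar N) - 1) →
      IsFixedBasis 𝒮 w₁ (n + genusFF Qb ↥(modularFunctionFieldBar N)) →
      𝔯 (placeInfL Qb N) = 0 →
      (∀ P : Pl N, P ≠ placeInfL Qb N →
        (𝔯 P : ℤ) = P.ord (t - algebraMap Qb ↥(modularFunctionFieldBar N) (pval P t)) - 1) →
      ∃ 𝒞 : Finset J, ∀ x : J, ∃ c ∈ 𝒞, ∃ E,
        GoodRaw 𝒮 (genusFF Qb ↥(modularFunctionFieldBar N)) n κ w₁ 𝔯 E ∧ cl E = x + c) :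
    Nonempty (CurveD 𝒮 J) := by
  obtain ⟨cl, hcl⟩ := PlBridge.exists_cl N U₀ J hJ₂
  have hRat : ∀ D : Pl N →₀ ℕ, D ∈ 𝒮.RatU ↔ D (placeInfL Qb N) = 0 ∧
      ∀ σ ∈ U₀, D.mapDomain (fun P => arithmeticGalois (modularFunctionFieldFull N) σ • P) = D := by
    intro D
    rw [Setting.mem_RatU]
    refine and_congr Iff.rfl ⟨fun h σ hσ => h _ ((hU _).mpr ⟨σ, hσ, rfl⟩), fun h u hu => ?_⟩
    obtain ⟨σ, hσ, rfl⟩ := (hU u).mp hu
    exact h σ hσ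
  have hclRat : ∀ D ∈ 𝒮.RatU, (cl D : JZero N) = PlBridge.clPl N D :=
    fun D hD => hcl D ((hRat D).mp hD).2
  obtain ⟨d₀, hrep⟩ := PlBridge.rep_field N 𝒮 U₀ hRat J hJ₁ cl hclRat
  refine nonempty_curveD_of_bases 𝒮 (Res.isFF1_modular N) hg hmle hlip hram harch_absFamily cl
    ?_ ?_ ?_ d₀ hrep n hn hnorth (htrans cl hcl)
  · intro M
    obtain ⟨r, f, hfix, hli, hspan, -, -⟩ := Fermat.Agent.MW.Ht.GalBridge.exists_rational_basis N M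
    refine ⟨r, f, ⟨fun g hg i => ?_, hli, hspan⟩⟩
    obtain ⟨σ, rfl⟩ := (hΓ g).mp hg
    exact hfix i σ
  · intro ψ hψ hfix Z hZ
    have hZR : Z ∈ 𝒮.RatU := 𝒮.isZDiv_mem_RatU hZ hfix
    apply Subtype.ext
    rw [hclRat Z hZR, hzero ψ Z hψ hZ]
    rfl
  · intro Z hZ hcl0
    have h1 := (hRat Z).mp hZ
    have h2 : PlBridge.clPl N Z = 0 := by
      rw [← hclRat Z hZ, hcl0]; rfl
    obtain ⟨ψ, hψ, hfix, hZd⟩ := hfixfun Z h1.1 h1.2 h2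
    refine ⟨ψ, hψ, fun u hu => ?_, hZd⟩
    obtain ⟨σ, hσ, rfl⟩ := (hU u).mp hu
    exact hfix σ hσ

end Modular

end Fermat.Agent.MW.HG.CurveInstMod
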