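/-
MW / HT-Q — `CurveInstClosed` (helper4): THE CLOSED TERM.

`exists_curveD N (hg : 1 ≤ g)` is LITERALLY the hypothesis `H` of
`MW.Top.OfCurveD.fg_of_exists_curveD`: for the modular function field of `X₀(N)` (genus `≥ 1`)
there are a global setting `𝒮` and a subgroup `J ⊆ JZero N` containing the rational classes,
with `Nonempty (CurveD 𝒮 J)`.  Hence `fg N : AddGroup.FG (J₀(N)(ℚ))` (the statement of S17 for
every level `N`).

Chain:
  `t`, `m = 2g + 1`        `Ht.RatCoord.exists_rational_coordinate_exact`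
  `𝔯`                      `Ht.RamCount.exists_ramDiv` (unique), `S₀` := the `t`-fibres of `supp 𝔯`
  `K₀`, translates         `Gen.TranslatesClosed.exists_translates` (with `n = 2g(2g+1) + 1`)
  coordinates, `LocalHt`   `HtM.LocalHtFF.exists_coords`, `localHtFF`
  `U₀ = Gal(Qb/K₀)`, `Sg₀`  `Ht.AbsQb.exists_finset_isComplement_fixingSubgroup`
  `𝒮`                      `HG.SettingInst.modSetting` (`MLe`, `Lip`; `RamLe` from `HG.RamInst`)
  `J = JU N U₀`            `Gen.ClSeam` (class-zero facts), `HG.NorthInst` (Northcott)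
  `CurveD`                 `HG.CurveInstMod.nonempty_curveD_modular`.
-/
import Mathlib
import Fermat.Agent.MW.HG.CurveInstMod
import Fermat.Agent.MW.Gen.TranslatesClosed
import Fermat.Agent.MW.Gen.ClSeam
import Fermat.Agent.MW.Ht.RatCoordExact
import Fermat.Agent.MW.Ht.Transversal
import Fermat.Agent.MW.HtM.LocalHtFF
import Fermat.Agent.MW.Top.OfCurveD

set_option autoImplicit false
set_option linter.unusedSectionVars false

noncomputable section

namespace Fermat.Agent.MW.HG.CurveInstClosed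

open AlgebraicCurve ModularCurve Module IntermediateField
open Fermat.Agent.Lib.FF Fermat.Agent.MW.HtM Fermat.Agent.MW.HQ Fermat.Agent.MW.HG
open Fermat.Agent.MW.HG.CurveInst Fermat.Agent.MW.HG.CurveInstMod
open Fermat.Agent.Lib.FF.PlaceInf Fermat.Agent.MW.Ht.AbsQb Fermat.Agent.MW.Ht.Defs
open Fermat.Agent.MW.Gen Fermat.Agent.MW.HG.SettingInst Fermat.Agent.MW.HtM.LocalHtFF

local notation "Qb" => AlgebraicClosure ℚ
local notation "GQ" => (AlgebraicClosure ℚ ≃ₐ[ℚ] AlgebraicClosure ℚ)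

/-! ### Arithmetic of the three numbers `m = 2g + 1`, `n = 2g(2g+1) + 1` -/

theorem coprime_two_mul_add_one_succ (g : ℕ) : Nat.Coprime (2 * g + 1) (g + 1) := by
  rw [Nat.coprime_iff_gcd_eq_one]
  have ha := Nat.gcd_dvd_left (2 * g + 1) (g + 1)
  have hb := Nat.gcd_dvd_right (2 * g + 1) (g + 1)
  have h1 : Nat.gcd (2 * g + 1) (g + 1) ∣ 2 * (g + 1) - (2 * g + 1) :=
    Nat.dvd_sub (Dvd.dvd.mul_left hb 2) ha
  have h2 : 2 * (g + 1) - (2 * g + 1) = 1 := by omega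
  rw [h2] at h1
  exact Nat.dvd_one.mp h1

theorem coprime_two_mul_add_one_n (g : ℕ) :
    Nat.Coprime (2 * g + 1) (2 * g * (2 * g + 1) + 1) := by
  rw [Nat.coprime_iff_gcd_eq_one]
  have ha := Nat.gcd_dvd_left (2 * g + 1) (2 * g * (2 * g + 1) + 1)
  have hb := Nat.gcd_dvd_right (2 * g + 1) (2 * g * (2 * g + 1) + 1)
  have h1 : Nat.gcd (2 * g + 1) (2 * g * (2 * g + 1) + 1) ∣
      2 * g * (2 * g + 1) + 1 - 2 * g * (2 * g + 1) :=
    Nat.dvd_sub hb (Dvd.dvd.mul_left ha (2 * g))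
  have h2 : 2 * g * (2 * g + 1) + 1 - 2 * g * (2 * g + 1) = 1 := by omega
  rw [h2] at h1
  exact Nat.dvd_one.mp h1

/-! ### Uniqueness of the ramification divisor -/

theorem ramDiv_unique {K F : Type*} [Field K] [Field F] [Algebra K F] {pinf : Place K F} {t : F}
    {𝔯 𝔯' : Place K F →₀ ℕ} (h0 : 𝔯 pinf = 0)
    (h : ∀ P : Place K F, P ≠ pinf → (𝔯 P : ℤ) = P.ord (t - algebraMap K F (pval P t)) - 1)
    (h0' : 𝔯' pinf = 0)
    (h' : ∀ P : Place K F, P ≠ pinf → (𝔯' P : ℤ) = P.ord (t - algebraMap K F (pval P t)) - 1) :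
    𝔯' = 𝔯 := by
  ext P
  by_cases hP : P = pinf
  · rw [hP, h0, h0']
  · have h1 := h P hP
    have h2 := h' P hP
    omega

variable (N : ℕ) [NeZero N]

/-- **THE CLOSED TERM**: the hypothesis `H` of `MW.Top.OfCurveD.fg_of_exists_curveD`. -/
theorem exists_curveD (hg : 1 ≤ genusFF Qb ↥(modularFunctionFieldBar N)) :
    ∃ (V : Type) (Ab : AbsFamily Qb V) (pinf : Place Qb ↥(modularFunctionFieldBar N))
      (t : ↥(modularFunctionFieldBar N)) (m : ℕ) (𝒮 : Setting Ab pinf t m)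
      (J : AddSubgroup (JZero N)),
      (∀ x : JZero N, (∀ σ : GQ, σ • x = x) → x ∈ J) ∧ Nonempty (CurveD 𝒮 J) := by
  classical
  -- the coordinate
  obtain ⟨t, htfix, htreg, htpole, httr, hfd, hrank⟩ :=
    Fermat.Agent.MW.Ht.RatCoord.exists_rational_coordinate_exact N
  have := hfd
  set g : ℕ := genusFF Qb ↥(modularFunctionFieldBar N) with hgdef
  have hm : 0 < 2 * g + 1 := Nat.succ_pos _
  have hFF := Res.isFF1_modular N
  -- the ramification divisor and the finite set `S₀`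
  obtain ⟨𝔯, h𝔯0, h𝔯, -⟩ := Fermat.Agent.MW.Ht.RamCount.exists_ramDiv hFF (placeInfL Qb N) t
    (2 * g + 1) hm htreg htpole
  choose T hT using fun τ : Qb =>
    Fermat.Agent.MW.Ht.RamDiv.exists_fibre_finset hFF htreg htpole hm τ
  set S₀ : Finset (Pl N) :=
    insert (placeInfL Qb N) (𝔯.support.biUnion fun q => T (pval q t)) with hS₀
  have hS₀mem : ∀ P : Pl N, (∃ q ∈ 𝔯.support, pval P t = pval q t) → P ∈ S₀ := by
    rintro P ⟨q, hq, hPq⟩
    by_cases hP : P = placeInfL Qb N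
    · rw [hP]; exact Finset.mem_insert_self _ _
    · exact Finset.mem_insert_of_mem
        (Finset.mem_biUnion.mpr ⟨q, hq, ((hT (pval q t)).2 P).mpr ⟨hP, hPq⟩⟩)
  -- the number field and the good translates
  have hco : Nat.Coprime (finrank Qb⟮t⟯ ↥(modularFunctionFieldBar N)) (g + 1) := by
    rw [hrank]; exact coprime_two_mul_add_one_succ g
  obtain ⟨K₀, hK₀, hTr⟩ := TranslatesClosed.exists_translates N t htreg httr hco S₀
  haveI := hK₀
  -- coordinates, transversal, the setting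
  obtain ⟨n₀, n₁, x₀, x₁, hc⟩ := exists_coords (K := Qb) t httr
  obtain ⟨Sg₀, -, -, hS⟩ := exists_finset_isComplement_fixingSubgroup K₀
  set L := localHtFF absFamily httr hc hm htreg htpole with hL
  set 𝒮 := modSetting L hm htfix htreg htpole K₀.fixingSubgroup Sg₀ hS with h𝒮
  have hΓ : ∀ u, u ∈ 𝒮.Γ ↔ ∃ σ : GQ, gal N σ = u :=
    fun u => mem_Γ L hm htfix htreg htpole K₀.fixingSubgroup Sg₀ hS
  have hU : ∀ u, u ∈ 𝒮.U ↔ ∃ σ ∈ K₀.fixingSubgroup, gal N σ = u :=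
    fun u => mem_U L hm htfix htreg htpole K₀.fixingSubgroup Sg₀ hS
  have hRat : ∀ D : Pl N →₀ ℕ, D ∈ 𝒮.RatU ↔ D (placeInfL Qb N) = 0 ∧
      ∀ σ ∈ K₀.fixingSubgroup,
        D.mapDomain (fun P => arithmeticGalois (modularFunctionFieldFull N) σ • P) = D :=
    fun D => mem_RatU_iff L hm htfix htreg htpole K₀.fixingSubgroup Sg₀ hS
  refine ⟨Pla, absFamily, placeInfL Qb N, t, 2 * g + 1, 𝒮, ClSeam.JU N K₀.fixingSubgroup,
    fun x hx => ClSeam.fixed_mem_JU K₀.fixingSubgroup x hx, ?_⟩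
  refine nonempty_curveD_modular N 𝒮 K₀.fixingSubgroup hΓ hU hg
    (modSetting_mle L hm htfix htreg htpole K₀.fixingSubgroup Sg₀ hS)
    (modSetting_lip L hm htfix htreg htpole K₀.fixingSubgroup Sg₀ hS)
    (RamInst.ram_modSetting httr hc hm htfix htreg htpole K₀.fixingSubgroup Sg₀ hS)
    (NorthInst.north_modSetting L hm htfix htreg htpole K₀.fixingSubgroup Sg₀ hS)
    (ClSeam.JU N K₀.fixingSubgroup) (fun x hx => ClSeam.mem_JU.mp hx)
    (fun x hx => ClSeam.mem_JU.mpr hx)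
    (fun ψ Z hψ hZ => ClSeam.hzero_closed ψ Z hψ hZ)
    (fun Z hZ0 hZU hcl => ClSeam.hfix_closed K₀.fixingSubgroup Z hZ0 hZU hcl)
    (2 * g * (2 * g + 1) + 1) (by rw [← hgdef]; nlinarith) ?_
  intro cl hcl κ w₁ 𝔯' hκ hw₁ h𝔯0' h𝔯'
  obtain rfl : 𝔯' = 𝔯 := ramDiv_unique h𝔯0 h𝔯 h𝔯0' h𝔯'
  exact hTr K₀.fixingSubgroup le_rfl 𝒮 (fun u hu => (hU u).mp hu) hRat
    (ClSeam.JU N K₀.fixingSubgroup) (fun x hx => ClSeam.mem_JU.mpr hx)
    (fun x hx => ClSeam.mem_JU.mp hx) cl (fun D hD => hcl D ((hRat D).mp hD).2)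
    (2 * g - 1) (show 2 * g - 1 + 1 ≤ 2 * g by omega) κ hκ.fam hκ.li (2 * g * (2 * g + 1) + 1)
    (show 2 * g ≤ 2 * g * (2 * g + 1) + 1 by nlinarith) (Nat.succ_pos _) (by rw [hrank]; exact coprime_two_mul_add_one_n g) w₁ hw₁ 𝔯' hS₀mem

/-- **Mordell–Weil for `J₀(N)`** (every level `N`): the group of `G_ℚ`-fixed points of
`J₀(N)(ℚ̄)` is finitely generated. -/
theorem fg : AddGroup.FG ↥(FixedPoints.addSubgroup GQ (JZero N)) :=
  Fermat.Agent.MW.Top.OfCurveD.fg_of_exists_curveD N (exists_curveD N)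

end Fermat.Agent.MW.HG.CurveInstClosed
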