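/-
MW / HT-Q — the bridge `Setting.MLe ⟹ Setting.DetLe` in the vocabulary of `HG/Defs.lean`.

For a `Setting` whose local distance satisfies the interpolation bound (M≤), every family of
functions regular off `pinf` with pole orders `≤ M` at `pinf` satisfies the local determinant
bound (this is `HtM.DetBoundB.det_le_of_mle`, restated for `Setting.DetLe`):

* `detLe_of_mle`      : `𝒮.MLe → 𝒮.DetLe κ M 0`;
* `detLe_of_fam`      : the same for a `𝒮.Fam κ M` (the field `κ_det` of `CurveData₀` at `B = 0`);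
* `detLe_succAbove`   : the sub-families `fun k => w (i.succAbove k)` (the field `w₁_det` of
  `CurveData₀`, literally);
* `detLe_of_mle_div`  : the version with an effective divisor `B` off `pinf` on which all `κ i`
  vanish (tuples meeting the support of `B` included: both sides vanish there).
-/
import Mathlib
import Fermat.Agent.MW.HG.Defs
import Fermat.Agent.MW.HtM.DetBoundB

set_option autoImplicit false

namespace Fermat.Agent.MW.HG.DetLeOf

open AlgebraicCurve Fermat.Agent.MW.HtM Fermat.Agent.MW.HQ Fermat.Agent.MW.HG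

variable {K F V : Type*} [Field K] [Field F] [Algebra K F]
variable {Ab : AbsFamily K V} {pinf : Place K F} {t : F} {m : ℕ}

/-- (M≤) of a `Setting` is the (M≤) property of its local distance. -/
theorem mLe_detBoundB (𝒮 : Setting Ab pinf t m) (h : 𝒮.MLe) :
    DetBoundB.MLe Ab pinf t m 𝒮.δ :=
  fun f M h1 h2 k => h f M h1 h2 k

/-- **`MLe ⟹ DetLe`** with a divisor `B` (off `pinf`) on which all the `κ i` vanish. -/
theorem detLe_of_mle_div (𝒮 : Setting Ab pinf t m) (h : 𝒮.MLe) {n : ℕ} (κ : Fin n → F) (M : ℕ)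
    (hreg : ∀ i, RegOff pinf (κ i)) (hpole : ∀ i, -(M : ℤ) ≤ pinf.ord (κ i))
    (B : Place K F →₀ ℕ) (hB : B pinf = 0)
    (hκB : ∀ i, ∀ P : Place K F, P ≠ pinf → (B P : ℤ) ≤ P.ord (κ i)) :
    𝒮.DetLe κ M B := by
  classical
  obtain ⟨C, hC, hdet⟩ := DetBoundB.det_le_of_mle (mLe_detBoundB 𝒮 h) 𝒮.δ_nonneg
    (fun P _ f hf => 𝒮.resK P f hf) B hB M n κ hreg hpole hκB
  refine ⟨C, hC, fun v P hP => ?_⟩
  by_cases hPB : ∀ j, P j ∉ B.support
  · have := hdet v P hP hPB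
    have hsymm : (∏ i, ∏ j ∈ Finset.Ioi i, 𝒮.δ v (P j) (P i))
        = ∏ i, ∏ j ∈ Finset.Ioi i, 𝒮.δ v (P i) (P j) :=
      Finset.prod_congr rfl fun i _ => Finset.prod_congr rfl fun j _ => 𝒮.δ_symm v _ _
    rwa [hsymm] at this
  · -- a point of the tuple lies on `B`: the matrix has a zero column and the right-hand side
    -- contains the factor `δ v b b = 0`
    simp only [not_forall, not_not] at hPB
    obtain ⟨j₀, hj₀⟩ := hPB
    have hBj : B (P j₀) ≠ 0 := Finsupp.mem_support_iff.mp hj₀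
    have hcol : ∀ i, pval (P j₀) (κ i) = 0 := fun i => by
      refine pval_eq_zero_of_ord_pos ?_
      have h1 := hκB i (P j₀) (hP j₀)
      have h2 : (1 : ℤ) ≤ (B (P j₀) : ℤ) := by exact_mod_cast Nat.one_le_iff_ne_zero.mpr hBj
      omega
    have hdet0 : Matrix.det (Matrix.of fun i j => pval (P j) (κ i)) = 0 :=
      Matrix.det_eq_zero_of_column_eq_zero j₀ (fun i => by simp [hcol i])
    have hfac : (B.prod fun b k => 𝒮.δ v b (P j₀) ^ k) = 0 := by
      rw [Finsupp.prod]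
      refine Finset.prod_eq_zero hj₀ ?_
      rw [𝒮.δ_self v (P j₀) (hP j₀), zero_pow hBj]
    have hprod : (∏ j, B.prod fun b k => 𝒮.δ v b (P j) ^ k) = 0 :=
      Finset.prod_eq_zero (Finset.mem_univ j₀) hfac
    rw [hdet0, map_zero, zero_pow 𝒮.m_pos.ne', hprod, zero_pow 𝒮.m_pos.ne', mul_zero]

/-- **`MLe ⟹ DetLe`** for a family regular off `pinf` with pole orders `≤ M`. -/
theorem detLe_of_mle (𝒮 : Setting Ab pinf t m) (h : 𝒮.MLe) {n : ℕ} (κ : Fin n → F) (M : ℕ)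
    (hreg : ∀ i, RegOff pinf (κ i)) (hpole : ∀ i, -(M : ℤ) ≤ pinf.ord (κ i)) :
    𝒮.DetLe κ M 0 :=
  detLe_of_mle_div 𝒮 h κ M hreg hpole 0 (by simp)
    (fun i P hP => by simpa using hreg i P hP)

/-- The field `κ_det` of `CurveData₀` (at `B = 0`). -/
theorem detLe_of_fam (𝒮 : Setting Ab pinf t m) (h : 𝒮.MLe) {n : ℕ} {κ : Fin n → F} {M : ℕ}
    (hκ : 𝒮.Fam κ M) : 𝒮.DetLe κ M 0 :=
  detLe_of_mle 𝒮 h κ M hκ.reg hκ.pole

/-- The field `w₁_det` of `CurveData₀`. -/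
theorem detLe_succAbove (𝒮 : Setting Ab pinf t m) (h : 𝒮.MLe) {n : ℕ} {w : Fin (n + 1) → F}
    {M : ℕ} (hw : 𝒮.Fam w M) :
    ∀ i : Fin (n + 1), 𝒮.DetLe (fun k : Fin n => w (i.succAbove k)) M 0 :=
  fun _ => detLe_of_mle 𝒮 h _ M (fun _ => hw.reg _) (fun _ => hw.pole _)

/-- The version with `B` for a `Fam`. -/
theorem detLe_of_fam_div (𝒮 : Setting Ab pinf t m) (h : 𝒮.MLe) {n : ℕ} {κ : Fin n → F} {M : ℕ}
    (hκ : 𝒮.Fam κ M) (B : Place K F →₀ ℕ) (hB : B pinf = 0)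
    (hκB : ∀ i, ∀ P : Place K F, P ≠ pinf → (B P : ℤ) ≤ P.ord (κ i)) :
    𝒮.DetLe κ M B :=
  detLe_of_mle_div 𝒮 h κ M hκ.reg hκ.pole B hB hκB

end Fermat.Agent.MW.HG.DetLeOf
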