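/-
MW / HT-Q: the local determinant bound `Setting.DetLe` is a consequence of `Setting.MLe`.

`Setting.detLe_of_mLe`: for `κ : Fin n → F` regular off `pinf`, of pole order `≤ M` at `pinf`, all
vanishing on the effective divisor `B` (off `pinf`): `𝒮.MLe → 𝒮.DetLe κ M B`.  This is the
cofactor induction of `MW/HtM/DetBoundB.lean` (`DetBoundB.det_le_of_mle`); at a tuple with a point
in the support of `B` the determinant has a zero column.
-/
import Mathlib
import Fermat.Agent.MW.HG.Defs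
import Fermat.Agent.MW.HtM.DetBoundB

set_option autoImplicit false

namespace Fermat.Agent.MW.HG

open AlgebraicCurve Fermat.Agent.MW.HtM Fermat.Agent.MW.HQ

variable {K F V : Type*} [Field K] [Field F] [Algebra K F]

namespace Setting

variable {Ab : AbsFamily K V} {pinf : Place K F} {t : F} {m : ℕ} (𝒮 : Setting Ab pinf t m)

/-- **(Det) from (M≤).** -/
theorem detLe_of_mLe (hmle : 𝒮.MLe) {n : ℕ} (κ : Fin n → F) (M : ℕ)
    (hreg : ∀ i, RegOff pinf (κ i)) (hpole : ∀ i, -(M : ℤ) ≤ pinf.ord (κ i))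
    (B : Place K F →₀ ℕ) (hB0 : B pinf = 0)
    (hκB : ∀ i, ∀ P : Place K F, P ≠ pinf → (B P : ℤ) ≤ P.ord (κ i)) :
    𝒮.DetLe κ M B := by
  classical
  have hmle' : DetBoundB.MLe Ab pinf t m 𝒮.δ := fun f M h1 h2 k => hmle f M h1 h2 k
  obtain ⟨C, hC, h⟩ := DetBoundB.det_le_of_mle hmle' 𝒮.δ_nonneg
    (fun P _ f hf => 𝒮.resK P f hf) B hB0 M n κ hreg hpole hκB
  refine ⟨C, hC, fun v P hP => ?_⟩
  by_cases hPB : ∀ j, P j ∉ B.support
  · have := h v P hP hPB
    simpa only [𝒮.δ_symm v (P _) (P _)] using this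
  · push Not at hPB
    obtain ⟨j, hj⟩ := hPB
    have hBj : B (P j) ≠ 0 := Finsupp.mem_support_iff.mp hj
    have hcol : ∀ i, (Matrix.of fun i j => pval (P j) (κ i)) i j = 0 := by
      intro i
      have h1 := hκB i (P j) (hP j)
      have h2 : (0 : ℤ) < (B (P j) : ℤ) := by exact_mod_cast Nat.pos_of_ne_zero hBj
      exact pval_eq_zero_of_ord_pos (lt_of_lt_of_le h2 h1)
    rw [Matrix.det_eq_zero_of_column_eq_zero j hcol, map_zero, zero_pow 𝒮.m_pos.ne']
    have hX : 0 ≤ ∏ j, max 1 (Ab.abv v (pval (P j) t)) :=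
      Finset.prod_nonneg fun j _ => le_trans zero_le_one (le_max_left _ _)
    have hY : 0 ≤ ∏ i, ∏ j ∈ Finset.Ioi i, 𝒮.δ v (P i) (P j) :=
      Finset.prod_nonneg fun i _ => Finset.prod_nonneg fun j _ => 𝒮.δ_nonneg v _ _
    have hW : 0 ≤ ∏ j, B.prod fun b k => 𝒮.δ v b (P j) ^ k :=
      Finset.prod_nonneg fun j _ => Finset.prod_nonneg fun b _ => pow_nonneg (𝒮.δ_nonneg v _ _) _
    exact mul_nonneg (mul_nonneg (mul_nonneg (hC.nonneg v) (pow_nonneg hX M)) (pow_nonneg hY m))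
      (pow_nonneg hW m)

/-- **(Det) from (M≤)**, without a divisor. -/
theorem detLe_zero_of_mLe (hmle : 𝒮.MLe) {n : ℕ} (κ : Fin n → F) (M : ℕ)
    (hreg : ∀ i, RegOff pinf (κ i)) (hpole : ∀ i, -(M : ℤ) ≤ pinf.ord (κ i)) :
    𝒮.DetLe κ M 0 :=
  𝒮.detLe_of_mLe hmle κ M hreg hpole 0 (by simp) (fun i P hP => by simpa using hreg i P hP)

end Setting

end Fermat.Agent.MW.HG
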