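/-
MW / HT-Q, row G4 (Disc), SECOND SEAT (helper27) — **the discriminant bound without
`t`-injectivity**:

  `(2 M + deg 𝔯 − m − 1) · h(Z) ≤ G(Z, Z) + C`

for the divisor of zeros `Z` (reduced, of degree `M`, in `t`-general position with respect to the
affine ramification divisor `𝔯` of `t`) of a `U`-fixed combination of a `Γ`-fixed family.

Proof.  Let `T` be the set of `t`-values of the points of `Z`, `Φ τ` the fibre of `t` over `τ`
(the divisor of zeros of `t − τ`, of degree `m`), `FibRed := ∑ τ ∈ T, Φ τ` (every fibre ONCE) and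
`W := FibRed − Z` (effective, `U`-stable, disjoint from `Z`).  Then
`G(Z, Z) + G(Z, W) = G(Z, FibRed) = ∑ p ∈ Z, ∑ τ ∈ T, G(p, Φ τ)`, and

* for `τ ≠ t(p)`: `G(p, Φ τ) ≥ m · η(p) + h(τ) − ℓ(t(p) − τ) − C`   (`lip_global`: (Lip) summed
  over the conjugates and the places), and `∑ ℓ = 0` by the product formula;
* for `τ = t(p)`: `G(p, Φ τ − p) ≥ (m − 1) · η(p) + G(p, 𝔯) − C`     (`ram_global`: (Ram) summed);
* `G(Z, W) ≤ deg W · h(a) + M · h(W) + C`                            (`recLow_raw`, row G1);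
* `G(Z, 𝔯) ≥ deg 𝔯 · h(Z) − C`                                       (`recUp_raw`, row G3).

The number of fibres and the height of `T` cancel identically.
-/
import Mathlib
import Fermat.Prelude.Def_AlgebraicCurve_Repartitions
import Fermat.Agent.S24.PlaceBasic
import Fermat.Agent.MW.HG.Defs
import Fermat.Agent.MW.HG.Basic
import Fermat.Agent.MW.HG.RecLow
import Fermat.Agent.MW.HG.RecUp

set_option autoImplicit false

noncomputable section

namespace Fermat.Agent.MW.HG.DiscNI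

open AlgebraicCurve Fermat.Agent.MW.HtM Fermat.Agent.MW.HQ

variable {K F V : Type*} [Field K] [Field F] [Algebra K F]

/-! ### Finite supports -/

theorem hfs_sum {α : Type*} (I : Finset α) (g : α → V → ℝ)
    (h : ∀ i ∈ I, (Function.support (g i)).Finite) :
    (Function.support fun v => ∑ i ∈ I, g i v).Finite := by
  classical
  refine (Set.Finite.biUnion I.finite_toSet fun i hi => h i (Finset.mem_coe.1 hi)).subset ?_
  intro v hv
  by_contra hcon
  apply hv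
  show ∑ i ∈ I, g i v = 0
  refine Finset.sum_eq_zero fun i hi => ?_
  by_contra hne
  exact hcon (Set.mem_biUnion (Finset.mem_coe.2 hi) hne)

theorem hfs_const_mul (c : ℝ) {g : V → ℝ} (h : (Function.support g).Finite) :
    (Function.support fun v => c * g v).Finite :=
  h.subset fun v hv hg => hv (by show c * g v = 0; rw [hg, mul_zero])

theorem hfs_add {g h : V → ℝ} (hg : (Function.support g).Finite)
    (hh : (Function.support h).Finite) : (Function.support fun v => g v + h v).Finite :=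
  (hg.union hh).subset fun v hv => by
    by_contra hcon
    rw [Set.mem_union, not_or] at hcon
    exact hv (by
      show g v + h v = 0
      rw [Function.notMem_support.1 hcon.1, Function.notMem_support.1 hcon.2, add_zero])

theorem hfs_sub {g h : V → ℝ} (hg : (Function.support g).Finite)
    (hh : (Function.support h).Finite) : (Function.support fun v => g v - h v).Finite :=
  (hg.union hh).subset fun v hv => by
    by_contra hcon
    rw [Set.mem_union, not_or] at hcon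
    exact hv (by
      show g v - h v = 0
      rw [Function.notMem_support.1 hcon.1, Function.notMem_support.1 hcon.2, sub_zero])

theorem hfs_logmax (Ab : AbsFamily K V) (c : K) :
    (Function.support fun v => Real.log (max 1 (Ab.abv v c))).Finite := by
  refine (Ab.finite_gt_one c).subset fun v hv => ?_
  by_contra hcon
  apply hv
  show Real.log (max 1 (Ab.abv v c)) = 0
  rw [max_eq_left (not_lt.mp hcon), Real.log_one]

theorem hfs_tame {C : V → ℝ} (hC : Tame C) :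
    (Function.support fun v => Real.log (C v)).Finite := by
  refine hC.2.subset fun v hv h1 => hv ?_
  show Real.log (C v) = 0
  rw [h1, Real.log_one]

theorem finsum_le_of_le {g h : V → ℝ} (hg : (Function.support g).Finite)
    (hh : (Function.support h).Finite) (hle : ∀ v, g v ≤ h v) : ∑ᶠ v, g v ≤ ∑ᶠ v, h v :=
  finsum_le_finsum' hg hh hle

variable {Ab : AbsFamily K V} {pinf : Place K F} {t : F} {m : ℕ} (𝒮 : Setting Ab pinf t m)

/-! ### Divisors of zeros and the fibres of `t` -/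

theorem isZDiv_unique {φ : F} {Z Z' : Place K F →₀ ℕ} (h : IsZDiv pinf φ Z)
    (h' : IsZDiv pinf φ Z') : Z = Z' := by
  ext P
  by_cases hP : P = pinf
  · rw [hP, h.1, h'.1]
  · have := (h.2 P hP).trans (h'.2 P hP).symm
    exact_mod_cast this

include 𝒮 in
theorem t_sub_ne_zero (τ : K) : t - algebraMap K F τ ≠ 0 := by
  intro h0
  have h1 := 𝒮.t_pole
  rw [sub_eq_zero.mp h0, Fermat.Agent.S24.ord_algebraMap] at h1
  have := 𝒮.m_pos
  omega

include 𝒮 in
theorem ord_sub_pos_iff {P : Place K F} (hP : P ≠ pinf) (τ : K) :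
    0 < P.ord (t - algebraMap K F τ) ↔ pval P t = τ := by
  constructor
  · intro hpos
    refine pval_eq P ?_
    rw [P.adicValuation_eq_exp_neg_ord (t_sub_ne_zero 𝒮 τ), ← WithZero.exp_zero,
      WithZero.exp_lt_exp]
    omega
  · rintro rfl
    obtain ⟨c, hc⟩ := 𝒮.resK P t (𝒮.t_reg P hP)
    rw [pval_eq P hc]
    rw [P.adicValuation_eq_exp_neg_ord (t_sub_ne_zero 𝒮 c), ← WithZero.exp_zero,
      WithZero.exp_lt_exp] at hc
    omega

include 𝒮 in
theorem mem_support_zdiv {τ : K} {Z' : Place K F →₀ ℕ}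
    (hZ' : IsZDiv pinf (t - algebraMap K F τ) Z') {P : Place K F} :
    P ∈ Z'.support ↔ P ≠ pinf ∧ pval P t = τ := by
  rw [Finsupp.mem_support_iff]
  constructor
  · intro h
    have hP : P ≠ pinf := by
      rintro rfl
      exact h hZ'.1
    refine ⟨hP, (ord_sub_pos_iff 𝒮 hP τ).1 ?_⟩
    rw [← hZ'.2 P hP]
    exact_mod_cast Nat.pos_of_ne_zero h
  · rintro ⟨hP, hτ⟩ h0
    have h1 := (ord_sub_pos_iff 𝒮 hP τ).2 hτ
    rw [← hZ'.2 P hP, h0] at h1
    simp at h1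

theorem smul_t_sub {g : SemilinearAut K F} (hg : g ∈ 𝒮.Γ) (τ : K) :
    g • (t - algebraMap K F τ) = t - algebraMap K F (SemilinearAut.baseAut g τ) := by
  rw [smul_sub, 𝒮.t_fixed g hg, SemilinearAut.smul_algebraMap]

theorem isZDiv_fib_smul {g : SemilinearAut K F} (hg : g ∈ 𝒮.Γ) {τ : K} {Z' : Place K F →₀ ℕ}
    (hZ' : IsZDiv pinf (t - algebraMap K F τ) Z') :
    IsZDiv pinf (t - algebraMap K F (SemilinearAut.baseAut g τ))
      (Z'.mapDomain fun P => g • P) := by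
  have h := 𝒮.isZDiv_smul hg hZ'
  rwa [smul_t_sub 𝒮 hg] at h

/-- The fibre of `t` over `τ`. -/
def Phi (τ : K) : Place K F →₀ ℕ := (𝒮.fib τ).choose

theorem Phi_spec (τ : K) : IsZDiv pinf (t - algebraMap K F τ) (Phi 𝒮 τ) :=
  (𝒮.fib τ).choose_spec.1

theorem deg_Phi (τ : K) : deg (Phi 𝒮 τ) = m := (𝒮.fib τ).choose_spec.2

theorem Phi_smul {g : SemilinearAut K F} (hg : g ∈ 𝒮.Γ) (τ : K) :
    (Phi 𝒮 τ).mapDomain (fun P => g • P) = Phi 𝒮 (SemilinearAut.baseAut g τ) :=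
  isZDiv_unique (isZDiv_fib_smul 𝒮 hg (Phi_spec 𝒮 τ)) (Phi_spec 𝒮 _)

/-! ### Heights of constants -/

/-- The height `∑ₛ ∑ᵥ log⁺ |s c|_v` of a constant. -/
def hK (c : K) : ℝ :=
  ∑ s ∈ 𝒮.Sg, ∑ᶠ v, Real.log (max 1 (Ab.abv v (SemilinearAut.baseAut s c)))

/-- The sum `∑ₛ ∑ᵥ log |s c|_v` (zero for `U`-fixed `c ≠ 0` by the product formula). -/
def lK (c : K) : ℝ :=
  ∑ s ∈ 𝒮.Sg, ∑ᶠ v, Real.log (Ab.abv v (SemilinearAut.baseAut s c))

theorem m_mul_etaU (p : Place K F) : (m : ℝ) * 𝒮.etaU p = hK 𝒮 (pval p t) := by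
  have hm : (m : ℝ) ≠ 0 := by exact_mod_cast 𝒮.m_pos.ne'
  unfold Setting.etaU hK
  rw [Finset.mul_sum]
  refine Finset.sum_congr rfl fun s hs => ?_
  rw [mul_finsum]
  refine finsum_congr fun v => ?_
  unfold Setting.eta
  rw [𝒮.pval_smul_t (𝒮.Sg_mem s hs), mul_div_cancel₀ _ hm]

theorem ht_Phi (τ : K) : ht 𝒮.etaU (Phi 𝒮 τ) = hK 𝒮 τ := by
  have hm : (m : ℝ) ≠ 0 := by exact_mod_cast 𝒮.m_pos.ne'
  unfold ht Finsupp.sum
  have h1 : ∀ S ∈ (Phi 𝒮 τ).support,
      ((Phi 𝒮 τ) S : ℝ) * 𝒮.etaU S = ((Phi 𝒮 τ) S : ℝ) * (hK 𝒮 τ / m) := by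
    intro S hS
    have h2 := ((mem_support_zdiv 𝒮 (Phi_spec 𝒮 τ)).1 hS).2
    have h3 := m_mul_etaU 𝒮 S
    rw [h2] at h3
    rw [← h3]
    field_simp
  rw [Finset.sum_congr rfl h1, ← Finset.sum_mul]
  have hdeg : (∑ S ∈ (Phi 𝒮 τ).support, ((Phi 𝒮 τ) S : ℝ)) = m := by
    have h4 := deg_Phi 𝒮 τ
    unfold deg Finsupp.sum at h4
    exact_mod_cast h4
  rw [hdeg]
  field_simp

theorem lK_one : lK 𝒮 1 = 0 := by
  simp [lK]

theorem lK_mul {a b : K} (ha : a ≠ 0) (hb : b ≠ 0) : lK 𝒮 (a * b) = lK 𝒮 a + lK 𝒮 b := by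
  unfold lK
  rw [← Finset.sum_add_distrib]
  refine Finset.sum_congr rfl fun s _ => ?_
  rw [← finsum_add_distrib (finite_log_abv Ab _) (finite_log_abv Ab _)]
  refine finsum_congr fun v => ?_
  rw [map_mul, map_mul, Real.log_mul]
  · exact (Ab.abv v).ne_zero (by simpa using ha)
  · exact (Ab.abv v).ne_zero (by simpa using hb)

theorem lK_prod {α : Type*} (I : Finset α) (c : α → K) (hc : ∀ i ∈ I, c i ≠ 0) :
    lK 𝒮 (∏ i ∈ I, c i) = ∑ i ∈ I, lK 𝒮 (c i) := by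
  classical
  induction I using Finset.induction_on with
  | empty => simp [lK_one]
  | insert i I hi ih =>
    rw [Finset.prod_insert hi, Finset.sum_insert hi,
      lK_mul 𝒮 (hc i (Finset.mem_insert_self i I))
        (Finset.prod_ne_zero_iff.2 fun j hj => hc j (Finset.mem_insert_of_mem hj)),
      ih fun j hj => hc j (Finset.mem_insert_of_mem hj)]


/-! ### (Lip), summed over the conjugates and the places -/

/-- **(Lip), global form**: for a point `p` and a fibre `Z'` of `t` not containing `p`,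
`G(p, Z') ≥ m · η(p) + h(τ') − ℓ(t(p) − τ') − C`. -/
theorem lip_global (hL : 𝒮.Lip) :
    ∃ C : ℝ, 0 ≤ C ∧ ∀ p : Place K F, p ≠ pinf → ∀ τ' : K, pval p t ≠ τ' →
      ∀ Z' : Place K F →₀ ℕ, IsZDiv pinf (t - algebraMap K F τ') Z' →
        (m : ℝ) * 𝒮.etaU p + hK 𝒮 τ' - lK 𝒮 (pval p t - τ') - C ≤
          Z'.sum fun S n => (n : ℝ) * 𝒮.gU p S := by
  classical
  obtain ⟨C, hCt, hC⟩ := hL
  have hm' : (0 : ℝ) < m := by exact_mod_cast 𝒮.m_pos
  refine ⟨𝒮.Sg.card * ∑ᶠ v, Real.log (C v),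
    mul_nonneg (Nat.cast_nonneg _) (finsum_nonneg fun v => Real.log_nonneg (hCt.1 v)), ?_⟩
  intro p hp τ' hτ' Z' hZ'
  have hZne : ∀ S ∈ Z'.support, S ≠ pinf ∧ S ≠ p := by
    intro S hS
    have h := (mem_support_zdiv 𝒮 hZ').1 hS
    refine ⟨h.1, ?_⟩
    rintro rfl
    exact hτ' h.2
  have hne : pval p t - τ' ≠ 0 := sub_ne_zero.mpr hτ'
  -- the inequality for one conjugate
  have hs : ∀ s ∈ 𝒮.Sg,
      (m : ℝ) * (∑ᶠ v, 𝒮.eta v (s • p))
        + (∑ᶠ v, Real.log (max 1 (Ab.abv v (SemilinearAut.baseAut s τ'))))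
        - (∑ᶠ v, Real.log (Ab.abv v (SemilinearAut.baseAut s (pval p t - τ'))))
        - (∑ᶠ v, Real.log (C v))
      ≤ ∑ S ∈ Z'.support, (Z' S : ℝ) * ∑ᶠ v, 𝒮.lam v (s • p) (s • S) := by
    intro s hsS
    have hsΓ := 𝒮.Sg_mem s hsS
    have hsp : s • p ≠ pinf := 𝒮.smul_ne_pinf hsΓ hp
    have hpt : ∀ v, (m : ℝ) * 𝒮.eta v (s • p)
          + Real.log (max 1 (Ab.abv v (SemilinearAut.baseAut s τ')))
          - Real.log (Ab.abv v (SemilinearAut.baseAut s (pval p t - τ'))) - Real.log (C v)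
        ≤ ∑ S ∈ Z'.support, (Z' S : ℝ) * 𝒮.lam v (s • p) (s • S) := by
      intro v
      have key := hC v (s • p) hsp (SemilinearAut.baseAut s τ') (Z'.mapDomain fun P => s • P)
        (isZDiv_fib_smul 𝒮 hsΓ hZ')
      rw [Finsupp.prod_mapDomain_index_inj (MulAction.injective s), 𝒮.pval_smul_t hsΓ,
        ← map_sub] at key
      have hδpos : ∀ S ∈ Z'.support, 0 < 𝒮.δ v (s • p) (s • S) := by
        intro S hS
        refine 𝒮.δ_pos v _ _ hsp (𝒮.smul_ne_pinf hsΓ (hZne S hS).1) ?_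
        intro h
        exact (hZne S hS).2 (MulAction.injective s h).symm
      have hprodpos : 0 < Z'.prod fun S n => 𝒮.δ v (s • p) (s • S) ^ n :=
        Finset.prod_pos fun S hS => pow_pos (hδpos S hS) _
      have hlogprod : Real.log (Z'.prod fun S n => 𝒮.δ v (s • p) (s • S) ^ n)
          = ∑ S ∈ Z'.support, (Z' S : ℝ) * Real.log (𝒮.δ v (s • p) (s • S)) := by
        unfold Finsupp.prod
        rw [Real.log_prod]
        · exact Finset.sum_congr rfl fun S _ => Real.log_pow _ _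
        · intro S hS
          exact (pow_pos (hδpos S hS) _).ne'
      have hA : 0 < max 1 (Ab.abv v (SemilinearAut.baseAut s (pval p t))) :=
        lt_of_lt_of_le one_pos (le_max_left _ _)
      have hB : 0 < max 1 (Ab.abv v (SemilinearAut.baseAut s τ')) :=
        lt_of_lt_of_le one_pos (le_max_left _ _)
      have hD : 0 < Ab.abv v (SemilinearAut.baseAut s (pval p t - τ')) :=
        (Ab.abv v).pos fun h =>
          hne ((SemilinearAut.baseAut s).injective (h.trans (map_zero _).symm))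
      have hlog := Real.log_le_log (mul_pos hprodpos (mul_pos hA hB)) key
      rw [Real.log_mul hprodpos.ne' (mul_pos hA hB).ne', Real.log_mul hA.ne' hB.ne',
        Real.log_mul (hCt.pos v).ne' hD.ne', hlogprod] at hlog
      have hlam : ∑ S ∈ Z'.support, (Z' S : ℝ) * 𝒮.lam v (s • p) (s • S)
          = -∑ S ∈ Z'.support, (Z' S : ℝ) * Real.log (𝒮.δ v (s • p) (s • S)) := by
        rw [← Finset.sum_neg_distrib]
        refine Finset.sum_congr rfl fun S _ => ?_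
        unfold Setting.lam
        ring
      have heta : (m : ℝ) * 𝒮.eta v (s • p)
          = Real.log (max 1 (Ab.abv v (SemilinearAut.baseAut s (pval p t)))) := by
        unfold Setting.eta
        rw [𝒮.pval_smul_t hsΓ, mul_div_cancel₀ _ hm'.ne']
      rw [hlam, heta]
      linarith
    -- finite supports
    have f1 : (Function.support fun v => (m : ℝ) * 𝒮.eta v (s • p)).Finite :=
      hfs_const_mul _ (𝒮.finite_eta (s • p))
    have f2 : (Function.support fun v =>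
        Real.log (max 1 (Ab.abv v (SemilinearAut.baseAut s τ')))).Finite := hfs_logmax Ab _
    have f3 : (Function.support fun v =>
        Real.log (Ab.abv v (SemilinearAut.baseAut s (pval p t - τ')))).Finite :=
      finite_log_abv Ab _
    have f4 : (Function.support fun v => Real.log (C v)).Finite := hfs_tame hCt
    have f5 : ∀ S ∈ Z'.support,
        (Function.support fun v => (Z' S : ℝ) * 𝒮.lam v (s • p) (s • S)).Finite :=
      fun S hS => hfs_const_mul _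
        (𝒮.finite_lam hsp (𝒮.smul_ne_pinf hsΓ (hZne S hS).1))
    have hsum := finsum_le_of_le (hfs_sub (hfs_sub (hfs_add f1 f2) f3) f4)
      (hfs_sum Z'.support _ f5) hpt
    rw [finsum_sub_distrib (hfs_sub (hfs_add f1 f2) f3) f4,
      finsum_sub_distrib (hfs_add f1 f2) f3, finsum_add_distrib f1 f2, ← mul_finsum,
      finsum_sum_comm Z'.support _ f5] at hsum
    refine hsum.trans (le_of_eq ?_)
    refine Finset.sum_congr rfl fun S _ => ?_
    rw [mul_finsum]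
  -- sum over the conjugates
  have htot := Finset.sum_le_sum hs
  have eL : ∑ s ∈ 𝒮.Sg, ((m : ℝ) * (∑ᶠ v, 𝒮.eta v (s • p))
        + (∑ᶠ v, Real.log (max 1 (Ab.abv v (SemilinearAut.baseAut s τ'))))
        - (∑ᶠ v, Real.log (Ab.abv v (SemilinearAut.baseAut s (pval p t - τ'))))
        - (∑ᶠ v, Real.log (C v)))
      = (m : ℝ) * 𝒮.etaU p + hK 𝒮 τ' - lK 𝒮 (pval p t - τ')
        - 𝒮.Sg.card * ∑ᶠ v, Real.log (C v) := by
    unfold Setting.etaU hK lK
    simp only [Finset.sum_sub_distrib, Finset.sum_add_distrib, ← Finset.mul_sum,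
      Finset.sum_const, nsmul_eq_mul]
  have eR : ∑ s ∈ 𝒮.Sg, ∑ S ∈ Z'.support, (Z' S : ℝ) * ∑ᶠ v, 𝒮.lam v (s • p) (s • S)
      = Z'.sum fun S n => (n : ℝ) * 𝒮.gU p S := by
    rw [Finset.sum_comm]
    unfold Finsupp.sum Setting.gU
    refine Finset.sum_congr rfl fun S _ => ?_
    beta_reduce
    rw [Finset.mul_sum]
  rw [eL, eR] at htot
  exact htot


/-! ### (Ram), summed over the conjugates and the places -/

theorem mapDomain_erase_inj {α β : Type*} {f : α → β} (hf : Function.Injective f) (Z : α →₀ ℕ)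
    (a : α) : (Z.mapDomain f).erase (f a) = (Z.erase a).mapDomain f := by
  classical
  ext b
  by_cases hb : b ∈ Set.range f
  · obtain ⟨c, rfl⟩ := hb
    by_cases hc : c = a
    · subst hc
      rw [Finsupp.erase_same, Finsupp.mapDomain_apply hf, Finsupp.erase_same]
    · rw [Finsupp.erase_ne (fun h => hc (hf h)), Finsupp.mapDomain_apply hf,
        Finsupp.mapDomain_apply hf, Finsupp.erase_ne hc]
  · rw [Finsupp.mapDomain_of_notMem_range _ _ hb, Finsupp.erase_ne (fun h => hb ⟨a, h.symm⟩),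
      Finsupp.mapDomain_of_notMem_range _ _ hb]

/-- The affine ramification divisor of `t` is `Γ`-stable. -/
theorem ram_smul {g : SemilinearAut K F} (hg : g ∈ 𝒮.Γ) (𝔯 : Place K F →₀ ℕ)
    (h𝔯' : ∀ P : Place K F, P ≠ pinf →
      (𝔯 P : ℤ) = P.ord (t - algebraMap K F (pval P t)) - 1) :
    𝔯.mapDomain (fun P => g • P) = 𝔯 := by
  have hinj : Function.Injective fun P : Place K F => g • P := MulAction.injective g
  ext P
  by_cases hP : P = pinf
  · have h1 := Finsupp.mapDomain_apply hinj 𝔯 pinf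
    simp only [𝒮.inf_fixed g hg] at h1
    rw [hP]
    exact h1
  · have hP' : g⁻¹ • P ≠ pinf := fun h2 => hP (by
      have := congrArg (fun Q => g • Q) h2
      simpa [𝒮.inf_fixed g hg] using this)
    have h1 := Finsupp.mapDomain_apply hinj 𝔯 (g⁻¹ • P)
    simp only [smul_inv_smul] at h1
    rw [h1]
    have h2 := SemilinearAut.ord_smul g (g⁻¹ • P) (t - algebraMap K F (pval (g⁻¹ • P) t))
    rw [smul_t_sub 𝒮 hg, ← 𝒮.pval_smul_t hg, smul_inv_smul] at h2
    have h3 : ((𝔯 (g⁻¹ • P) : ℕ) : ℤ) = (𝔯 P : ℤ) := by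
      rw [h𝔯' _ hP', h𝔯' P hP, h2]
    exact_mod_cast h3

/-- **(Ram), global form**: for a point `p` at which `t` is unramified and the fibre `Z'` of `t`
through `p`, `G(p, Z' − p) ≥ (m − 1) · η(p) + G(p, 𝔯) − C`. -/
theorem ram_global (hR : 𝒮.RamLe) (𝔯 : Place K F →₀ ℕ) (h𝔯 : 𝔯 pinf = 0)
    (h𝔯' : ∀ P : Place K F, P ≠ pinf →
      (𝔯 P : ℤ) = P.ord (t - algebraMap K F (pval P t)) - 1) :
    ∃ C : ℝ, 0 ≤ C ∧ ∀ p : Place K F, p ≠ pinf →
      p.ord (t - algebraMap K F (pval p t)) = 1 →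
      ∀ Z' : Place K F →₀ ℕ, IsZDiv pinf (t - algebraMap K F (pval p t)) Z' →
        ((m : ℝ) - 1) * 𝒮.etaU p + (𝔯.sum fun r n => (n : ℝ) * 𝒮.gU p r) - C ≤
          (Z'.erase p).sum fun S n => (n : ℝ) * 𝒮.gU p S := by
  classical
  obtain ⟨C, hCt, hC⟩ := hR
  have hm' : (0 : ℝ) < m := by exact_mod_cast 𝒮.m_pos
  refine ⟨𝒮.Sg.card * ((m : ℝ)⁻¹ * ∑ᶠ v, Real.log (C v)),
    mul_nonneg (Nat.cast_nonneg _) (mul_nonneg (inv_nonneg.2 hm'.le)
      (finsum_nonneg fun v => Real.log_nonneg (hCt.1 v))), ?_⟩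
  intro p hp hord Z' hZ'
  have h𝔯p : 𝔯 p = 0 := by
    have h1 := h𝔯' p hp
    rw [hord] at h1
    have h2 : ((𝔯 p : ℕ) : ℤ) = 0 := by rw [h1]; norm_num
    exact_mod_cast h2
  have h𝔯ne : ∀ r ∈ 𝔯.support, r ≠ pinf ∧ r ≠ p := by
    intro r hr
    rw [Finsupp.mem_support_iff] at hr
    exact ⟨fun h => hr (h ▸ h𝔯), fun h => hr (h ▸ h𝔯p)⟩
  have hZne : ∀ S ∈ (Z'.erase p).support, S ≠ pinf ∧ S ≠ p := by
    intro S hS
    rw [Finsupp.support_erase, Finset.mem_erase] at hS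
    exact ⟨((mem_support_zdiv 𝒮 hZ').1 hS.2).1, hS.1⟩
  -- the inequality for one conjugate
  have hs : ∀ s ∈ 𝒮.Sg,
      ((m : ℝ) - 1) * (∑ᶠ v, 𝒮.eta v (s • p))
        + (∑ r ∈ 𝔯.support, (𝔯 r : ℝ) * ∑ᶠ v, 𝒮.lam v (s • p) (s • r))
        - (m : ℝ)⁻¹ * (∑ᶠ v, Real.log (C v))
      ≤ ∑ S ∈ (Z'.erase p).support, ((Z'.erase p) S : ℝ) * ∑ᶠ v, 𝒮.lam v (s • p) (s • S) := by
    intro s hsS
    have hsΓ := 𝒮.Sg_mem s hsS
    have hsp : s • p ≠ pinf := 𝒮.smul_ne_pinf hsΓ hp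
    have hord' : (s • p).ord (t - algebraMap K F (pval (s • p) t)) = 1 := by
      have h2 := SemilinearAut.ord_smul s p (t - algebraMap K F (pval p t))
      rw [smul_t_sub 𝒮 hsΓ, ← 𝒮.pval_smul_t hsΓ] at h2
      rw [h2, hord]
    have hZs : IsZDiv pinf (t - algebraMap K F (pval (s • p) t))
        (Z'.mapDomain fun P => s • P) := by
      have h2 := isZDiv_fib_smul 𝒮 hsΓ hZ'
      rwa [← 𝒮.pval_smul_t hsΓ] at h2
    have hpt : ∀ v, ((m : ℝ) - 1) * 𝒮.eta v (s • p)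
          + (∑ r ∈ 𝔯.support, (𝔯 r : ℝ) * 𝒮.lam v (s • p) (s • r))
          - (m : ℝ)⁻¹ * Real.log (C v)
        ≤ ∑ S ∈ (Z'.erase p).support, ((Z'.erase p) S : ℝ) * 𝒮.lam v (s • p) (s • S) := by
      intro v
      have key := hC v (s • p) hsp hord' (Z'.mapDomain fun P => s • P) 𝔯 hZs h𝔯 h𝔯'
      have e𝔯 : (𝔯.prod fun r n => 𝒮.δ v (s • p) r ^ n)
          = 𝔯.prod fun r n => 𝒮.δ v (s • p) (s • r) ^ n := by
        conv_lhs => rw [← ram_smul 𝒮 hsΓ 𝔯 h𝔯']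
        exact Finsupp.prod_mapDomain_index_inj (MulAction.injective s)
      rw [mapDomain_erase_inj (MulAction.injective s),
        Finsupp.prod_mapDomain_index_inj (MulAction.injective s), e𝔯] at key
      have hδZ : ∀ S ∈ (Z'.erase p).support, 0 < 𝒮.δ v (s • p) (s • S) := by
        intro S hS
        refine 𝒮.δ_pos v _ _ hsp (𝒮.smul_ne_pinf hsΓ (hZne S hS).1) ?_
        intro h
        exact (hZne S hS).2 (MulAction.injective s h).symm
      have hδ𝔯 : ∀ r ∈ 𝔯.support, 0 < 𝒮.δ v (s • p) (s • r) := by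
        intro r hr
        refine 𝒮.δ_pos v _ _ hsp (𝒮.smul_ne_pinf hsΓ (h𝔯ne r hr).1) ?_
        intro h
        exact (h𝔯ne r hr).2 (MulAction.injective s h).symm
      have hApos : 0 < (Z'.erase p).prod fun S n => 𝒮.δ v (s • p) (s • S) ^ n :=
        Finset.prod_pos fun S hS => pow_pos (hδZ S hS) _
      have hDpos : 0 < 𝔯.prod fun r n => 𝒮.δ v (s • p) (s • r) ^ n :=
        Finset.prod_pos fun r hr => pow_pos (hδ𝔯 r hr) _
      have hlogA : Real.log ((Z'.erase p).prod fun S n => 𝒮.δ v (s • p) (s • S) ^ n)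
          = ∑ S ∈ (Z'.erase p).support,
              ((Z'.erase p) S : ℝ) * Real.log (𝒮.δ v (s • p) (s • S)) := by
        unfold Finsupp.prod
        rw [Real.log_prod]
        · exact Finset.sum_congr rfl fun S _ => Real.log_pow _ _
        · intro S hS
          exact (pow_pos (hδZ S hS) _).ne'
      have hlogD : Real.log (𝔯.prod fun r n => 𝒮.δ v (s • p) (s • r) ^ n)
          = ∑ r ∈ 𝔯.support, (𝔯 r : ℝ) * Real.log (𝒮.δ v (s • p) (s • r)) := by
        unfold Finsupp.prod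
        rw [Real.log_prod]
        · exact Finset.sum_congr rfl fun r _ => Real.log_pow _ _
        · intro r hr
          exact (pow_pos (hδ𝔯 r hr) _).ne'
      have hB : 0 < max 1 (Ab.abv v (pval (s • p) t)) :=
        lt_of_lt_of_le one_pos (le_max_left _ _)
      have hlog := Real.log_le_log (mul_pos (pow_pos hApos m) (pow_pos hB (m - 1))) key
      rw [Real.log_mul (pow_pos hApos m).ne' (pow_pos hB (m - 1)).ne',
        Real.log_mul (hCt.pos v).ne' (pow_pos hDpos m).ne', Real.log_pow, Real.log_pow,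
        Real.log_pow, hlogA, hlogD, Nat.cast_pred 𝒮.m_pos] at hlog
      have hlamZ : ∑ S ∈ (Z'.erase p).support, ((Z'.erase p) S : ℝ) * 𝒮.lam v (s • p) (s • S)
          = -∑ S ∈ (Z'.erase p).support,
              ((Z'.erase p) S : ℝ) * Real.log (𝒮.δ v (s • p) (s • S)) := by
        rw [← Finset.sum_neg_distrib]
        refine Finset.sum_congr rfl fun S _ => ?_
        unfold Setting.lam
        ring
      have hlam𝔯 : ∑ r ∈ 𝔯.support, (𝔯 r : ℝ) * 𝒮.lam v (s • p) (s • r)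
          = -∑ r ∈ 𝔯.support, (𝔯 r : ℝ) * Real.log (𝒮.δ v (s • p) (s • r)) := by
        rw [← Finset.sum_neg_distrib]
        refine Finset.sum_congr rfl fun r _ => ?_
        unfold Setting.lam
        ring
      rw [hlamZ, hlam𝔯]
      unfold Setting.eta
      generalize (∑ S ∈ (Z'.erase p).support,
        ((Z'.erase p) S : ℝ) * Real.log (𝒮.δ v (s • p) (s • S))) = a at hlog ⊢
      generalize (∑ r ∈ 𝔯.support, (𝔯 r : ℝ) * Real.log (𝒮.δ v (s • p) (s • r))) = d at hlog ⊢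
      generalize Real.log (max 1 (Ab.abv v (pval (s • p) t))) = b at hlog ⊢
      generalize Real.log (C v) = c at hlog ⊢
      have e : ((m : ℝ) - 1) * (b / m) + -d - (m : ℝ)⁻¹ * c
          = (((m : ℝ) - 1) * b - m * d - c) / m := by
        field_simp
        ring
      rw [e, div_le_iff₀ hm']
      linarith
    -- finite supports
    have f1 : (Function.support fun v => ((m : ℝ) - 1) * 𝒮.eta v (s • p)).Finite :=
      hfs_const_mul _ (𝒮.finite_eta (s • p))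
    have f2 : ∀ r ∈ 𝔯.support,
        (Function.support fun v => (𝔯 r : ℝ) * 𝒮.lam v (s • p) (s • r)).Finite :=
      fun r hr => hfs_const_mul _
        (𝒮.finite_lam hsp (𝒮.smul_ne_pinf hsΓ (h𝔯ne r hr).1))
    have f3 : (Function.support fun v => (m : ℝ)⁻¹ * Real.log (C v)).Finite :=
      hfs_const_mul _ (hfs_tame hCt)
    have f5 : ∀ S ∈ (Z'.erase p).support,
        (Function.support fun v => ((Z'.erase p) S : ℝ) * 𝒮.lam v (s • p) (s • S)).Finite :=
      fun S hS => hfs_const_mul _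
        (𝒮.finite_lam hsp (𝒮.smul_ne_pinf hsΓ (hZne S hS).1))
    have hsum := finsum_le_of_le (hfs_sub (hfs_add f1 (hfs_sum 𝔯.support _ f2)) f3)
      (hfs_sum (Z'.erase p).support _ f5) hpt
    rw [finsum_sub_distrib (hfs_add f1 (hfs_sum 𝔯.support _ f2)) f3,
      finsum_add_distrib f1 (hfs_sum 𝔯.support _ f2), ← mul_finsum, ← mul_finsum,
      finsum_sum_comm 𝔯.support _ f2, finsum_sum_comm (Z'.erase p).support _ f5] at hsum
    refine le_trans (le_of_eq ?_) (hsum.trans (le_of_eq ?_))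
    · congr 2
      refine Finset.sum_congr rfl fun r _ => ?_
      rw [mul_finsum]
    · refine Finset.sum_congr rfl fun S _ => ?_
      rw [mul_finsum]
  -- sum over the conjugates
  have htot := Finset.sum_le_sum hs
  have eL : ∑ s ∈ 𝒮.Sg, (((m : ℝ) - 1) * (∑ᶠ v, 𝒮.eta v (s • p))
        + (∑ r ∈ 𝔯.support, (𝔯 r : ℝ) * ∑ᶠ v, 𝒮.lam v (s • p) (s • r))
        - (m : ℝ)⁻¹ * (∑ᶠ v, Real.log (C v)))
      = ((m : ℝ) - 1) * 𝒮.etaU p + (𝔯.sum fun r n => (n : ℝ) * 𝒮.gU p r)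
        - 𝒮.Sg.card * ((m : ℝ)⁻¹ * ∑ᶠ v, Real.log (C v)) := by
    have e1 : ∑ s ∈ 𝒮.Sg, ∑ r ∈ 𝔯.support, (𝔯 r : ℝ) * ∑ᶠ v, 𝒮.lam v (s • p) (s • r)
        = 𝔯.sum fun r n => (n : ℝ) * 𝒮.gU p r := by
      rw [Finset.sum_comm]
      unfold Finsupp.sum Setting.gU
      refine Finset.sum_congr rfl fun r _ => ?_
      beta_reduce
      rw [Finset.mul_sum]
    rw [← e1]
    unfold Setting.etaU
    simp only [Finset.sum_sub_distrib, Finset.sum_add_distrib, ← Finset.mul_sum,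
      Finset.sum_const, nsmul_eq_mul]
    ring
  have eR : ∑ s ∈ 𝒮.Sg, ∑ S ∈ (Z'.erase p).support,
        ((Z'.erase p) S : ℝ) * ∑ᶠ v, 𝒮.lam v (s • p) (s • S)
      = (Z'.erase p).sum fun S n => (n : ℝ) * 𝒮.gU p S := by
    rw [Finset.sum_comm]
    unfold Finsupp.sum Setting.gU
    refine Finset.sum_congr rfl fun S _ => ?_
    beta_reduce
    rw [Finset.mul_sum]
  rw [eL, eR] at htot
  exact htot


/-! ### Bookkeeping for reduced divisors -/

section Abstract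

variable {P : Type*}

theorem pairG_reduced (g : P → P → ℝ) {Z : P →₀ ℕ} (hred : ∀ p, Z p ≤ 1) (D : P →₀ ℕ) :
    pairG g Z D = ∑ p ∈ Z.support, D.sum fun q b => (b : ℝ) * g p q := by
  unfold pairG Finsupp.sum
  refine Finset.sum_congr rfl fun p hp => Finset.sum_congr rfl fun q _ => ?_
  have h1 : Z p = 1 := le_antisymm (hred p) (Nat.pos_of_ne_zero (Finsupp.mem_support_iff.1 hp))
  simp only [h1, Nat.cast_one, one_mul]

theorem ht_reduced (η : P → ℝ) {Z : P →₀ ℕ} (hred : ∀ p, Z p ≤ 1) :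
    ht η Z = ∑ p ∈ Z.support, η p := by
  unfold ht Finsupp.sum
  refine Finset.sum_congr rfl fun p hp => ?_
  have h1 : Z p = 1 := le_antisymm (hred p) (Nat.pos_of_ne_zero (Finsupp.mem_support_iff.1 hp))
  simp only [h1, Nat.cast_one, one_mul]

theorem deg_reduced {Z : P →₀ ℕ} (hred : ∀ p, Z p ≤ 1) : deg Z = Z.support.card := by
  unfold deg Finsupp.sum
  rw [Finset.card_eq_sum_ones]
  refine Finset.sum_congr rfl fun p hp => ?_
  exact le_antisymm (hred p) (Nat.pos_of_ne_zero (Finsupp.mem_support_iff.1 hp))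

theorem deg_finset_sum {α : Type*} (T : Finset α) (D : α → P →₀ ℕ) :
    deg (∑ i ∈ T, D i) = ∑ i ∈ T, deg (D i) := by
  unfold deg
  exact (Finsupp.sum_finsetSum_index (fun _ => rfl) (fun _ _ _ => rfl)).symm

theorem ht_finset_sum (η : P → ℝ) {α : Type*} (T : Finset α) (D : α → P →₀ ℕ) :
    ht η (∑ i ∈ T, D i) = ∑ i ∈ T, ht η (D i) := by
  unfold ht
  exact (Finsupp.sum_finsetSum_index (fun _ => by simp)
    (fun _ _ _ => by push_cast; ring)).symm

theorem agg (Zs : Finset P) (e G L : P → ℝ) (mR sR H C₁ C₂ : ℝ) :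
    ∑ p ∈ Zs, ((mR - 1) * e p + G p - C₂
        + ((sR - 1) * (mR * e p - C₁) + (H - mR * e p) - L p))
      = (mR - 1) * ∑ p ∈ Zs, e p + ∑ p ∈ Zs, G p - Zs.card * C₂
        + ((sR - 1) * (mR * ∑ p ∈ Zs, e p - Zs.card * C₁)
          + (Zs.card * H - mR * ∑ p ∈ Zs, e p) - ∑ p ∈ Zs, L p) := by
  simp only [Finset.sum_add_distrib, Finset.sum_sub_distrib, ← Finset.mul_sum, Finset.sum_const,
    nsmul_eq_mul]

end Abstract

/-- The conjugates of a combination of a `Γ`-fixed family. -/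
theorem smul_comb {ι : Type} [Fintype ι] {f : ι → F} {M : ℕ} (hf : 𝒮.Fam f M)
    {g : SemilinearAut K F} (hg : g ∈ 𝒮.Γ) (b : ι → K) :
    g • (∑ i, b i • f i) = ∑ i, SemilinearAut.baseAut g (b i) • f i := by
  rw [Finset.smul_sum]
  refine Finset.sum_congr rfl fun i _ => ?_
  rw [Algebra.smul_def, smul_mul', SemilinearAut.smul_algebraMap, hf.fixed g hg i,
    ← Algebra.smul_def]

/-! ### The discriminant bound -/

/-- **G4 (Disc), without `t`-injectivity**, with the upper half of reciprocity for the pair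
`(Z, 𝔯)` (row G3, `recUp_raw`) as a hypothesis. -/
theorem disc_ge_of (hM : 𝒮.MLe) (hL : 𝒮.Lip) (hR : 𝒮.RamLe) {ι : Type} [Fintype ι] (f : ι → F)
    (M : ℕ) (hf : 𝒮.Fam f M) (hB : 𝒮.MahlerLe f)
    (𝔯 : Place K F →₀ ℕ) (h𝔯 : 𝔯 pinf = 0)
    (h𝔯' : ∀ P : Place K F, P ≠ pinf →
      (𝔯 P : ℤ) = P.ord (t - algebraMap K F (pval P t)) - 1)
    (hUp : ∃ C : ℝ, ∀ a : ι → K, 𝒮.UFix a → (∑ i, a i • f i) ≠ 0 →
      ∀ Z : Place K F →₀ ℕ, IsZDiv pinf (∑ i, a i • f i) Z → deg Z ≤ M →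
      ∀ E ∈ 𝒮.RatU, deg E ≤ deg 𝔯 → Far 𝒮.far Z E →
        (m : ℝ) * ((deg E : ℝ) * ht 𝒮.etaU Z + (deg Z : ℝ) * ht 𝒮.etaU E) ≤
          pairG 𝒮.gU Z E + ((m : ℝ) - 1) * ((deg E : ℝ) * 𝒮.hU a + (M : ℝ) * ht 𝒮.etaU E)
            + C) :
    ∃ C : ℝ, ∀ a : ι → K, 𝒮.UFix a → (∑ i, a i • f i) ≠ 0 →
      ∀ Z : Place K F →₀ ℕ, IsZDiv pinf (∑ i, a i • f i) Z → deg Z = M → (∀ P, Z P ≤ 1) →
        Far 𝒮.far Z 𝔯 →
        ((2 * M + deg 𝔯 : ℝ) - m - 1) * ht 𝒮.etaU Z ≤ pairG 𝒮.gU Z Z + C := by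
  classical
  obtain ⟨C₁, hC₁0, hLip⟩ := lip_global 𝒮 hL
  obtain ⟨C₂, hC₂0, hRam⟩ := ram_global 𝒮 hR 𝔯 h𝔯 h𝔯'
  obtain ⟨C₃, hLow⟩ := 𝒮.recLow_raw hM f M hf (M * m)
  obtain ⟨C₄, hUp⟩ := hUp
  obtain ⟨CB, hB⟩ := hB
  have hm1 : (1 : ℝ) ≤ m := by exact_mod_cast 𝒮.m_pos
  refine ⟨((m : ℝ) - 1) * (deg 𝔯 : ℝ) * |CB| + C₄ + (M : ℝ) * C₂ + (M : ℝ) * (M : ℝ) * C₁
    + (M : ℝ) * (m : ℝ) * |CB| + C₃, ?_⟩
  intro a ha hφ Z hZ hdeg hred hfar
  -- the points of `Z`
  have hZne : ∀ p ∈ Z.support, p ≠ pinf := by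
    rintro p hp rfl
    exact (Finsupp.mem_support_iff.1 hp) hZ.1
  have hZ1 : ∀ p ∈ Z.support, Z p = 1 := fun p hp =>
    le_antisymm (hred p) (Nat.pos_of_ne_zero (Finsupp.mem_support_iff.1 hp))
  have hunr : ∀ p ∈ Z.support, p.ord (t - algebraMap K F (pval p t)) = 1 := by
    intro p hp
    have h1 : 𝔯 p = 0 := by
      by_contra hne
      exact hfar p hp p (Finsupp.mem_support_iff.2 hne) rfl
    have h2 := h𝔯' p (hZne p hp)
    rw [h1] at h2
    have h3 : ((0 : ℕ) : ℤ) = 0 := rfl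
    omega
  have hZU : ∀ u ∈ 𝒮.U, Z.mapDomain (fun P => u • P) = Z := by
    intro u hu
    have h1 := 𝒮.isZDiv_smul (𝒮.U_le hu) hZ
    have h2 : u • (∑ i, a i • f i) = ∑ i, a i • f i := by
      rw [smul_comb 𝒮 hf (𝒮.U_le hu) a]
      exact Finset.sum_congr rfl fun i _ => by rw [ha u hu i]
    rw [h2] at h1
    exact isZDiv_unique h1 hZ
  have hZsU : ∀ u ∈ 𝒮.U, Z.support.image (fun P => u • P) = Z.support := by
    intro u hu
    have h1 := Finsupp.mapDomain_support_of_injective (MulAction.injective u) Z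
    rw [hZU u hu] at h1
    exact h1.symm
  have h𝔯Rat : 𝔯 ∈ 𝒮.RatU := ⟨h𝔯, fun u hu => ram_smul 𝒮 (𝒮.U_le hu) 𝔯 h𝔯'⟩
  -- the reduced sum of fibres
  obtain ⟨T, hT⟩ : ∃ T : Finset K, T = Z.support.image fun p => pval p t := ⟨_, rfl⟩
  have hTmem : ∀ p ∈ Z.support, pval p t ∈ T := fun p hp => by
    rw [hT]
    exact Finset.mem_image_of_mem _ hp
  obtain ⟨FibRed, hFibRed⟩ : ∃ D : Place K F →₀ ℕ, D = ∑ τ' ∈ T, Phi 𝒮 τ' := ⟨_, rfl⟩
  have hFR : ∀ p ∈ Z.support, FibRed p = 1 := by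
    intro p hp
    rw [hFibRed, Finsupp.finsetSum_apply, ← Finset.add_sum_erase T _ (hTmem p hp)]
    have h1 : Phi 𝒮 (pval p t) p = 1 := by
      have h2 := (Phi_spec 𝒮 (pval p t)).2 p (hZne p hp)
      rw [hunr p hp] at h2
      exact_mod_cast h2
    have h2 : ∑ τ' ∈ T.erase (pval p t), Phi 𝒮 τ' p = 0 := by
      refine Finset.sum_eq_zero fun τ' hτ' => ?_
      by_contra hne
      have h3 := ((mem_support_zdiv 𝒮 (Phi_spec 𝒮 τ')).1 (Finsupp.mem_support_iff.2 hne)).2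
      exact (Finset.mem_erase.1 hτ').1 h3.symm
    rw [h1, h2]
  have hFRinf : FibRed pinf = 0 := by
    rw [hFibRed, Finsupp.finsetSum_apply]
    exact Finset.sum_eq_zero fun τ' _ => (Phi_spec 𝒮 τ').1
  have hTU : ∀ u ∈ 𝒮.U, T.image (SemilinearAut.baseAut u) = T := by
    intro u hu
    rw [hT, Finset.image_image]
    conv_rhs => rw [← hZsU u hu, Finset.image_image]
    refine Finset.image_congr fun p _ => ?_
    exact (𝒮.pval_smul_t (𝒮.U_le hu) p).symm
  have hFRU : ∀ u ∈ 𝒮.U, FibRed.mapDomain (fun P => u • P) = FibRed := by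
    intro u hu
    rw [hFibRed, Finsupp.mapDomain_finsetSum]
    simp only [Phi_smul 𝒮 (𝒮.U_le hu)]
    conv_rhs => rw [← hTU u hu]
    rw [Finset.sum_image fun x _ y _ h => (SemilinearAut.baseAut u).injective h]
  -- the complement `W`
  obtain ⟨W, hWdef⟩ : ∃ W : Place K F →₀ ℕ, W = FibRed - Z := ⟨_, rfl⟩
  have hWZ : ∀ p ∈ Z.support, W p = 0 := fun p hp => by
    rw [hWdef, Finsupp.tsub_apply, hFR p hp, hZ1 p hp]
  have hW : Z + W = FibRed := by
    ext q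
    rw [Finsupp.add_apply, hWdef, Finsupp.tsub_apply]
    by_cases hq : q ∈ Z.support
    · rw [hFR q hq, hZ1 q hq]
    · rw [Finsupp.notMem_support_iff.1 hq]
      omega
  have hWinf : W pinf = 0 := by
    rw [hWdef, Finsupp.tsub_apply, hFRinf, hZ.1]
  have hWU : ∀ u ∈ 𝒮.U, W.mapDomain (fun P => u • P) = W := by
    intro u hu
    have h1 := hFRU u hu
    rw [← hW, Finsupp.mapDomain_add, hZU u hu] at h1
    exact add_left_cancel h1
  have hdisj : Disjoint Z.support W.support :=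
    Finset.disjoint_left.2 fun p hp hpW => (Finsupp.mem_support_iff.1 hpW) (hWZ p hp)
  -- degrees and heights
  have hcard : Z.support.card = M := by rw [← deg_reduced hred, hdeg]
  have hsM : T.card ≤ M := by
    rw [hT, ← hcard]
    exact Finset.card_image_le
  have hdegFR : deg FibRed = T.card * m := by
    rw [hFibRed, deg_finset_sum, Finset.sum_congr rfl fun τ' _ => deg_Phi 𝒮 τ', Finset.sum_const,
      smul_eq_mul]
  have hdegW : deg Z + deg W = T.card * m := by rw [← deg_add, hW, hdegFR]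
  have hdegWle : deg W ≤ M * m := by
    have := Nat.mul_le_mul_right m hsM
    omega
  have hdegWR : (deg W : ℝ) = (T.card : ℝ) * m - M := by
    have h1 := congrArg (Nat.cast : ℕ → ℝ) hdegW
    push_cast at h1
    rw [hdeg] at h1
    linarith
  obtain ⟨H, hH⟩ : ∃ H : ℝ, H = ∑ τ' ∈ T, hK 𝒮 τ' := ⟨_, rfl⟩
  have hhtFR : ht 𝒮.etaU FibRed = H := by
    rw [hFibRed, ht_finset_sum, hH]
    exact Finset.sum_congr rfl fun τ' _ => ht_Phi 𝒮 τ'
  have hhtW : ht 𝒮.etaU Z + ht 𝒮.etaU W = H := by rw [← ht_add, hW, hhtFR]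
  -- the product formula
  obtain ⟨D, hD⟩ : ∃ D : K → K, D = fun x => ∏ τ' ∈ T.erase x, (x - τ') := ⟨_, rfl⟩
  have hDne : ∀ x, ∀ τ' ∈ T.erase x, x - τ' ≠ 0 := fun x τ' hτ' =>
    sub_ne_zero.2 (Finset.mem_erase.1 hτ').1.symm
  have hD0 : ∀ x, D x ≠ 0 := fun x => by
    rw [hD]
    exact Finset.prod_ne_zero_iff.2 (hDne x)
  have hlKD : ∀ x, lK 𝒮 (D x) = ∑ τ' ∈ T.erase x, lK 𝒮 (x - τ') := fun x => by
    rw [hD]
    exact lK_prod 𝒮 _ _ (hDne x)
  have hDU : ∀ u ∈ 𝒮.U, ∀ x, SemilinearAut.baseAut u (D x) = D (SemilinearAut.baseAut u x) := by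
    intro u hu x
    rw [hD]
    beta_reduce
    rw [map_prod]
    have hE : T.erase (SemilinearAut.baseAut u x)
        = (T.erase x).image (SemilinearAut.baseAut u) := by
      rw [Finset.image_erase (SemilinearAut.baseAut u).injective, hTU u hu]
    rw [hE, Finset.prod_image fun a _ b _ h => (SemilinearAut.baseAut u).injective h]
    exact Finset.prod_congr rfl fun τ' _ => map_sub _ _ _
  obtain ⟨Pi, hPi⟩ : ∃ c : K, c = ∏ p ∈ Z.support, D (pval p t) := ⟨_, rfl⟩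
  have hPi0 : Pi ≠ 0 := by
    rw [hPi]
    exact Finset.prod_ne_zero_iff.2 fun p _ => hD0 _
  have hPiU : ∀ u ∈ 𝒮.U, SemilinearAut.baseAut u Pi = Pi := by
    intro u hu
    rw [hPi, map_prod]
    conv_rhs => rw [← hZsU u hu, Finset.prod_image fun a _ b _ h => MulAction.injective u h]
    refine Finset.prod_congr rfl fun p _ => ?_
    rw [hDU u hu, 𝒮.pval_smul_t (𝒮.U_le hu)]
  have hlKPi : ∑ p ∈ Z.support, ∑ τ' ∈ T.erase (pval p t), lK 𝒮 (pval p t - τ') = 0 := by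
    have h1 : lK 𝒮 Pi = 0 := 𝒮.pf Pi hPi0 hPiU
    rw [hPi, lK_prod 𝒮 _ _ fun p _ => hD0 _] at h1
    rw [← h1]
    exact Finset.sum_congr rfl fun p _ => (hlKD _).symm
  -- the lower bound for `G(Z, FibRed)`
  have hX : pairG 𝒮.gU Z Z + pairG 𝒮.gU Z W = pairG 𝒮.gU Z FibRed := by
    rw [← pairG_add_right, hW]
  have hXsum : pairG 𝒮.gU Z FibRed
      = ∑ p ∈ Z.support, ∑ τ' ∈ T, (Phi 𝒮 τ').sum fun S n => (n : ℝ) * 𝒮.gU p S := by
    rw [pairG_reduced 𝒮.gU hred, hFibRed]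
    refine Finset.sum_congr rfl fun p _ => ?_
    exact (Finsupp.sum_finsetSum_index (fun _ => by simp)
      (fun _ _ _ => by push_cast; ring)).symm
  have hpt : ∀ p ∈ Z.support,
      ((m : ℝ) - 1) * 𝒮.etaU p + (𝔯.sum fun r n => (n : ℝ) * 𝒮.gU p r) - C₂
        + (((T.card : ℝ) - 1) * ((m : ℝ) * 𝒮.etaU p - C₁) + (H - (m : ℝ) * 𝒮.etaU p)
          - ∑ τ' ∈ T.erase (pval p t), lK 𝒮 (pval p t - τ'))
      ≤ ∑ τ' ∈ T, (Phi 𝒮 τ').sum fun S n => (n : ℝ) * 𝒮.gU p S := by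
    intro p hp
    have hpne := hZne p hp
    have hτp := hTmem p hp
    rw [← Finset.add_sum_erase T _ hτp]
    refine add_le_add ?_ ?_
    · have h1 := hRam p hpne (hunr p hp) (Phi 𝒮 (pval p t)) (Phi_spec 𝒮 (pval p t))
      have h2 := Finsupp.add_sum_erase' (Phi 𝒮 (pval p t)) p
        (fun S n => (n : ℝ) * 𝒮.gU p S) (fun _ => by simp)
      rw [𝒮.gU_self hpne, mul_zero, zero_add] at h2
      rw [← h2]
      exact h1
    · have h1 : ∀ τ' ∈ T.erase (pval p t),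
          (m : ℝ) * 𝒮.etaU p + hK 𝒮 τ' - lK 𝒮 (pval p t - τ') - C₁
            ≤ (Phi 𝒮 τ').sum fun S n => (n : ℝ) * 𝒮.gU p S := fun τ' hτ' =>
        hLip p hpne τ' (Finset.mem_erase.1 hτ').1.symm (Phi 𝒮 τ') (Phi_spec 𝒮 τ')
      refine le_trans (le_of_eq ?_) (Finset.sum_le_sum h1)
      have hc : ((T.erase (pval p t)).card : ℝ) = (T.card : ℝ) - 1 := by
        rw [Finset.card_erase_of_mem hτp, Nat.cast_pred (Finset.card_pos.2 ⟨_, hτp⟩)]
      have e1 : ∑ τ' ∈ T.erase (pval p t), hK 𝒮 τ' = H - (m : ℝ) * 𝒮.etaU p := by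
        rw [Finset.sum_erase_eq_sub hτp, ← hH, m_mul_etaU 𝒮 p]
      rw [Finset.sum_sub_distrib, Finset.sum_sub_distrib, Finset.sum_add_distrib,
        Finset.sum_const, Finset.sum_const, nsmul_eq_mul, nsmul_eq_mul, hc, e1]
      ring
  have hXge := Finset.sum_le_sum hpt
  rw [← hXsum, agg, hcard, ← ht_reduced 𝒮.etaU hred, ← pairG_reduced 𝒮.gU hred, hlKPi] at hXge
  -- the upper bound for `G(Z, W)` and the lower bound for `G(Z, 𝔯)`
  have hLow' := hLow a ha hφ Z hZ hdeg.le W ⟨hWinf, hWU⟩ hdegWle hdisj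
  have hUp' := hUp a ha hφ Z hZ hdeg.le 𝔯 h𝔯Rat le_rfl hfar
  have hB' := hB a ha hφ Z hZ
  rw [hdegWR] at hLow'
  rw [hdeg] at hUp'
  -- arithmetic
  have hh0 : 0 ≤ ht 𝒮.etaU Z := ht_nonneg 𝒮.etaU_nonneg Z
  have he0 : 0 ≤ ht 𝒮.etaU 𝔯 := ht_nonneg 𝒮.etaU_nonneg 𝔯
  have hM0 : (0 : ℝ) ≤ M := Nat.cast_nonneg _
  have hd0 : (0 : ℝ) ≤ deg 𝔯 := Nat.cast_nonneg _
  have hsR : (T.card : ℝ) ≤ M := by exact_mod_cast hsM
  have hdW0 : (0 : ℝ) ≤ (T.card : ℝ) * m - M := by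
    rw [← hdegWR]
    exact Nat.cast_nonneg _
  have hdWle : (T.card : ℝ) * m - M ≤ (M : ℝ) * m := by
    have := mul_le_mul_of_nonneg_right hsR (le_trans zero_le_one hm1)
    linarith
  have hb1 : ((T.card : ℝ) * m - M) * 𝒮.hU a ≤ ((T.card : ℝ) * m - M) * (ht 𝒮.etaU Z + CB) :=
    mul_le_mul_of_nonneg_left hB' hdW0
  have hb2 : ((T.card : ℝ) * m - M) * CB ≤ (M : ℝ) * m * |CB| :=
    le_trans (mul_le_mul_of_nonneg_left (le_abs_self CB) hdW0)
      (mul_le_mul_of_nonneg_right hdWle (abs_nonneg CB))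
  have hc1 : ((m : ℝ) - 1) * (deg 𝔯 : ℝ) * 𝒮.hU a
      ≤ ((m : ℝ) - 1) * (deg 𝔯 : ℝ) * (ht 𝒮.etaU Z + CB) :=
    mul_le_mul_of_nonneg_left hB' (mul_nonneg (by linarith) hd0)
  have hc2 : ((m : ℝ) - 1) * (deg 𝔯 : ℝ) * CB ≤ ((m : ℝ) - 1) * (deg 𝔯 : ℝ) * |CB| :=
    mul_le_mul_of_nonneg_left (le_abs_self CB) (mul_nonneg (by linarith) hd0)
  have hc3 : 0 ≤ (M : ℝ) * ht 𝒮.etaU 𝔯 := mul_nonneg hM0 he0
  have hd1 : (M : ℝ) * ((T.card : ℝ) - 1) * C₁ ≤ (M : ℝ) * (M : ℝ) * C₁ :=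
    mul_le_mul_of_nonneg_right (mul_le_mul_of_nonneg_left (by linarith) hM0) hC₁0
  have hWht : ht 𝒮.etaU W = H - ht 𝒮.etaU Z := by linarith
  rw [hWht] at hLow'
  linarith [hX, hXge, hLow', hUp', hb1, hb2, hc1, hc2, hc3, hd1]


/-- **G4 (Disc), without `t`-injectivity** — the literal statement of row 448 of 19:55 (the
hypothesis "`t` is injective on `Z`" is NOT needed): for a reduced zero divisor `Z` of a
`U`-fixed member of a `Γ`-fixed family, in `t`-general position with respect to the affine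
ramification divisor `𝔯` of `t`,
`(2 deg Z + deg 𝔯 − m − 1) · h(Z) ≤ G(Z, Z) + C`. -/
theorem disc_ge (hM : 𝒮.MLe) (hL : 𝒮.Lip) (hR : 𝒮.RamLe) {ι : Type} [Fintype ι] (f : ι → F)
    (M : ℕ) (hf : 𝒮.Fam f M) (hB : 𝒮.MahlerLe f)
    (𝔯 : Place K F →₀ ℕ) (h𝔯 : 𝔯 pinf = 0)
    (h𝔯' : ∀ P : Place K F, P ≠ pinf →
      (𝔯 P : ℤ) = P.ord (t - algebraMap K F (pval P t)) - 1) :
    ∃ C : ℝ, ∀ a : ι → K, 𝒮.UFix a → (∑ i, a i • f i) ≠ 0 →
      ∀ Z : Place K F →₀ ℕ, IsZDiv pinf (∑ i, a i • f i) Z → deg Z = M → (∀ P, Z P ≤ 1) →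
        Far 𝒮.far Z 𝔯 →
        ((2 * M + deg 𝔯 : ℝ) - m - 1) * ht 𝒮.etaU Z ≤ pairG 𝒮.gU Z Z + C :=
  disc_ge_of 𝒮 hM hL hR f M hf hB 𝔯 h𝔯 h𝔯' (𝒮.recUp_raw hM hL f M hf (deg 𝔯))

end Fermat.Agent.MW.HG.DiscNI
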