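/-
MW / HT-Q, sub-brick of row G2 (Mahler): the two one-variable local lemmas, with TAME constants
and for EVERY absolute value of the family (no archimedean/non-archimedean case split, no
embedding into `ℂ`, no Mahler measure).

For `Z : P →₀ ℕ` of degree `≤ M`, `τ : P → K` and `c : K` put
`Q := C c * ∏ R ∈ Z.support, (X - C (τ R)) ^ Z R`.  Then with tame constants `C`:

* `p1_mahler_le` : `|coeff_k Q|_v ≤ C v · |c|_v · ∏ R, max 1 |τ R|_v ^ Z R`;
* `p1_mahler_ge` : `|c|_v · ∏ R, max 1 |τ R|_v ^ Z R ≤ C v · B` as soon as all `|coeff_k Q|_v ≤ B`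
  (`K` infinite).

Both are restatements of `MW/Adj/Binary.lean` (`abv_coeff_linProd_le`, `exists_maxProd_le`).
-/
import Mathlib
import Fermat.Agent.MW.Adj.Binary
import Fermat.Agent.MW.HtM.Tame
import Fermat.Agent.MW.HQ.Defs

set_option autoImplicit false

namespace Fermat.Agent.MW.HG.P1Mahler

open Polynomial Fermat.Agent.MW.HtM Fermat.Agent.MW.HQ Fermat.Agent.MW.Adj.Binary

variable {K : Type*} [Field K] {V : Type*}

/-- `kap` is tame along a family of absolute values. -/
theorem tame_kap (Ab : AbsFamily K V) : Tame (fun v => kap (Ab.abv v)) := by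
  refine ⟨fun v => one_le_kap _, Ab.finite_arch.subset fun v hv => ?_⟩
  intro hna
  exact hv (kap_eq_one hna)

/-- `Hgt Λ` is tame along a family of absolute values. -/
theorem tame_Hgt (Ab : AbsFamily K V) (Λ : Finset K) : Tame (fun v => Hgt Λ (Ab.abv v)) := by
  show Tame (fun v => ∏ c ∈ Λ, max 1 (Ab.abv v c))
  exact Tame.prod Λ (fun c v => max 1 (Ab.abv v c)) fun c _ => Ab.tame_max_one c

/-- The explicit constants `(kap v * Hgt Λ v) ^ e` of `MW/HtM/TameQ.lean` are tame along a family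
of absolute values. -/
theorem tame_kapHgt_pow (Ab : AbsFamily K V) (Λ : Finset K) (e : ℕ) :
    Tame (fun v => (kap (Ab.abv v) * Hgt Λ (Ab.abv v)) ^ e) :=
  ((tame_kap Ab).mul (tame_Hgt Ab Λ)).pow e

/-- A product over the multiset of a finitely supported multiplicity function. -/
theorem prod_map_toMultiset {α N : Type*} [CommMonoid N] (Z : α →₀ ℕ) (f : α → N) :
    (Z.toMultiset.map f).prod = ∏ a ∈ Z.support, f a ^ Z a := by
  classical
  rw [Finsupp.toMultiset_map, Finsupp.prod_toMultiset,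
    Finsupp.prod_mapDomain_index (h := fun b n => b ^ n) (by simp)
      (by intro b m₁ m₂; rw [pow_add])]
  rfl

/-- The multiset of pairs `(1, τ R)` attached to `Z`. -/
noncomputable def pairs {P : Type*} (τ : P → K) (Z : P →₀ ℕ) : Multiset (K × K) :=
  Z.toMultiset.map fun R => ((1 : K), τ R)

theorem card_pairs {P : Type*} (τ : P → K) (Z : P →₀ ℕ) :
    Multiset.card (pairs τ Z) = deg Z := by
  rw [pairs, Multiset.card_map, Finsupp.card_toMultiset]
  rfl

theorem linProd_pairs {P : Type*} (τ : P → K) (Z : P →₀ ℕ) :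
    linProd (pairs τ Z) = ∏ R ∈ Z.support, (X - C (τ R)) ^ Z R := by
  rw [linProd, pairs, Multiset.map_map, prod_map_toMultiset]
  refine Finset.prod_congr rfl fun R _ => ?_
  simp

theorem maxProd_pairs {P : Type*} (v : AbsoluteValue K ℝ) (τ : P → K) (Z : P →₀ ℕ) :
    maxProd v (pairs τ Z) = ∏ R ∈ Z.support, max 1 (v (τ R)) ^ Z R := by
  rw [maxProd, pairs, Multiset.map_map, prod_map_toMultiset]
  refine Finset.prod_congr rfl fun R _ => ?_
  simp

/-- **Coefficients are bounded by the roots** (tame constants). -/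
theorem p1_mahler_le (Ab : AbsFamily K V) (M : ℕ) {P : Type*} (τ : P → K) :
    ∃ E : V → ℝ, Tame E ∧ ∀ (v : V) (c : K) (Z : P →₀ ℕ), deg Z ≤ M → ∀ k : ℕ,
      Ab.abv v ((C c * ∏ R ∈ Z.support, (X - C (τ R)) ^ Z R).coeff k) ≤
        E v * (Ab.abv v c * ∏ R ∈ Z.support, max 1 (Ab.abv v (τ R)) ^ Z R) := by
  refine ⟨fun v => kap (Ab.abv v) ^ M, (tame_kap Ab).pow M, fun v c Z hZ k => ?_⟩
  have h := abv_coeff_linProd_le (Ab.abv v) c (pairs τ Z) k
  rw [linProd_pairs, maxProd_pairs, card_pairs] at h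
  refine h.trans (mul_le_mul_of_nonneg_right ?_ ?_)
  · exact pow_le_pow_right₀ (one_le_kap _) hZ
  · refine mul_nonneg ((Ab.abv v).nonneg _) (Finset.prod_nonneg fun R _ => ?_)
    exact pow_nonneg (le_trans zero_le_one (le_max_left _ _)) _

/-- **The roots are bounded by the coefficients** (tame constants; every absolute value). -/
theorem p1_mahler_ge [Infinite K] (Ab : AbsFamily K V) (M : ℕ) {P : Type*} (τ : P → K) :
    ∃ E : V → ℝ, Tame E ∧ ∀ (v : V) (c : K) (Z : P →₀ ℕ), deg Z ≤ M → ∀ B : ℝ,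
      (∀ k : ℕ, Ab.abv v ((C c * ∏ R ∈ Z.support, (X - C (τ R)) ^ Z R).coeff k) ≤ B) →
        Ab.abv v c * ∏ R ∈ Z.support, max 1 (Ab.abv v (τ R)) ^ Z R ≤ E v * B := by
  obtain ⟨Λ, e, h⟩ := exists_maxProd_le (K := K) M
  refine ⟨fun v => (kap (Ab.abv v) * Hgt Λ (Ab.abv v)) ^ e, tame_kapHgt_pow Ab Λ e,
    fun v c Z hZ B hB => ?_⟩
  have h1 := h (Ab.abv v) c (pairs τ Z) (by rw [card_pairs]; exact hZ) B
    (by intro j; rw [linProd_pairs]; exact hB j)
  rwa [maxProd_pairs] at h1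

end Fermat.Agent.MW.HG.P1Mahler
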