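/-
MW / HT-Q, row G3 — SECOND SEAT (helper84): **the fibre trick — two-sided reciprocity in
`t`-general position**, in the vocabulary of `MW/HG/Defs.lean`.

For `q ≠ pinf` let `FibP q` be the divisor of zeros of `t − t(q)` (degree `m`, contains `q`),
`Sharp E := ∑ E q • FibP q` and `Prime E := Sharp E − E` (effective, `U`-stable, of degree
`(m − 1) · deg E` and height `(m − 1) · h(E)` EXACTLY).

* `fibre_pair`  : the fibre Lipschitz bound (Lip) summed over the conjugates and the places;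
* `fibre_lower` : `m · (deg E · h(Z) + deg Z · h(E)) ≤ G(Z, Sharp E) + deg Z · deg E · c₀` for
  `U`-stable `Z`, `E` in `t`-general position (product formula for `∏ (t p − t q)`);
* `recUp_raw`   : the literal statement of row G3 (with (M≤) through `Setting.recLow_raw`
  applied to `(Z, Prime E)`);
* `recip_of`    : two-sided reciprocity `|β(Z, E)| ≤ C` in `t`-general position.

Everything is in the namespace `Fermat.Agent.MW.HG.RecUpB` (fresh names).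
-/
import Mathlib
import Fermat.Prelude.Def_AlgebraicCurve_Repartitions
import Fermat.Agent.MW.HG.Defs
import Fermat.Agent.MW.HG.Basic
import Fermat.Agent.MW.HG.RecLow
import Fermat.Agent.MW.HQ.RecFib

set_option autoImplicit false

noncomputable section

namespace Fermat.Agent.MW.HG.RecUpB

open AlgebraicCurve Fermat.Agent.MW.HtM Fermat.Agent.MW.HQ Fermat.Agent.MW.HG

variable {K F V : Type*} [Field K] [Field F] [Algebra K F]

/-! ### Finite supports and `finsum` -/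

theorem fs_add {f g : V → ℝ} (hf : (Function.support f).Finite)
    (hg : (Function.support g).Finite) : (Function.support fun v => f v + g v).Finite :=
  (hf.union hg).subset (Function.support_add f g)

theorem fs_const_mul (c : ℝ) {f : V → ℝ} (hf : (Function.support f).Finite) :
    (Function.support fun v => c * f v).Finite :=
  hf.subset fun v hv h0 => hv (by show c * f v = 0; rw [h0, mul_zero])

theorem fs_sum {ι : Type*} (s : Finset ι) (f : ι → V → ℝ)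
    (hf : ∀ i ∈ s, (Function.support (f i)).Finite) :
    (Function.support fun v => ∑ i ∈ s, f i v).Finite := by
  classical
  refine (Set.Finite.biUnion s.finite_toSet (fun i hi => hf i hi)).subset fun v hv => ?_
  by_contra hcon
  apply hv
  refine Finset.sum_eq_zero fun i hi => ?_
  by_contra h
  exact hcon (Set.mem_biUnion (Finset.mem_coe.2 hi) h)

/-- Summation over the places of a local inequality of the shape of the fibre bound. -/
theorem finsum_ineq {ι : Type*} (s : Finset ι) (w : ι → ℝ) (f : ι → V → ℝ) (a b c d : V → ℝ)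
    (μ : ℝ) (hf : ∀ i ∈ s, (Function.support (f i)).Finite) (ha : (Function.support a).Finite)
    (hb : (Function.support b).Finite) (hc : (Function.support c).Finite)
    (hd : (Function.support d).Finite)
    (h : ∀ v, μ * a v + μ * b v ≤ ∑ i ∈ s, w i * f i v + c v + d v) :
    μ * ∑ᶠ v, a v + μ * ∑ᶠ v, b v ≤
      ∑ i ∈ s, w i * ∑ᶠ v, f i v + ∑ᶠ v, c v + ∑ᶠ v, d v := by
  have hwf : ∀ i ∈ s, (Function.support fun v => w i * f i v).Finite := fun i hi =>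
    fs_const_mul (w i) (hf i hi)
  have hsum : (Function.support fun v => ∑ i ∈ s, w i * f i v).Finite :=
    fs_sum s (fun i v => w i * f i v) hwf
  have h1 : ∑ᶠ v, (μ * a v + μ * b v) = μ * ∑ᶠ v, a v + μ * ∑ᶠ v, b v := by
    rw [finsum_add_distrib (fs_const_mul μ ha) (fs_const_mul μ hb), ← mul_finsum, ← mul_finsum]
  have h2 : ∑ᶠ v, (∑ i ∈ s, w i * f i v + c v + d v) =
      ∑ i ∈ s, w i * ∑ᶠ v, f i v + ∑ᶠ v, c v + ∑ᶠ v, d v := by
    rw [finsum_add_distrib (fs_add hsum hc) hd, finsum_add_distrib hsum hc,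
      finsum_sum_comm s (fun v i => w i * f i v) hwf]
    congr 2
    exact Finset.sum_congr rfl fun i _ => (mul_finsum _ _).symm
  rw [← h1, ← h2]
  exact finsum_le_finsum' (fs_add (fs_const_mul μ ha) (fs_const_mul μ hb))
    (fs_add (fs_add hsum hc) hd) h

/-! ### Zero divisors and fibres -/

variable {Ab : AbsFamily K V} {pinf : Place K F} {t : F} {m : ℕ} (𝒮 : Setting Ab pinf t m)

theorem isZDiv_unique {φ : F} {Z Z' : Place K F →₀ ℕ} (h : IsZDiv pinf φ Z)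
    (h' : IsZDiv pinf φ Z') : Z = Z' := by
  ext P
  by_cases hP : P = pinf
  · rw [hP, h.1, h'.1]
  · have h1 := h.2 P hP
    have h2 := h'.2 P hP
    exact_mod_cast h1.trans h2.symm

include 𝒮 in
/-- `t` is not constant. -/
theorem t_sub_ne_zero (τ : K) : t - algebraMap K F τ ≠ 0 := by
  intro h
  have ht : t = algebraMap K F τ := sub_eq_zero.1 h
  have h1 : pinf.ord t < 0 := by
    rw [𝒮.t_pole]
    have := 𝒮.m_pos
    omega
  have h2 := (Place.not_adicValuation_le_one_iff pinf).2 h1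
  rw [ht] at h2
  exact h2 (pinf.adicValuation_algebraMap_le_one τ)

include 𝒮 in
/-- The points of the fibre of `t` over `τ` are off `pinf` and have `t`-value `τ`. -/
theorem mem_fibre {τ : K} {Z : Place K F →₀ ℕ} (h : IsZDiv pinf (t - algebraMap K F τ) Z)
    {S : Place K F} (hS : S ∈ Z.support) : S ≠ pinf ∧ pval S t = τ := by
  have hS0 : Z S ≠ 0 := Finsupp.mem_support_iff.1 hS
  have hne : S ≠ pinf := by
    rintro rfl
    exact hS0 h.1
  refine ⟨hne, pval_eq S ?_⟩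
  have hord : (1 : ℤ) ≤ S.ord (t - algebraMap K F τ) := by
    rw [← h.2 S hne]
    exact_mod_cast Nat.one_le_iff_ne_zero.2 hS0
  rw [Place.adicValuation_eq_exp_neg_ord _ (t_sub_ne_zero 𝒮 τ), ← WithZero.exp_zero,
    WithZero.exp_lt_exp]
  omega

include 𝒮 in
/-- A point off `pinf` lies in its own fibre. -/
theorem one_le_fibre {q : Place K F} (hq : q ≠ pinf) {Z : Place K F →₀ ℕ}
    (h : IsZDiv pinf (t - algebraMap K F (pval q t)) Z) : 1 ≤ Z q := by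
  have hlt := pval_spec q (𝒮.resK q t (𝒮.t_reg q hq))
  rw [Place.adicValuation_eq_exp_neg_ord _ (t_sub_ne_zero 𝒮 (pval q t)), ← WithZero.exp_zero,
    WithZero.exp_lt_exp] at hlt
  have h1 := h.2 q hq
  have h2 : (1 : ℤ) ≤ (Z q : ℤ) := by rw [h1]; omega
  exact_mod_cast h2

/-- The fibre of `t` over `τ`. -/
def Fb (τ : K) : Place K F →₀ ℕ := Classical.choose (𝒮.fib τ)

theorem Fb_spec (τ : K) : IsZDiv pinf (t - algebraMap K F τ) (Fb 𝒮 τ) :=
  (Classical.choose_spec (𝒮.fib τ)).1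

theorem deg_Fb (τ : K) : deg (Fb 𝒮 τ) = m := (Classical.choose_spec (𝒮.fib τ)).2

/-- The fibres are `Γ`-equivariant. -/
theorem Fb_smul {g : SemilinearAut K F} (hg : g ∈ 𝒮.Γ) (τ : K) :
    (Fb 𝒮 τ).mapDomain (fun P => g • P) = Fb 𝒮 (SemilinearAut.baseAut g τ) := by
  have h1 := 𝒮.isZDiv_smul hg (Fb_spec 𝒮 τ)
  rw [smul_sub, 𝒮.t_fixed g hg, SemilinearAut.smul_algebraMap] at h1
  exact isZDiv_unique h1 (Fb_spec 𝒮 _)

/-- The global point height only depends on the `t`-value. -/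
theorem etaU_congr {p q : Place K F} (h : pval p t = pval q t) : 𝒮.etaU p = 𝒮.etaU q := by
  unfold Setting.etaU
  refine Finset.sum_congr rfl fun s hs => finsum_congr fun v => ?_
  unfold Setting.eta
  rw [𝒮.pval_smul_t (𝒮.Sg_mem s hs) p, 𝒮.pval_smul_t (𝒮.Sg_mem s hs) q, h]

/-- The fibre through a point. -/
def FibP (q : Place K F) : Place K F →₀ ℕ := Fb 𝒮 (pval q t)

/-- The sum of the fibres through the points of `E`. -/
def Sharp (E : Place K F →₀ ℕ) : Place K F →₀ ℕ := RecFib.Fib (FibP 𝒮) E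

theorem Sharp_pinf (E : Place K F →₀ ℕ) : Sharp 𝒮 E pinf = 0 := by
  unfold Sharp
  rw [RecFib.Fib_apply]
  refine Finset.sum_eq_zero fun q _ => ?_
  unfold FibP
  rw [(Fb_spec 𝒮 _).1, mul_zero]

theorem le_Sharp {E : Place K F →₀ ℕ} (hE : E pinf = 0) : E ≤ Sharp 𝒮 E := by
  rw [Finsupp.le_def]
  intro p
  unfold Sharp
  rw [RecFib.Fib_apply]
  by_cases hp : p ∈ E.support
  · have hpne : p ≠ pinf := by
      rintro rfl
      exact (Finsupp.mem_support_iff.1 hp) hE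
    calc E p ≤ E p * FibP 𝒮 p p :=
          Nat.le_mul_of_pos_right _ (one_le_fibre 𝒮 hpne (Fb_spec 𝒮 _))
      _ ≤ ∑ q ∈ E.support, E q * FibP 𝒮 q p :=
          Finset.single_le_sum (f := fun q => E q * FibP 𝒮 q p) (fun _ _ => Nat.zero_le _) hp
  · rw [Finsupp.notMem_support_iff.1 hp]
    exact Nat.zero_le _

theorem mem_Sharp {E : Place K F →₀ ℕ} {S : Place K F} (hS : S ∈ (Sharp 𝒮 E).support) :
    ∃ q ∈ E.support, S ≠ pinf ∧ pval S t = pval q t := by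
  obtain ⟨q, hq, hSq⟩ := RecFib.exists_of_mem_support_Fib (FibP 𝒮) E hS
  exact ⟨q, hq, mem_fibre 𝒮 (Fb_spec 𝒮 _) hSq⟩

theorem deg_Sharp (E : Place K F →₀ ℕ) : deg (Sharp 𝒮 E) = m * deg E := by
  unfold Sharp
  rw [RecFib.deg_Fib, RecFib.deg_eq_sum, Finset.mul_sum]
  refine Finset.sum_congr rfl fun q _ => ?_
  unfold FibP
  rw [deg_Fb, mul_comm]

theorem ht_Sharp (E : Place K F →₀ ℕ) :
    ht 𝒮.etaU (Sharp 𝒮 E) = (m : ℝ) * ht 𝒮.etaU E := by
  unfold Sharp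
  rw [RecFib.ht_Fib, RecFib.ht_eq_sum, Finset.mul_sum]
  refine Finset.sum_congr rfl fun q _ => ?_
  have h1 : ht 𝒮.etaU (FibP 𝒮 q) = (m : ℝ) * 𝒮.etaU q := by
    rw [RecFib.ht_eq_sum]
    have h2 : ∀ S ∈ (FibP 𝒮 q).support, ((FibP 𝒮 q) S : ℝ) * 𝒮.etaU S
        = ((FibP 𝒮 q) S : ℝ) * 𝒮.etaU q := fun S hS => by
      rw [etaU_congr 𝒮 (mem_fibre 𝒮 (Fb_spec 𝒮 _) hS).2]
    rw [Finset.sum_congr rfl h2, ← Finset.sum_mul, ← RecFib.cast_deg_eq_sum]
    unfold FibP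
    rw [deg_Fb]
  rw [h1]
  ring

/-- `Sharp` is `Γ`-equivariant. -/
theorem Sharp_smul {g : SemilinearAut K F} (hg : g ∈ 𝒮.Γ) (E : Place K F →₀ ℕ) :
    (Sharp 𝒮 E).mapDomain (fun P => g • P) = Sharp 𝒮 (E.mapDomain fun P => g • P) := by
  classical
  unfold Sharp RecFib.Fib
  rw [Finsupp.mapDomain_sum, Finsupp.sum_mapDomain_index_inj (MulAction.injective g)]
  refine Finsupp.sum_congr fun q _ => ?_
  rw [Finsupp.mapDomain_smul]
  unfold FibP
  rw [Fb_smul 𝒮 hg, 𝒮.pval_smul_t hg q]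

/-- The complement of `E` in the sum of the fibres through its points. -/
def Prime (E : Place K F →₀ ℕ) : Place K F →₀ ℕ := Sharp 𝒮 E - E

theorem Prime_add {E : Place K F →₀ ℕ} (hE : E pinf = 0) : Prime 𝒮 E + E = Sharp 𝒮 E :=
  tsub_add_cancel_of_le (le_Sharp 𝒮 hE)

theorem Prime_mem_RatU {E : Place K F →₀ ℕ} (hE : E ∈ 𝒮.RatU) : Prime 𝒮 E ∈ 𝒮.RatU := by
  refine ⟨?_, fun u hu => ?_⟩
  · unfold Prime
    rw [Finsupp.tsub_apply, Sharp_pinf, hE.1]
  · have huΓ := 𝒮.U_le hu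
    have hinj : Function.Injective fun P : Place K F => u • P := MulAction.injective u
    have h1 : (Sharp 𝒮 E).mapDomain (fun P => u • P) = Sharp 𝒮 E := by
      rw [Sharp_smul 𝒮 huΓ, hE.2 u hu]
    ext P
    have hP : P = u • (u⁻¹ • P) := (smul_inv_smul u P).symm
    rw [hP]
    have e1 := Finsupp.mapDomain_apply hinj (Prime 𝒮 E) (u⁻¹ • P)
    have e2 := Finsupp.mapDomain_apply hinj (Sharp 𝒮 E) (u⁻¹ • P)
    have e3 := Finsupp.mapDomain_apply hinj E (u⁻¹ • P)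
    rw [h1] at e2
    rw [hE.2 u hu] at e3
    rw [e1]
    unfold Prime
    rw [Finsupp.tsub_apply, Finsupp.tsub_apply, e2, e3]

theorem deg_Prime {E : Place K F →₀ ℕ} (hE : E pinf = 0) :
    (deg (Prime 𝒮 E) : ℝ) = ((m : ℝ) - 1) * (deg E : ℝ) := by
  have h := congrArg deg (Prime_add 𝒮 hE)
  rw [deg_add, deg_Sharp] at h
  have h' : ((deg (Prime 𝒮 E) : ℕ) : ℝ) + (deg E : ℝ) = (m : ℝ) * (deg E : ℝ) := by
    exact_mod_cast h
  linarith

theorem ht_Prime {E : Place K F →₀ ℕ} (hE : E pinf = 0) :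
    ht 𝒮.etaU (Prime 𝒮 E) = ((m : ℝ) - 1) * ht 𝒮.etaU E := by
  have h := congrArg (ht 𝒮.etaU) (Prime_add 𝒮 hE)
  rw [ht_add, ht_Sharp] at h
  linarith

theorem disjoint_Sharp {Z E : Place K F →₀ ℕ} (h : Far 𝒮.far Z E) :
    Disjoint Z.support (Sharp 𝒮 E).support := by
  refine Finset.disjoint_left.2 fun R hR hR' => ?_
  obtain ⟨q, hq, -, hRq⟩ := mem_Sharp 𝒮 hR'
  exact h R hR q hq hRq

theorem disjoint_Prime {Z E : Place K F →₀ ℕ} (h : Far 𝒮.far Z E) :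
    Disjoint Z.support (Prime 𝒮 E).support := by
  refine Finset.disjoint_left.2 fun R hR hR' => ?_
  have h1 : R ∈ (Sharp 𝒮 E).support := by
    rw [Finsupp.mem_support_iff] at hR' ⊢
    intro h0
    apply hR'
    unfold Prime
    rw [Finsupp.tsub_apply, h0, Nat.zero_sub]
  exact Finset.disjoint_left.1 (disjoint_Sharp 𝒮 h) hR h1

/-! ### The global logarithmic size of a constant -/

/-- `∑ₛ ∑ᵥ log |s x|_v`. -/
def LgU (x : K) : ℝ := ∑ s ∈ 𝒮.Sg, ∑ᶠ v, Real.log (Ab.abv v (SemilinearAut.baseAut s x))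

theorem LgU_mul {x y : K} (hx : x ≠ 0) (hy : y ≠ 0) :
    LgU 𝒮 (x * y) = LgU 𝒮 x + LgU 𝒮 y := by
  unfold LgU
  rw [← Finset.sum_add_distrib]
  refine Finset.sum_congr rfl fun s _ => ?_
  rw [← finsum_add_distrib (finite_log_abv Ab _) (finite_log_abv Ab _)]
  refine finsum_congr fun v => ?_
  rw [map_mul, map_mul, Real.log_mul]
  · exact (Ab.abv v).ne_zero (by simpa using hx)
  · exact (Ab.abv v).ne_zero (by simpa using hy)

theorem LgU_one : LgU 𝒮 1 = 0 := by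
  unfold LgU
  simp

theorem LgU_pow {x : K} (hx : x ≠ 0) (n : ℕ) : LgU 𝒮 (x ^ n) = (n : ℝ) * LgU 𝒮 x := by
  induction n with
  | zero => simp [LgU_one]
  | succ n ih =>
    rw [pow_succ, LgU_mul 𝒮 (pow_ne_zero n hx) hx, ih]
    push_cast
    ring

theorem LgU_prod {ι : Type*} (s : Finset ι) (x : ι → K) (hx : ∀ i ∈ s, x i ≠ 0) :
    LgU 𝒮 (∏ i ∈ s, x i) = ∑ i ∈ s, LgU 𝒮 (x i) := by
  classical
  induction s using Finset.induction_on with
  | empty => simp [LgU_one]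
  | insert i s hi ih =>
    rw [Finset.prod_insert hi, Finset.sum_insert hi,
      LgU_mul 𝒮 (hx i (Finset.mem_insert_self i s))
        (Finset.prod_ne_zero_iff.2 fun j hj => hx j (Finset.mem_insert_of_mem hj)),
      ih (fun j hj => hx j (Finset.mem_insert_of_mem hj))]

/-- The product formula. -/
theorem LgU_eq_zero {x : K} (hx : x ≠ 0) (h : ∀ u ∈ 𝒮.U, SemilinearAut.baseAut u x = x) :
    LgU 𝒮 x = 0 := 𝒮.pf x hx h

/-! ### The fibre bound, globally -/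

/-- **The fibre Lipschitz bound, summed over the conjugates and the places**, for one pair of
points with different `t`-values. -/
theorem fibre_pair (hL : 𝒮.Lip) :
    ∃ c₀ : ℝ, 0 ≤ c₀ ∧ ∀ p q : Place K F, p ≠ pinf → q ≠ pinf → pval p t ≠ pval q t →
      (m : ℝ) * 𝒮.etaU p + (m : ℝ) * 𝒮.etaU q ≤
        ∑ S ∈ (FibP 𝒮 q).support, ((FibP 𝒮 q) S : ℝ) * 𝒮.gU p S
          + LgU 𝒮 (pval p t - pval q t) + c₀ := by
  obtain ⟨C, hCt, hC⟩ := hL
  have hm' : (m : ℝ) ≠ 0 := by exact_mod_cast 𝒮.m_pos.ne'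
  have hmdiv : ∀ x : ℝ, (m : ℝ) * (x / m) = x := fun x => by field_simp
  refine ⟨𝒮.Sg.card * ∑ᶠ v, Real.log (C v),
    mul_nonneg (Nat.cast_nonneg _) (finsum_nonneg fun v => Real.log_nonneg (hCt.1 v)), ?_⟩
  intro p q hp hq hpq
  set Φ := FibP 𝒮 q with hΦdef
  have hΦ : IsZDiv pinf (t - algebraMap K F (pval q t)) Φ := Fb_spec 𝒮 _
  have hS : ∀ S ∈ Φ.support, S ≠ pinf ∧ pval S t = pval q t := fun S hS =>
    mem_fibre 𝒮 hΦ hS
  have hx : pval p t - pval q t ≠ 0 := sub_ne_zero.2 hpq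
  -- the local inequality
  have hloc : ∀ s ∈ 𝒮.Sg, ∀ v : V,
      (m : ℝ) * 𝒮.eta v (s • p) + (m : ℝ) * 𝒮.eta v (s • q) ≤
        ∑ S ∈ Φ.support, (Φ S : ℝ) * 𝒮.lam v (s • p) (s • S)
          + Real.log (Ab.abv v (SemilinearAut.baseAut s (pval p t - pval q t)))
          + Real.log (C v) := by
    intro s hs v
    have hsΓ := 𝒮.Sg_mem s hs
    have hsp : s • p ≠ pinf := 𝒮.smul_ne_pinf hsΓ hp
    have e1 : pval (s • p) t = SemilinearAut.baseAut s (pval p t) := 𝒮.pval_smul_t hsΓ p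
    have e2 : pval (s • q) t = SemilinearAut.baseAut s (pval q t) := 𝒮.pval_smul_t hsΓ q
    have hZ' : IsZDiv pinf (t - algebraMap K F (SemilinearAut.baseAut s (pval q t)))
        (Φ.mapDomain fun P => s • P) := by
      have h1 := 𝒮.isZDiv_smul hsΓ hΦ
      rwa [smul_sub, 𝒮.t_fixed s hsΓ, SemilinearAut.smul_algebraMap] at h1
    have key := hC v (s • p) hsp (SemilinearAut.baseAut s (pval q t)) _ hZ'
    rw [Finsupp.prod_mapDomain_index_inj (MulAction.injective s), e1, ← map_sub] at key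
    have hδpos : ∀ S ∈ Φ.support, 0 < 𝒮.δ v (s • p) (s • S) := by
      intro S hS'
      refine 𝒮.δ_pos v _ _ hsp (𝒮.smul_ne_pinf hsΓ (hS S hS').1) ?_
      intro h
      have hpS : p = S := MulAction.injective s h
      exact hpq (by rw [hpS]; exact (hS S hS').2)
    have hprodpos : 0 < Φ.prod fun S n => 𝒮.δ v (s • p) (s • S) ^ n :=
      Finset.prod_pos fun S hS' => pow_pos (hδpos S hS') _
    have hmax1 : 0 < max 1 (Ab.abv v (SemilinearAut.baseAut s (pval p t))) :=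
      lt_of_lt_of_le one_pos (le_max_left _ _)
    have hmax2 : 0 < max 1 (Ab.abv v (SemilinearAut.baseAut s (pval q t))) :=
      lt_of_lt_of_le one_pos (le_max_left _ _)
    have hCpos : 0 < C v := hCt.pos v
    have hxpos : 0 < Ab.abv v (SemilinearAut.baseAut s (pval p t - pval q t)) :=
      (Ab.abv v).pos fun h0 => hx ((SemilinearAut.baseAut s).injective (by rw [h0, map_zero]))
    have hlogprod : Real.log (Φ.prod fun S n => 𝒮.δ v (s • p) (s • S) ^ n)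
        = ∑ S ∈ Φ.support, (Φ S : ℝ) * Real.log (𝒮.δ v (s • p) (s • S)) := by
      unfold Finsupp.prod
      rw [Real.log_prod]
      · exact Finset.sum_congr rfl fun R _ => Real.log_pow _ _
      · intro R hR
        exact (pow_pos (hδpos R hR) _).ne'
    have hlog := Real.log_le_log (mul_pos hprodpos (mul_pos hmax1 hmax2)) key
    rw [Real.log_mul hprodpos.ne' (mul_pos hmax1 hmax2).ne', Real.log_mul hmax1.ne' hmax2.ne',
      Real.log_mul hCpos.ne' hxpos.ne', hlogprod] at hlog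
    have hlam : ∑ S ∈ Φ.support, (Φ S : ℝ) * 𝒮.lam v (s • p) (s • S)
        = -∑ S ∈ Φ.support, (Φ S : ℝ) * Real.log (𝒮.δ v (s • p) (s • S)) := by
      rw [← Finset.sum_neg_distrib]
      refine Finset.sum_congr rfl fun R _ => ?_
      unfold Setting.lam
      ring
    rw [hlam]
    unfold Setting.eta
    rw [e1, e2, hmdiv, hmdiv]
    linarith
  -- summation over the places
  have hsum : ∀ s ∈ 𝒮.Sg,
      (m : ℝ) * ∑ᶠ v, 𝒮.eta v (s • p) + (m : ℝ) * ∑ᶠ v, 𝒮.eta v (s • q) ≤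
        ∑ S ∈ Φ.support, (Φ S : ℝ) * ∑ᶠ v, 𝒮.lam v (s • p) (s • S)
          + ∑ᶠ v, Real.log (Ab.abv v (SemilinearAut.baseAut s (pval p t - pval q t)))
          + ∑ᶠ v, Real.log (C v) := by
    intro s hs
    have hsΓ := 𝒮.Sg_mem s hs
    exact finsum_ineq Φ.support (fun S => (Φ S : ℝ)) (fun S v => 𝒮.lam v (s • p) (s • S))
      (fun v => 𝒮.eta v (s • p)) (fun v => 𝒮.eta v (s • q))
      (fun v => Real.log (Ab.abv v (SemilinearAut.baseAut s (pval p t - pval q t))))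
      (fun v => Real.log (C v)) (m : ℝ)
      (fun S hS' => 𝒮.finite_lam (𝒮.smul_ne_pinf hsΓ hp) (𝒮.smul_ne_pinf hsΓ (hS S hS').1))
      (𝒮.finite_eta _) (𝒮.finite_eta _) (finite_log_abv Ab _)
      (RecLow.finite_support_log_tame hCt) (hloc s hs)
  -- summation over the conjugates
  have htot := Finset.sum_le_sum hsum
  have eL : ∑ s ∈ 𝒮.Sg,
        ((m : ℝ) * ∑ᶠ v, 𝒮.eta v (s • p) + (m : ℝ) * ∑ᶠ v, 𝒮.eta v (s • q))
      = (m : ℝ) * 𝒮.etaU p + (m : ℝ) * 𝒮.etaU q := by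
    unfold Setting.etaU
    rw [Finset.sum_add_distrib, ← Finset.mul_sum, ← Finset.mul_sum]
  have eR : ∑ s ∈ 𝒮.Sg, (∑ S ∈ Φ.support, (Φ S : ℝ) * ∑ᶠ v, 𝒮.lam v (s • p) (s • S)
          + ∑ᶠ v, Real.log (Ab.abv v (SemilinearAut.baseAut s (pval p t - pval q t)))
          + ∑ᶠ v, Real.log (C v))
      = ∑ S ∈ Φ.support, (Φ S : ℝ) * 𝒮.gU p S + LgU 𝒮 (pval p t - pval q t)
          + 𝒮.Sg.card * ∑ᶠ v, Real.log (C v) := by
    rw [Finset.sum_add_distrib, Finset.sum_add_distrib, Finset.sum_comm, Finset.sum_const,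
      nsmul_eq_mul]
    congr 2
    refine Finset.sum_congr rfl fun S _ => ?_
    unfold Setting.gU
    rw [Finset.mul_sum]
  rw [eL, eR] at htot
  exact htot

/-- **The fibre bound for divisors**: for `U`-stable `Z`, `E` in `t`-general position,
`m · (deg E · h(Z) + deg Z · h(E)) ≤ G(Z, Sharp E) + deg Z · deg E · c₀`. -/
theorem fibre_lower (hL : 𝒮.Lip) :
    ∃ c₀ : ℝ, 0 ≤ c₀ ∧ ∀ Z ∈ 𝒮.RatU, ∀ E ∈ 𝒮.RatU, Far 𝒮.far Z E →
      (m : ℝ) * ((deg E : ℝ) * ht 𝒮.etaU Z + (deg Z : ℝ) * ht 𝒮.etaU E) ≤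
        pairG 𝒮.gU Z (Sharp 𝒮 E) + (deg Z : ℝ) * (deg E : ℝ) * c₀ := by
  obtain ⟨c₀, hc₀, hpair⟩ := fibre_pair 𝒮 hL
  refine ⟨c₀, hc₀, ?_⟩
  intro Z hZ E hE hfar
  have hZne : ∀ p ∈ Z.support, p ≠ pinf := by
    rintro p hp rfl
    exact (Finsupp.mem_support_iff.1 hp) hZ.1
  have hEne : ∀ q ∈ E.support, q ≠ pinf := by
    rintro q hq rfl
    exact (Finsupp.mem_support_iff.1 hq) hE.1
  have hne : ∀ p ∈ Z.support, ∀ q ∈ E.support, pval p t - pval q t ≠ 0 := fun p hp q hq =>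
    sub_ne_zero.2 (hfar p hp q hq)
  -- the sum of the pair inequalities
  have h2 : ∑ p ∈ Z.support, ∑ q ∈ E.support,
        (Z p : ℝ) * (E q : ℝ) * ((m : ℝ) * 𝒮.etaU p + (m : ℝ) * 𝒮.etaU q) ≤
      ∑ p ∈ Z.support, ∑ q ∈ E.support, (Z p : ℝ) * (E q : ℝ) *
        (∑ S ∈ (FibP 𝒮 q).support, ((FibP 𝒮 q) S : ℝ) * 𝒮.gU p S
          + LgU 𝒮 (pval p t - pval q t) + c₀) :=
    Finset.sum_le_sum fun p hp => Finset.sum_le_sum fun q hq =>
      mul_le_mul_of_nonneg_left (hpair p q (hZne p hp) (hEne q hq) (hfar p hp q hq))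
        (mul_nonneg (Nat.cast_nonneg _) (Nat.cast_nonneg _))
  -- the left-hand side
  have eL : ∑ p ∈ Z.support, ∑ q ∈ E.support,
        (Z p : ℝ) * (E q : ℝ) * ((m : ℝ) * 𝒮.etaU p + (m : ℝ) * 𝒮.etaU q)
      = (m : ℝ) * ((deg E : ℝ) * ht 𝒮.etaU Z + (deg Z : ℝ) * ht 𝒮.etaU E) := by
    rw [RecFib.cast_deg_eq_sum, RecFib.cast_deg_eq_sum, RecFib.ht_eq_sum, RecFib.ht_eq_sum]
    have a1 : ∀ p ∈ Z.support, ∑ q ∈ E.support,
          (Z p : ℝ) * (E q : ℝ) * ((m : ℝ) * 𝒮.etaU p + (m : ℝ) * 𝒮.etaU q)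
        = (m : ℝ) * ((Z p : ℝ) * 𝒮.etaU p) * (∑ q ∈ E.support, (E q : ℝ))
          + (m : ℝ) * (Z p : ℝ) * ∑ q ∈ E.support, (E q : ℝ) * 𝒮.etaU q := by
      intro p _
      rw [Finset.mul_sum, Finset.mul_sum, ← Finset.sum_add_distrib]
      exact Finset.sum_congr rfl fun q _ => by ring
    rw [Finset.sum_congr rfl a1, Finset.sum_add_distrib, ← Finset.sum_mul, ← Finset.sum_mul,
      ← Finset.mul_sum, ← Finset.mul_sum]
    ring
  -- the pair function of the fibres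
  have eP : pairG 𝒮.gU Z (Sharp 𝒮 E) = ∑ p ∈ Z.support, ∑ q ∈ E.support,
      (Z p : ℝ) * (E q : ℝ) * ∑ S ∈ (FibP 𝒮 q).support, ((FibP 𝒮 q) S : ℝ) * 𝒮.gU p S := by
    unfold Sharp
    rw [RecFib.pairG_Fib, Finset.sum_comm]
    refine Finset.sum_congr rfl fun q _ => ?_
    rw [RecFib.pairG_eq_sum, Finset.mul_sum]
    refine Finset.sum_congr rfl fun p _ => ?_
    rw [Finset.mul_sum, Finset.mul_sum]
    exact Finset.sum_congr rfl fun S _ => by ring
  -- the constant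
  have eC : ∑ p ∈ Z.support, ∑ q ∈ E.support, (Z p : ℝ) * (E q : ℝ) * c₀
      = (deg Z : ℝ) * (deg E : ℝ) * c₀ := by
    rw [RecFib.cast_deg_eq_sum, RecFib.cast_deg_eq_sum, Finset.sum_mul_sum, Finset.sum_mul]
    exact Finset.sum_congr rfl fun p _ => (Finset.sum_mul _ _ _).symm
  -- the product formula
  set c : K := Z.prod fun p n => E.prod fun q k => (pval p t - pval q t) ^ (n * k) with hc
  have hc0 : c ≠ 0 := Finset.prod_ne_zero_iff.2 fun p hp =>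
    Finset.prod_ne_zero_iff.2 fun q hq => pow_ne_zero _ (hne p hp q hq)
  have hcfix : ∀ u ∈ 𝒮.U, SemilinearAut.baseAut u c = c := by
    intro u hu
    have huΓ := 𝒮.U_le hu
    have hinj : Function.Injective fun P : Place K F => u • P := MulAction.injective u
    calc SemilinearAut.baseAut u c
        = Z.prod fun p n => E.prod fun q k => (pval (u • p) t - pval (u • q) t) ^ (n * k) := by
          rw [hc]
          unfold Finsupp.prod
          rw [map_prod]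
          refine Finset.prod_congr rfl fun p _ => ?_
          rw [map_prod]
          refine Finset.prod_congr rfl fun q _ => ?_
          beta_reduce
          rw [map_pow, map_sub, 𝒮.pval_smul_t huΓ p, 𝒮.pval_smul_t huΓ q]
      _ = (Z.mapDomain fun P => u • P).prod fun p n =>
            (E.mapDomain fun P => u • P).prod fun q k => (pval p t - pval q t) ^ (n * k) := by
          rw [Finsupp.prod_mapDomain_index_inj hinj]
          refine Finsupp.prod_congr fun p _ => ?_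
          rw [Finsupp.prod_mapDomain_index_inj hinj]
      _ = c := by rw [hZ.2 u hu, hE.2 u hu]
  have eLg : ∑ p ∈ Z.support, ∑ q ∈ E.support,
      (Z p : ℝ) * (E q : ℝ) * LgU 𝒮 (pval p t - pval q t) = 0 := by
    have h0 := LgU_eq_zero 𝒮 hc0 hcfix
    rw [hc] at h0
    unfold Finsupp.prod at h0
    rw [LgU_prod 𝒮 _ _ (fun p hp => Finset.prod_ne_zero_iff.2 fun q hq =>
      pow_ne_zero _ (hne p hp q hq))] at h0
    rw [← h0]
    refine Finset.sum_congr rfl fun p hp => ?_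
    rw [LgU_prod 𝒮 _ _ (fun q hq => pow_ne_zero _ (hne p hp q hq))]
    refine Finset.sum_congr rfl fun q hq => ?_
    rw [LgU_pow 𝒮 (hne p hp q hq)]
    push_cast
    ring
  -- the right-hand side
  have eR : ∑ p ∈ Z.support, ∑ q ∈ E.support, (Z p : ℝ) * (E q : ℝ) *
        (∑ S ∈ (FibP 𝒮 q).support, ((FibP 𝒮 q) S : ℝ) * 𝒮.gU p S
          + LgU 𝒮 (pval p t - pval q t) + c₀)
      = pairG 𝒮.gU Z (Sharp 𝒮 E) + (deg Z : ℝ) * (deg E : ℝ) * c₀ := by
    have a2 : ∀ p ∈ Z.support, ∀ q ∈ E.support, (Z p : ℝ) * (E q : ℝ) *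
          (∑ S ∈ (FibP 𝒮 q).support, ((FibP 𝒮 q) S : ℝ) * 𝒮.gU p S
            + LgU 𝒮 (pval p t - pval q t) + c₀)
        = (Z p : ℝ) * (E q : ℝ) * ∑ S ∈ (FibP 𝒮 q).support, ((FibP 𝒮 q) S : ℝ) * 𝒮.gU p S
          + (Z p : ℝ) * (E q : ℝ) * LgU 𝒮 (pval p t - pval q t)
          + (Z p : ℝ) * (E q : ℝ) * c₀ := fun _ _ _ _ => by ring
    rw [Finset.sum_congr rfl fun p hp => Finset.sum_congr rfl (a2 p hp)]
    simp only [Finset.sum_add_distrib]
    rw [← eP, eLg, eC, add_zero]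
  rw [eL, eR] at h2
  exact h2

/-! ### Row G3 -/

/-- The divisor of zeros of a `U`-fixed combination of a `Γ`-fixed family is `U`-stable. -/
theorem zdiv_mem_RatU {ι : Type} [Fintype ι] {f : ι → F} {M : ℕ} (hf : 𝒮.Fam f M)
    {a : ι → K} (ha : 𝒮.UFix a) {Z : Place K F →₀ ℕ} (hZ : IsZDiv pinf (∑ i, a i • f i) Z) :
    Z ∈ 𝒮.RatU := by
  refine ⟨hZ.1, fun u hu => ?_⟩
  have huΓ := 𝒮.U_le hu
  have h1 := 𝒮.isZDiv_smul huΓ hZ
  have huφ : u • (∑ i, a i • f i) = ∑ i, a i • f i := by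
    rw [Finset.smul_sum]
    refine Finset.sum_congr rfl fun i _ => ?_
    rw [Algebra.smul_def, smul_mul', SemilinearAut.smul_algebraMap, hf.fixed u huΓ i,
      ha u hu i]
  rw [huφ] at h1
  exact isZDiv_unique h1 hZ

theorem deg_Prime_le {E : Place K F →₀ ℕ} (hE : E pinf = 0) {e : ℕ} (he : deg E ≤ e) :
    deg (Prime 𝒮 E) ≤ (m - 1) * e := by
  have h := congrArg deg (Prime_add 𝒮 hE)
  rw [deg_add, deg_Sharp] at h
  have hm := 𝒮.m_pos
  have h1 : m * deg E = (m - 1) * deg E + deg E := by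
    have h2 : m = (m - 1) + 1 := by omega
    calc m * deg E = ((m - 1) + 1) * deg E := by rw [← h2]
      _ = (m - 1) * deg E + deg E := by ring
  have h3 : deg (Prime 𝒮 E) = (m - 1) * deg E := by omega
  rw [h3]
  exact Nat.mul_le_mul_left _ he

/-- **Row G3, `recUp_raw`** (second seat): the upper half of reciprocity in `t`-general
position, from (M≤) (through `recLow_raw`), (Lip) and the product formula. -/
theorem recUp_raw (hM : 𝒮.MLe) (hL : 𝒮.Lip) {ι : Type} [Fintype ι] (f : ι → F) (M : ℕ)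
    (hf : 𝒮.Fam f M) (e : ℕ) :
    ∃ C : ℝ, ∀ a : ι → K, 𝒮.UFix a → (∑ i, a i • f i) ≠ 0 →
      ∀ Z : Place K F →₀ ℕ, IsZDiv pinf (∑ i, a i • f i) Z → deg Z ≤ M →
      ∀ E ∈ 𝒮.RatU, deg E ≤ e → Far 𝒮.far Z E →
        (m : ℝ) * ((deg E : ℝ) * ht 𝒮.etaU Z + (deg Z : ℝ) * ht 𝒮.etaU E) ≤
          pairG 𝒮.gU Z E + ((m : ℝ) - 1) * ((deg E : ℝ) * 𝒮.hU a + (M : ℝ) * ht 𝒮.etaU E)
            + C := by
  obtain ⟨C₁, hC₁⟩ := 𝒮.recLow_raw hM f M hf ((m - 1) * e)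
  obtain ⟨c₀, hc₀, hfl⟩ := fibre_lower 𝒮 hL
  refine ⟨C₁ + (M : ℝ) * (e : ℝ) * c₀, ?_⟩
  intro a ha hφ Z hZ hZM E hE hEe hfar
  have hE0 : E pinf = 0 := hE.1
  have h1 := hfl Z (zdiv_mem_RatU 𝒮 hf ha hZ) E hE hfar
  have h2 := hC₁ a ha hφ Z hZ hZM (Prime 𝒮 E) (Prime_mem_RatU 𝒮 hE)
    (deg_Prime_le 𝒮 hE0 hEe) (disjoint_Prime 𝒮 hfar)
  rw [deg_Prime 𝒮 hE0, ht_Prime 𝒮 hE0] at h2
  have h3 : pairG 𝒮.gU Z (Sharp 𝒮 E) = pairG 𝒮.gU Z (Prime 𝒮 E) + pairG 𝒮.gU Z E := by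
    rw [← Prime_add 𝒮 hE0, pairG_add_right]
  have h4 : (deg Z : ℝ) * (deg E : ℝ) * c₀ ≤ (M : ℝ) * (e : ℝ) * c₀ := by
    have hZM' : (deg Z : ℝ) ≤ M := by exact_mod_cast hZM
    have hEe' : (deg E : ℝ) ≤ e := by exact_mod_cast hEe
    exact mul_le_mul_of_nonneg_right
      (mul_le_mul hZM' hEe' (Nat.cast_nonneg _) (Nat.cast_nonneg _)) hc₀
  rw [h3] at h1
  have h5 : ((m : ℝ) - 1) * ((deg E : ℝ) * 𝒮.hU a + (M : ℝ) * ht 𝒮.etaU E)
      = ((m : ℝ) - 1) * (deg E : ℝ) * 𝒮.hU a + (M : ℝ) * (((m : ℝ) - 1) * ht 𝒮.etaU E) := by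
    ring
  rw [h5]
  linarith

/-- **Row G3, `recip_of`** (second seat): two-sided reciprocity in `t`-general position. -/
theorem recip_of (hM : 𝒮.MLe) (hL : 𝒮.Lip) {ι : Type} [Fintype ι] (f : ι → F) (M : ℕ)
    (hf : 𝒮.Fam f M) (hB : 𝒮.MahlerLe f) (e : ℕ) :
    ∃ C : ℝ, ∀ a : ι → K, 𝒮.UFix a → (∑ i, a i • f i) ≠ 0 →
      ∀ Z : Place K F →₀ ℕ, IsZDiv pinf (∑ i, a i • f i) Z → deg Z = M →
      ∀ E ∈ 𝒮.RatU, deg E ≤ e → Far 𝒮.far Z E → |beta 𝒮.gU 𝒮.etaU Z E| ≤ C := by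
  obtain ⟨C₁, hC₁⟩ := 𝒮.recLow_raw hM f M hf e
  obtain ⟨C₂, hC₂⟩ := recUp_raw 𝒮 hM hL f M hf e
  obtain ⟨CB, hCB⟩ := hB
  have hm1 : (1 : ℝ) ≤ m := by exact_mod_cast 𝒮.m_pos
  refine ⟨(m : ℝ) * ((e : ℝ) * |CB|) + |C₁| + |C₂|, ?_⟩
  intro a ha hφ Z hZ hZM E hE hEe hfar
  have hlow := hC₁ a ha hφ Z hZ hZM.le E hE hEe (Far.disjoint 𝒮.far_irrefl hfar)
  have hup := hC₂ a ha hφ Z hZ hZM.le E hE hEe hfar
  have hB' := hCB a ha hφ Z hZ
  have hdE : (0 : ℝ) ≤ (deg E : ℝ) := Nat.cast_nonneg _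
  have hEe' : (deg E : ℝ) ≤ e := by exact_mod_cast hEe
  -- `deg E · hU a ≤ deg E · h(Z) + e · |CB|`
  have k1 : (deg E : ℝ) * 𝒮.hU a ≤ (deg E : ℝ) * ht 𝒮.etaU Z + (e : ℝ) * |CB| := by
    have a1 : (deg E : ℝ) * 𝒮.hU a ≤ (deg E : ℝ) * (ht 𝒮.etaU Z + CB) :=
      mul_le_mul_of_nonneg_left hB' hdE
    have a2 : (deg E : ℝ) * CB ≤ (e : ℝ) * |CB| :=
      (mul_le_mul_of_nonneg_left (le_abs_self CB) hdE).trans
        (mul_le_mul_of_nonneg_right hEe' (abs_nonneg CB))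
    linarith
  have k2 : ((m : ℝ) - 1) * ((deg E : ℝ) * 𝒮.hU a + (M : ℝ) * ht 𝒮.etaU E) ≤
      ((m : ℝ) - 1) * ((deg E : ℝ) * ht 𝒮.etaU Z + (e : ℝ) * |CB| + (M : ℝ) * ht 𝒮.etaU E) :=
    mul_le_mul_of_nonneg_left (by linarith) (by linarith)
  have k3 : ((m : ℝ) - 1) * ((e : ℝ) * |CB|) ≤ (m : ℝ) * ((e : ℝ) * |CB|) :=
    mul_le_mul_of_nonneg_right (by linarith)
      (mul_nonneg (Nat.cast_nonneg _) (abs_nonneg CB))
  have k4 : (0 : ℝ) ≤ (m : ℝ) * ((e : ℝ) * |CB|) :=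
    mul_nonneg (by linarith) (mul_nonneg (Nat.cast_nonneg _) (abs_nonneg CB))
  have k5 : (e : ℝ) * |CB| ≤ (m : ℝ) * ((e : ℝ) * |CB|) :=
    le_mul_of_one_le_left (mul_nonneg (Nat.cast_nonneg _) (abs_nonneg CB)) hm1
  unfold beta
  rw [hZM] at hup ⊢
  rw [abs_le]
  constructor
  · linarith [le_abs_self C₁, abs_nonneg C₂]
  · have e1 : ((m : ℝ) - 1) * ((deg E : ℝ) * ht 𝒮.etaU Z + (e : ℝ) * |CB|
          + (M : ℝ) * ht 𝒮.etaU E)
        = (m : ℝ) * ((deg E : ℝ) * ht 𝒮.etaU Z + (M : ℝ) * ht 𝒮.etaU E)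
          - ((deg E : ℝ) * ht 𝒮.etaU Z + (M : ℝ) * ht 𝒮.etaU E)
          + ((m : ℝ) - 1) * ((e : ℝ) * |CB|) := by ring
    linarith [le_abs_self C₂, abs_nonneg C₁]

end Fermat.Agent.MW.HG.RecUpB
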